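import Fermat.Agent.S55.Dual.LevelDuality
import Fermat.Agent.S55.Tate.Hom
import Fermat.Agent.S55.Kummer.Unram
import Fermat.Agent.S55.Trans.LocUnits

/-!
# Seam G → D of the S55 blueprint (prefix `du_`)

Everything block [D] consumes from blocks [G] (ideles), [L] (local class formation) and the
Kummer lemmas, as ONE structure `du_Seam p S` indexed by the Galois levels unramified outside
`S`.  Block [G] constructs a term of it from `Idele/*` (`id_CRep`, `id_ARep`, `id_jqRep`,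
`id_ES`, `il_ev`, `id_Cmap`, ...); block [D] proves the Poitou–Tate count from it.

Conventions: `GQ = Gal(ℚ̄/ℚ)`; a level is a finite Galois `L/ℚ` inside `ℚ̄` unramified outside
`S`; `Γ_L = (L ≃ₐ[ℚ] L)`, `q_L = restrictNormalHom L : GQ →* Γ_L`,
`D_L q = range (q_L ∘ primeLocalToGlobal q)`.  All inter-level equivariance statements are
phrased through `GQ` (no map `Γ_{L'} → Γ_L` is needed, `q_{L'}` being surjective).
-/

set_option autoImplicit false

open CategoryTheory groupCohomology ExtCitation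

namespace Fermat.Agent.S55

local notation "Qbar" => AlgebraicClosure ℚ
local notation "GQ" => (AlgebraicClosure ℚ ≃ₐ[ℚ] AlgebraicClosure ℚ)

/-- The roots of unity of prime order `q ∈ S`. -/
def du_muS (S : Finset Nat.Primes) : Set Qbar := {x | ∃ q ∈ S, x ^ (q : ℕ) = 1}

/-- The cyclotomic base field `ℚ(μ_q : q ∈ S)`. -/
noncomputable def du_kz (S : Finset Nat.Primes) : IntermediateField ℚ Qbar :=
  IntermediateField.adjoin ℚ (du_muS S)

/-- A Galois level: a finite Galois extension of `ℚ` inside `ℚ̄`, unramified outside `S`,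
containing the roots of unity of order `q` for all `q ∈ S`. -/
structure du_Lev (S : Finset Nat.Primes) where
  L : IntermediateField ℚ Qbar
  unr : L.IsUnramifiedOutside S
  nor : Normal ℚ L
  cyc : du_kz S ≤ L

namespace du_Lev

variable {S : Finset Nat.Primes}

instance : LE (du_Lev S) := ⟨fun a b => a.L ≤ b.L⟩

lemma le_def {a b : du_Lev S} : a ≤ b ↔ a.L ≤ b.L := Iff.rfl

instance (a : du_Lev S) : Normal ℚ a.L := a.nor

instance (a : du_Lev S) : FiniteDimensional ℚ a.L := a.unr.1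

/-- The Galois group of the level. -/
abbrev Γ (a : du_Lev S) : Type := a.L ≃ₐ[ℚ] a.L

noncomputable instance (a : du_Lev S) : Fintype a.Γ := Fintype.ofFinite _

/-- The projection `GQ → Γ_L`. -/
noncomputable def q (a : du_Lev S) : GQ →* a.Γ := AlgEquiv.restrictNormalHom a.L

/-- The decomposition group at `q` (image of the local Galois group). -/
noncomputable def D (a : du_Lev S) (ℓ : Nat.Primes) : Subgroup a.Γ :=
  ((a.q).comp (primeLocalToGlobal ℓ)).range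

/-- The image in `Γ_L` of `Gal(ℚ̄/K)`, i.e. `Gal(L/K)` for a smaller level `K`. -/
noncomputable def rel (a K : du_Lev S) : Subgroup a.Γ := K.L.fixingSubgroup.map a.q

end du_Lev

/-- The subgroup of `C` generated by the semi-local images (`C°`). -/
def du_Co {p : ℕ} {Γ ι : Type} [Group Γ] (𝔻 : ld_Data p Γ ι) : AddSubgroup 𝔻.C.V :=
  ⨆ q, (𝔻.j q).hom.toAddMonoidHom.range

open Classical in
/-- **Seam G → D.** -/
structure du_Seam (p : ℕ) (S : Finset Nat.Primes) where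
  /-- the one-level data (`id_ldData`) -/
  dat : ∀ a : du_Lev S, ld_Data p a.Γ ↥S
  dat_D : ∀ (a : du_Lev S) (q : ↥S), (dat a).D q = a.D q.1
  /-- Shapiro: restriction to `D_q` followed by the projection is injective on `H¹`, `H²` of
  `Hom(Y, J_q)` for lattices `Y` (`J_q` is coinduced from `X_q`) -/
  shapiro : ∀ (a : du_Lev S) (q : ↥S) (Y : Rep.{0} ℤ a.Γ), ld_IsLattice Y → ∀ n : ℕ,
    n = 1 ∨ n = 2 → ∀ z : groupCohomology (tt_hom Y ((dat a).Jq q)) n,
    (tt_coeffMap (tt_homPost (tt_res ((dat a).D q) Y) ((dat a).pr q)) n).hom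
      ((tt_resMap ((dat a).D q) (tt_hom Y ((dat a).Jq q)) n).hom z) = 0 → z = 0
  /-- the `S`-units of the level as a `Γ_L`-module -/
  E : ∀ a : du_Lev S, Rep.{0} ℤ a.Γ
  ε : ∀ (a : du_Lev S) (q : ↥S), E a ⟶ (dat a).Jq q
  /-- `0 → E → ∏ J_q → C` is exact -/
  ε_exact : ∀ (a : du_Lev S) (x : ∀ q : ↥S, ((dat a).Jq q).V),
    (∑ q, ((dat a).j q).hom (x q)) = 0 ↔ ∃ e : (E a).V, ∀ q, (ε a q).hom e = x q
  ε_inj : ∀ (a : du_Lev S) (q : ↥S), Function.Injective (ε a q).hom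
  /-- the `S`-units are the `S`-units of `L` inside `ℚ̄ˣ` -/
  Eval : ∀ a : du_Lev S, (E a).V →+ Additive Qbarˣ
  Eval_inj : ∀ a : du_Lev S, Function.Injective (Eval a)
  Eval_range : ∀ (a : du_Lev S) (x : Qbarˣ),
    (∃ e, Eval a e = Additive.ofMul x) ↔ ((x : Qbar) ∈ a.L ∧ ku_IsSUnit S (x : Qbar))
  Eval_equiv : ∀ (a : du_Lev S) (σ : GQ) (e : (E a).V),
    (((Eval a ((E a).ρ (a.q σ) e)).toMul : Qbarˣ) : Qbar) = σ (((Eval a e).toMul : Qbarˣ) : Qbar)
  /-- the local module `X_q = (L·ℚ_q)ˣ` inside `(PadicAlgCl q)ˣ` -/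
  lam : ∀ (a : du_Lev S) (q : ↥S), ((dat a).Xq q).V →+ tl_locUnits q.1
  lam_inj : ∀ (a : du_Lev S) (q : ↥S), Function.Injective (lam a q)
  lam_equiv : ∀ (a : du_Lev S) (q : ↥S) (τ : primeLocalGaloisGroup q.1)
    (d : ↥((dat a).D q)) (_ : (d : a.Γ) = a.q (primeLocalToGlobal q.1 τ)) (x : ((dat a).Xq q).V),
    lam a q (((dat a).Xq q).ρ d x) = τ • lam a q x
  lam_range : ∀ (a : du_Lev S) (q : ↥S) (u : tl_locUnits q.1),
    (∀ τ : primeLocalGaloisGroup q.1, a.q (primeLocalToGlobal q.1 τ) = 1 → τ • u = u) →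
      ∃ x, lam a q x = u
  /-- global `S`-units map to local units through `padicEmbedding` -/
  lam_Eval : ∀ (a : du_Lev S) (q : ↥S) (e : (E a).V),
    letI : Fact (q.1 : ℕ).Prime := ⟨q.1.2⟩
    (((tl_locUnits.val q.1 (lam a q (((dat a).pr q).hom ((ε a q).hom e))) :
        (PadicAlgCl (q.1 : ℕ))ˣ) : PadicAlgCl (q.1 : ℕ))) =
      padicEmbedding (q.1 : ℕ) (((Eval a e).toMul : Qbarˣ) : Qbar)
  /-- transition maps between levels -/
  tC : ∀ {a b : du_Lev S}, a ≤ b → (dat a).C.V →+ (dat b).C.V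
  tJ : ∀ {a b : du_Lev S}, a ≤ b → ∀ q : ↥S, ((dat a).Jq q).V →+ ((dat b).Jq q).V
  tC_inj : ∀ {a b : du_Lev S} (h : a ≤ b), Function.Injective (tC h)
  tJ_inj : ∀ {a b : du_Lev S} (h : a ≤ b) (q : ↥S), Function.Injective (tJ h q)
  tC_equiv : ∀ {a b : du_Lev S} (h : a ≤ b) (σ : GQ) (c : (dat a).C.V),
    tC h ((dat a).C.ρ (a.q σ) c) = (dat b).C.ρ (b.q σ) (tC h c)
  tJ_equiv : ∀ {a b : du_Lev S} (h : a ≤ b) (q : ↥S) (σ : GQ) (x : ((dat a).Jq q).V),
    tJ h q (((dat a).Jq q).ρ (a.q σ) x) = ((dat b).Jq q).ρ (b.q σ) (tJ h q x)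
  /-- descent: the image of a transition map is the invariants of `Gal(L'/L)` -/
  tC_range : ∀ {a b : du_Lev S} (h : a ≤ b) (c : (dat b).C.V),
    (∀ σ ∈ a.L.fixingSubgroup, (dat b).C.ρ (b.q σ) c = c) → ∃ c₀, tC h c₀ = c
  tJ_range : ∀ {a b : du_Lev S} (h : a ≤ b) (q : ↥S) (x : ((dat b).Jq q).V),
    (∀ σ ∈ a.L.fixingSubgroup, ((dat b).Jq q).ρ (b.q σ) x = x) → ∃ x₀, tJ h q x₀ = x
  tC_j : ∀ {a b : du_Lev S} (h : a ≤ b) (q : ↥S) (x : ((dat a).Jq q).V),
    tC h (((dat a).j q).hom x) = ((dat b).j q).hom (tJ h q x)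
  tC_trans : ∀ {a b c : du_Lev S} (h : a ≤ b) (h' : b ≤ c) (x : (dat a).C.V),
    tC h' (tC h x) = tC (le_trans (α := IntermediateField ℚ Qbar) h h') x
  tJ_trans : ∀ {a b c : du_Lev S} (h : a ≤ b) (h' : b ≤ c) (q : ↥S) (x : ((dat a).Jq q).V),
    tJ h' q (tJ h q x) = tJ (le_trans (α := IntermediateField ℚ Qbar) h h') q x
  /-- transitions on `S`-units are inclusions -/
  tJ_ε : ∀ {a b : du_Lev S} (h : a ≤ b) (q : ↥S) (e : (E a).V) (e' : (E b).V),
    Eval a e = Eval b e' → tJ h q ((ε a q).hom e) = (ε b q).hom e'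
  /-- transitions commute with the local embeddings -/
  tJ_lam : ∀ {a b : du_Lev S} (h : a ≤ b) (q : ↥S) (x : ((dat a).Jq q).V),
    lam b q (((dat b).pr q).hom (tJ h q x)) = lam a q (((dat a).pr q).hom x)
  /-- (G-cap) `p`-capitulation -/
  cap : ∀ a : du_Lev S, ∃ b : du_Lev S, ∃ h : a ≤ b, ∀ c : (dat a).C.V,
    ∃ n : ℕ, ¬ p ∣ n ∧ n • tC h c ∈ du_Co (dat b)
  /-- (G-abs) absorption of norms -/
  abs : ∀ K : du_Lev S, ∃ a₁ : du_Lev S, K ≤ a₁ ∧ ∀ a : du_Lev S, a₁ ≤ a → ∀ hKa : K ≤ a,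
    ∀ c : (dat a).C.V, ∃ n : ℕ, ¬ p ∣ n ∧ ∃ x : ∀ q : ↥S, ((dat K).Jq q).V,
      n • (∑ h ∈ Finset.univ.filter (fun h : a.Γ => h ∈ a.rel K), (dat a).C.ρ h c) =
        ∑ q, ((dat a).j q).hom (tJ hKa q (x q))

end Fermat.Agent.S55
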