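import Fermat.Agent.S55.Dual.Seam
import Fermat.Agent.S55.DualTwistHyp
import Fermat.Agent.S55.Trans.Levels

/-!
# API for the Galois levels `du_Lev S` (block [D] of S55, prefix `du_`)

Restriction maps `Γ_{L'} → Γ_L`, directedness, the level attached to a field unramified outside
`S`, and the base level `K₀` trivialising `M` and the cyclotomic character.
-/

set_option autoImplicit false

open CategoryTheory ExtCitation

namespace Fermat.Agent.S55

local notation "Qbar" => AlgebraicClosure ℚ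
local notation "GQ" => (AlgebraicClosure ℚ ≃ₐ[ℚ] AlgebraicClosure ℚ)

section kz

variable (S : Finset Nat.Primes)

lemma du_muS_finite : (du_muS S).Finite := by
  classical
  have h : du_muS S ⊆ ⋃ q ∈ S, ((Polynomial.nthRootsFinset (q : ℕ) (1 : Qbar) : Finset Qbar) :
      Set Qbar) := by
    rintro x ⟨q, hq, hx⟩
    refine Set.mem_biUnion hq ?_
    rw [Finset.mem_coe, Polynomial.mem_nthRootsFinset q.2.pos]
    exact hx
  exact (Set.Finite.biUnion S.finite_toSet fun q _ => Finset.finite_toSet _).subset h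

/-- Inertia groups outside `S` fix the roots of unity of order `q ∈ S`. -/
lemma du_inertia_fixes_muS (ℓ : Nat.Primes) (hℓ : ℓ ∉ S) (A : ValuationSubring Qbar)
    (hA : A.LiesOverPrime (ℓ : ℕ)) (σ : GQ) (hσ : σ ∈ A.inertiaSubgroupIn ℚ) (x : Qbar)
    (hx : x ∈ du_muS S) : σ x = x := by
  obtain ⟨q, hq, hxq⟩ := hx
  have : Fact (q : ℕ).Prime := ⟨q.2⟩
  have : NeZero (q : ℕ) := ⟨q.2.ne_zero⟩
  obtain ⟨ζ, hζ⟩ := HasEnoughRootsOfUnity.exists_primitiveRoot Qbar (q : ℕ)
  have hne : (ℓ : ℕ) ≠ (q : ℕ) := by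
    intro h
    apply hℓ
    have : ℓ = q := Subtype.ext h
    rwa [this]
  have hχ : cycloChar (q : ℕ) σ = 1 :=
    tl_cycloChar_eq_one_of_mem_inertia (q : ℕ) ℓ.2 hne A hA hσ
  have hζfix : σ ζ = ζ := by
    refine (Fermat.Agent.S14.Reduction.chi_eq_one_iff (q : ℕ) σ hζ).1 ?_
    show ((cycloExp (q : ℕ) σ : ℕ) : ZMod (q : ℕ)) = 1
    rw [← coe_cycloChar, hχ, Units.val_one]
  obtain ⟨i, -, rfl⟩ := hζ.eq_pow_of_pow_eq_one hxq
  rw [map_pow, hζfix]

/-- The cyclotomic base field is unramified outside `S`. -/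
theorem du_kz_unr : (du_kz S).IsUnramifiedOutside S := by
  have h := ku_isUnramifiedOutside_sup_adjoin_of_fixed
    (IntermediateField.isUnramifiedOutside_bot S) (du_muS_finite S)
    (fun ℓ hℓ A hA σ hσ y hy => du_inertia_fixes_muS S ℓ hℓ A hA σ hσ y hy)
  rwa [bot_sup_eq] at h

/-- The cyclotomic base field is normal over `ℚ`. -/
theorem du_kz_normal : Normal ℚ (du_kz S) := by
  have hnQ : Normal ℚ Qbar :=
    @IsAlgClosure.normal ℚ Qbar _ _ _ ⟨inferInstance, AlgebraicClosure.isAlgebraic ℚ⟩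
  refine (IntermediateField.normal_iff_forall_map_le' (K := du_kz S)).2 ?_
  intro σ
  unfold du_kz
  rw [IntermediateField.adjoin_map]
  apply IntermediateField.adjoin.mono
  rintro _ ⟨x, ⟨q, hq, hx⟩, rfl⟩
  refine ⟨q, hq, ?_⟩
  show (σ x) ^ (q : ℕ) = 1
  rw [← map_pow, hx, map_one]

end kz

namespace du_Lev

variable {S : Finset Nat.Primes}

instance : Preorder (du_Lev S) where
  le_refl a := le_refl a.L
  le_trans _ _ _ h h' := le_trans (α := IntermediateField ℚ Qbar) h h'

theorem q_surjective (a : du_Lev S) : Function.Surjective a.q :=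
  tl_restrictNormalHom_surjective a.L

theorem ker_q (a : du_Lev S) : a.q.ker = a.L.fixingSubgroup :=
  tl_ker_restrictNormalHom a.L

theorem q_eq_one_iff (a : du_Lev S) (σ : GQ) : a.q σ = 1 ↔ σ ∈ a.L.fixingSubgroup := by
  rw [← ker_q, MonoidHom.mem_ker]

theorem ker_q_le {a b : du_Lev S} (h : a ≤ b) : b.q.ker ≤ a.q.ker := by
  rw [ker_q, ker_q]
  exact IntermediateField.fixingSubgroup_antitone h

/-- The restriction `Γ_{L'} → Γ_L` for `L ≤ L'`. -/
noncomputable def res {a b : du_Lev S} (h : a ≤ b) : b.Γ →* a.Γ :=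
  (QuotientGroup.lift b.q.ker a.q (ker_q_le h)).comp
    (QuotientGroup.quotientKerEquivOfSurjective b.q b.q_surjective).symm.toMonoidHom

@[simp] theorem res_q {a b : du_Lev S} (h : a ≤ b) (σ : GQ) : res h (b.q σ) = a.q σ := by
  have h1 : (QuotientGroup.quotientKerEquivOfSurjective b.q b.q_surjective).symm (b.q σ) =
      (QuotientGroup.mk σ : GQ ⧸ b.q.ker) := by
    rw [MulEquiv.symm_apply_eq]
    rfl
  show QuotientGroup.lift b.q.ker a.q (ker_q_le h)
    ((QuotientGroup.quotientKerEquivOfSurjective b.q b.q_surjective).symm (b.q σ)) = a.q σ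
  rw [h1]
  rfl

theorem res_surjective {a b : du_Lev S} (h : a ≤ b) : Function.Surjective (res h) := by
  intro g
  obtain ⟨σ, rfl⟩ := a.q_surjective g
  exact ⟨b.q σ, res_q h σ⟩

theorem ker_res {a b : du_Lev S} (h : a ≤ b) : (res h).ker = b.rel a := by
  ext g
  obtain ⟨σ, rfl⟩ := b.q_surjective g
  rw [MonoidHom.mem_ker, res_q, q_eq_one_iff]
  constructor
  · intro hσ
    exact ⟨σ, hσ, rfl⟩
  · rintro ⟨τ, hτ, hτσ⟩
    have : τ⁻¹ * σ ∈ b.L.fixingSubgroup := by
      rw [← ker_q, MonoidHom.mem_ker, map_mul, map_inv, hτσ, inv_mul_cancel]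
    have h2 : τ⁻¹ * σ ∈ a.L.fixingSubgroup := IntermediateField.fixingSubgroup_antitone h this
    have : σ = τ * (τ⁻¹ * σ) := by group
    rw [this]
    exact mul_mem hτ h2

instance rel_normal (b a : du_Lev S) : (b.rel a).Normal := by
  unfold rel
  have : a.L.fixingSubgroup.Normal := tl_normal_fixingSubgroup a.L
  exact Subgroup.Normal.map this b.q b.q_surjective

/-- The compositum of two levels. -/
noncomputable def sup (a b : du_Lev S) : du_Lev S where
  L := a.L ⊔ b.L
  unr := a.unr.sup b.unr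
  nor := @IntermediateField.normal_sup ℚ Qbar _ _ _ a.L b.L a.nor b.nor
  cyc := le_trans a.cyc (_root_.le_sup_left (α := IntermediateField ℚ Qbar))

theorem le_sup_left (a b : du_Lev S) : a ≤ sup a b :=
  _root_.le_sup_left (α := IntermediateField ℚ Qbar)

theorem le_sup_right (a b : du_Lev S) : b ≤ sup a b :=
  _root_.le_sup_right (α := IntermediateField ℚ Qbar)

instance : IsDirected (du_Lev S) (· ≤ ·) :=
  ⟨fun a b => ⟨sup a b, le_sup_left a b, le_sup_right a b⟩⟩

/-- Every field unramified outside `S` lies in a level. -/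
theorem exists_ge_field (F : IntermediateField ℚ Qbar) (hF : F.IsUnramifiedOutside S) :
    ∃ a : du_Lev S, F ≤ a.L := by
  obtain ⟨L, hFL, hL, hgal, -, -⟩ := tl_exists_galois_level (F ⊔ du_kz S) (hF.sup (du_kz_unr S))
  exact ⟨⟨L, hL, hgal.to_normal, le_trans (_root_.le_sup_right) hFL⟩,
    le_trans (_root_.le_sup_left) hFL⟩

instance : Nonempty (du_Lev S) :=
  let ⟨a, _⟩ := exists_ge_field (S := S) ⊥ (IntermediateField.isUnramifiedOutside_bot S)
  ⟨a⟩

/-- Every level contains the roots of unity of order `q ∈ S`. -/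
theorem pow_eq_one_mem (a : du_Lev S) {q : Nat.Primes} (hq : q ∈ S) {x : Qbar}
    (hx : x ^ (q : ℕ) = 1) : x ∈ a.L :=
  a.cyc (IntermediateField.subset_adjoin ℚ _ ⟨q, hq, hx⟩)

/-- The mod `p` cyclotomic character is trivial on `Gal(ℚ̄/L)` for every level `L` (`p ∈ S`). -/
theorem cycloChar_eq_one (a : du_Lev S) {p : ℕ} [Fact p.Prime] (hpS : pPrime p ∈ S) (σ : GQ)
    (hσ : σ ∈ a.L.fixingSubgroup) : cycloChar p σ = 1 := by
  have hp : p.Prime := Fact.out
  have : NeZero p := ⟨hp.ne_zero⟩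
  obtain ⟨ζ, hζ⟩ := HasEnoughRootsOfUnity.exists_primitiveRoot Qbar p
  have hmem : ζ ∈ a.L := a.pow_eq_one_mem hpS (x := ζ) hζ.pow_eq_one
  have hfix : σ ζ = ζ := (IntermediateField.mem_fixingSubgroup_iff _ _).1 hσ ζ hmem
  have hchi : Fermat.Agent.S14.Reduction.chi p σ = 1 :=
    (Fermat.Agent.S14.Reduction.chi_eq_one_iff p σ hζ).2 hfix
  apply Units.ext
  rw [coe_cycloChar]
  exact hchi

theorem fixingSubgroup_mem_levels (a : du_Lev S) :
    a.L.fixingSubgroup ∈ (tl_levelsS S).levels :=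
  ⟨a.L, a.unr, rfl⟩

end du_Lev

section K0

variable {p : ℕ} [Fact p.Prime] (S : Finset Nat.Primes) (M : Rep.{0} (ZMod p) GQ)
  [FiniteDimensional (ZMod p) M]

/-- **The base level.** A Galois level `K₀` unramified outside `S ∋ p` on whose absolute Galois
group `M`, its twisted dual and the mod `p` cyclotomic character are trivial. -/
theorem du_exists_K0 (hpS : pPrime p ∈ S)
    (hsm : ∀ m : M, ∃ F : IntermediateField ℚ Qbar, FiniteDimensional ℚ F ∧
      ∀ s ∈ F.fixingSubgroup, M.ρ s m = m)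
    (hMur : ∀ q : Nat.Primes, q ∉ S → ∀ A : ValuationSubring Qbar,
      A.LiesOverPrime (q : ℕ) → ∀ g ∈ A.inertiaSubgroupIn ℚ, M.ρ g = 1) :
    ∃ K : du_Lev S, (∀ σ ∈ K.L.fixingSubgroup, M.ρ σ = 1) ∧
      (∀ σ ∈ K.L.fixingSubgroup, cycloChar p σ = 1) ∧
      (∀ σ ∈ K.L.fixingSubgroup, (M.dualTwist (cycloChar p)).ρ σ = 1) := by
  -- the trivial one-dimensional representation and its twisted dual
  let T : Rep.{0} (ZMod p) GQ := Rep.trivial (ZMod p) GQ (ZMod p)
  have : FiniteDimensional (ZMod p) T := inferInstanceAs (FiniteDimensional (ZMod p) (ZMod p))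
  have hsmT : ∀ m : T, ∃ F : IntermediateField ℚ Qbar, FiniteDimensional ℚ F ∧
      ∀ s ∈ F.fixingSubgroup, T.ρ s m = m := fun m => ⟨⊥, inferInstance, fun s _ => rfl⟩
  have hurT : ∀ q : Nat.Primes, q ∉ S → ∀ A : ValuationSubring Qbar,
      A.LiesOverPrime (q : ℕ) → ∀ g ∈ A.inertiaSubgroupIn ℚ, T.ρ g = 1 :=
    fun q _ A _ g _ => rfl
  let T' := T.dualTwist (cycloChar p)
  have hsmT' := tl_dualTwist_smooth T hsmT
  have hurT' := tl_dualTwist_unramified T S hpS hurT
  -- the two kernel fields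
  have h1 := tl_isUnramifiedOutside_kernelField M hsm S hMur
  have h2 := tl_isUnramifiedOutside_kernelField T' hsmT' S hurT'
  have g1 := tl_isGalois_kernelField M hsm
  have g2 := tl_isGalois_kernelField T' hsmT'
  have n1 : Normal ℚ (tl_kernelField M) := g1.to_normal
  have n2 : Normal ℚ (tl_kernelField T') := g2.to_normal
  have n12 : Normal ℚ ↥(tl_kernelField M ⊔ tl_kernelField T') :=
    @IntermediateField.normal_sup ℚ Qbar _ _ _ (tl_kernelField M) (tl_kernelField T') n1 n2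
  let K : du_Lev S :=
    ⟨(tl_kernelField M ⊔ tl_kernelField T') ⊔ du_kz S, (h1.sup h2).sup (du_kz_unr S),
      @IntermediateField.normal_sup ℚ Qbar _ _ _ (tl_kernelField M ⊔ tl_kernelField T') (du_kz S)
        n12 (du_kz_normal S), le_sup_right⟩
  have hM : ∀ σ ∈ K.L.fixingSubgroup, M.ρ σ = 1 := fun σ hσ =>
    tl_rho_eq_one_of_mem_fixingSubgroup_kernelField M hsm
      (IntermediateField.fixingSubgroup_antitone (le_trans le_sup_left le_sup_left) hσ)
  have hχ : ∀ σ ∈ K.L.fixingSubgroup, cycloChar p σ = 1 := by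
    intro σ hσ
    have hT' : T'.ρ σ = 1 := tl_rho_eq_one_of_mem_fixingSubgroup_kernelField T' hsmT'
      (IntermediateField.fixingSubgroup_antitone (le_trans le_sup_right le_sup_left) hσ)
    -- evaluate on the identity functional
    have h := congrArg (fun φ : Module.End (ZMod p) T' => φ (LinearMap.id : Module.Dual (ZMod p) T))
      hT'
    beta_reduce at h
    rw [Rep.dualTwist_ρ_apply] at h
    have h' := congrArg (fun f : Module.Dual (ZMod p) T => f (1 : ZMod p)) h
    simp only [LinearMap.smul_apply, LinearMap.comp_apply, LinearMap.id_apply,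
      Module.End.one_apply] at h'
    apply Units.ext
    have hT1 : T.ρ σ⁻¹ (1 : ZMod p) = 1 := rfl
    rw [hT1, smul_eq_mul, mul_one] at h'
    exact h'
  refine ⟨K, hM, hχ, fun σ hσ => ?_⟩
  ext f
  rw [Rep.dualTwist_ρ_apply, hχ σ hσ, hM σ⁻¹ (inv_mem hσ), Units.val_one, one_smul]
  rfl

end K0

end Fermat.Agent.S55
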