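import Mathlib

/-!
# S55 / [D], leaf D-LAT: the lattice resolution `0 ⟶ R ⟶ F ⟶ A ⟶ 0`

For a finite group `Δ` and a `ℤ[Δ]`-module `A` with finite underlying set, `F = ℤ[Δ × A]`
(permutation module for the action `g • (δ, a) = (g * δ, a)`), `la_π : F ⟶ A`,
`(δ, a) ↦ δ • a`, and `R = ker la_π`.  Both `F` and `R` are free abelian groups of finite rank.

* `la_ofAddHom`: a morphism of `Rep ℤ Δ` from an additive map commuting with the actions (it
  isolates the `Module ℤ` instance diamond `A.hV2` versus `AddCommGroup.toIntModule`).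
* `la_X A = Δ × A.V` with the `Δ`-action on the first factor, `la_F A = Rep.ofMulAction ℤ Δ (la_X A)`.
* `la_π A : la_F A ⟶ A`, `la_π_single`, `la_π_surjective`.
* `la_R A`, `la_ι A`, `la_seq A`, `la_shortExact A`, `la_isoMid A`.
* `la_free_F A`, `la_free_R A`: `∃ n, Nonempty (_ ≃+ (Fin n → ℤ))`.
-/

set_option autoImplicit false

open CategoryTheory

namespace Fermat.Agent.S55

noncomputable section

variable {Δ : Type} [Group Δ]

/-- The `ℤ`-linear map (for the module structures carried by the two representations) underlying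
an additive map. -/
def la_ofAddHomLin {A B : Rep.{0} ℤ Δ} (f : A.V →+ B.V) :
    @LinearMap ℤ ℤ _ _ (RingHom.id ℤ) A.V B.V _ _ A.hV2 B.hV2 :=
  @LinearMap.mk ℤ ℤ _ _ (RingHom.id ℤ) A.V B.V _ _ A.hV2 B.hV2 ⟨f, f.map_add⟩
    (fun n v => by
      have h1 := int_smul_eq_zsmul A.hV2 n v
      have h2 := int_smul_eq_zsmul B.hV2 n (f v)
      change f (@SMul.smul ℤ A.V A.hV2.toSMul n v) = @SMul.smul ℤ B.V B.hV2.toSMul n (f v)
      rw [h1, h2]
      exact map_zsmul f n v)

theorem la_ofAddHomLin_apply {A B : Rep.{0} ℤ Δ} (f : A.V →+ B.V) (v : A.V) :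
    la_ofAddHomLin f v = f v := rfl

/-- A morphism of `ℤ`-representations from an additive map commuting with the actions
(this isolates the `Module ℤ` instance diamond once and for all). -/
def la_ofAddHom {A B : Rep.{0} ℤ Δ} (f : A.V →+ B.V)
    (hf : ∀ (g : Δ) (v : A.V), f (A.ρ g v) = B.ρ g (f v)) : A ⟶ B :=
  ConcreteCategory.ofHom (C := Rep ℤ Δ)
    (@Representation.IntertwiningMap.mk ℤ Δ A.V B.V _ _ _ _ A.hV2 B.hV2 A.ρ B.ρ
      (la_ofAddHomLin f) (fun g => DFunLike.ext _ _ (hf g)))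

theorem la_ofAddHom_apply {A B : Rep.{0} ℤ Δ} (f : A.V →+ B.V)
    (hf : ∀ (g : Δ) (v : A.V), f (A.ρ g v) = B.ρ g (f v)) (v : A.V) :
    (la_ofAddHom f hf).hom v = f v := rfl

variable (A : Rep.{0} ℤ Δ)

/-- The `Δ`-set `Δ × A` with `Δ` acting on the first factor by left translation. -/
def la_X (A : Rep.{0} ℤ Δ) : Type := Δ × A.V

/-- The point `(δ, a)` of `la_X A`. -/
def la_mk {A : Rep.{0} ℤ Δ} (δ : Δ) (a : A.V) : la_X A := ((δ, a) : Δ × A.V)

/-- First coordinate. -/
def la_fst {A : Rep.{0} ℤ Δ} (x : la_X A) : Δ := Prod.fst (show Δ × A.V from x)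

/-- Second coordinate. -/
def la_snd {A : Rep.{0} ℤ Δ} (x : la_X A) : A.V := Prod.snd (show Δ × A.V from x)

@[simp] theorem la_fst_mk (δ : Δ) (a : A.V) : la_fst (la_mk (A := A) δ a) = δ := rfl
@[simp] theorem la_snd_mk (δ : Δ) (a : A.V) : la_snd (la_mk (A := A) δ a) = a := rfl
@[simp] theorem la_mk_eta (x : la_X A) : la_mk (la_fst x) (la_snd x) = x := rfl

instance la_mulAction : MulAction Δ (la_X A) where
  smul g x := la_mk (g * la_fst x) (la_snd x)
  one_smul x := by
    change la_mk (1 * la_fst x) (la_snd x) = x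
    rw [one_mul, la_mk_eta]
  mul_smul g h x := by
    change la_mk (g * h * la_fst x) (la_snd x) = la_mk (g * (h * la_fst x)) (la_snd x)
    rw [mul_assoc]

theorem la_smul_def (g : Δ) (x : la_X A) : g • x = la_mk (g * la_fst x) (la_snd x) := rfl

@[simp] theorem la_smul_mk (g δ : Δ) (a : A.V) :
    g • la_mk (A := A) δ a = la_mk (g * δ) a := rfl

instance la_finite_X [Finite Δ] [Finite A.V] : Finite (la_X A) :=
  inferInstanceAs (Finite (Δ × A.V))

/-- The permutation lattice `F = ℤ[Δ × A]`. -/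
abbrev la_F : Rep.{0} ℤ Δ := Rep.ofMulAction ℤ Δ (la_X A)

/-- The additive map underlying `la_π`: `(δ, a) ↦ δ • a`. -/
def la_πAdd : MonoidAlgebra ℤ (la_X A) →+ A.V :=
  (Finsupp.liftAddHom (fun x : la_X A => zmultiplesHom A.V (A.ρ (la_fst x) (la_snd x)))).comp
    (MonoidAlgebra.coeffAddEquiv (R := ℤ) (M := la_X A)).toAddMonoidHom

theorem la_πAdd_single (x : la_X A) (n : ℤ) :
    la_πAdd A (MonoidAlgebra.single x n) = n • A.ρ (la_fst x) (la_snd x) := by
  simp [la_πAdd]

theorem la_πAdd_intertwining (g : Δ) (v : MonoidAlgebra ℤ (la_X A)) :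
    la_πAdd A ((Representation.ofMulAction ℤ Δ (la_X A)) g v) = A.ρ g (la_πAdd A v) := by
  have h : (la_πAdd A).comp
      ((Representation.ofMulAction ℤ Δ (la_X A)) g).toAddMonoidHom =
      (AddMonoidHom.mk ⟨fun a => A.ρ g a, map_zero _⟩ (map_add _)).comp (la_πAdd A) := by
    apply MonoidAlgebra.addMonoidHom_ext
    intro x n
    change la_πAdd A ((Representation.ofMulAction ℤ Δ (la_X A)) g (MonoidAlgebra.single x n)) =
      A.ρ g (la_πAdd A (MonoidAlgebra.single x n))
    rw [Representation.ofMulAction_single, la_πAdd_single, la_πAdd_single, la_smul_def,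
      la_fst_mk, la_snd_mk, map_mul]
    exact (map_zsmul (A.ρ g) n ((A.ρ (la_fst x)) (la_snd x))).symm
  exact DFunLike.congr_fun h v

/-- The augmentation `F ⟶ A`, `(δ, a) ↦ δ • a`. -/
def la_π : la_F A ⟶ A :=
  la_ofAddHom (A := la_F A) (B := A) (la_πAdd A) (la_πAdd_intertwining A)

theorem la_π_apply (v : MonoidAlgebra ℤ (la_X A)) : (la_π A).hom v = la_πAdd A v := rfl

theorem la_π_single (δ : Δ) (a : A.V) :
    (la_π A).hom (MonoidAlgebra.single (la_mk δ a) (1 : ℤ)) = A.ρ δ a := by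
  rw [la_π_apply, la_πAdd_single, one_smul, la_fst_mk, la_snd_mk]

theorem la_π_surjective : Function.Surjective (la_π A).hom := by
  intro a
  refine ⟨MonoidAlgebra.single (la_mk (1 : Δ) a) (1 : ℤ), ?_⟩
  rw [la_π_single, map_one]
  rfl

instance la_epi_π : Epi (la_π A) := (Rep.epi_iff_surjective _).mpr (la_π_surjective A)

/-- The relation lattice `R = ker (F ⟶ A)`. -/
def la_R : Rep.{0} ℤ Δ := Limits.kernel (la_π A)

/-- The inclusion `R ⟶ F`. -/
def la_ι : la_R A ⟶ la_F A := Limits.kernel.ι (la_π A)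

instance la_mono_ι : Mono (la_ι A) := inferInstanceAs (Mono (Limits.kernel.ι (la_π A)))

theorem la_ι_π : la_ι A ≫ la_π A = 0 := Limits.kernel.condition _

/-- The short complex `0 ⟶ R ⟶ F ⟶ A ⟶ 0`. -/
def la_seq : ShortComplex (Rep.{0} ℤ Δ) := ShortComplex.mk (la_ι A) (la_π A) (la_ι_π A)

theorem la_shortExact : (la_seq A).ShortExact where
  exact := ShortComplex.exact_kernel _
  mono_f := inferInstanceAs (Mono (la_ι A))
  epi_g := inferInstanceAs (Epi (la_π A))

@[simp] theorem la_seq_X₁ : (la_seq A).X₁ = la_R A := rfl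
@[simp] theorem la_seq_X₂ : (la_seq A).X₂ = Rep.ofMulAction ℤ Δ (la_X A) := rfl
@[simp] theorem la_seq_X₃ : (la_seq A).X₃ = A := rfl
@[simp] theorem la_seq_f : (la_seq A).f = la_ι A := rfl
@[simp] theorem la_seq_g : (la_seq A).g = la_π A := rfl

/-- The middle term is literally the permutation module. -/
def la_isoMid : (la_seq A).X₂ ≅ Rep.ofMulAction ℤ Δ (la_X A) := Iso.refl _

/-- An additive embedding into a free `ℤ`-module of finite rank is free of finite rank. -/
theorem la_free_of_injective {M N : Type} [AddCommGroup M] [AddCommGroup N] [Module.Free ℤ N]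
    [Module.Finite ℤ N] (f : M →+ N) (hf : Function.Injective f) :
    ∃ n, Nonempty (M ≃+ (Fin n → ℤ)) := by
  let e : M ≃ₗ[ℤ] LinearMap.range f.toIntLinearMap :=
    LinearEquiv.ofInjective f.toIntLinearMap hf
  have : Module.Free ℤ (LinearMap.range f.toIntLinearMap) := inferInstance
  have : Module.Finite ℤ (LinearMap.range f.toIntLinearMap) := inferInstance
  let b := Module.finBasis ℤ (LinearMap.range f.toIntLinearMap)
  exact ⟨_, ⟨(e.trans b.equivFun).toAddEquiv⟩⟩

variable [Finite Δ] [Finite A.V]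

instance la_free_monoidAlgebra : Module.Free ℤ (MonoidAlgebra ℤ (la_X A)) :=
  Module.Free.of_basis (MonoidAlgebra.basis (la_X A) ℤ)

instance la_finite_monoidAlgebra : Module.Finite ℤ (MonoidAlgebra ℤ (la_X A)) :=
  Module.Finite.of_basis (MonoidAlgebra.basis (la_X A) ℤ)

/-- `F` is a free abelian group of finite rank. -/
theorem la_free_F : ∃ n, Nonempty ((la_F A).V ≃+ (Fin n → ℤ)) :=
  la_free_of_injective (M := MonoidAlgebra ℤ (la_X A)) (N := MonoidAlgebra ℤ (la_X A))
    (AddMonoidHom.id _) Function.injective_id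

/-- `R` is a free abelian group of finite rank. -/
theorem la_free_R : ∃ n, Nonempty ((la_R A).V ≃+ (Fin n → ℤ)) :=
  la_free_of_injective (M := (la_R A).V) (N := MonoidAlgebra ℤ (la_X A))
    (AddMonoidHom.mk ⟨fun v => (la_ι A).hom v, map_zero _⟩ (map_add _))
    ((Rep.mono_iff_injective (la_ι A)).mp inferInstance)

end

end Fermat.Agent.S55
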