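import Fermat.Agent.S55.Dual.LevelDuality
import Fermat.Agent.S55.Dual.Lattice

set_option autoImplicit false
set_option linter.unusedSectionVars false

/-!
# S55 / Dual / Absorb  (leaf D-ABS of block [D], prefix `ab_`)

Absorption of norms: `Γ` a finite group, `N ≤ Γ`, `R` a `Γ`-lattice on which `N` acts trivially,
`j q : Jq q ⟶ C`.  If for every `c : C` a prime-to-`p` multiple of the partial norm `∑_{h ∈ N} h c`
is a sum of images of `N`-invariant elements of the `Jq q`, then every norm `N_Γ φ₀` in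
`Hom_Γ(R, C)` has a prime-to-`p` multiple in the subgroup generated by the images of the
`Hom_Γ(R, Jq q)`.
-/

namespace Fermat.Agent.S55

open CategoryTheory

section Coset

variable {Γ : Type*} [Group Γ] (N : Subgroup Γ)

/-- `(Γ ⧸ N) × N ≃ Γ`, `(δ, h) ↦ δ.out * h`. -/
noncomputable def ab_cosetEquiv : (Γ ⧸ N) × N ≃ Γ where
  toFun x := x.1.out * (x.2 : Γ)
  invFun g := (QuotientGroup.mk g, ⟨(QuotientGroup.mk g : Γ ⧸ N).out⁻¹ * g, by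
    rw [← QuotientGroup.eq, QuotientGroup.out_eq']⟩)
  left_inv := by
    rintro ⟨δ, h⟩
    have h1 : (QuotientGroup.mk (δ.out * (h : Γ)) : Γ ⧸ N) = δ := by
      rw [QuotientGroup.mk_mul_of_mem _ h.2, QuotientGroup.out_eq']
    refine Prod.ext h1 (Subtype.ext ?_)
    show (QuotientGroup.mk (δ.out * (h : Γ)) : Γ ⧸ N).out⁻¹ * (δ.out * (h : Γ)) = h
    rw [h1, inv_mul_cancel_left]
  right_inv := by
    intro g
    show (QuotientGroup.mk g : Γ ⧸ N).out * ((QuotientGroup.mk g : Γ ⧸ N).out⁻¹ * g) = g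
    rw [mul_inv_cancel_left]

theorem ab_cosetEquiv_apply (δ : Γ ⧸ N) (h : N) : ab_cosetEquiv N (δ, h) = δ.out * (h : Γ) := rfl

/-- Summation over a finite group by cosets. -/
theorem ab_sum_coset [Fintype Γ] [Fintype N] [Fintype (Γ ⧸ N)] {M : Type*} [AddCommMonoid M]
    (F : Γ → M) : ∑ g : Γ, F g = ∑ δ : Γ ⧸ N, ∑ h : N, F (δ.out * (h : Γ)) := by
  rw [← Equiv.sum_comp (ab_cosetEquiv N) F, Fintype.sum_prod_type]
  rfl

end Coset

section HomLemmas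

variable {Γ : Type} [Group Γ] {A B : Rep.{0} ℤ Γ}

theorem ab_hom_ext {f g : A ⟶ B} (h : ∀ x, f.hom x = g.hom x) : f = g :=
  Rep.hom_ext (DFunLike.ext _ _ h)

theorem ab_nsmul_hom (f : A ⟶ B) (n : ℕ) (x : A.V) : (n • f).hom x = n • f.hom x := by
  induction n with
  | zero => simp
  | succ k ih =>
    rw [succ_nsmul, succ_nsmul]
    show (k • f).hom x + f.hom x = _
    rw [ih]

theorem ab_sum_hom {ι : Type} [Fintype ι] (F : ι → (A ⟶ B)) (x : A.V) :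
    (∑ i, F i).hom x = ∑ i, (F i).hom x := by
  classical
  induction (Finset.univ : Finset ι) using Finset.induction_on with
  | empty => simp
  | insert a s ha ih =>
    rw [Finset.sum_insert ha, Finset.sum_insert ha, ← ih]
    rfl

/-- The additive map underlying a morphism of `ℤ`-representations. -/
def ab_homAdd (f : A ⟶ B) : A.V →+ B.V where
  toFun := f.hom
  map_zero' := map_zero _
  map_add' := map_add _

@[simp] theorem ab_homAdd_apply (f : A ⟶ B) (x : A.V) : ab_homAdd f x = f.hom x := rfl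

end HomLemmas

section Main

variable {Γ : Type} [Group Γ] [Fintype Γ] (N : Subgroup Γ) [Fintype N]
  {p : ℕ} [hp : Fact p.Prime] {ι : Type} [Fintype ι]
  (R C : Rep.{0} ℤ Γ) (Jq : ι → Rep.{0} ℤ Γ) (j : ∀ q, Jq q ⟶ C)

/-- Composition with `j q`. -/
def ab_a (q : ι) : (R ⟶ Jq q) →+ (R ⟶ C) where
  toFun ψ := ψ ≫ j q
  map_zero' := Limits.zero_comp
  map_add' _ _ := Preadditive.add_comp _ _ _ _ _ _

theorem ab_a_hom (q : ι) (ψ : R ⟶ Jq q) (y : R.V) :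
    (ab_a R C Jq j q ψ).hom y = (j q).hom (ψ.hom y) := rfl

/-- The partial norm `c ↦ ∑_{h ∈ N} h c`. -/
def ab_ν : C.V →+ C.V := ∑ h : N, (C.ρ (h : Γ)).toAddMonoidHom

theorem ab_ν_apply (c : C.V) : ab_ν N C c = ∑ h : N, C.ρ (h : Γ) c := by
  simp [ab_ν]

/-- Step 1: lift the partial norm of `φ₀` through the `Jq` on a `ℤ`-basis of `R`. -/
theorem ab_exists_lift
    (hR : ∃ n : ℕ, Nonempty (R.V ≃+ (Fin n → ℤ)))
    (habs : ∀ c : C.V, ∃ n : ℕ, ¬ p ∣ n ∧ ∃ x : ∀ q, (Jq q).V,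
      (∀ q, ∀ h ∈ N, (Jq q).ρ h (x q) = x q) ∧
      n • ∑ h : N, C.ρ (h : Γ) c = ∑ q, (j q).hom (x q))
    (φ₀ : R.V →+ C.V) :
    ∃ n : ℕ, ¬ p ∣ n ∧ ∃ ψ₁ : ∀ q, R.V →+ (Jq q).V,
      (∀ q y, ∀ h ∈ N, (Jq q).ρ h (ψ₁ q y) = ψ₁ q y) ∧
      ∀ y, n • ab_ν N C (φ₀ y) = ∑ q, (j q).hom (ψ₁ q y) := by
  classical
  obtain ⟨m, ⟨e⟩⟩ := hR
  choose nn hnn x hx hsum using fun i : Fin m => habs (φ₀ (e.symm (Pi.single i 1)))
  set n : ℕ := ∏ i, nn i with hn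
  have hpn : ¬ p ∣ n := by
    rw [hn, Prime.dvd_finsetProd_iff (Nat.Prime.prime hp.out)]
    rintro ⟨i, -, hi⟩
    exact hnn i hi
  have hdvd : ∀ i, nn i ∣ n := fun i => Finset.dvd_prod_of_mem nn (Finset.mem_univ i)
  -- the lift on the basis
  let ψ₁ : ∀ q, R.V →+ (Jq q).V := fun q =>
    (∑ i : Fin m, (zmultiplesHom (Jq q).V ((n / nn i) • x i q)).comp
      (Pi.evalAddMonoidHom (fun _ : Fin m => ℤ) i)).comp e.toAddMonoidHom
  have hψ₁ : ∀ q y, ψ₁ q y = ∑ i : Fin m, (e y i) • ((n / nn i) • x i q) := by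
    intro q y
    simp [ψ₁]
  refine ⟨n, hpn, ψ₁, ?_, ?_⟩
  · intro q y h hh
    rw [hψ₁, map_sum]
    refine Finset.sum_congr rfl fun i _ => ?_
    rw [map_zsmul, map_nsmul, hx i q h hh]
  · -- both sides are additive in `y`; compare on the basis
    have key : (n • ab_ν N C).comp (φ₀.comp e.symm.toAddMonoidHom) =
        (∑ q, ((ab_homAdd (j q)).comp (ψ₁ q))).comp
          e.symm.toAddMonoidHom := by
      ext i
      simp only [AddMonoidHom.comp_apply, AddEquiv.coe_toAddMonoidHom,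
        AddMonoidHom.smul_apply, AddMonoidHom.finsetSum_apply, ab_homAdd_apply]
      have hsingle : ∀ k : Fin m, (AddMonoidHom.single (fun _ : Fin m => ℤ) i) 1 k =
          if k = i then 1 else 0 := by
        intro k
        show (Pi.single i (1 : ℤ) : Fin m → ℤ) k = _
        rw [Pi.single_apply]
      have hψi : ∀ q, ψ₁ q (e.symm ((AddMonoidHom.single (fun _ : Fin m => ℤ) i) 1)) =
          (n / nn i) • x i q := by
        intro q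
        rw [hψ₁, AddEquiv.apply_symm_apply]
        simp only [hsingle, ite_smul, one_smul, zero_smul]
        rw [Finset.sum_ite_eq' Finset.univ i]
        simp
      simp only [hψi]
      have h1 : n = (n / nn i) * nn i := (Nat.div_mul_cancel (hdvd i)).symm
      conv_lhs => rw [h1, mul_smul]
      have h2 : (AddMonoidHom.single (fun _ : Fin m => ℤ) i) 1 = (Pi.single i 1 : Fin m → ℤ) := rfl
      rw [h2, ab_ν_apply, hsum i, Finset.smul_sum]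
      refine Finset.sum_congr rfl fun q _ => ?_
      rw [map_nsmul]
    intro y
    have := DFunLike.congr_fun key (e y)
    simpa using this

/-- Step 2: average the lift over the cosets of `N`. -/
theorem ab_average
    (hNR : ∀ h ∈ N, ∀ y : R.V, R.ρ h y = y)
    (φ₀ : R.V →+ C.V) (n : ℕ) (ψ₁ : ∀ q, R.V →+ (Jq q).V)
    (hinv : ∀ q y, ∀ h ∈ N, (Jq q).ρ h (ψ₁ q y) = ψ₁ q y)
    (hlift : ∀ y, n • ab_ν N C (φ₀ y) = ∑ q, (j q).hom (ψ₁ q y)) :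
    ∃ ψ : ∀ q, R ⟶ Jq q, ∀ y : R.V,
      n • ∑ g : Γ, C.ρ g (φ₀ (R.ρ g⁻¹ y)) = ∑ q, (j q).hom ((ψ q).hom y) := by
  classical
  have : Fintype (Γ ⧸ N) := Fintype.ofFinite _
  -- the summand
  let f : ∀ q, R.V → Γ → (Jq q).V := fun q y g => (Jq q).ρ g (ψ₁ q (R.ρ g⁻¹ y))
  have hfN : ∀ q y g, ∀ h ∈ N, f q y (g * h) = f q y g := by
    intro q y g h hh
    show (Jq q).ρ (g * h) (ψ₁ q (R.ρ (g * h)⁻¹ y)) = (Jq q).ρ g (ψ₁ q (R.ρ g⁻¹ y))
    rw [mul_inv_rev, map_mul, map_mul]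
    show (Jq q).ρ g ((Jq q).ρ h (ψ₁ q (R.ρ h⁻¹ (R.ρ g⁻¹ y)))) = _
    rw [hNR h⁻¹ (N.inv_mem hh), hinv q _ h hh]
  have hfγ : ∀ q y (γ g : Γ), (Jq q).ρ γ (f q y g) = f q (R.ρ γ y) (γ * g) := by
    intro q y γ g
    show (Jq q).ρ γ ((Jq q).ρ g (ψ₁ q (R.ρ g⁻¹ y))) =
      (Jq q).ρ (γ * g) (ψ₁ q (R.ρ (γ * g)⁻¹ (R.ρ γ y)))
    rw [map_mul]
    have : R.ρ (γ * g)⁻¹ (R.ρ γ y) = R.ρ g⁻¹ y := by
      have h1 : R.ρ g⁻¹ = R.ρ ((γ * g)⁻¹ * γ) := by rw [mul_inv_rev, inv_mul_cancel_right]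
      rw [h1, map_mul]
      rfl
    rw [this]
    rfl
  -- the averaged maps
  let Ψ : ∀ q, R.V →+ (Jq q).V := fun q =>
    ∑ δ : Γ ⧸ N, ((Jq q).ρ δ.out).toAddMonoidHom.comp
      ((ψ₁ q).comp (R.ρ δ.out⁻¹).toAddMonoidHom)
  have hΨ : ∀ q y, Ψ q y = ∑ δ : Γ ⧸ N, f q y δ.out := by
    intro q y
    simp [Ψ, f]
  have hout : ∀ (γ : Γ) (δ : Γ ⧸ N), ∃ h ∈ N, (γ • δ).out = (γ * δ.out) * h := by
    intro γ δ
    refine ⟨(γ * δ.out)⁻¹ * (γ • δ).out, ?_, by rw [mul_inv_cancel_left]⟩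
    rw [← QuotientGroup.eq, QuotientGroup.out_eq']
    conv_rhs => rw [← QuotientGroup.out_eq' δ]
    rfl
  have hΨeq : ∀ q (γ : Γ) (y : R.V), Ψ q (R.ρ γ y) = (Jq q).ρ γ (Ψ q y) := by
    intro q γ y
    rw [hΨ, hΨ, map_sum]
    simp only [hfγ]
    rw [← Equiv.sum_comp (MulAction.toPerm γ : Equiv.Perm (Γ ⧸ N))]
    refine Finset.sum_congr rfl fun δ _ => ?_
    obtain ⟨h, hh, hδ⟩ := hout γ δ
    show f q (R.ρ γ y) (γ • δ).out = _
    rw [hδ, hfN q _ _ h hh]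
  refine ⟨fun q => la_ofAddHom (Ψ q) (fun γ y => hΨeq q γ y), fun y => ?_⟩
  simp only [la_ofAddHom_apply]
  rw [ab_sum_coset N, Finset.smul_sum]
  have hinner : ∀ δ : Γ ⧸ N, n • ∑ h : N, C.ρ (δ.out * (h : Γ)) (φ₀ (R.ρ (δ.out * (h : Γ))⁻¹ y)) =
      ∑ q, (j q).hom (f q y δ.out) := by
    intro δ
    have h1 : ∀ h : N, C.ρ (δ.out * (h : Γ)) (φ₀ (R.ρ (δ.out * (h : Γ))⁻¹ y)) =
        C.ρ δ.out (C.ρ (h : Γ) (φ₀ (R.ρ δ.out⁻¹ y))) := by
      intro h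
      rw [mul_inv_rev, map_mul, map_mul]
      show C.ρ δ.out (C.ρ (h : Γ) (φ₀ (R.ρ (h : Γ)⁻¹ (R.ρ δ.out⁻¹ y)))) = _
      rw [hNR _ (N.inv_mem h.2)]
    simp only [h1]
    rw [← map_sum, ← ab_ν_apply, ← map_nsmul, hlift, map_sum]
    refine Finset.sum_congr rfl fun q _ => ?_
    exact (Rep.hom_comm_apply (j q) δ.out _).symm
  simp only [hinner]
  rw [Finset.sum_comm]
  refine Finset.sum_congr rfl fun q _ => ?_
  rw [hΨ, map_sum]

/-- **Absorption of norms (D-ABS).**  If a prime-to-`p` multiple of every partial norm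
`∑_{h ∈ N} h c` is a sum of images of `N`-invariant elements of the `Jq q`, and `N` acts trivially
on the lattice `R`, then `ld_Nrm R C` is contained in the `p`-saturation of the subgroup of
`Hom_Γ(R, C)` generated by the images of the `Hom_Γ(R, Jq q)`. -/
theorem ab_absorb
    (hR : ∃ n : ℕ, Nonempty (R.V ≃+ (Fin n → ℤ)))
    (hNR : ∀ h ∈ N, ∀ y : R.V, R.ρ h y = y)
    (habs : ∀ c : C.V, ∃ n : ℕ, ¬ p ∣ n ∧ ∃ x : ∀ q, (Jq q).V,
      (∀ q, ∀ h ∈ N, (Jq q).ρ h (x q) = x q) ∧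
      n • ∑ h : N, C.ρ (h : Γ) c = ∑ q, (j q).hom (x q)) :
    ld_Nrm R C ≤ fd_pSat p (⨆ q, (ab_a R C Jq j q).range) := by
  rintro φ ⟨φ₀, hφ⟩
  obtain ⟨n, hpn, ψ₁, hinv, hlift⟩ := ab_exists_lift N R C Jq j hR habs φ₀
  obtain ⟨ψ, hψ⟩ := ab_average N R C Jq j hNR φ₀ n ψ₁ hinv hlift
  refine ⟨n, hpn, ?_⟩
  have heq : n • φ = ∑ q, ab_a R C Jq j q (ψ q) := by
    apply ab_hom_ext
    intro y
    rw [ab_nsmul_hom, hφ, hψ, ab_sum_hom]
    rfl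
  rw [heq]
  refine AddSubgroup.sum_mem _ fun q _ => ?_
  exact (le_iSup (fun q => (ab_a R C Jq j q).range) q) ⟨ψ q, rfl⟩

end Main

section LdData

variable {Γ : Type} [Group Γ] [Fintype Γ] (N : Subgroup Γ) [Fintype N]
  {p : ℕ} [hp : Fact p.Prime] {ι : Type} [Fintype ι] (𝔻 : ld_Data p Γ ι) (R : Rep.{0} ℤ Γ)

/-- D-ABS for the seam data: norms are absorbed by the local images up to prime-to-`p`
integers. -/
theorem ab_absorb_ld
    (hR : ld_IsLattice R)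
    (hNR : ∀ h ∈ N, ∀ y : R.V, R.ρ h y = y)
    (habs : ∀ c : 𝔻.C.V, ∃ n : ℕ, ¬ p ∣ n ∧ ∃ x : ∀ q, (𝔻.Jq q).V,
      (∀ q, ∀ h ∈ N, (𝔻.Jq q).ρ h (x q) = x q) ∧
      n • ∑ h : N, 𝔻.C.ρ (h : Γ) c = ∑ q, (𝔻.j q).hom (x q)) :
    ld_Nrm R 𝔻.C ≤ fd_pSat p (ld_Loc 𝔻 R) :=
  ab_absorb N R 𝔻.C 𝔻.Jq 𝔻.j hR hNR habs

/-- Consequence used in the final count: the saturated norm-plus-local subgroup is the saturated
local subgroup. -/
theorem ab_pSat_nrm_sup_loc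
    (hR : ld_IsLattice R)
    (hNR : ∀ h ∈ N, ∀ y : R.V, R.ρ h y = y)
    (habs : ∀ c : 𝔻.C.V, ∃ n : ℕ, ¬ p ∣ n ∧ ∃ x : ∀ q, (𝔻.Jq q).V,
      (∀ q, ∀ h ∈ N, (𝔻.Jq q).ρ h (x q) = x q) ∧
      n • ∑ h : N, 𝔻.C.ρ (h : Γ) c = ∑ q, (𝔻.j q).hom (x q)) :
    fd_pSat p (ld_Nrm R 𝔻.C ⊔ ld_Loc 𝔻 R) = fd_pSat p (ld_Loc 𝔻 R) := by
  apply le_antisymm
  · have h1 : ld_Nrm R 𝔻.C ⊔ ld_Loc 𝔻 R ≤ fd_pSat p (ld_Loc 𝔻 R) :=
      sup_le (ab_absorb_ld N 𝔻 R hR hNR habs) (fd_le_pSat p _)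
    calc fd_pSat p (ld_Nrm R 𝔻.C ⊔ ld_Loc 𝔻 R)
        ≤ fd_pSat p (fd_pSat p (ld_Loc 𝔻 R)) := fd_pSat_mono p h1
      _ = fd_pSat p (ld_Loc 𝔻 R) := fd_pSat_idem p _
  · exact fd_pSat_mono p le_sup_right

end LdData

end Fermat.Agent.S55
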