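/-
S55 / block [D] : absorption of norms against the seam (ruling #859 (1)).

`ab_seam` : for every level `K` there is a level `a₁ ≥ K` such that at every level `a ≥ a₁` and
for every lattice `R` over `Γ_a` on which `Gal(a/K)` acts trivially, the norms in
`Hom_Γ(R, C_a)` are absorbed by the semi-local images up to prime-to-`p` integers.
(from the seam field `du_Seam.abs` = (G-abs) and helper29's `ab_absorb_ld`).
-/
import Fermat.Agent.S55.Dual.Absorb
import Fermat.Agent.S55.Dual.Levels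

set_option autoImplicit false

open CategoryTheory

namespace Fermat.Agent.S55

variable {p : ℕ} [hp : Fact p.Prime] {S : Finset Nat.Primes}

omit hp in
/-- elements of `Gal(a/K)` act trivially on the image of level `K` in the semi-local module. -/
theorem abs_tJ_invariant (𝔖 : du_Seam p S) {K a : du_Lev S} (hKa : K ≤ a) (q : ↥S)
    (x : ((𝔖.dat K).Jq q).V) (h : a.Γ) (hh : h ∈ a.rel K) :
    ((𝔖.dat a).Jq q).ρ h (𝔖.tJ hKa q x) = 𝔖.tJ hKa q x := by
  obtain ⟨σ, hσ, rfl⟩ := hh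
  rw [← 𝔖.tJ_equiv hKa q σ x, (K.q_eq_one_iff σ).2 hσ, map_one]
  rfl

/-- **Absorption against the seam.** -/
theorem ab_seam (𝔖 : du_Seam p S) (K : du_Lev S) :
    ∃ a₁ : du_Lev S, K ≤ a₁ ∧ ∀ a : du_Lev S, a₁ ≤ a → K ≤ a → ∀ R : Rep.{0} ℤ a.Γ,
      ld_IsLattice R → (∀ h ∈ a.rel K, ∀ y : R.V, R.ρ h y = y) →
        ld_Nrm R (𝔖.dat a).C ≤ fd_pSat p (ld_Loc (𝔖.dat a) R) := by
  classical
  obtain ⟨a₁, hKa₁, H⟩ := 𝔖.abs K
  refine ⟨a₁, hKa₁, fun a ha₁ hKa R hR hNR => ?_⟩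
  have : Fintype ↥(a.rel K) := Fintype.ofFinite _
  refine ab_absorb_ld (a.rel K) (𝔖.dat a) R hR hNR fun c => ?_
  obtain ⟨n, hn, x, hx⟩ := H a ha₁ hKa c
  refine ⟨n, hn, fun q => 𝔖.tJ hKa q (x q),
    fun q h hh => abs_tJ_invariant 𝔖 hKa q (x q) h hh, ?_⟩
  rw [← hx]
  congr 1
  exact (Finset.sum_subtype (Finset.univ.filter (fun h : a.Γ => h ∈ a.rel K))
    (fun h => by simp) (fun h => (𝔖.dat a).C.ρ h c)).symm

end Fermat.Agent.S55
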