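import Fermat.Agent.S55.Dual.Modules
import Fermat.Agent.S55.Trans.LocH90

/-!
# S55 / [D], leaf D2d (assembly): local vanishing `H¹(G_q, Hom(F, (ℚ̄_q)ˣ)) = 0`

`dm_lv_V1`: hypothesis (V1) of `dm_step2`, from the Shapiro-type vanishing
`LvHom.lvH1_eq_zero_of_stabilizer` for the permutation lattice `F = ℤ[Δ × A]` and the level form of
Hilbert 90 for subgroups of the local Galois group (`tl_locUnits_coboundary`).
`dm_step2'`: step (2) with (V1) discharged.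
-/

set_option autoImplicit false

open ExtCitation CategoryTheory

namespace Fermat.Agent.S55

local notation "GQ" => (AlgebraicClosure ℚ ≃ₐ[ℚ] AlgebraicClosure ℚ)
local notation "Qbar" => AlgebraicClosure ℚ

noncomputable section

section V1

variable {Δ : Type} [Group Δ] (π₀ : GQ →* Δ) (q : Nat.Primes) (A : Rep.{0} ℤ Δ)

/-- The action of the local Galois group on `Δ × A` through `Δ`. -/
@[reducible] def dm_lv_mulAction : MulAction (primeLocalGaloisGroup q) (la_X A) :=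
  MulAction.compHom (la_X A) (π₀.comp (primeLocalToGlobal q))

/-- The permutation basis of `F = ℤ[Δ × A]`. -/
def dm_lv_basis : la_X A → dm_Yl π₀ q (la_F A) := fun t => MonoidAlgebra.single t (1 : ℤ)

theorem dm_lv_basis_smul (g : primeLocalGaloisGroup q) (t : la_X A) :
    g • dm_lv_basis π₀ q A t =
      dm_lv_basis π₀ q A ((dm_lv_mulAction π₀ q A).smul g t) := by
  rw [dm_Yl_smul]
  exact Representation.ofMulAction_single _ _ _

theorem dm_lv_ext_aux {T X : Type*} [AddCommGroup X] (φ ψ : MonoidAlgebra ℤ T →+ X)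
    (h : ∀ t, φ (MonoidAlgebra.single t 1) = ψ (MonoidAlgebra.single t 1)) : φ = ψ := by
  apply MonoidAlgebra.addMonoidHom_ext
  intro x n
  have hx : (MonoidAlgebra.single x n : MonoidAlgebra ℤ T) =
      n • MonoidAlgebra.single x (1 : ℤ) := by
    rw [MonoidAlgebra.smul_single, smul_eq_mul, mul_one]
  rw [hx, map_zsmul, map_zsmul, h x]

theorem dm_lv_lift_aux {T X : Type*} [AddCommGroup X] (f : T → X) :
    ∃ φ : MonoidAlgebra ℤ T →+ X, ∀ t, φ (MonoidAlgebra.single t 1) = f t := by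
  refine ⟨(Finsupp.liftAddHom (fun x : T => zmultiplesHom X (f x))).comp
    (MonoidAlgebra.coeffAddEquiv (R := ℤ) (M := T)).toAddMonoidHom, fun t => ?_⟩
  simp

theorem dm_lv_basis_ext {X : Type*} [AddCommGroup X]
    (φ ψ : LvHom (dm_Yl π₀ q (la_F A)) X)
    (h : ∀ t, φ (dm_lv_basis π₀ q A t) = ψ (dm_lv_basis π₀ q A t)) : φ = ψ := by
  have h1 := dm_lv_ext_aux (show MonoidAlgebra ℤ (la_X A) →+ X from LvHom.toHom φ)
    (show MonoidAlgebra ℤ (la_X A) →+ X from LvHom.toHom ψ) h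
  exact LvHom.ext fun y => DFunLike.congr_fun h1 y

theorem dm_lv_basis_lift {X : Type*} [AddCommGroup X] (f : la_X A → X) :
    ∃ φ : LvHom (dm_Yl π₀ q (la_F A)) X, ∀ t, φ (dm_lv_basis π₀ q A t) = f t := by
  obtain ⟨φ, hφ⟩ := dm_lv_lift_aux (X := X) f
  exact ⟨LvHom.of (show dm_Yl π₀ q (la_F A) →+ X from φ), hφ⟩

/-- **(V1): local vanishing.** `H¹(G_q, Hom(F, (ℚ̄_q)ˣ)) = 0` in level cohomology. -/
theorem dm_lv_V1 (z : lvH1 (tl_levelsLoc q) (dm_Tl π₀ q (la_F A))) : z = 0 := by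
  let _ : MulAction (primeLocalGaloisGroup q) (la_X A) := dm_lv_mulAction π₀ q A
  exact LvHom.lvH1_eq_zero_of_stabilizer (dm_lv_basis π₀ q A)
    (fun g t => dm_lv_basis_smul π₀ q A g t) (tl_levelsLoc q)
    (dm_lv_basis_ext π₀ q A) (dm_lv_basis_lift π₀ q A)
    (fun t c₀ hc hlc => tl_locUnits_coboundary q _ c₀ hc hlc) z

end V1

section Step2

variable {p : ℕ} [Fact p.Prime] (S : Finset Nat.Primes) (hpS : pPrime p ∈ S)
  (M : Rep.{0} (ZMod p) GQ) [FiniteDimensional (ZMod p) M]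
  {Δ : Type} [Group Δ] [Finite Δ] (π₀ : GQ →* Δ) (A : Rep.{0} ℤ Δ)
  (e : A.V ≃+ (M.dualTwist (cycloChar p)).V)
  (he : ∀ (σ : GQ) (a : A.V), e (A.ρ (π₀ σ) a) = (M.dualTwist (cycloChar p)).ρ σ (e a))
  {ζ : Qbar} (hζ : IsPrimitiveRoot ζ p)

/-- **Step (2) of the lattice route, with local vanishing discharged**: `Ш²_S(M)` is `X_R` modulo
the image of `H¹(G_S, T_F)`, provided (V2) localisation is injective on the `p`-torsion of
`H²(G_S, T_F)`. -/
def dm_step2' (hπ₀ : ∃ U ∈ (tl_levelsS S).levels, U ≤ π₀.ker)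
    (V2 : ∀ z : lvH2 (tl_levelsS S) (dm_T S π₀ (la_F A)), p • z = 0 →
      (∀ q : ↥S, (dm_locT S π₀ q.1 (la_F A)).H2 z = 0) → z = 0) :
    ↥(tl_lvSha2 S M) ≃+
      (↥(dm_XR S π₀ A) ⧸
        (((dm_Eglob S hpS M π₀ A e he hζ).mπ (tl_levelsS S)).H1.range).addSubgroupOf
          (dm_XR S π₀ A)) :=
  dm_step2 S hpS M π₀ A e he hζ hπ₀ (fun q z => dm_lv_V1 π₀ q.1 A z) V2

theorem dm_step2'_symm_mk (hπ₀ : ∃ U ∈ (tl_levelsS S).levels, U ≤ π₀.ker)
    (V2 : ∀ z : lvH2 (tl_levelsS S) (dm_T S π₀ (la_F A)), p • z = 0 →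
      (∀ q : ↥S, (dm_locT S π₀ q.1 (la_F A)).H2 z = 0) → z = 0) (x : ↥(dm_XR S π₀ A)) :
    (((dm_step2' S hpS M π₀ A e he hζ hπ₀ V2).symm (QuotientAddGroup.mk x) :
      ↥(tl_lvSha2 S M)) : lvH2 (tl_levelsS S) (tl_Act M)) =
      (dm_Eglob S hpS M π₀ A e he hζ).δ1 (tl_levelsS S) (dm_isSmooth_TF S M π₀ A e hπ₀) x := rfl

end Step2

end

end Fermat.Agent.S55
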