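import Fermat.Agent.S55.Dual.FinDualExtra

/-!
# The abstract duality chase (block [D] of S55, prefix `ac_`)

Pure abelian-group form of the finite-level Poitou–Tate duality.  `P` plays the role of
`H²(Γ, Y)(p)`, `Pq q` of `H²(D_q, Y)(p)`, `C` of `Hom_Γ(Y, C_S(L))`, `J q` of
`Hom_{D_q}(Y, L_q^×)`, `N` of the norm subgroup, `θ`, `θq` of the invariant pairings.
The hypotheses are the `p`-primary Tate–Nakayama statements and the sum formula; the
conclusion identifies the dual of `Z = ⋂ ker (P → Pq q)` with `C` modulo the prime-to-`p`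
saturation of `N + Σ a_q (J q)`.
-/

set_option autoImplicit false

namespace Fermat.Agent.S55

open AddSubgroup

section chase

variable {p : ℕ} [hp : Fact p.Prime]
variable {ι : Type*} [Finite ι]
variable {P : Type*} [AddCommGroup P] [Finite P]
variable {Pq : ι → Type*} [∀ q, AddCommGroup (Pq q)] [∀ q, Finite (Pq q)]
variable {C : Type*} [AddCommGroup C]
variable {J : ι → Type*} [∀ q, AddCommGroup (J q)]

/-- The locally trivial classes. -/
def ac_Z (f : ∀ q, P →+ Pq q) : AddSubgroup P := ⨅ q, (f q).ker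

omit [Finite ι] [Finite P] [∀ q, Finite (Pq q)] in
lemma ac_mem_Z {f : ∀ q, P →+ Pq q} {y : P} : y ∈ ac_Z f ↔ ∀ q, f q y = 0 := by
  simp [ac_Z, AddSubgroup.mem_iInf, AddMonoidHom.mem_ker]

/-- The restricted pairing `C → Z*`. -/
def ac_B (f : ∀ q, P →+ Pq q) (θ : C →+ CharacterModule P) : C →+ CharacterModule (ac_Z f) where
  toFun φ := (θ φ : P →+ AddCircle (1 : ℚ)).comp (ac_Z f).subtype
  map_zero' := by rw [map_zero]; rfl
  map_add' φ φ' := by rw [map_add]; rfl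

omit [Finite ι] [Finite P] [∀ q, Finite (Pq q)] in
@[simp] lemma ac_B_apply (f : ∀ q, P →+ Pq q) (θ : C →+ CharacterModule P) (φ : C)
    (z : ac_Z f) : ac_B f θ φ z = θ φ z := rfl

omit [Finite ι] [∀ q, Finite (Pq q)] in
/-- Global right non-degeneracy gives surjectivity of `C → Z*`. -/
theorem ac_B_surjective (f : ∀ q, P →+ Pq q) (θ : C →+ CharacterModule P)
    (hR : ∀ y : P, (∀ φ, θ φ y = 0) → y = 0) : Function.Surjective (ac_B f θ) := by
  intro χ
  obtain ⟨ξ, hξ⟩ := fdx_restrict_surjective (ac_Z f) χ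
  obtain ⟨φ, rfl⟩ := fd_surjective_of_separating θ hR ξ
  exact ⟨φ, by ext z; exact hξ z⟩

omit [Finite P] in
/-- The kernel of `C → Z*` is the prime-to-`p` saturation of norms plus local images. -/
theorem ac_B_ker (f : ∀ q, P →+ Pq q) (θ : C →+ CharacterModule P)
    (a : ∀ q, J q →+ C) (θq : ∀ q, J q →+ CharacterModule (Pq q)) (N : AddSubgroup C)
    (hP : ∀ y : P, ∃ k : ℕ, p ^ k • y = 0)
    (hN0 : ∀ φ ∈ N, θ φ = 0)
    (hsum : ∀ q (ψ : J q) (y : P), θ (a q ψ) y = θq q ψ (f q y))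
    (hRq : ∀ q (z : Pq q), (∀ ψ, θq q ψ z = 0) → z = 0)
    (hL : ∀ φ, θ φ = 0 → ∃ n : ℕ, ¬ p ∣ n ∧ n • φ ∈ N) :
    (ac_B f θ).ker = fd_pSat p (N ⊔ ⨆ q, (a q).range) := by
  classical
  have : Fintype ι := Fintype.ofFinite ι
  apply le_antisymm
  · intro φ hφ
    -- `θ φ` vanishes on the kernel of `P → ∏ Pq`
    let F : P →+ ((q : ι) → Pq q) := AddMonoidHom.pi f
    have hvan : ∀ y, F y = 0 → θ φ y = 0 := by
      intro y hy
      have hyZ : y ∈ ac_Z f := ac_mem_Z.mpr fun q => congrFun hy q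
      exact DFunLike.congr_fun (AddMonoidHom.mem_ker.mp hφ) ⟨y, hyZ⟩
    obtain ⟨ξ, hξ⟩ := fd_factor F (θ φ) hvan
    -- components of `ξ` are local pairings
    have hloc : ∀ q, ∃ ψ : J q, θq q ψ =
        (ξ : ((q : ι) → Pq q) →+ AddCircle (1 : ℚ)).comp (AddMonoidHom.single Pq q) := fun q =>
      fd_surjective_of_separating (θq q) (hRq q) _
    choose ψ hψ using hloc
    have hξsum : ∀ y, θ φ y = θ (∑ q, a q (ψ q)) y := by
      intro y
      rw [← hξ y]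
      have hdec : F y = ∑ q, Pi.single q (f q y) := by
        rw [Finset.univ_sum_single]
        rfl
      have hθ : θ (∑ q, a q (ψ q)) y = ∑ q, θ (a q (ψ q)) y := by
        rw [map_sum]
        exact map_sum (fd_eval y) _ _
      rw [hdec, map_sum, hθ]
      refine Finset.sum_congr rfl fun q _ => ?_
      rw [hsum, hψ]
      rfl
    have hzero : θ (φ - ∑ q, a q (ψ q)) = 0 := by
      ext y
      rw [map_sub]
      show θ φ y - θ (∑ q, a q (ψ q)) y = 0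
      rw [hξsum y, sub_self]
    obtain ⟨n, hn, hnN⟩ := hL _ hzero
    refine ⟨n, hn, ?_⟩
    have : n • φ = n • (φ - ∑ q, a q (ψ q)) + n • ∑ q, a q (ψ q) := by
      rw [← smul_add, sub_add_cancel]
    rw [this]
    refine add_mem (mem_sup_left hnN) (mem_sup_right ?_)
    refine nsmul_mem (sum_mem fun q _ => ?_) n
    exact (le_iSup (fun q => (a q).range) q) ⟨ψ q, rfl⟩
  · rw [fdx_pSat_le_iff]
    · rw [sup_le_iff, iSup_le_iff]
      refine ⟨fun φ hφ => ?_, fun q => ?_⟩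
      · rw [AddMonoidHom.mem_ker]
        ext z
        rw [ac_B_apply, hN0 φ hφ]
        rfl
      · rintro _ ⟨ψ, rfl⟩
        rw [AddMonoidHom.mem_ker]
        ext z
        rw [ac_B_apply, hsum, ac_mem_Z.mp z.2 q, map_zero]
        rfl
    · intro φ n hn hnφ
      rw [AddMonoidHom.mem_ker] at hnφ ⊢
      ext z
      obtain ⟨k, hk⟩ := hP z
      have h1 : n • (ac_B f θ φ z) = 0 := by
        have := DFunLike.congr_fun hnφ z
        rw [map_nsmul] at this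
        exact this
      have h2 : p ^ k • (ac_B f θ φ z) = 0 := by
        rw [← map_nsmul]
        have : p ^ k • z = 0 := Subtype.ext hk
        rw [this, map_zero]
      exact fd_eq_zero_of_coprime p h2 hn h1

end chase

section adjoint

variable {ι : Type*}
variable {P₁ P₂ : Type*} [AddCommGroup P₁] [Finite P₁] [AddCommGroup P₂] [Finite P₂]
variable {Pq₁ Pq₂ : ι → Type*} [∀ q, AddCommGroup (Pq₁ q)] [∀ q, AddCommGroup (Pq₂ q)]
variable {C₁ C₂ : Type*} [AddCommGroup C₁] [AddCommGroup C₂]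

/-- Two chases linked by adjoint maps `u : P₁ → P₂`, `v : C₂ → C₁`: the kernel of `u` on locally
trivial classes is counted by a quotient of `C₁`. -/
theorem ac_card_ker (f₁ : ∀ q, P₁ →+ Pq₁ q) (f₂ : ∀ q, P₂ →+ Pq₂ q)
    (θ₁ : C₁ →+ CharacterModule P₁) (θ₂ : C₂ →+ CharacterModule P₂)
    (hR₁ : ∀ y : P₁, (∀ φ, θ₁ φ y = 0) → y = 0) (hR₂ : ∀ y : P₂, (∀ φ, θ₂ φ y = 0) → y = 0)
    (u : P₁ →+ P₂) (v : C₂ →+ C₁) (hu : ∀ y ∈ ac_Z f₁, u y ∈ ac_Z f₂)
    (hadj : ∀ φ y, θ₁ (v φ) y = θ₂ φ (u y)) :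
    Nat.card {y : P₁ // (∀ q, f₁ q y = 0) ∧ u y = 0} =
      Nat.card (C₁ ⧸ ((ac_B f₁ θ₁).ker ⊔ v.range)) := by
  let u' : ac_Z f₁ →+ ac_Z f₂ := (u.comp (ac_Z f₁).subtype).codRestrict (ac_Z f₂)
    (fun y => hu y.1 y.2)
  have h := fdx_card_ker_eq_card_coker (ac_B f₁ θ₁) (ac_B f₂ θ₂) (ac_B_surjective f₁ θ₁ hR₁)
    (ac_B_surjective f₂ θ₂ hR₂) u' v (fun φ z => hadj φ z.1)
  rw [← h]
  apply Nat.card_congr
  refine
    { toFun := fun y => ⟨⟨y.1, ac_mem_Z.mpr y.2.1⟩, ?_⟩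
      invFun := fun z => ⟨z.1.1, ac_mem_Z.mp z.1.2, ?_⟩
      left_inv := fun y => rfl
      right_inv := fun z => rfl }
  · rw [AddMonoidHom.mem_ker]
    exact Subtype.ext y.2.2
  · have := AddMonoidHom.mem_ker.mp z.2
    exact congrArg Subtype.val this

omit [Finite P₁] in
/-- If `n` kills the locally trivial classes in the kernel of `u`, it kills the counting
quotient of `ac_card_ker`. -/
theorem ac_smul_mem (f₁ : ∀ q, P₁ →+ Pq₁ q) (f₂ : ∀ q, P₂ →+ Pq₂ q)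
    (θ₁ : C₁ →+ CharacterModule P₁) (θ₂ : C₂ →+ CharacterModule P₂)
    (hR₂ : ∀ y : P₂, (∀ φ, θ₂ φ y = 0) → y = 0)
    (u : P₁ →+ P₂) (v : C₂ →+ C₁) (hu : ∀ y ∈ ac_Z f₁, u y ∈ ac_Z f₂)
    (hadj : ∀ φ y, θ₁ (v φ) y = θ₂ φ (u y))
    (n : ℕ) (hn : ∀ y : P₁, (∀ q, f₁ q y = 0) → u y = 0 → n • y = 0) (φ : C₁) :
    n • φ ∈ (ac_B f₁ θ₁).ker ⊔ v.range := by
  let u' : ac_Z f₁ →+ ac_Z f₂ := (u.comp (ac_Z f₁).subtype).codRestrict (ac_Z f₂)
    (fun y => hu y.1 y.2)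
  refine fdx_smul_mem_of_ker_killed (ac_B f₁ θ₁) (ac_B f₂ θ₂)
    (ac_B_surjective f₂ θ₂ hR₂) u' v (fun φ z => hadj φ z.1) n ?_ φ
  intro z hz
  apply Subtype.ext
  exact hn z.1 (ac_mem_Z.mp z.2) (congrArg Subtype.val hz)

end adjoint

end Fermat.Agent.S55
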