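import Fermat.Agent.S55.Tate.ClassModule
import Fermat.Agent.S55.Dual.AbstractChase

/-!
# Finite-level duality (block [D] of S55, prefix `ld_`)

The abstract chase of `Dual/AbstractChase.lean` instantiated with `PClassModule` data
(seam A) for a global class module `C` over a finite group `Γ` and semi-local modules
`Jq q ⟶ C` with local class modules `Xq q` over the decomposition groups `D q`.

For a lattice `Y` the dual of the `p`-primary locally trivial classes of `H²(Γ, Y)` is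
`Hom_Γ(Y, C)` modulo the prime-to-`p` saturation of norms plus local images, and for a map of
lattices `i : R ⟶ F` the kernel of `i_*` on these classes is counted by a quotient of
`Hom_Γ(R, C)`.
-/

set_option autoImplicit false

namespace Fermat.Agent.S55

open CategoryTheory groupCohomology

section coeff

variable {k Γ : Type} [CommRing k] [Group Γ]

theorem ld_coeffMap_add {Y C : Rep.{0} k Γ} (φ ψ : Y ⟶ C) (n : ℕ) :
    tt_coeffMap (φ + ψ) n = tt_coeffMap φ n + tt_coeffMap ψ n := by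
  have h : cochainsMap (MonoidHom.id Γ) (φ + ψ) =
      cochainsMap (MonoidHom.id Γ) φ + cochainsMap (MonoidHom.id Γ) ψ :=
    (cochainsFunctor k Γ).map_add
  show HomologicalComplex.homologyMap (cochainsMap (MonoidHom.id Γ) (φ + ψ)) n = _
  rw [h, HomologicalComplex.homologyMap_add]
  rfl

theorem ld_coeffMap_zero {Y C : Rep.{0} k Γ} (n : ℕ) :
    tt_coeffMap (0 : Y ⟶ C) n = 0 :=
  (functor k Γ n).map_zero _ _

theorem ld_coeffMap_comp {Y Y' C : Rep.{0} k Γ} (φ : Y ⟶ Y') (ψ : Y' ⟶ C) (n : ℕ) :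
    tt_coeffMap (φ ≫ ψ) n = tt_coeffMap φ n ≫ tt_coeffMap ψ n :=
  map_id_comp φ ψ n

theorem ld_coeffMap_comp_apply {Y Y' C : Rep.{0} k Γ} (φ : Y ⟶ Y') (ψ : Y' ⟶ C) (n : ℕ)
    (y : groupCohomology Y n) :
    (tt_coeffMap (φ ≫ ψ) n).hom y = (tt_coeffMap ψ n).hom ((tt_coeffMap φ n).hom y) := by
  rw [ld_coeffMap_comp]
  rfl

/-- Restriction commutes with coefficient maps. -/
theorem ld_resMap_coeffMap (H : Subgroup Γ) {Y C : Rep.{0} k Γ} (φ : Y ⟶ C) (n : ℕ)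
    (y : groupCohomology Y n) :
    (tt_resMap H C n).hom ((tt_coeffMap φ n).hom y) =
      (tt_coeffMap ((Rep.resFunctor H.subtype).map φ) n).hom ((tt_resMap H Y n).hom y) := by
  have := (resNatTrans k H.subtype n).naturality φ
  exact congrArg (fun f => f.hom y) this

end coeff

section data

variable {Γ : Type} [Group Γ]

/-- Seam G → D at one finite level: a global `p`-class module with semi-local modules and local
`p`-class modules on decomposition groups, with Frobenius reciprocity and the sum formula. -/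
structure ld_Data (p : ℕ) (Γ : Type) [Group Γ] (ι : Type) where
  C : Rep.{0} ℤ Γ
  P : PClassModule p C
  D : ι → Subgroup Γ
  Jq : ι → Rep.{0} ℤ Γ
  j : ∀ q, Jq q ⟶ C
  Xq : ∀ q, Rep.{0} ℤ (D q)
  Pq : ∀ q, PClassModule p (Xq q)
  pr : ∀ q, tt_res (D q) (Jq q) ⟶ Xq q
  frob : ∀ q (Y : Rep.{0} ℤ Γ) (ψ' : tt_res (D q) Y ⟶ Xq q),
    ∃ ψ : Y ⟶ Jq q, (Rep.resFunctor (D q).subtype).map ψ ≫ pr q = ψ'
  sum : ∀ q (z : groupCohomology (Jq q) 2), tt_IsPPrimary p z →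
    P.invTop ((tt_coeffMap (j q) 2).hom z) =
      (Pq q).invTop ((tt_coeffMap (pr q) 2).hom ((tt_resMap (D q) (Jq q) 2).hom z))

/-- `ℤ`-free of finite rank, in the instance-free form of seam A. -/
def ld_IsLattice {G : Type} [Group G] (Y : Rep.{0} ℤ G) : Prop :=
  ∃ n : ℕ, Nonempty (Y.V ≃+ (Fin n → ℤ))

lemma ld_isLattice_res {G : Type} [Group G] (H : Subgroup G) {Y : Rep.{0} ℤ G}
    (hY : ld_IsLattice Y) : ld_IsLattice (tt_res H Y) := hY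

variable {p : ℕ} {ι : Type} (𝔻 : ld_Data p Γ ι)

/-- Right Tate–Nakayama non-degeneracy for a class module, as a hypothesis. -/
def ld_TNR {G : Type} [Group G] {C : Rep.{0} ℤ G} (P : PClassModule p C) : Prop :=
  ∀ Y : Rep.{0} ℤ G, ld_IsLattice Y → ∀ y : groupCohomology Y 2, tt_IsPPrimary p y →
    (∀ φ : Y ⟶ C, P.pairing φ y = 0) → y = 0

/-- The norm subgroup of `Hom_Γ(Y, C)`. -/
def ld_Nrm [Fintype Γ] (Y C : Rep.{0} ℤ Γ) : AddSubgroup (Y ⟶ C) where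
  carrier := {φ | ∃ ψ : Y.V →+ C.V, ∀ y, φ.hom y = ∑ g : Γ, C.ρ g (ψ (Y.ρ g⁻¹ y))}
  zero_mem' := ⟨0, fun y => by simp⟩
  add_mem' := by
    rintro φ φ' ⟨ψ, hψ⟩ ⟨ψ', hψ'⟩
    refine ⟨ψ + ψ', fun y => ?_⟩
    have : (φ + φ').hom y = φ.hom y + φ'.hom y := rfl
    rw [this, hψ, hψ', ← Finset.sum_add_distrib]
    refine Finset.sum_congr rfl fun g _ => ?_
    rw [AddMonoidHom.add_apply, map_add]
  neg_mem' := by
    rintro φ ⟨ψ, hψ⟩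
    refine ⟨-ψ, fun y => ?_⟩
    have : (-φ).hom y = -(φ.hom y) := rfl
    rw [this, hψ, ← Finset.sum_neg_distrib]
    refine Finset.sum_congr rfl fun g _ => ?_
    rw [AddMonoidHom.neg_apply, map_neg]

/-- Left Tate–Nakayama non-degeneracy for a class module, as a hypothesis. -/
def ld_TNL [Fintype Γ] {C : Rep.{0} ℤ Γ} (P : PClassModule p C) : Prop :=
  ∀ Y : Rep.{0} ℤ Γ, ld_IsLattice Y → ∀ φ : Y ⟶ C,
    (∀ y : groupCohomology Y 2, tt_IsPPrimary p y → P.pairing φ y = 0) →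
    ∃ n : ℕ, ¬ p ∣ n ∧ n • φ ∈ ld_Nrm Y C

/-- Norms induce zero on `H²`, as a hypothesis. -/
def ld_NrmZero [Fintype Γ] (C : Rep.{0} ℤ Γ) : Prop :=
  ∀ (Y : Rep.{0} ℤ Γ) (φ : Y ⟶ C), φ ∈ ld_Nrm Y C → tt_coeffMap φ 2 = 0

end data

section chase

variable {Γ : Type} [Group Γ] {p : ℕ} {ι : Type} (𝔻 : ld_Data p Γ ι) (Y : Rep.{0} ℤ Γ)

/-- `H²(Γ, Y)(p)`. -/
abbrev ld_P : Type := fd_pPrimary p (groupCohomology Y 2)

/-- `H²(D_q, Y)(p)`. -/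
abbrev ld_Pq (q : ι) : Type := fd_pPrimary p (groupCohomology (tt_res (𝔻.D q) Y) 2)

/-- Restriction to the decomposition groups on `p`-primary parts. -/
noncomputable def ld_f (q : ι) : ld_P (p := p) Y →+ ld_Pq 𝔻 Y q :=
  fd_pMap p (tt_resMap (𝔻.D q) Y 2).hom.toAddMonoidHom

/-- The global pairing `Hom_Γ(Y, C) → H²(Γ, Y)(p)*`. -/
noncomputable def ld_θ : (Y ⟶ 𝔻.C) →+ CharacterModule (ld_P (p := p) Y) where
  toFun φ := (𝔻.P.pairing φ).comp (fd_pPrimary p (groupCohomology Y 2)).subtype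
  map_zero' := by
    ext y
    show 𝔻.P.invTop ((tt_coeffMap (0 : Y ⟶ 𝔻.C) 2).hom y.1) = 0
    rw [ld_coeffMap_zero]
    exact map_zero _
  map_add' φ φ' := by
    ext y
    show 𝔻.P.invTop ((tt_coeffMap (φ + φ') 2).hom y.1) =
      𝔻.P.invTop ((tt_coeffMap φ 2).hom y.1) + 𝔻.P.invTop ((tt_coeffMap φ' 2).hom y.1)
    rw [ld_coeffMap_add, ← map_add]
    rfl

lemma ld_θ_apply (φ : Y ⟶ 𝔻.C) (y : ld_P (p := p) Y) :
    ld_θ 𝔻 Y φ y = 𝔻.P.invTop ((tt_coeffMap φ 2).hom y.1) := rfl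

/-- The semi-local pairing `Hom_Γ(Y, J_q) → H²(D_q, Y)(p)*`. -/
noncomputable def ld_θq (q : ι) : (Y ⟶ 𝔻.Jq q) →+ CharacterModule (ld_Pq 𝔻 Y q) where
  toFun ψ := ((𝔻.Pq q).pairing ((Rep.resFunctor (𝔻.D q).subtype).map ψ ≫ 𝔻.pr q)).comp
    (fd_pPrimary p (groupCohomology (tt_res (𝔻.D q) Y) 2)).subtype
  map_zero' := by
    ext z
    show (𝔻.Pq q).invTop ((tt_coeffMap
      ((Rep.resFunctor (𝔻.D q).subtype).map (0 : Y ⟶ 𝔻.Jq q) ≫ 𝔻.pr q) 2).hom z.1) = 0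
    rw [Functor.map_zero, Limits.zero_comp, ld_coeffMap_zero]
    exact map_zero _
  map_add' ψ ψ' := by
    ext z
    show (𝔻.Pq q).invTop ((tt_coeffMap
      ((Rep.resFunctor (𝔻.D q).subtype).map (ψ + ψ') ≫ 𝔻.pr q) 2).hom z.1) =
      (𝔻.Pq q).invTop ((tt_coeffMap
        ((Rep.resFunctor (𝔻.D q).subtype).map ψ ≫ 𝔻.pr q) 2).hom z.1) +
      (𝔻.Pq q).invTop ((tt_coeffMap
        ((Rep.resFunctor (𝔻.D q).subtype).map ψ' ≫ 𝔻.pr q) 2).hom z.1)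
    rw [Functor.map_add, Preadditive.add_comp, ld_coeffMap_add, ← map_add]
    rfl

lemma ld_θq_apply (q : ι) (ψ : Y ⟶ 𝔻.Jq q) (z : ld_Pq 𝔻 Y q) :
    ld_θq 𝔻 Y q ψ z = (𝔻.Pq q).invTop ((tt_coeffMap
      ((Rep.resFunctor (𝔻.D q).subtype).map ψ ≫ 𝔻.pr q) 2).hom z.1) := rfl

/-- Composition with `j q`. -/
def ld_a (q : ι) : (Y ⟶ 𝔻.Jq q) →+ (Y ⟶ 𝔻.C) where
  toFun ψ := ψ ≫ 𝔻.j q
  map_zero' := Limits.zero_comp
  map_add' _ _ := Preadditive.add_comp _ _ _ _ _ _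

/-- The sum formula in chase form. -/
theorem ld_sum (q : ι) (ψ : Y ⟶ 𝔻.Jq q) (y : ld_P (p := p) Y) :
    ld_θ 𝔻 Y (ld_a 𝔻 Y q ψ) y = ld_θq 𝔻 Y q ψ (ld_f 𝔻 Y q y) := by
  rw [ld_θ_apply, ld_θq_apply]
  show 𝔻.P.invTop ((tt_coeffMap (ψ ≫ 𝔻.j q) 2).hom y.1) = _
  have hz : tt_IsPPrimary p ((tt_coeffMap ψ 2).hom y.1) :=
    tt_isPPrimary_map (tt_coeffMap ψ 2).hom.toAddMonoidHom y.2
  rw [ld_coeffMap_comp_apply, 𝔻.sum q _ hz, ld_resMap_coeffMap, ld_coeffMap_comp_apply]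
  rfl

end chase

section main

variable {Γ : Type} [Group Γ] [Fintype Γ] {p : ℕ} [hp : Fact p.Prime] {ι : Type} [Finite ι]
  (𝔻 : ld_Data p Γ ι)

/-- The `p`-primary locally trivial classes of `H²(Γ, Y)`. -/
noncomputable abbrev ld_Z (Y : Rep.{0} ℤ Γ) : AddSubgroup (ld_P (p := p) Y) := ac_Z (ld_f 𝔻 Y)

/-- The subgroup of `Hom_Γ(Y, C)` generated by the semi-local images. -/
def ld_Loc (Y : Rep.{0} ℤ Γ) : AddSubgroup (Y ⟶ 𝔻.C) := ⨆ q, (ld_a 𝔻 Y q).range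

/-- The duality pairing `Hom_Γ(Y, C) → Z(Y)*`. -/
noncomputable abbrev ld_B (Y : Rep.{0} ℤ Γ) : (Y ⟶ 𝔻.C) →+ CharacterModule (ld_Z 𝔻 Y) :=
  ac_B (ld_f 𝔻 Y) (ld_θ 𝔻 Y)

omit [Fintype Γ] [Finite ι] hp in
lemma ld_right (Y : Rep.{0} ℤ Γ) (hY : ld_IsLattice Y) (hR : ld_TNR 𝔻.P) (y : ld_P (p := p) Y)
    (h : ∀ φ, ld_θ 𝔻 Y φ y = 0) : y = 0 :=
  Subtype.ext (hR Y hY y.1 y.2 h)

omit [Fintype Γ] [Finite ι] hp in
theorem ld_B_surjective (Y : Rep.{0} ℤ Γ) (hY : ld_IsLattice Y) [Finite (groupCohomology Y 2)]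
    (hR : ld_TNR 𝔻.P) : Function.Surjective (ld_B 𝔻 Y) :=
  ac_B_surjective (ld_f 𝔻 Y) (ld_θ 𝔻 Y) (ld_right 𝔻 Y hY hR)

theorem ld_B_ker (Y : Rep.{0} ℤ Γ) (hY : ld_IsLattice Y)
    [∀ q, Finite (groupCohomology (tt_res (𝔻.D q) Y) 2)]
    (hL : ld_TNL 𝔻.P) (hN : ld_NrmZero 𝔻.C) (hRq : ∀ q, ld_TNR (𝔻.Pq q)) :
    (ld_B 𝔻 Y).ker = fd_pSat p (ld_Nrm Y 𝔻.C ⊔ ld_Loc 𝔻 Y) := by
  refine ac_B_ker (ld_f 𝔻 Y) (ld_θ 𝔻 Y) (ld_a 𝔻 Y) (ld_θq 𝔻 Y) (ld_Nrm Y 𝔻.C) ?_ ?_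
    (ld_sum 𝔻 Y) ?_ ?_
  · rintro ⟨y, k, hk⟩
    exact ⟨k, Subtype.ext hk⟩
  · intro φ hφ
    ext y
    rw [ld_θ_apply, hN Y φ hφ]
    exact map_zero _
  · intro q z hz
    apply Subtype.ext
    refine hRq q (tt_res (𝔻.D q) Y) (ld_isLattice_res _ hY) z.1 z.2 fun ψ' => ?_
    obtain ⟨ψ, rfl⟩ := 𝔻.frob q Y ψ'
    exact hz ψ
  · intro φ hφ
    refine hL Y hY φ fun y hy => ?_
    exact DFunLike.congr_fun hφ ⟨y, hy⟩

/-- Precomposition with a map of lattices. -/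
def ld_pre {R F : Rep.{0} ℤ Γ} (i : R ⟶ F) : (F ⟶ 𝔻.C) →+ (R ⟶ 𝔻.C) where
  toFun φ := i ≫ φ
  map_zero' := Limits.comp_zero
  map_add' _ _ := Preadditive.comp_add _ _ _ _ _ _

/-- **Finite-level duality count.**  For a map of lattices `i : R ⟶ F`, the `p`-primary locally
trivial classes of `H²(Γ, R)` killed by `i_*` are counted by a quotient of `Hom_Γ(R, C)`. -/
theorem ld_card {R F : Rep.{0} ℤ Γ} (i : R ⟶ F) (hR : ld_IsLattice R) (hF : ld_IsLattice F)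
    [Finite (groupCohomology R 2)] [Finite (groupCohomology F 2)]
    [∀ q, Finite (groupCohomology (tt_res (𝔻.D q) R) 2)]
    (hTR : ld_TNR 𝔻.P) (hTL : ld_TNL 𝔻.P) (hN : ld_NrmZero 𝔻.C)
    (hRq : ∀ q, ld_TNR (𝔻.Pq q)) :
    Nat.card {y : ld_P (p := p) R // (∀ q, ld_f 𝔻 R q y = 0) ∧
        fd_pMap p (tt_coeffMap i 2).hom.toAddMonoidHom y = 0} =
      Nat.card ((R ⟶ 𝔻.C) ⧸
        (fd_pSat p (ld_Nrm R 𝔻.C ⊔ ld_Loc 𝔻 R) ⊔ (ld_pre 𝔻 i).range)) := by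
  rw [← ld_B_ker 𝔻 R hR hTL hN hRq]
  refine ac_card_ker (ld_f 𝔻 R) (ld_f 𝔻 F) (ld_θ 𝔻 R) (ld_θ 𝔻 F) (ld_right 𝔻 R hR hTR)
    (ld_right 𝔻 F hF hTR) (fd_pMap p (tt_coeffMap i 2).hom.toAddMonoidHom) (ld_pre 𝔻 i) ?_ ?_
  · intro y hy
    rw [ac_mem_Z] at hy ⊢
    intro q
    apply Subtype.ext
    show (tt_resMap (𝔻.D q) F 2).hom ((tt_coeffMap i 2).hom y.1) = 0
    rw [ld_resMap_coeffMap]
    have h0 : (tt_resMap (𝔻.D q) R 2).hom y.1 = 0 := congrArg Subtype.val (hy q)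
    rw [h0, map_zero]
  · intro φ y
    rw [ld_θ_apply, ld_θ_apply]
    show 𝔻.P.invTop ((tt_coeffMap (i ≫ φ) 2).hom y.1) = _
    rw [ld_coeffMap_comp_apply]
    rfl

/-- If `n` kills the classes counted in `ld_card`, then `n` kills the counting quotient. -/
theorem ld_smul_mem {R F : Rep.{0} ℤ Γ} (i : R ⟶ F) (hR : ld_IsLattice R) (hF : ld_IsLattice F)
    [Finite (groupCohomology F 2)]
    [∀ q, Finite (groupCohomology (tt_res (𝔻.D q) R) 2)]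
    (hTR : ld_TNR 𝔻.P) (hTL : ld_TNL 𝔻.P) (hN : ld_NrmZero 𝔻.C)
    (hRq : ∀ q, ld_TNR (𝔻.Pq q)) (n : ℕ)
    (hn : ∀ y : ld_P (p := p) R, (∀ q, ld_f 𝔻 R q y = 0) →
      fd_pMap p (tt_coeffMap i 2).hom.toAddMonoidHom y = 0 → n • y = 0)
    (φ : R ⟶ 𝔻.C) :
    n • φ ∈ fd_pSat p (ld_Nrm R 𝔻.C ⊔ ld_Loc 𝔻 R) ⊔ (ld_pre 𝔻 i).range := by
  rw [← ld_B_ker 𝔻 R hR hTL hN hRq]
  refine ac_smul_mem (ld_f 𝔻 R) (ld_f 𝔻 F) (ld_θ 𝔻 R) (ld_θ 𝔻 F)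
    (ld_right 𝔻 F hF hTR) (fd_pMap p (tt_coeffMap i 2).hom.toAddMonoidHom) (ld_pre 𝔻 i) ?_ ?_
    n hn φ
  · intro y hy
    rw [ac_mem_Z] at hy ⊢
    intro q
    apply Subtype.ext
    show (tt_resMap (𝔻.D q) F 2).hom ((tt_coeffMap i 2).hom y.1) = 0
    rw [ld_resMap_coeffMap]
    have h0 : (tt_resMap (𝔻.D q) R 2).hom y.1 = 0 := congrArg Subtype.val (hy q)
    rw [h0, map_zero]
  · intro φ y
    rw [ld_θ_apply, ld_θ_apply]
    show 𝔻.P.invTop ((tt_coeffMap (i ≫ φ) 2).hom y.1) = _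
    rw [ld_coeffMap_comp_apply]
    rfl

end main

end Fermat.Agent.S55
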