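import Fermat.Agent.S55.Tate.TateNakayama
import Fermat.Agent.S55.Dual.LevelDuality

/-!
# The Tate–Nakayama hypotheses of `Dual/LevelDuality.lean` (S55, seam A → D)

`ld_TNR P`, `ld_TNL P` and `ld_NrmZero C` hold for every `p`-class module on a finite group:
restatements of `tt_TN_right`, `tt_TN_left` (`Tate/TateNakayama.lean`) and
`fh_coeffMap_eq_zero_of_norm` (`FinGrp/FiniteH2.lean`).
-/

set_option autoImplicit false

namespace Fermat.Agent.S55

open CategoryTheory groupCohomology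

variable {Γ : Type} [Group Γ] {p : ℕ} [Fact p.Prime] {C : Rep.{0} ℤ Γ}

/-- right Tate–Nakayama non-degeneracy -/
theorem tnb_TNR [Finite Γ] (P : PClassModule p C) : ld_TNR P := by
  have : Fintype Γ := Fintype.ofFinite Γ
  intro Y hY y hy h
  exact tt_TN_right P Y hY y hy h

/-- left Tate–Nakayama non-degeneracy -/
theorem tnb_TNL [Fintype Γ] (P : PClassModule p C) : ld_TNL P := by
  intro Y hY φ h
  obtain ⟨n, hn, ψ, hψ⟩ := tt_TN_left P Y hY φ h
  refine ⟨n, hn, ψ, fun y => ?_⟩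
  rw [tn_nsmul_hom]
  exact hψ y

omit [Fact p.Prime] in
/-- norms induce zero on `H²` -/
theorem tnb_NrmZero [Fintype Γ] (C : Rep.{0} ℤ Γ) : ld_NrmZero C := by
  rintro Y φ ⟨ψ, hψ⟩
  exact fh_coeffMap_eq_zero_of_norm Y C φ ψ hψ

end Fermat.Agent.S55
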