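import Fermat.Agent.S55.Dual.Final
import Fermat.Agent.S55.Dual.TNBridge
import Fermat.Agent.S55.Dual.AbsorbSeam
import Fermat.Agent.S55.Dual.LocalVanish

/-!
# S55 from the seam, (B-inj) and the `X`-side map (block [D] of S55, prefix `du_`)

`du_result'`: the statement of S55 from
* a term `𝔖 : du_Seam p S` (block [G]),
* (V2) = (B-inj): localisation is injective on the `p`-torsion of `H²(G_S, T_F)`,
* (D3X): for every level `a ≥ K` a surjection `Φ_a : 𝒞^∞_R(a) → X_R ⧸ im H¹(G_S, T_F)` with kernel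
  `(Loc ⊔ i^*𝒞^∞_F(a)) ∩ 𝒞^∞_R(a)`.

Tate–Nakayama (`tnb_TNR`, `tnb_TNL`), absorption (`ab_seam`) and Step 2 (`dm_step2'`) are plugged
in here.
-/

set_option autoImplicit false

open CategoryTheory groupCohomology ExtCitation

namespace Fermat.Agent.S55

local notation "Qbar" => AlgebraicClosure ℚ
local notation "GQ" => (AlgebraicClosure ℚ ≃ₐ[ℚ] AlgebraicClosure ℚ)

section Assemble

variable {p : ℕ} [hp : Fact p.Prime] {S : Finset Nat.Primes} (𝔖 : du_Seam p S)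

/-- Tate–Nakayama for all the class modules of the seam. -/
theorem du_TN (a : du_Lev S) : ld_TNR (𝔖.dat a).P ∧ ld_TNL (𝔖.dat a).P ∧
    ∀ q, ld_TNR ((𝔖.dat a).Pq q) :=
  ⟨tnb_TNR _, tnb_TNL _, fun _ => tnb_TNR _⟩

variable (M : Rep.{0} (ZMod p) GQ) [FiniteDimensional (ZMod p) M] (K : du_Lev S)
  (hA : ∀ σ ∈ K.L.fixingSubgroup, ∀ x : (M.dualTwist (cycloChar p)).V,
    (M.dualTwist (cycloChar p)).ρ σ x = x)

/-- The hypothesis `hπ₀` of Step 2 for `π₀ = K.q`. -/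
lemma du_hπ₀ : ∃ U ∈ (tl_levelsS S).levels, U ≤ K.q.ker :=
  ⟨K.L.fixingSubgroup, K.fixingSubgroup_mem_levels, (du_Lev.ker_q K).ge⟩

/-- The target of the `X`-side map: `X_R ⧸ im H¹(G_S, T_F)` for the resolution of
`M^*(1)` over `Γ_K`. -/
abbrev du_XT (hpS : pPrime p ∈ S) {ζ : Qbar} (hζ : IsPrimitiveRoot ζ p) : Type :=
  ↥(dm_XR S K.q (du_AK (M.dualTwist (cycloChar p)) K hA)) ⧸
    (((dm_Eglob S hpS M K.q (du_AK (M.dualTwist (cycloChar p)) K hA)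
      (tl_sf_descE (M.dualTwist (cycloChar p)) K.L hA)
      (tl_sf_descE_apply (M.dualTwist (cycloChar p)) K.L hA) hζ).mπ
        (tl_levelsS S)).H1.range).addSubgroupOf
      (dm_XR S K.q (du_AK (M.dualTwist (cycloChar p)) K hA))

/-- (V2) = (B-inj) for the resolution of `M^*(1)` over `Γ_K`. -/
def du_V2 : Prop :=
  ∀ z : lvH2 (tl_levelsS S)
      (dm_T S K.q (la_F (du_AK (M.dualTwist (cycloChar p)) K hA))), p • z = 0 →
    (∀ q : ↥S, (dm_locT S K.q q.1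
      (la_F (du_AK (M.dualTwist (cycloChar p)) K hA))).H2 z = 0) → z = 0

/-- (D3X) at the level `a ≥ K`. -/
def du_D3X (hpS : pPrime p ∈ S) {ζ : Qbar} (hζ : IsPrimitiveRoot ζ p) {a : du_Lev S}
    (h : K ≤ a) : Prop :=
  ∃ Φ : ↥(du_Cinf 𝔖 a (du_R (M.dualTwist (cycloChar p)) K hA h)) →+
      du_XT M K hA hpS hζ,
    Function.Surjective Φ ∧ ∀ φ, Φ φ = 0 ↔
      (φ : du_R (M.dualTwist (cycloChar p)) K hA h ⟶ (𝔖.dat a).C) ∈
        ld_Loc (𝔖.dat a) (du_R (M.dualTwist (cycloChar p)) K hA h) ⊔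
          du_Vinf 𝔖 a (du_i (M.dualTwist (cycloChar p)) K hA h)

/-- (I4) from (V2) and (D3X). -/
theorem du_hX_of (hpS : pPrime p ∈ S) {ζ : Qbar} (hζ : IsPrimitiveRoot ζ p)
    (V2 : du_V2 M K hA) {a : du_Lev S} (h : K ≤ a) (hx : du_D3X 𝔖 M K hA hpS hζ h) :
    Nonempty (↥(tl_lvSha2 S M) ≃+ du_XQ 𝔖 (M.dualTwist (cycloChar p)) K hA h) := by
  obtain ⟨Φ, hsurj, hker⟩ := hx
  have e2 := dm_step2' S hpS M K.q (du_AK (M.dualTwist (cycloChar p)) K hA)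
    (tl_sf_descE (M.dualTwist (cycloChar p)) K.L hA)
    (tl_sf_descE_apply (M.dualTwist (cycloChar p)) K.L hA) hζ (du_hπ₀ K) V2
  have hk : Φ.ker = (ld_Loc (𝔖.dat a) (du_R (M.dualTwist (cycloChar p)) K hA h) ⊔
      du_Vinf 𝔖 a (du_i (M.dualTwist (cycloChar p)) K hA h)).addSubgroupOf
        (du_Cinf 𝔖 a (du_R (M.dualTwist (cycloChar p)) K hA h)) := by
    ext φ
    rw [AddMonoidHom.mem_ker, hker, AddSubgroup.mem_addSubgroupOf]
  have e3 := QuotientAddGroup.quotientKerEquivOfSurjective Φ hsurj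
  exact ⟨e2.trans (e3.symm.trans (QuotientAddGroup.quotientAddEquivOfEq hk))⟩

end Assemble

section Result

variable {p : ℕ} [Fact p.Prime]

/-- **S55 from the seam, (B-inj) and (D3X).** -/
theorem du_result' (hp2 : p ≠ 2) (S : Finset Nat.Primes) (hpS : pPrime p ∈ S)
    (M : Rep.{0} (ZMod p) GQ) [FiniteDimensional (ZMod p) M]
    (hsm : ∀ m : M, ∃ F : IntermediateField ℚ Qbar, FiniteDimensional ℚ F ∧
      ∀ s ∈ F.fixingSubgroup, M.ρ s m = m)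
    (hMur : ∀ q : Nat.Primes, q ∉ S → ∀ A : ValuationSubring Qbar,
      A.LiesOverPrime (q : ℕ) → ∀ g ∈ A.inertiaSubgroupIn ℚ, M.ρ g = 1)
    (𝔖 : du_Seam p S) {ζ : Qbar} (hζ : IsPrimitiveRoot ζ p)
    (hV2 : ∀ (K : du_Lev S), (∀ σ ∈ K.L.fixingSubgroup, M.ρ σ = 1) →
      (∀ σ ∈ K.L.fixingSubgroup, cycloChar p σ = 1) →
      ∀ hA : (∀ σ ∈ K.L.fixingSubgroup, ∀ x : (M.dualTwist (cycloChar p)).V,
        (M.dualTwist (cycloChar p)).ρ σ x = x), du_V2 M K hA)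
    (hD3X : ∀ (K : du_Lev S), (∀ σ ∈ K.L.fixingSubgroup, M.ρ σ = 1) →
      (∀ σ ∈ K.L.fixingSubgroup, cycloChar p σ = 1) →
      ∀ hA : (∀ σ ∈ K.L.fixingSubgroup, ∀ x : (M.dualTwist (cycloChar p)).V,
        (M.dualTwist (cycloChar p)).ρ σ x = x),
      ∀ (a : du_Lev S) (h : K ≤ a), du_D3X 𝔖 M K hA hpS hζ h) :
    ∃ B : sha₁ S (M.dualTwist (cycloChar p)) →ₗ[ZMod p] sha₂ S M →ₗ[ZMod p] ZMod p,
      (∀ y, (∀ x, B y x = 0) → y = 0) ∧ (∀ x, (∀ y, B y x = 0) → x = 0) :=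
  du_result hp2 S hpS M hsm hMur 𝔖 (du_TN 𝔖) (ab_seam 𝔖)
    (fun K hM hχ hA => ⟨K, fun a h _ =>
      du_hX_of 𝔖 M K hA hpS hζ (hV2 K hM hχ hA) h (hD3X K hM hχ hA a h)⟩)

end Result

end Fermat.Agent.S55
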