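import Fermat.Agent.S55.Level.ShaFinite
import Fermat.Agent.S55.Level.HomModule
import Fermat.Agent.S55.Dual.Lattice
import Fermat.Agent.S55.Tate.Hom
import Fermat.Agent.S55.Trans.Levels
import Fermat.Agent.S55.Dual.Seam

/-!
# The bridge for `Hom` modules (block [D] of S55, prefix `hmb_`)

For a finite group `Γ` and `Y J : Rep ℤ Γ`, the level cohomology of the plain module
`LvHom (tl_Act Y) (tl_Act J)` (conjugation action) is Mathlib's group cohomology of `tt_hom Y J`;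
the comparison is natural in `J` and compatible with restriction to subgroups.  As an application,
a "restriction followed by projection is injective" statement on Mathlib's cohomology
(the shape of the field `shapiro` of `du_Seam`) is transported to level cohomology.
-/

set_option autoImplicit false

open CategoryTheory groupCohomology

namespace Fermat.Agent.S55

noncomputable section

variable {Γ : Type} [Group Γ]

/-- The additive equivalence `Hom_ℤ(Y, J)` (plain additive maps) `≃` `(tt_hom Y J).V`. -/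
def hmb_e (Y J : Rep.{0} ℤ Γ) : LvHom (tl_Act Y) (tl_Act J) ≃+ (tt_hom Y J).V where
  toFun φ := la_ofAddHomLin (A := Y) (B := J) (LvHom.toHom φ)
  invFun f := LvHom.of
    { toFun := fun y => f y
      map_zero' := map_zero f
      map_add' := map_add f }
  left_inv _ := rfl
  right_inv _ := rfl
  map_add' _ _ := rfl

@[simp] theorem hmb_e_apply (Y J : Rep.{0} ℤ Γ) (φ : LvHom (tl_Act Y) (tl_Act J)) (y : Y.V) :
    (hmb_e Y J φ : Y.V →ₗ[ℤ] J.V) y = φ y := rfl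

theorem hmb_e_smul (Y J : Rep.{0} ℤ Γ) (g : Γ) (φ : LvHom (tl_Act Y) (tl_Act J)) :
    hmb_e Y J (g • φ) = (tt_hom Y J).ρ g (hmb_e Y J φ) := rfl

/-- The additive map underlying a morphism of representations. -/
def hmb_homAdd {G : Type} [Group G] {A B : Rep.{0} ℤ G} (f : A ⟶ B) : tl_Act A →+ tl_Act B where
  toFun := f.hom
  map_zero' := map_zero _
  map_add' := map_add _

@[simp] theorem hmb_homAdd_apply {G : Type} [Group G] {A B : Rep.{0} ℤ G} (f : A ⟶ B)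
    (x : A.V) : hmb_homAdd f x = f.hom x := rfl

theorem hmb_homAdd_smul {G : Type} [Group G] {A B : Rep.{0} ℤ G} (f : A ⟶ B) (g : G)
    (x : tl_Act A) : hmb_homAdd f (g • x) = g • hmb_homAdd f x :=
  Rep.hom_comm_apply f g x

/-- Invariants of `Hom(Y, C)` are the morphisms of representations `Y ⟶ C`. -/
def hmb_H0 (Y C : Rep.{0} ℤ Γ) : ↥(lvH0 (G := Γ) (LvHom (tl_Act Y) (tl_Act C))) ≃+ (Y ⟶ C) where
  toFun φ := la_ofAddHom (A := Y) (B := C) (LvHom.toHom φ.1)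
    (fun g v => (LvHom.mem_lvH0_iff φ.1).1 φ.2 g v)
  invFun f := ⟨LvHom.of (hmb_homAdd f),
    (LvHom.mem_lvH0_iff _).2 (fun g y => hmb_homAdd_smul f g y)⟩
  left_inv _ := rfl
  right_inv _ := rfl
  map_add' _ _ := rfl

@[simp] theorem hmb_H0_hom (Y C : Rep.{0} ℤ Γ)
    (φ : ↥(lvH0 (G := Γ) (LvHom (tl_Act Y) (tl_Act C)))) (y : Y.V) :
    (hmb_H0 Y C φ).hom y = φ.1 y := rfl

@[simp] theorem hmb_H0_symm_apply (Y C : Rep.{0} ℤ Γ) (f : Y ⟶ C) (y : Y.V) :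
    ((hmb_H0 Y C).symm f).1 y = f.hom y := rfl

section Finite

variable [Finite Γ]

/-- Level `H¹` of `Hom(Y, J)` is Mathlib's `H¹(Γ, tt_hom Y J)`. -/
def hmb_H1 (Y J : Rep.{0} ℤ Γ) :
    lvH1 (LevelSys.trivial Γ) (LvHom (tl_Act Y) (tl_Act J)) ≃+ groupCohomology (tt_hom Y J) 1 :=
  lvH1Equiv (tt_hom Y J) (hmb_e Y J) (hmb_e_smul Y J)

/-- Level `H²` of `Hom(Y, J)` is Mathlib's `H²(Γ, tt_hom Y J)`. -/
def hmb_H2 (Y J : Rep.{0} ℤ Γ) :
    lvH2 (LevelSys.trivial Γ) (LvHom (tl_Act Y) (tl_Act J)) ≃+ groupCohomology (tt_hom Y J) 2 :=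
  lvH2Equiv (tt_hom Y J) (hmb_e Y J) (hmb_e_smul Y J)

/-- Post-composition with a morphism `J ⟶ J'`, as a morphism of level cohomology. -/
def hmb_post (Y : Rep.{0} ℤ Γ) {J J' : Rep.{0} ℤ Γ} (ψ : J ⟶ J') :
    LvMor (LevelSys.trivial Γ) (LvHom (tl_Act Y) (tl_Act J))
      (LevelSys.trivial Γ) (LvHom (tl_Act Y) (tl_Act J')) :=
  LvHom.lvMor (LevelSys.trivial Γ) (LevelSys.trivial Γ) (MonoidHom.id Γ)
    (fun U hU => ⟨U, hU, le_rfl⟩) (AddMonoidHom.id _) (fun _ _ => rfl)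
    (hmb_homAdd ψ) (fun g x => hmb_homAdd_smul ψ g x)

@[simp] theorem hmb_post_φ_apply (Y : Rep.{0} ℤ Γ) {J J' : Rep.{0} ℤ Γ} (ψ : J ⟶ J')
    (φ : LvHom (tl_Act Y) (tl_Act J)) (y : Y.V) : (hmb_post Y ψ).φ φ y = ψ.hom (φ y) := rfl

theorem hmb_H1_post (Y : Rep.{0} ℤ Γ) {J J' : Rep.{0} ℤ Γ} (ψ : J ⟶ J')
    (z : lvH1 (LevelSys.trivial Γ) (LvHom (tl_Act Y) (tl_Act J))) :
    hmb_H1 Y J' ((hmb_post Y ψ).H1 z) = (tt_coeffMap (tt_homPost Y ψ) 1).hom (hmb_H1 Y J z) :=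
  lvH1Equiv_map (tt_hom Y J) (tt_hom Y J') (hmb_e Y J) (hmb_e_smul Y J) (hmb_e Y J')
    (hmb_e_smul Y J') (hmb_post Y ψ) (tt_homPost Y ψ) (fun _ => rfl) z

theorem hmb_H2_post (Y : Rep.{0} ℤ Γ) {J J' : Rep.{0} ℤ Γ} (ψ : J ⟶ J')
    (z : lvH2 (LevelSys.trivial Γ) (LvHom (tl_Act Y) (tl_Act J))) :
    hmb_H2 Y J' ((hmb_post Y ψ).H2 z) = (tt_coeffMap (tt_homPost Y ψ) 2).hom (hmb_H2 Y J z) :=
  lvH2Equiv_map (tt_hom Y J) (tt_hom Y J') (hmb_e Y J) (hmb_e_smul Y J) (hmb_e Y J')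
    (hmb_e_smul Y J') (hmb_post Y ψ) (tt_homPost Y ψ) (fun _ => rfl) z

/-- Restriction to a subgroup `D` followed by a projection `J|_D ⟶ X`, as a morphism of level
cohomology `Hom(Y, J) → Hom(Y|_D, X)`. -/
def hmb_sh (D : Subgroup Γ) (Y : Rep.{0} ℤ Γ) {J : Rep.{0} ℤ Γ} {X : Rep.{0} ℤ D}
    (pr : tt_res D J ⟶ X) :
    LvMor (LevelSys.trivial Γ) (LvHom (tl_Act Y) (tl_Act J))
      (LevelSys.trivial D) (LvHom (tl_Act (tt_res D Y)) (tl_Act X)) :=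
  LvHom.lvMor (LevelSys.trivial Γ) (LevelSys.trivial D) D.subtype
    (by rintro U rfl; exact ⟨⊥, rfl, bot_le⟩)
    (AddMonoidHom.id Y.V) (fun _ _ => rfl)
    (show tl_Act J →+ tl_Act X from hmb_homAdd pr) (fun d x => hmb_homAdd_smul pr d x)

@[simp] theorem hmb_sh_f (D : Subgroup Γ) (Y : Rep.{0} ℤ Γ) {J : Rep.{0} ℤ Γ} {X : Rep.{0} ℤ D}
    (pr : tt_res D J ⟶ X) : (hmb_sh D Y pr).f = D.subtype := rfl

@[simp] theorem hmb_sh_φ_apply (D : Subgroup Γ) (Y : Rep.{0} ℤ Γ) {J : Rep.{0} ℤ Γ}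
    {X : Rep.{0} ℤ D} (pr : tt_res D J ⟶ X) (φ : LvHom (tl_Act Y) (tl_Act J)) (y : Y.V) :
    (hmb_sh D Y pr).φ φ y = pr.hom (φ y) := rfl

omit [Finite Γ] in
/-- `map` along a subgroup inclusion factors as restriction followed by a coefficient map. -/
theorem hmb_map_subtype (D : Subgroup Γ) {A : Rep.{0} ℤ Γ} {B : Rep.{0} ℤ D}
    (φ : tt_res D A ⟶ B) (n : ℕ) :
    groupCohomology.map D.subtype φ n = tt_resMap D A n ≫ tt_coeffMap φ n := by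
  have h := groupCohomology.map_comp (A := A) (B := tt_res D A) (C := B) D.subtype
    (MonoidHom.id D) (𝟙 (tt_res D A)) φ n
  rw [← h]
  congr 1

theorem hmb_H1_sh (D : Subgroup Γ) (Y : Rep.{0} ℤ Γ) {J : Rep.{0} ℤ Γ} {X : Rep.{0} ℤ D}
    (pr : tt_res D J ⟶ X) (z : lvH1 (LevelSys.trivial Γ) (LvHom (tl_Act Y) (tl_Act J))) :
    hmb_H1 (tt_res D Y) X ((hmb_sh D Y pr).H1 z) =
      (tt_coeffMap (tt_homPost (tt_res D Y) pr) 1).hom
        ((tt_resMap D (tt_hom Y J) 1).hom (hmb_H1 Y J z)) := by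
  have h := lvH1Equiv_map (tt_hom Y J) (tt_hom (tt_res D Y) X) (hmb_e Y J) (hmb_e_smul Y J)
    (hmb_e (tt_res D Y) X) (hmb_e_smul (tt_res D Y) X) (hmb_sh D Y pr)
    (tt_homPost (tt_res D Y) pr) (fun _ => rfl) z
  refine h.trans ?_
  have h2 := hmb_map_subtype D (A := tt_hom Y J) (B := tt_hom (tt_res D Y) X)
    (tt_homPost (tt_res D Y) pr) 1
  exact congrArg (fun f => f.hom (hmb_H1 Y J z)) h2

theorem hmb_H2_sh (D : Subgroup Γ) (Y : Rep.{0} ℤ Γ) {J : Rep.{0} ℤ Γ} {X : Rep.{0} ℤ D}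
    (pr : tt_res D J ⟶ X) (z : lvH2 (LevelSys.trivial Γ) (LvHom (tl_Act Y) (tl_Act J))) :
    hmb_H2 (tt_res D Y) X ((hmb_sh D Y pr).H2 z) =
      (tt_coeffMap (tt_homPost (tt_res D Y) pr) 2).hom
        ((tt_resMap D (tt_hom Y J) 2).hom (hmb_H2 Y J z)) := by
  have h := lvH2Equiv_map (tt_hom Y J) (tt_hom (tt_res D Y) X) (hmb_e Y J) (hmb_e_smul Y J)
    (hmb_e (tt_res D Y) X) (hmb_e_smul (tt_res D Y) X) (hmb_sh D Y pr)
    (tt_homPost (tt_res D Y) pr) (fun _ => rfl) z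
  refine h.trans ?_
  have h2 := hmb_map_subtype D (A := tt_hom Y J) (B := tt_hom (tt_res D Y) X)
    (tt_homPost (tt_res D Y) pr) 2
  exact congrArg (fun f => f.hom (hmb_H2 Y J z)) h2

/-- Transport of "restriction followed by projection is injective" to level cohomology, `H¹`. -/
theorem hmb_sh_H1_eq_zero (D : Subgroup Γ) (Y : Rep.{0} ℤ Γ) {J : Rep.{0} ℤ Γ} {X : Rep.{0} ℤ D}
    (pr : tt_res D J ⟶ X)
    (hsh : ∀ z : groupCohomology (tt_hom Y J) 1,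
      (tt_coeffMap (tt_homPost (tt_res D Y) pr) 1).hom
        ((tt_resMap D (tt_hom Y J) 1).hom z) = 0 → z = 0)
    (z : lvH1 (LevelSys.trivial Γ) (LvHom (tl_Act Y) (tl_Act J)))
    (hz : (hmb_sh D Y pr).H1 z = 0) : z = 0 := by
  apply (hmb_H1 Y J).injective
  rw [map_zero]
  apply hsh
  rw [← hmb_H1_sh, hz, map_zero]

/-- Transport of "restriction followed by projection is injective" to level cohomology, `H²`. -/
theorem hmb_sh_H2_eq_zero (D : Subgroup Γ) (Y : Rep.{0} ℤ Γ) {J : Rep.{0} ℤ Γ} {X : Rep.{0} ℤ D}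
    (pr : tt_res D J ⟶ X)
    (hsh : ∀ z : groupCohomology (tt_hom Y J) 2,
      (tt_coeffMap (tt_homPost (tt_res D Y) pr) 2).hom
        ((tt_resMap D (tt_hom Y J) 2).hom z) = 0 → z = 0)
    (z : lvH2 (LevelSys.trivial Γ) (LvHom (tl_Act Y) (tl_Act J)))
    (hz : (hmb_sh D Y pr).H2 z = 0) : z = 0 := by
  apply (hmb_H2 Y J).injective
  rw [map_zero]
  apply hsh
  rw [← hmb_H2_sh, hz, map_zero]

end Finite

section Seam

variable {p : ℕ} {S : Finset Nat.Primes} (𝔖 : du_Seam p S)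

/-- **Shapiro of the seam in level cohomology, degree 1**: a class of
`H¹(Γ_a, Hom(Y, J_q))` dying in `H¹(D_q, Hom(Y, X_q))` vanishes. -/
theorem hmb_seam_shapiro1 (a : du_Lev S) (q : ↥S) (Y : Rep.{0} ℤ a.Γ) (hY : ld_IsLattice Y)
    (z : lvH1 (LevelSys.trivial a.Γ) (LvHom (tl_Act Y) (tl_Act ((𝔖.dat a).Jq q))))
    (hz : (hmb_sh ((𝔖.dat a).D q) Y ((𝔖.dat a).pr q)).H1 z = 0) : z = 0 :=
  hmb_sh_H1_eq_zero _ Y _ (𝔖.shapiro a q Y hY 1 (Or.inl rfl)) z hz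

/-- **Shapiro of the seam in level cohomology, degree 2.** -/
theorem hmb_seam_shapiro2 (a : du_Lev S) (q : ↥S) (Y : Rep.{0} ℤ a.Γ) (hY : ld_IsLattice Y)
    (z : lvH2 (LevelSys.trivial a.Γ) (LvHom (tl_Act Y) (tl_Act ((𝔖.dat a).Jq q))))
    (hz : (hmb_sh ((𝔖.dat a).D q) Y ((𝔖.dat a).pr q)).H2 z = 0) : z = 0 :=
  hmb_sh_H2_eq_zero _ Y _ (𝔖.shapiro a q Y hY 2 (Or.inr rfl)) z hz

end Seam

/-- Two morphisms of level cohomology with the same group map and the same coefficient map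
coincide. -/
theorem hmb_LvMor_ext {G H : Type*} [Group G] [Group H] {L : LevelSys G} {LH : LevelSys H}
    {X Y : Type*} [AddCommGroup X] [DistribMulAction G X] [AddCommGroup Y] [DistribMulAction H Y]
    {m m' : LvMor L X LH Y} (hf : m.f = m'.f) (hφ : m.φ = m'.φ) : m = m' := by
  cases m; cases m'
  simp only at hf hφ
  subst hf hφ
  rfl

section Product

variable {Γ : Type*} [Group Γ] [Finite Γ] {ι : Type*} {Y : Type*} [AddCommGroup Y]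
  [DistribMulAction Γ Y] (X : ι → Type*) [∀ q, AddCommGroup (X q)]
  [∀ q, DistribMulAction Γ (X q)]

/-- Projection to a factor of a product of coefficient modules. -/
def hmb_proj (q : ι) :
    LvMor (LevelSys.trivial Γ) (LvHom Y (∀ q, X q)) (LevelSys.trivial Γ) (LvHom Y (X q)) :=
  LvMor.ofCoeff (LevelSys.trivial Γ) (LvHom.postcomp (Pi.evalAddMonoidHom X q)) (fun _ _ => rfl)

@[simp] theorem hmb_proj_φ_apply (q : ι) (φ : LvHom Y (∀ q, X q)) (y : Y) :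
    (hmb_proj (Γ := Γ) X q).φ φ y = φ y q := rfl

/-- Assemble homomorphisms into the factors to a homomorphism into the product. -/
def hmb_pi (φ : ∀ q, LvHom Y (X q)) : LvHom Y (∀ q, X q) :=
  LvHom.of (AddMonoidHom.pi (fun q => LvHom.toHom (φ q)))

@[simp] theorem hmb_pi_apply (φ : ∀ q, LvHom Y (X q)) (y : Y) (q : ι) :
    hmb_pi X φ y q = φ q y := rfl

/-- A class in `H¹(Γ, Hom(Y, ∏ X_q))` all of whose components vanish is zero. -/
theorem hmb_H1_eq_zero_of_proj (z : lvH1 (LevelSys.trivial Γ) (LvHom Y (∀ q, X q)))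
    (h : ∀ q, (hmb_proj X q).H1 z = 0) : z = 0 := by
  obtain ⟨c, rfl⟩ := lvH1mk_surjective z
  simp only [LvMor.H1_mk, lvH1mk_eq_zero_iff] at h
  choose x hx using h
  rw [lvH1mk_eq_zero_iff]
  refine ⟨hmb_pi X x, ?_⟩
  funext g
  ext y q
  exact congrArg (fun f : LvHom Y (X q) => f y) (congrFun (hx q) g)

/-- A class in `H²(Γ, Hom(Y, ∏ X_q))` all of whose components vanish is zero. -/
theorem hmb_H2_eq_zero_of_proj (z : lvH2 (LevelSys.trivial Γ) (LvHom Y (∀ q, X q)))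
    (h : ∀ q, (hmb_proj X q).H2 z = 0) : z = 0 := by
  obtain ⟨c, rfl⟩ := lvH2mk_surjective z
  simp only [LvMor.H2_mk, lvH2mk_eq_zero_iff] at h
  choose b _ hb using h
  rw [lvH2mk_eq_zero_iff]
  refine ⟨fun g => hmb_pi X (fun q => b q g), LevelSys.isLC1_trivial _, ?_⟩
  funext ⟨g, g'⟩
  ext y q
  exact congrArg (fun f : LvHom Y (X q) => f y) (congrFun (hb q) (g, g'))

end Product

section Hloc

variable {Γ : Type} [Group Γ] [Finite Γ] {ι : Type*} (Y E : Rep.{0} ℤ Γ) (Jq : ι → Rep.{0} ℤ Γ)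
  (ε : ∀ q, E ⟶ Jq q) (D : ι → Subgroup Γ) (Xq : ∀ q, Rep.{0} ℤ (D q))
  (pr : ∀ q, tt_res (D q) (Jq q) ⟶ Xq q)
  (mi : LvMor (LevelSys.trivial Γ) (LvHom (tl_Act Y) (tl_Act E))
    (LevelSys.trivial Γ) (LvHom (tl_Act Y) (∀ q, tl_Act (Jq q))))
  (hmf : mi.f = MonoidHom.id Γ)
  (hmφ : ∀ (ψ : LvHom (tl_Act Y) (tl_Act E)) (y : tl_Act Y) (q : ι),
    mi.φ ψ y q = hmb_homAdd (ε q) (ψ y))
  (rho : ∀ q, LvMor (LevelSys.trivial Γ) (LvHom (tl_Act Y) (tl_Act E))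
    (LevelSys.trivial (D q)) (LvHom (tl_Act (tt_res (D q) Y)) (tl_Act (Xq q))))
  (hrf : ∀ q, (rho q).f = (D q).subtype)
  (hrφ : ∀ (q : ι) (ψ : LvHom (tl_Act Y) (tl_Act E)) (y : tl_Act Y),
    (rho q).φ ψ y = hmb_homAdd (pr q) (hmb_homAdd (ε q) (ψ y)))

include hmf hmφ in
theorem hmb_proj_comp_mi (q : ι) :
    (hmb_proj (Γ := Γ) (fun q => tl_Act (Jq q)) q).comp mi = hmb_post Y (ε q) := by
  apply hmb_LvMor_ext
  · show mi.f.comp (MonoidHom.id Γ) = MonoidHom.id Γ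
    rw [hmf]; rfl
  · ext ψ y
    exact hmφ ψ y q

include hrf hrφ in
theorem hmb_rho_eq (q : ι) : rho q = (hmb_sh (D q) Y (pr q)).comp (hmb_post Y (ε q)) := by
  apply hmb_LvMor_ext
  · rw [hrf]; rfl
  · ext ψ y
    exact hrφ q ψ y

include hmf hmφ hrf hrφ in
/-- **`hloc`, degree 1**: a class of `H¹(Γ, Hom(Y, E))` dies in `H¹(Γ, Hom(Y, ∏ J_q))` iff all its
local components in `H¹(D_q, Hom(Y, X_q))` vanish (given Shapiro injectivity). -/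
theorem hmb_hloc1
    (hsh : ∀ (q : ι) (z : groupCohomology (tt_hom Y (Jq q)) 1),
      (tt_coeffMap (tt_homPost (tt_res (D q) Y) (pr q)) 1).hom
        ((tt_resMap (D q) (tt_hom Y (Jq q)) 1).hom z) = 0 → z = 0)
    (y : lvH1 (LevelSys.trivial Γ) (LvHom (tl_Act Y) (tl_Act E))) :
    (∀ q, (rho q).H1 y = 0) ↔ mi.H1 y = 0 := by
  constructor
  · intro h
    apply hmb_H1_eq_zero_of_proj
    intro q
    rw [← LvMor.H1_comp, hmb_proj_comp_mi Y E Jq ε mi hmf hmφ q]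
    apply hmb_sh_H1_eq_zero (D q) Y (pr q) (hsh q)
    rw [← LvMor.H1_comp, ← hmb_rho_eq Y E Jq ε D Xq pr rho hrf hrφ q]
    exact h q
  · intro h q
    rw [hmb_rho_eq Y E Jq ε D Xq pr rho hrf hrφ q, LvMor.H1_comp,
      ← hmb_proj_comp_mi Y E Jq ε mi hmf hmφ q, LvMor.H1_comp, h, map_zero, map_zero]

include hmf hmφ hrf hrφ in
/-- **`hloc`, degree 2.** -/
theorem hmb_hloc2
    (hsh : ∀ (q : ι) (z : groupCohomology (tt_hom Y (Jq q)) 2),
      (tt_coeffMap (tt_homPost (tt_res (D q) Y) (pr q)) 2).hom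
        ((tt_resMap (D q) (tt_hom Y (Jq q)) 2).hom z) = 0 → z = 0)
    (y : lvH2 (LevelSys.trivial Γ) (LvHom (tl_Act Y) (tl_Act E))) :
    (∀ q, (rho q).H2 y = 0) ↔ mi.H2 y = 0 := by
  constructor
  · intro h
    apply hmb_H2_eq_zero_of_proj
    intro q
    rw [← LvMor.H2_comp, hmb_proj_comp_mi Y E Jq ε mi hmf hmφ q]
    apply hmb_sh_H2_eq_zero (D q) Y (pr q) (hsh q)
    rw [← LvMor.H2_comp, ← hmb_rho_eq Y E Jq ε D Xq pr rho hrf hrφ q]
    exact h q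
  · intro h q
    rw [hmb_rho_eq Y E Jq ε D Xq pr rho hrf hrφ q, LvMor.H2_comp,
      ← hmb_proj_comp_mi Y E Jq ε mi hmf hmφ q, LvMor.H2_comp, h, map_zero, map_zero]

end Hloc

section SeamHloc

variable {p : ℕ} {S : Finset Nat.Primes} (𝔖 : du_Seam p S) (a : du_Lev S) (Y : Rep.{0} ℤ a.Γ)
  (hY : ld_IsLattice Y)
  (mi : LvMor (LevelSys.trivial a.Γ) (LvHom (tl_Act Y) (tl_Act (𝔖.E a)))
    (LevelSys.trivial a.Γ) (LvHom (tl_Act Y) (∀ q : ↥S, tl_Act ((𝔖.dat a).Jq q))))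
  (hmf : mi.f = MonoidHom.id a.Γ)
  (hmφ : ∀ (ψ : LvHom (tl_Act Y) (tl_Act (𝔖.E a))) (y : tl_Act Y) (q : ↥S),
    mi.φ ψ y q = hmb_homAdd (𝔖.ε a q) (ψ y))
  (rho : ∀ q : ↥S, LvMor (LevelSys.trivial a.Γ) (LvHom (tl_Act Y) (tl_Act (𝔖.E a)))
    (LevelSys.trivial ((𝔖.dat a).D q))
    (LvHom (tl_Act (tt_res ((𝔖.dat a).D q) Y)) (tl_Act ((𝔖.dat a).Xq q))))
  (hrf : ∀ q, (rho q).f = ((𝔖.dat a).D q).subtype)
  (hrφ : ∀ (q : ↥S) (ψ : LvHom (tl_Act Y) (tl_Act (𝔖.E a))) (y : tl_Act Y),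
    (rho q).φ ψ y = hmb_homAdd ((𝔖.dat a).pr q) (hmb_homAdd (𝔖.ε a q) (ψ y)))

include hY hmf hmφ hrf hrφ in
/-- **`hloc` at one level of the seam, degree 1**: for a lattice `Y` over `Γ_a`, a class of
`H¹(Γ_a, Hom(Y, E(a)))` dies in `H¹(Γ_a, Hom(Y, ∏ J_q(a)))` iff all its local components in
`H¹(D_q, Hom(Y, X_q))` vanish. -/
theorem hmb_seam_hloc1 (y : lvH1 (LevelSys.trivial a.Γ) (LvHom (tl_Act Y) (tl_Act (𝔖.E a)))) :
    (∀ q, (rho q).H1 y = 0) ↔ mi.H1 y = 0 :=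
  hmb_hloc1 Y (𝔖.E a) (fun q => (𝔖.dat a).Jq q) (𝔖.ε a) (fun q => (𝔖.dat a).D q)
    (fun q => (𝔖.dat a).Xq q) (fun q => (𝔖.dat a).pr q) mi hmf hmφ rho hrf hrφ
    (fun q => 𝔖.shapiro a q Y hY 1 (Or.inl rfl)) y

include hY hmf hmφ hrf hrφ in
/-- **`hloc` at one level of the seam, degree 2.** -/
theorem hmb_seam_hloc2 (y : lvH2 (LevelSys.trivial a.Γ) (LvHom (tl_Act Y) (tl_Act (𝔖.E a)))) :
    (∀ q, (rho q).H2 y = 0) ↔ mi.H2 y = 0 :=
  hmb_hloc2 Y (𝔖.E a) (fun q => (𝔖.dat a).Jq q) (𝔖.ε a) (fun q => (𝔖.dat a).D q)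
    (fun q => (𝔖.dat a).Xq q) (fun q => (𝔖.dat a).pr q) mi hmf hmφ rho hrf hrφ
    (fun q => 𝔖.shapiro a q Y hY 2 (Or.inr rfl)) y

end SeamHloc

end

end Fermat.Agent.S55
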