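import Fermat.Agent.S55.Dual.Levels

/-!
# Transition maps on the `S`-units of the seam (block [D] of S55, prefix `sl_`)

For levels `a ≤ b` the `S`-units `E(a)` of the seam embed into `E(b)` (both sit inside `ℚ̄ˣ`
through `𝔖.Eval`): `sl_tE 𝔖 h : (𝔖.E a).V →+ (𝔖.E b).V`, characterised by
`𝔖.Eval b (sl_tE 𝔖 h e) = 𝔖.Eval a e`; it is injective, equivariant through `GQ`, compatible with
`ε` and the transition maps `tJ`, and transitive.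
-/

set_option autoImplicit false

namespace Fermat.Agent.S55

local notation "Qbar" => AlgebraicClosure ℚ
local notation "GQ" => (AlgebraicClosure ℚ ≃ₐ[ℚ] AlgebraicClosure ℚ)

variable {p : ℕ} {S : Finset Nat.Primes} (𝔖 : du_Seam p S)

/-- The units of level `a` are units of level `b ≥ a`. -/
lemma sl_exists_tE {a b : du_Lev S} (h : a ≤ b) (e : (𝔖.E a).V) :
    ∃ e' : (𝔖.E b).V, 𝔖.Eval b e' = 𝔖.Eval a e := by
  have h1 := (𝔖.Eval_range a (Additive.toMul (𝔖.Eval a e))).1 ⟨e, rfl⟩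
  exact (𝔖.Eval_range b (Additive.toMul (𝔖.Eval a e))).2 ⟨h h1.1, h1.2⟩

/-- The inclusion `E(a) → E(b)` for `a ≤ b`. -/
noncomputable def sl_tE {a b : du_Lev S} (h : a ≤ b) : (𝔖.E a).V →+ (𝔖.E b).V where
  toFun e := Classical.choose (sl_exists_tE 𝔖 h e)
  map_zero' := 𝔖.Eval_inj b (by
    rw [Classical.choose_spec (sl_exists_tE 𝔖 h 0), map_zero, map_zero])
  map_add' e e' := 𝔖.Eval_inj b (by
    rw [Classical.choose_spec (sl_exists_tE 𝔖 h (e + e')), map_add, map_add,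
      Classical.choose_spec (sl_exists_tE 𝔖 h e), Classical.choose_spec (sl_exists_tE 𝔖 h e')])

@[simp] lemma sl_Eval_tE {a b : du_Lev S} (h : a ≤ b) (e : (𝔖.E a).V) :
    𝔖.Eval b (sl_tE 𝔖 h e) = 𝔖.Eval a e :=
  Classical.choose_spec (sl_exists_tE 𝔖 h e)

lemma sl_tE_injective {a b : du_Lev S} (h : a ≤ b) : Function.Injective (sl_tE 𝔖 h) := by
  intro e e' hee'
  apply 𝔖.Eval_inj a
  rw [← sl_Eval_tE 𝔖 h e, ← sl_Eval_tE 𝔖 h e', hee']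

/-- Two units of the same level with the same image in `ℚ̄` coincide (pointwise form of
`Eval_inj`). -/
lemma sl_Eval_ext {a : du_Lev S} {e e' : (𝔖.E a).V}
    (h : (((𝔖.Eval a e).toMul : Qbarˣ) : Qbar) = (((𝔖.Eval a e').toMul : Qbarˣ) : Qbar)) :
    e = e' := by
  apply 𝔖.Eval_inj a
  apply Additive.toMul.injective
  exact Units.ext h

/-- Equivariance of the transition map, through `GQ`. -/
lemma sl_tE_equiv {a b : du_Lev S} (h : a ≤ b) (σ : GQ) (e : (𝔖.E a).V) :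
    sl_tE 𝔖 h ((𝔖.E a).ρ (a.q σ) e) = (𝔖.E b).ρ (b.q σ) (sl_tE 𝔖 h e) := by
  apply sl_Eval_ext 𝔖
  rw [sl_Eval_tE, 𝔖.Eval_equiv, 𝔖.Eval_equiv, sl_Eval_tE]

/-- Equivariance of the transition map along `du_Lev.res`. -/
lemma sl_tE_res {a b : du_Lev S} (h : a ≤ b) (g : b.Γ) (e : (𝔖.E a).V) :
    sl_tE 𝔖 h ((𝔖.E a).ρ (du_Lev.res h g) e) = (𝔖.E b).ρ g (sl_tE 𝔖 h e) := by
  obtain ⟨σ, rfl⟩ := b.q_surjective g
  rw [du_Lev.res_q]
  exact sl_tE_equiv 𝔖 h σ e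

/-- The transition maps are compatible with `ε`. -/
lemma sl_tJ_ε {a b : du_Lev S} (h : a ≤ b) (q : ↥S) (e : (𝔖.E a).V) :
    𝔖.tJ h q ((𝔖.ε a q).hom e) = (𝔖.ε b q).hom (sl_tE 𝔖 h e) :=
  𝔖.tJ_ε h q e (sl_tE 𝔖 h e) (sl_Eval_tE 𝔖 h e).symm

lemma sl_tE_trans {a b c : du_Lev S} (h : a ≤ b) (h' : b ≤ c) (e : (𝔖.E a).V) :
    sl_tE 𝔖 h' (sl_tE 𝔖 h e) = sl_tE 𝔖 (le_trans h h') e := by
  apply 𝔖.Eval_inj c
  rw [sl_Eval_tE, sl_Eval_tE, sl_Eval_tE]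

/-- Equivariance of `tJ` along `du_Lev.res`. -/
lemma sl_tJ_res {a b : du_Lev S} (h : a ≤ b) (q : ↥S) (g : b.Γ) (x : ((𝔖.dat a).Jq q).V) :
    𝔖.tJ h q (((𝔖.dat a).Jq q).ρ (du_Lev.res h g) x) = ((𝔖.dat b).Jq q).ρ g (𝔖.tJ h q x) := by
  obtain ⟨σ, rfl⟩ := b.q_surjective g
  rw [du_Lev.res_q]
  exact 𝔖.tJ_equiv h q σ x

/-- Equivariance of `tC` along `du_Lev.res`. -/
lemma sl_tC_res {a b : du_Lev S} (h : a ≤ b) (g : b.Γ) (c : (𝔖.dat a).C.V) :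
    𝔖.tC h ((𝔖.dat a).C.ρ (du_Lev.res h g) c) = (𝔖.dat b).C.ρ g (𝔖.tC h c) := by
  obtain ⟨σ, rfl⟩ := b.q_surjective g
  rw [du_Lev.res_q]
  exact 𝔖.tC_equiv h σ c

end Fermat.Agent.S55
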