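import Fermat.Agent.S55.Dual.Modules
import Fermat.Agent.S55.Dual.SeamUnits
import Fermat.Agent.S55.Trans.Sha1Finite
import Fermat.Agent.S55.Trans.LocH90
import Fermat.Agent.S55.Level.InfRes

/-!
# S55 / [D]: the dictionary between the `G_ℚ`-modules `T_Y`, `T_Y^q` and the finite levels

For the seam `𝔖 : du_Seam p S`, levels `K₀ ≤ a` and a `Γ_{K₀}`-module `Y`:

* `dm_ql_incl 𝔖 a : (𝔖.E a).V →+ dm_ES S`: the `S`-units of the level inside `E_S`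
  (injective, equivariant, image = the invariants of `Fix(a.L)`);
* `dm_ql_Q 𝔖 h Y : LvQuot (tl_levelsS S) (dm_T S K₀.q Y) a.Γ (dm_ql_TE 𝔖 h Y)`;
* `dm_ql_trans`, `dm_ql_Q_trans`: transition between levels;
* `dm_ql_locq`, `dm_ql_Qloc`, `dm_ql_Qloc_H2_injective`: the local finite quotients;
* `dm_ql_rho`, `dm_ql_loc_H1`, `dm_ql_loc_H2`: the local squares;
* `dm_ql_exists_level`: a `p`-torsion, locally trivial class of `H²(G_S, T_Y)` is inflated from a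
  `p`-torsion, locally trivial class of a finite level (`dm_ql_exists_level₁` in degree 1).
-/

set_option autoImplicit false

open ExtCitation CategoryTheory

namespace Fermat.Agent.S55

local notation "GQ" => (AlgebraicClosure ℚ ≃ₐ[ℚ] AlgebraicClosure ℚ)
local notation "Qbar" => AlgebraicClosure ℚ

noncomputable section

/-! ### Galois theory -/

/-- An element of `ℚ̄` fixed by `Fix(L)` lies in `L`. -/
theorem dm_ql_mem_of_fixed (L : IntermediateField ℚ Qbar) {x : Qbar}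
    (hx : ∀ σ ∈ L.fixingSubgroup, σ x = x) : x ∈ L := by
  have : Algebra.IsAlgebraic ℚ Qbar := AlgebraicClosure.isAlgebraic ℚ
  have : IsAlgClosure ℚ Qbar := ⟨inferInstance, inferInstance⟩
  rw [← InfiniteGalois.fixedField_fixingSubgroup L, IntermediateField.mem_fixedField_iff]
  exact hx

section Incl

variable {p : ℕ} {S : Finset Nat.Primes} (𝔖 : du_Seam p S) (a : du_Lev S)

theorem dm_ql_incl_mem (e : (𝔖.E a).V) :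
    (Additive.toMul (𝔖.Eval a e) : Qbarˣ) ∈ dm_ESsub S := by
  have h := (𝔖.Eval_range a (Additive.toMul (𝔖.Eval a e))).1 ⟨e, rfl⟩
  exact ⟨⟨a.L, a.unr, h.1⟩, h.2⟩

/-- **The `S`-units of the level `a` inside `E_S`.** -/
def dm_ql_incl : (𝔖.E a).V →+ dm_ES S where
  toFun e := dm_ES.of S ⟨Additive.toMul (𝔖.Eval a e), dm_ql_incl_mem 𝔖 a e⟩
  map_zero' := dm_ES.coe_injective (by
    show (((𝔖.Eval a 0).toMul : Qbarˣ) : Qbar) = 1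
    rw [map_zero]
    rfl)
  map_add' e e' := dm_ES.coe_injective (by
    show (((𝔖.Eval a (e + e')).toMul : Qbarˣ) : Qbar) =
      (((𝔖.Eval a e).toMul : Qbarˣ) : Qbar) * (((𝔖.Eval a e').toMul : Qbarˣ) : Qbar)
    rw [map_add]
    rfl)

theorem dm_ql_coe_incl (e : (𝔖.E a).V) :
    dm_ES.coe S (dm_ql_incl 𝔖 a e) = (((𝔖.Eval a e).toMul : Qbarˣ) : Qbar) := rfl

theorem dm_ql_incl_injective : Function.Injective (dm_ql_incl 𝔖 a) := by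
  intro e e' h
  apply sl_Eval_ext 𝔖
  rw [← dm_ql_coe_incl, ← dm_ql_coe_incl, h]

theorem dm_ql_incl_smul (σ : GQ) (e : (𝔖.E a).V) :
    dm_ql_incl 𝔖 a ((𝔖.E a).ρ (a.q σ) e) = σ • dm_ql_incl 𝔖 a e := by
  apply dm_ES.coe_injective
  rw [dm_ES.coe_smul, dm_ql_coe_incl, dm_ql_coe_incl, 𝔖.Eval_equiv]

theorem dm_ql_incl_range (x : dm_ES S) (hx : ∀ σ ∈ a.L.fixingSubgroup, σ • x = x) :
    ∃ e : (𝔖.E a).V, dm_ql_incl 𝔖 a e = x := by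
  have hL : dm_ES.coe S x ∈ a.L := dm_ql_mem_of_fixed a.L (fun σ hσ => by
    rw [← dm_ES.coe_smul, hx σ hσ])
  obtain ⟨e, he⟩ := (𝔖.Eval_range a (Units.mk0 (dm_ES.coe S x) (dm_ES.coe_ne_zero x))).2
    ⟨hL, (dm_ES.coe_mem x).2⟩
  refine ⟨e, dm_ES.coe_injective ?_⟩
  rw [dm_ql_coe_incl, he]
  rfl

theorem dm_ql_incl_tE {a b : du_Lev S} (h : a ≤ b) (e : (𝔖.E a).V) :
    dm_ql_incl 𝔖 b (sl_tE 𝔖 h e) = dm_ql_incl 𝔖 a e := by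
  apply dm_ES.coe_injective
  rw [dm_ql_coe_incl, dm_ql_coe_incl, sl_Eval_tE]

end Incl

/-! ### The finite-level carriers -/

section Carriers

variable {p : ℕ} {S : Finset Nat.Primes} (𝔖 : du_Seam p S) {K₀ a : du_Lev S}

/-- `Y` as a `Γ_a`-module. -/
abbrev dm_ql_Ya (h : K₀ ≤ a) (Y : Rep.{0} ℤ K₀.Γ) : Rep.{0} ℤ a.Γ := Rep.res (du_Lev.res h) Y

/-- `Hom(Y, E(a))` as a `Γ_a`-module. -/
abbrev dm_ql_TE (h : K₀ ≤ a) (Y : Rep.{0} ℤ K₀.Γ) : Type :=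
  LvHom (tl_Act (dm_ql_Ya h Y)) (tl_Act (𝔖.E a))

/-- `Hom(Y, X_q(a))` as a `D_q(a)`-module. -/
abbrev dm_ql_TX (h : K₀ ≤ a) (Y : Rep.{0} ℤ K₀.Γ) (q : ↥S) : Type :=
  LvHom (tl_Act (tt_res ((𝔖.dat a).D q) (dm_ql_Ya h Y))) (tl_Act ((𝔖.dat a).Xq q))

theorem dm_ql_Ya_smul (h : K₀ ≤ a) (Y : Rep.{0} ℤ K₀.Γ) (g : a.Γ) (y : tl_Act (dm_ql_Ya h Y)) :
    g • y = Y.ρ (du_Lev.res h g) y := rfl

theorem dm_ql_res_res {a b : du_Lev S} (h : K₀ ≤ a) (hab : a ≤ b) (g : b.Γ) :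
    du_Lev.res h (du_Lev.res hab g) = du_Lev.res (le_trans h hab) g := by
  obtain ⟨σ, rfl⟩ := b.q_surjective g
  rw [du_Lev.res_q, du_Lev.res_q, du_Lev.res_q]

end Carriers

/-! ### The global finite quotient -/

section Global

variable {p : ℕ} {S : Finset Nat.Primes} (𝔖 : du_Seam p S) {K₀ a : du_Lev S} (h : K₀ ≤ a)
  (Y : Rep.{0} ℤ K₀.Γ)

/-- The identity of `Y`, from the `G_ℚ`-module to the `Γ_a`-module. -/
def dm_ql_toYa : dm_Yg K₀.q Y →+ tl_Act (dm_ql_Ya h Y) := AddMonoidHom.id Y.V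

theorem dm_ql_toYa_smul (σ : GQ) (y : dm_Yg K₀.q Y) :
    dm_ql_toYa h Y (σ • y) = a.q σ • dm_ql_toYa h Y y := by
  show Y.ρ (K₀.q σ) y = Y.ρ (du_Lev.res h (a.q σ)) y
  rw [du_Lev.res_q]

/-- The identity of `Y`, from the `Γ_a`-module to the `G_ℚ`-module. -/
def dm_ql_fromYa : tl_Act (dm_ql_Ya h Y) →+ dm_Yg K₀.q Y := AddMonoidHom.id Y.V

@[simp] theorem dm_ql_fromYa_toYa (y : dm_Yg K₀.q Y) :
    dm_ql_fromYa h Y (dm_ql_toYa h Y y) = y := rfl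

@[simp] theorem dm_ql_toYa_fromYa (y : tl_Act (dm_ql_Ya h Y)) :
    dm_ql_toYa h Y (dm_ql_fromYa h Y y) = y := rfl

theorem dm_ql_toYa_surjective : Function.Surjective (dm_ql_toYa h Y) := fun y => ⟨y, rfl⟩

theorem dm_ql_incl_smul' (σ : GQ) (e : tl_Act (𝔖.E a)) :
    dm_ql_incl 𝔖 a (a.q σ • e) = σ • dm_ql_incl 𝔖 a e := dm_ql_incl_smul 𝔖 a σ e

/-- The inflation map `Hom(Y, E(a)) → T_Y`. -/
def dm_ql_φ : dm_ql_TE 𝔖 h Y →+ dm_T S K₀.q Y :=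
  (LvHom.postcomp (show tl_Act (𝔖.E a) →+ dm_ES S from dm_ql_incl 𝔖 a)).comp
    (LvHom.precomp (dm_ql_toYa h Y))

theorem dm_ql_φ_apply (ψ : dm_ql_TE 𝔖 h Y) (y : dm_Yg K₀.q Y) :
    dm_ql_φ 𝔖 h Y ψ y = dm_ql_incl 𝔖 a (ψ (dm_ql_toYa h Y y)) := rfl

theorem dm_ql_φ_injective : Function.Injective (dm_ql_φ 𝔖 h Y) := by
  intro ψ ψ' hψ
  ext y
  obtain ⟨y, rfl⟩ := dm_ql_toYa_surjective h Y y
  apply dm_ql_incl_injective 𝔖 a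
  exact DFunLike.congr_fun hψ y

theorem dm_ql_φ_smul (σ : GQ) (ψ : dm_ql_TE 𝔖 h Y) :
    dm_ql_φ 𝔖 h Y (a.q σ • ψ) = σ • dm_ql_φ 𝔖 h Y ψ := by
  ext y
  rw [LvHom.smul_apply, dm_ql_φ_apply, dm_ql_φ_apply, LvHom.smul_apply, dm_ql_toYa_smul,
    map_inv, dm_ql_incl_smul']

theorem dm_ql_φ_range (x : dm_T S K₀.q Y) (hx : ∀ σ ∈ a.L.fixingSubgroup, σ • x = x) :
    ∃ ψ : dm_ql_TE 𝔖 h Y, dm_ql_φ 𝔖 h Y ψ = x := by
  -- `Fix(a.L)` acts trivially on `Y`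
  have hY : ∀ σ ∈ a.L.fixingSubgroup, ∀ y : dm_Yg K₀.q Y, σ⁻¹ • y = y := by
    intro σ hσ y
    have h1 : K₀.q σ⁻¹ = 1 := by
      rw [du_Lev.q_eq_one_iff]
      exact IntermediateField.fixingSubgroup_antitone h (inv_mem hσ)
    rw [dm_Yg_smul, h1, map_one]
    rfl
  have hfix : ∀ (y : dm_Yg K₀.q Y), ∀ σ ∈ a.L.fixingSubgroup, σ • x y = x y := by
    intro y σ hσ
    have := DFunLike.congr_fun (hx σ hσ) y
    rw [LvHom.smul_apply, hY σ hσ] at this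
    exact this
  choose e he using fun y : dm_Yg K₀.q Y => dm_ql_incl_range 𝔖 a (x y) (hfix y)
  let ψ₀ : dm_Yg K₀.q Y →+ (𝔖.E a).V :=
    { toFun := e
      map_zero' := dm_ql_incl_injective 𝔖 a (by
        rw [he]
        exact (map_zero x).trans (map_zero (dm_ql_incl 𝔖 a)).symm)
      map_add' := fun y y' => dm_ql_incl_injective 𝔖 a (by
        rw [he]
        exact (map_add x y y').trans (by
          rw [map_add (dm_ql_incl 𝔖 a), he, he])) }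
  refine ⟨LvHom.of ((show dm_Yg K₀.q Y →+ tl_Act (𝔖.E a) from ψ₀).comp (dm_ql_fromYa h Y)), ?_⟩
  ext y
  exact he y

/-- **The finite quotient `Γ_a` of `G_ℚ` for the module `T_Y`.** -/
def dm_ql_Q : LvQuot (tl_levelsS S) (dm_T S K₀.q Y) a.Γ (dm_ql_TE 𝔖 h Y) :=
  tl_sf_quot S a.L a.unr (dm_ql_φ 𝔖 h Y) (dm_ql_φ_injective 𝔖 h Y)
    (fun σ ψ => dm_ql_φ_smul 𝔖 h Y σ ψ) (dm_ql_φ_range 𝔖 h Y)

@[simp] theorem dm_ql_Q_q : (dm_ql_Q 𝔖 h Y).q = a.q := rfl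

@[simp] theorem dm_ql_Q_φ : (dm_ql_Q 𝔖 h Y).φ = dm_ql_φ 𝔖 h Y := rfl

theorem dm_ql_Q_φ_apply (ψ : dm_ql_TE 𝔖 h Y) (y : dm_Yg K₀.q Y) :
    (dm_ql_Q 𝔖 h Y).φ ψ y = dm_ql_incl 𝔖 a (ψ (dm_ql_toYa h Y y)) := rfl

theorem dm_ql_Q_ker : (dm_ql_Q 𝔖 h Y).q.ker = a.L.fixingSubgroup := a.ker_q

end Global

/-! ### Transition between levels -/

section Trans

variable {p : ℕ} {S : Finset Nat.Primes} (𝔖 : du_Seam p S) {K₀ a b : du_Lev S} (h : K₀ ≤ a)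
  (hab : a ≤ b) (Y : Rep.{0} ℤ K₀.Γ)

/-- The identity of `Y`, from the `Γ_b`-module to the `Γ_a`-module. -/
def dm_ql_Yba : tl_Act (dm_ql_Ya (le_trans h hab) Y) →+ tl_Act (dm_ql_Ya h Y) :=
  AddMonoidHom.id Y.V

theorem dm_ql_Yba_smul (g : b.Γ) (y : tl_Act (dm_ql_Ya (le_trans h hab) Y)) :
    dm_ql_Yba h hab Y (g • y) = du_Lev.res hab g • dm_ql_Yba h hab Y y := by
  show Y.ρ (du_Lev.res (le_trans h hab) g) y = Y.ρ (du_Lev.res h (du_Lev.res hab g)) y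
  rw [dm_ql_res_res]

theorem dm_ql_Yba_toYa (y : dm_Yg K₀.q Y) :
    dm_ql_Yba h hab Y (dm_ql_toYa (le_trans h hab) Y y) = dm_ql_toYa h Y y := rfl

/-- **The transition** `Hom(Y, E(a)) → Hom(Y, E(b))` for `a ≤ b`. -/
def dm_ql_trans :
    LvMor (LevelSys.trivial a.Γ) (dm_ql_TE 𝔖 h Y) (LevelSys.trivial b.Γ)
      (dm_ql_TE 𝔖 (le_trans h hab) Y) :=
  LvHom.lvMor (LevelSys.trivial a.Γ) (LevelSys.trivial b.Γ) (du_Lev.res hab)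
    (fun U hU => ⟨⊥, rfl, by
      have hU' : U = ⊥ := hU
      rw [hU']
      exact bot_le⟩)
    (dm_ql_Yba h hab Y) (dm_ql_Yba_smul h hab Y)
    (show tl_Act (𝔖.E a) →+ tl_Act (𝔖.E b) from sl_tE 𝔖 hab)
    (fun g e => sl_tE_res 𝔖 hab g e)

@[simp] theorem dm_ql_trans_f : (dm_ql_trans 𝔖 h hab Y).f = du_Lev.res hab := rfl

theorem dm_ql_trans_φ_apply (ψ : dm_ql_TE 𝔖 h Y) (y : tl_Act (dm_ql_Ya (le_trans h hab) Y)) :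
    (dm_ql_trans 𝔖 h hab Y).φ ψ y = sl_tE 𝔖 hab (ψ (dm_ql_Yba h hab Y y)) := rfl

theorem dm_ql_Q_trans_f (σ : GQ) :
    (dm_ql_trans 𝔖 h hab Y).f ((dm_ql_Q 𝔖 (le_trans h hab) Y).q σ) = (dm_ql_Q 𝔖 h Y).q σ :=
  du_Lev.res_q hab σ

theorem dm_ql_Q_trans_φ (ψ : dm_ql_TE 𝔖 h Y) :
    (dm_ql_Q 𝔖 (le_trans h hab) Y).φ ((dm_ql_trans 𝔖 h hab Y).φ ψ) = (dm_ql_Q 𝔖 h Y).φ ψ := by
  ext y
  exact dm_ql_incl_tE 𝔖 hab (ψ (dm_ql_toYa h Y y))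

/-- Inflation to `G_ℚ` factors through the transition maps (degree 2). -/
theorem dm_ql_Q_trans (y : lvH2 (LevelSys.trivial a.Γ) (dm_ql_TE 𝔖 h Y)) :
    (dm_ql_Q 𝔖 (le_trans h hab) Y).mor.H2 ((dm_ql_trans 𝔖 h hab Y).H2 y) =
      (dm_ql_Q 𝔖 h Y).mor.H2 y :=
  LvQuot.H2_trans (dm_ql_Q 𝔖 h Y) (dm_ql_Q 𝔖 (le_trans h hab) Y) (dm_ql_trans 𝔖 h hab Y)
    (dm_ql_Q_trans_f 𝔖 h hab Y) (dm_ql_Q_trans_φ 𝔖 h hab Y) y

/-- Inflation to `G_ℚ` factors through the transition maps (degree 1). -/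
theorem dm_ql_Q_trans₁ (y : lvH1 (LevelSys.trivial a.Γ) (dm_ql_TE 𝔖 h Y)) :
    (dm_ql_Q 𝔖 (le_trans h hab) Y).mor.H1 ((dm_ql_trans 𝔖 h hab Y).H1 y) =
      (dm_ql_Q 𝔖 h Y).mor.H1 y :=
  LvQuot.H1_trans (dm_ql_Q 𝔖 h Y) (dm_ql_Q 𝔖 (le_trans h hab) Y) (dm_ql_trans 𝔖 h hab Y)
    (dm_ql_Q_trans_f 𝔖 h hab Y) (dm_ql_Q_trans_φ 𝔖 h hab Y) y

end Trans

/-! ### The local finite quotients -/

section Local

variable {p : ℕ} {S : Finset Nat.Primes} (𝔖 : du_Seam p S) {K₀ : du_Lev S} (a : du_Lev S)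
  (q : ↥S)

/-- The map from the local Galois group onto the decomposition group `D_q(a)`. -/
def dm_ql_locq : primeLocalGaloisGroup q.1 →* ↥((𝔖.dat a).D q) :=
  MonoidHom.codRestrict ((a.q).comp (primeLocalToGlobal q.1)) ((𝔖.dat a).D q) (fun τ => by
    rw [𝔖.dat_D]
    exact ⟨τ, rfl⟩)

theorem dm_ql_locq_coe (τ : primeLocalGaloisGroup q.1) :
    ((dm_ql_locq 𝔖 a q τ : ↥((𝔖.dat a).D q)) : a.Γ) = a.q (primeLocalToGlobal q.1 τ) := rfl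

theorem dm_ql_locq_surjective : Function.Surjective (dm_ql_locq 𝔖 a q) := by
  rintro ⟨d, hd⟩
  have hd' : d ∈ a.D q.1 := by rw [← 𝔖.dat_D]; exact hd
  obtain ⟨τ, rfl⟩ := hd'
  exact ⟨τ, rfl⟩

theorem dm_ql_mem_ker_locq (τ : primeLocalGaloisGroup q.1) :
    τ ∈ (dm_ql_locq 𝔖 a q).ker ↔ a.q (primeLocalToGlobal q.1 τ) = 1 := by
  rw [MonoidHom.mem_ker, Subtype.ext_iff]
  rfl

theorem dm_ql_mem_ker_locq' (τ : primeLocalGaloisGroup q.1) :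
    τ ∈ (dm_ql_locq 𝔖 a q).ker ↔ primeLocalToGlobal q.1 τ ∈ a.L.fixingSubgroup := by
  rw [dm_ql_mem_ker_locq, du_Lev.q_eq_one_iff]

variable {a} (h : K₀ ≤ a) (Y : Rep.{0} ℤ K₀.Γ)

/-- The identity of `Y`, from the `G_q`-module to the `D_q(a)`-module. -/
def dm_ql_toYq :
    dm_Yl K₀.q q.1 Y →+ tl_Act (tt_res ((𝔖.dat a).D q) (dm_ql_Ya h Y)) := AddMonoidHom.id Y.V

/-- The identity of `Y`, from the `D_q(a)`-module to the `G_q`-module. -/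
def dm_ql_fromYq :
    tl_Act (tt_res ((𝔖.dat a).D q) (dm_ql_Ya h Y)) →+ dm_Yl K₀.q q.1 Y := AddMonoidHom.id Y.V

@[simp] theorem dm_ql_fromYq_toYq (y : dm_Yl K₀.q q.1 Y) :
    dm_ql_fromYq 𝔖 q h Y (dm_ql_toYq 𝔖 q h Y y) = y := rfl

@[simp] theorem dm_ql_toYq_fromYq (y : tl_Act (tt_res ((𝔖.dat a).D q) (dm_ql_Ya h Y))) :
    dm_ql_toYq 𝔖 q h Y (dm_ql_fromYq 𝔖 q h Y y) = y := rfl

theorem dm_ql_toYq_surjective : Function.Surjective (dm_ql_toYq 𝔖 q h Y) := fun y => ⟨y, rfl⟩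

theorem dm_ql_toYq_smul (τ : primeLocalGaloisGroup q.1) (y : dm_Yl K₀.q q.1 Y) :
    dm_ql_toYq 𝔖 q h Y (τ • y) = dm_ql_locq 𝔖 a q τ • dm_ql_toYq 𝔖 q h Y y := by
  show Y.ρ (K₀.q (primeLocalToGlobal q.1 τ)) y =
    Y.ρ (du_Lev.res h (a.q (primeLocalToGlobal q.1 τ))) y
  rw [du_Lev.res_q]

theorem dm_ql_lam_smul (τ : primeLocalGaloisGroup q.1) (x : tl_Act ((𝔖.dat a).Xq q)) :
    𝔖.lam a q (dm_ql_locq 𝔖 a q τ • x) = τ • 𝔖.lam a q x :=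
  𝔖.lam_equiv a q τ (dm_ql_locq 𝔖 a q τ) rfl x

/-- The inflation map `Hom(Y, X_q(a)) → T_Y^q`. -/
def dm_ql_φloc : dm_ql_TX 𝔖 h Y q →+ dm_Tl K₀.q q.1 Y :=
  (LvHom.postcomp (show tl_Act ((𝔖.dat a).Xq q) →+ tl_locUnits q.1 from 𝔖.lam a q)).comp
    (LvHom.precomp (dm_ql_toYq 𝔖 q h Y))

theorem dm_ql_φloc_apply (ψ : dm_ql_TX 𝔖 h Y q) (y : dm_Yl K₀.q q.1 Y) :
    dm_ql_φloc 𝔖 q h Y ψ y = 𝔖.lam a q (ψ (dm_ql_toYq 𝔖 q h Y y)) := rfl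

theorem dm_ql_φloc_injective : Function.Injective (dm_ql_φloc 𝔖 q h Y) := by
  intro ψ ψ' hψ
  ext y
  obtain ⟨y, rfl⟩ := dm_ql_toYq_surjective 𝔖 q h Y y
  apply 𝔖.lam_inj a q
  exact DFunLike.congr_fun hψ y

theorem dm_ql_φloc_smul (τ : primeLocalGaloisGroup q.1) (ψ : dm_ql_TX 𝔖 h Y q) :
    dm_ql_φloc 𝔖 q h Y (dm_ql_locq 𝔖 a q τ • ψ) = τ • dm_ql_φloc 𝔖 q h Y ψ := by
  ext y
  rw [LvHom.smul_apply, dm_ql_φloc_apply, dm_ql_φloc_apply, LvHom.smul_apply, dm_ql_toYq_smul,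
    map_inv, dm_ql_lam_smul]

theorem dm_ql_φloc_range (x : dm_Tl K₀.q q.1 Y)
    (hx : ∀ τ ∈ (dm_ql_locq 𝔖 a q).ker, τ • x = x) :
    ∃ ψ : dm_ql_TX 𝔖 h Y q, dm_ql_φloc 𝔖 q h Y ψ = x := by
  -- the kernel acts trivially on `Y`
  have hY : ∀ τ ∈ (dm_ql_locq 𝔖 a q).ker, ∀ y : dm_Yl K₀.q q.1 Y, τ⁻¹ • y = y := by
    intro τ hτ y
    have h1 : K₀.q (primeLocalToGlobal q.1 τ⁻¹) = 1 := by
      rw [du_Lev.q_eq_one_iff]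
      exact IntermediateField.fixingSubgroup_antitone h
        ((dm_ql_mem_ker_locq' 𝔖 a q τ⁻¹).1 (inv_mem hτ))
    rw [dm_Yl_smul, h1, map_one]
    rfl
  have hfix : ∀ (y : dm_Yl K₀.q q.1 Y), ∀ τ : primeLocalGaloisGroup q.1,
      a.q (primeLocalToGlobal q.1 τ) = 1 → τ • x y = x y := by
    intro y τ hτ
    have hτ' : τ ∈ (dm_ql_locq 𝔖 a q).ker := (dm_ql_mem_ker_locq 𝔖 a q τ).2 hτ
    have := DFunLike.congr_fun (hx τ hτ') y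
    rw [LvHom.smul_apply, hY τ hτ'] at this
    exact this
  choose e he using fun y : dm_Yl K₀.q q.1 Y => 𝔖.lam_range a q (x y) (hfix y)
  let ψ₀ : dm_Yl K₀.q q.1 Y →+ ((𝔖.dat a).Xq q).V :=
    { toFun := e
      map_zero' := 𝔖.lam_inj a q (by
        rw [he]
        exact (map_zero x).trans (map_zero (𝔖.lam a q)).symm)
      map_add' := fun y y' => 𝔖.lam_inj a q (by
        rw [he]
        exact (map_add x y y').trans (by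
          rw [map_add (𝔖.lam a q), he, he])) }
  refine ⟨LvHom.of ((show dm_Yl K₀.q q.1 Y →+ tl_Act ((𝔖.dat a).Xq q) from ψ₀).comp
    (dm_ql_fromYq 𝔖 q h Y)), ?_⟩
  ext y
  exact he y

/-- **The finite quotient `D_q(a)` of the local Galois group for the module `T_Y^q`.** -/
def dm_ql_Qloc :
    LvQuot (tl_levelsLoc q.1) (dm_Tl K₀.q q.1 Y) ↥((𝔖.dat a).D q) (dm_ql_TX 𝔖 h Y q) where
  q := dm_ql_locq 𝔖 a q
  q_surj := dm_ql_locq_surjective 𝔖 a q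
  level := ⟨a.L.fixingSubgroup.comap (primeLocalToGlobal q.1),
    ⟨a.L.fixingSubgroup, ⟨a.L, inferInstance, rfl⟩, rfl⟩,
    fun τ hτ => (dm_ql_mem_ker_locq' 𝔖 a q τ).2 hτ⟩
  φ := dm_ql_φloc 𝔖 q h Y
  φ_inj := dm_ql_φloc_injective 𝔖 q h Y
  equivariant := fun τ ψ => dm_ql_φloc_smul 𝔖 q h Y τ ψ
  range_eq := dm_ql_φloc_range 𝔖 q h Y

@[simp] theorem dm_ql_Qloc_q : (dm_ql_Qloc 𝔖 q h Y).q = dm_ql_locq 𝔖 a q := rfl

@[simp] theorem dm_ql_Qloc_φ : (dm_ql_Qloc 𝔖 q h Y).φ = dm_ql_φloc 𝔖 q h Y := rfl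

theorem dm_ql_Qloc_φ_apply (ψ : dm_ql_TX 𝔖 h Y q) (y : dm_Yl K₀.q q.1 Y) :
    (dm_ql_Qloc 𝔖 q h Y).φ ψ y = 𝔖.lam a q (ψ (dm_ql_toYq 𝔖 q h Y y)) := rfl

include h in
/-- The kernel of `G_q → D_q(a)` acts trivially on `Y`. -/
theorem dm_ql_ker_smul_Y (n : ↥(dm_ql_locq 𝔖 a q).ker) (y : dm_Yl K₀.q q.1 Y) : n • y = y := by
  have h1 : K₀.q (primeLocalToGlobal q.1 (n : primeLocalGaloisGroup q.1)) = 1 := by
    rw [du_Lev.q_eq_one_iff]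
    exact IntermediateField.fixingSubgroup_antitone h ((dm_ql_mem_ker_locq' 𝔖 a q n.1).1 n.2)
  show (n : primeLocalGaloisGroup q.1) • y = y
  rw [dm_Yl_smul, h1, map_one]
  rfl

/-- **Local inflation is injective on `H²`** (inflation–restriction + Hilbert 90 for the kernel). -/
theorem dm_ql_Qloc_H2_injective (hY : ld_IsLattice Y) :
    Function.Injective (dm_ql_Qloc 𝔖 q h Y).mor.H2 := by
  obtain ⟨m, ⟨e⟩⟩ := hY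
  apply LvQuot.H2_injective_of_ker
  intro c₀ hc hlc
  exact LvHom.isCoboundary_of_trivial_action (N := ↥(dm_ql_locq 𝔖 a q).ker)
    (Y := dm_Yl K₀.q q.1 Y) (X := tl_locUnits q.1)
    ((tl_levelsLoc q.1).comap (dm_ql_locq 𝔖 a q).ker.subtype)
    (dm_ql_ker_smul_Y 𝔖 q h Y) (show dm_Yl K₀.q q.1 Y ≃+ (Fin m → ℤ) from e)
    (fun c hc' hlc' => tl_locUnits_coboundary q.1 _ c hc' hlc') c₀ hc hlc

/-- Local inflation is injective on `H¹`. -/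
theorem dm_ql_Qloc_H1_injective : Function.Injective (dm_ql_Qloc 𝔖 q h Y).mor.H1 :=
  (dm_ql_Qloc 𝔖 q h Y).H1_injective

end Local

/-! ### The local squares -/

section Square

variable {p : ℕ} {S : Finset Nat.Primes} (𝔖 : du_Seam p S) {K₀ a : du_Lev S} (q : ↥S)
  (h : K₀ ≤ a) (Y : Rep.{0} ℤ K₀.Γ)

/-- The map `E(a) → X_q(a)`: the `q`-component of the diagonal embedding followed by the
projection (on the plain carriers). -/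
def dm_ql_prε₀ : (𝔖.E a).V →+ ((𝔖.dat a).Xq q).V where
  toFun e := ((𝔖.dat a).pr q).hom ((𝔖.ε a q).hom e)
  map_zero' := by
    rw [map_zero]
    exact map_zero ((𝔖.dat a).pr q).hom
  map_add' e e' := by
    rw [map_add]
    exact map_add ((𝔖.dat a).pr q).hom _ _

theorem dm_ql_prε₀_smul (d : ↥((𝔖.dat a).D q)) (e : (𝔖.E a).V) :
    dm_ql_prε₀ 𝔖 q ((𝔖.E a).ρ (d : a.Γ) e) = ((𝔖.dat a).Xq q).ρ d (dm_ql_prε₀ 𝔖 q e) := by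
  show ((𝔖.dat a).pr q).hom ((𝔖.ε a q).hom ((𝔖.E a).ρ (d : a.Γ) e)) =
    ((𝔖.dat a).Xq q).ρ d (((𝔖.dat a).pr q).hom ((𝔖.ε a q).hom e))
  rw [Rep.hom_comm_apply (𝔖.ε a q) (d : a.Γ) e]
  exact Rep.hom_comm_apply ((𝔖.dat a).pr q) d ((𝔖.ε a q).hom e)

/-- The map `E(a) → X_q(a)` on the module carriers. -/
def dm_ql_prε : tl_Act (𝔖.E a) →+ tl_Act ((𝔖.dat a).Xq q) := dm_ql_prε₀ 𝔖 q

theorem dm_ql_prε_apply (e : (𝔖.E a).V) :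
    dm_ql_prε 𝔖 q e = ((𝔖.dat a).pr q).hom ((𝔖.ε a q).hom e) := rfl

theorem dm_ql_prε_smul (d : ↥((𝔖.dat a).D q)) (e : tl_Act (𝔖.E a)) :
    dm_ql_prε 𝔖 q (((𝔖.dat a).D q).subtype d • e) = d • dm_ql_prε 𝔖 q e :=
  dm_ql_prε₀_smul 𝔖 q d e

/-- The identity of `Y`, from the `D_q(a)`-module to the `Γ_a`-module. -/
def dm_ql_Yqa :
    tl_Act (tt_res ((𝔖.dat a).D q) (dm_ql_Ya h Y)) →+ tl_Act (dm_ql_Ya h Y) := AddMonoidHom.id Y.V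

/-- **Finite-level localisation** `Hom(Y, E(a)) → Hom(Y, X_q(a))` over `D_q(a) ≤ Γ_a`. -/
def dm_ql_rho :
    LvMor (LevelSys.trivial a.Γ) (dm_ql_TE 𝔖 h Y) (LevelSys.trivial ↥((𝔖.dat a).D q))
      (dm_ql_TX 𝔖 h Y q) :=
  LvHom.lvMor (LevelSys.trivial a.Γ) (LevelSys.trivial ↥((𝔖.dat a).D q))
    ((𝔖.dat a).D q).subtype
    (fun U hU => ⟨⊥, rfl, by
      have hU' : U = ⊥ := hU
      rw [hU']
      exact bot_le⟩)
    (dm_ql_Yqa 𝔖 q h Y) (fun _ _ => rfl) (dm_ql_prε 𝔖 q) (dm_ql_prε_smul 𝔖 q)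

@[simp] theorem dm_ql_rho_f : (dm_ql_rho 𝔖 q h Y).f = ((𝔖.dat a).D q).subtype := rfl

theorem dm_ql_rho_φ_apply (ψ : dm_ql_TE 𝔖 h Y)
    (y : tl_Act (tt_res ((𝔖.dat a).D q) (dm_ql_Ya h Y))) :
    (dm_ql_rho 𝔖 q h Y).φ ψ y =
      ((𝔖.dat a).pr q).hom ((𝔖.ε a q).hom (ψ (dm_ql_Yqa 𝔖 q h Y y))) := rfl

theorem dm_ql_square_f (τ : primeLocalGaloisGroup q.1) :
    (dm_ql_Q 𝔖 h Y).q ((dm_locT S K₀.q q.1 Y).f τ) =
      (dm_ql_rho 𝔖 q h Y).f ((dm_ql_Qloc 𝔖 q h Y).q τ) := rfl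

theorem dm_ql_ESloc_incl (e : (𝔖.E a).V) :
    dm_ESloc S q.1 (dm_ql_incl 𝔖 a e) = 𝔖.lam a q (dm_ql_prε 𝔖 q e) := by
  apply dm_locCoe_injective
  rw [dm_locCoe_ESloc, dm_ql_coe_incl]
  exact (𝔖.lam_Eval a q e).symm

theorem dm_ql_square_φ (ψ : dm_ql_TE 𝔖 h Y) :
    (dm_locT S K₀.q q.1 Y).φ ((dm_ql_Q 𝔖 h Y).φ ψ) =
      (dm_ql_Qloc 𝔖 q h Y).φ ((dm_ql_rho 𝔖 q h Y).φ ψ) := by
  ext y
  exact dm_ql_ESloc_incl 𝔖 q (ψ (dm_ql_toYa h Y y))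

/-- Localisation after inflation is inflation after finite-level localisation (degree 2). -/
theorem dm_ql_loc_H2 (y : lvH2 (LevelSys.trivial a.Γ) (dm_ql_TE 𝔖 h Y)) :
    (dm_locT S K₀.q q.1 Y).H2 ((dm_ql_Q 𝔖 h Y).mor.H2 y) =
      (dm_ql_Qloc 𝔖 q h Y).mor.H2 ((dm_ql_rho 𝔖 q h Y).H2 y) :=
  LvQuot.loc_H2 (dm_locT S K₀.q q.1 Y) (dm_ql_Q 𝔖 h Y) (dm_ql_Qloc 𝔖 q h Y) (dm_ql_rho 𝔖 q h Y)
    (dm_ql_square_f 𝔖 q h Y) (dm_ql_square_φ 𝔖 q h Y) y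

/-- Localisation after inflation is inflation after finite-level localisation (degree 1). -/
theorem dm_ql_loc_H1 (y : lvH1 (LevelSys.trivial a.Γ) (dm_ql_TE 𝔖 h Y)) :
    (dm_locT S K₀.q q.1 Y).H1 ((dm_ql_Q 𝔖 h Y).mor.H1 y) =
      (dm_ql_Qloc 𝔖 q h Y).mor.H1 ((dm_ql_rho 𝔖 q h Y).H1 y) :=
  LvQuot.loc_H1 (dm_locT S K₀.q q.1 Y) (dm_ql_Q 𝔖 h Y) (dm_ql_Qloc 𝔖 q h Y) (dm_ql_rho 𝔖 q h Y)
    (dm_ql_square_f 𝔖 q h Y) (dm_ql_square_φ 𝔖 q h Y) y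

/-- A finite-level class is locally trivial at `q` in level cohomology iff it is at the finite
level (degree 2; needs `Y` a lattice). -/
theorem dm_ql_loc_H2_eq_zero_iff (hY : ld_IsLattice Y)
    (y : lvH2 (LevelSys.trivial a.Γ) (dm_ql_TE 𝔖 h Y)) :
    (dm_locT S K₀.q q.1 Y).H2 ((dm_ql_Q 𝔖 h Y).mor.H2 y) = 0 ↔ (dm_ql_rho 𝔖 q h Y).H2 y = 0 := by
  rw [dm_ql_loc_H2]
  constructor
  · intro h0
    exact dm_ql_Qloc_H2_injective 𝔖 q h Y hY (h0.trans (map_zero _).symm)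
  · intro h0
    rw [h0, map_zero]

/-- A finite-level class is locally trivial at `q` in level cohomology iff it is at the finite
level (degree 1). -/
theorem dm_ql_loc_H1_eq_zero_iff (y : lvH1 (LevelSys.trivial a.Γ) (dm_ql_TE 𝔖 h Y)) :
    (dm_locT S K₀.q q.1 Y).H1 ((dm_ql_Q 𝔖 h Y).mor.H1 y) = 0 ↔ (dm_ql_rho 𝔖 q h Y).H1 y = 0 :=
  LvQuot.loc_H1_eq_zero_iff (dm_locT S K₀.q q.1 Y) (dm_ql_Q 𝔖 h Y) (dm_ql_Qloc 𝔖 q h Y)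
    (dm_ql_rho 𝔖 q h Y) (dm_ql_square_f 𝔖 q h Y) (dm_ql_square_φ 𝔖 q h Y) y

end Square

/-! ### Every locally trivial `p`-torsion class of `H²(G_S, T_Y)` lives at a finite level -/

section ExistsLevel

variable {p : ℕ} {S : Finset Nat.Primes} (𝔖 : du_Seam p S) {K₀ : du_Lev S}
  (Y : Rep.{0} ℤ K₀.Γ)

theorem dm_ql_hπ₀ (K₀ : du_Lev S) : ∃ U ∈ (tl_levelsS S).levels, U ≤ K₀.q.ker :=
  ⟨K₀.L.fixingSubgroup, K₀.fixingSubgroup_mem_levels, K₀.ker_q.ge⟩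

/-- Every level of `tl_levelsS S` contains the kernel of `G_ℚ → Γ_a` for some Galois level
`a ≥ a₀`. -/
theorem dm_ql_exists_ge (a₀ : du_Lev S) {W : Subgroup GQ} (hW : W ∈ (tl_levelsS S).levels) :
    ∃ a : du_Lev S, a₀ ≤ a ∧ a.L.fixingSubgroup ≤ W := by
  obtain ⟨F, hF, rfl⟩ := hW
  obtain ⟨a', ha'⟩ := du_Lev.exists_ge_field F hF
  exact ⟨du_Lev.sup a₀ a', du_Lev.le_sup_left a₀ a',
    IntermediateField.fixingSubgroup_antitone (le_trans ha' (du_Lev.le_sup_right a₀ a'))⟩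

/-- **(7)** A `p`-torsion class of `H²(G_S, T_Y)` which is locally trivial at the primes of `S`
is the inflation of a `p`-torsion class of a finite level which is locally trivial at that
level. -/
theorem dm_ql_exists_level (hY : ld_IsLattice Y) (z : lvH2 (tl_levelsS S) (dm_T S K₀.q Y))
    (hz : p • z = 0) (hloc : ∀ q : ↥S, (dm_locT S K₀.q q.1 Y).H2 z = 0) :
    ∃ (a : du_Lev S) (h : K₀ ≤ a) (y : lvH2 (LevelSys.trivial a.Γ) (dm_ql_TE 𝔖 h Y)),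
      (dm_ql_Q 𝔖 h Y).mor.H2 y = z ∧ p • y = 0 ∧ ∀ q : ↥S, (dm_ql_rho 𝔖 q h Y).H2 y = 0 := by
  have hX : (tl_levelsS S).IsSmooth (dm_T S K₀.q Y) :=
    dm_isSmooth_T S K₀.q (dm_ql_hπ₀ K₀) Y hY
  have hU₀ : K₀.L.fixingSubgroup ∈ (tl_levelsS S).levels := K₀.fixingSubgroup_mem_levels
  -- a first level from which `z` is inflated
  obtain ⟨W, hW, -, -, hWz⟩ := lvH2_exists_level hX z hU₀
  obtain ⟨a₁, h₁, ha₁⟩ := dm_ql_exists_ge K₀ hW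
  obtain ⟨y₁, hy₁⟩ := hWz (dm_ql_Q 𝔖 h₁ Y) (by rw [dm_ql_Q_ker]; exact ha₁)
  -- a bigger level at which `p • y₁` dies
  have hpy : (dm_ql_Q 𝔖 h₁ Y).mor.H2 (p • y₁) = 0 := by rw [map_nsmul, hy₁, hz]
  obtain ⟨W', hW', -, -, hW'y⟩ :=
    (dm_ql_Q 𝔖 h₁ Y).exists_level_forall_trans_H2_eq_zero hX (p • y₁) hpy hU₀
  obtain ⟨a, hab, ha⟩ := dm_ql_exists_ge a₁ hW'
  have h0 : (dm_ql_trans 𝔖 h₁ hab Y).H2 (p • y₁) = 0 :=
    hW'y (dm_ql_Q 𝔖 (le_trans h₁ hab) Y) (dm_ql_trans 𝔖 h₁ hab Y)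
      (dm_ql_Q_trans_f 𝔖 h₁ hab Y) (dm_ql_Q_trans_φ 𝔖 h₁ hab Y)
      (by rw [dm_ql_Q_ker]; exact ha)
  have hinfl : (dm_ql_Q 𝔖 (le_trans h₁ hab) Y).mor.H2 ((dm_ql_trans 𝔖 h₁ hab Y).H2 y₁) = z := by
    rw [dm_ql_Q_trans, hy₁]
  refine ⟨a, le_trans h₁ hab, (dm_ql_trans 𝔖 h₁ hab Y).H2 y₁, hinfl, ?_, fun q => ?_⟩
  · rw [← map_nsmul, h0]
  · rw [← dm_ql_loc_H2_eq_zero_iff 𝔖 q (le_trans h₁ hab) Y hY, hinfl]
    exact hloc q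

/-- The degree-1 analogue: a locally trivial class of `H¹(G_S, T_Y)` is the inflation of a locally
trivial class of a finite level. -/
theorem dm_ql_exists_level₁ (x : lvH1 (tl_levelsS S) (dm_T S K₀.q Y))
    (hloc : ∀ q : ↥S, (dm_locT S K₀.q q.1 Y).H1 x = 0) :
    ∃ (a : du_Lev S) (h : K₀ ≤ a) (y : lvH1 (LevelSys.trivial a.Γ) (dm_ql_TE 𝔖 h Y)),
      (dm_ql_Q 𝔖 h Y).mor.H1 y = x ∧ ∀ q : ↥S, (dm_ql_rho 𝔖 q h Y).H1 y = 0 := by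
  have hU₀ : K₀.L.fixingSubgroup ∈ (tl_levelsS S).levels := K₀.fixingSubgroup_mem_levels
  obtain ⟨W, hW, -, -, hWx⟩ := lvH1_exists_level x hU₀
  obtain ⟨a, h, ha⟩ := dm_ql_exists_ge K₀ hW
  obtain ⟨y, hy⟩ := hWx (dm_ql_Q 𝔖 h Y) (by rw [dm_ql_Q_ker]; exact ha)
  refine ⟨a, h, y, hy, fun q => ?_⟩
  rw [← dm_ql_loc_H1_eq_zero_iff 𝔖 q h Y, hy]
  exact hloc q

end ExistsLevel

end

end Fermat.Agent.S55
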