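import Fermat.Agent.S55.Dual.SeamLevel
import Fermat.Agent.S55.Dual.ModulesLevel
import Fermat.Agent.S55.Dual.HomBridge

/-!
# The `X`-side connecting maps at finite levels (block [D] of S55, leaf [X2], prefix `xd_`)

For the seam `𝔖 : du_Seam p S`, levels `K₀ ≤ a ≤ b` and a lattice `Y` over `Γ_{K₀}`:

* `xd_Cfin 𝔖 ha hab Y ≤ Hom_{Γ_a}(Y, C(a))`: the homomorphisms `φ` with `t_{a,b} ∘ φ` valued in
  `C°(b)`;
* `xd_toH0 : xd_Cfin →+ H⁰(Γ_b, Hom(Y, C°(b)))`, bijective;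
* `xd_Δ : xd_Cfin →+ H¹(G_S, T_Y)`, `φ ↦ infl_b (δ⁰_b (t ∘ φ))` for the level-`b` sequence
  `0 → Hom(Y, E(b)) → Hom(Y, ∏ J_q(b)) → Hom(Y, C°(b)) → 0` (`sl_homSes`);
* (P1) `xd_Δ` takes locally trivial values; (P2) independence of `b`; (P3) `xd_Δ φ = 0` iff
  `φ ∈ ld_Loc`; (P4) naturality in `Y`.
-/

set_option autoImplicit false
set_option linter.unusedSectionVars false

open CategoryTheory groupCohomology ExtCitation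

namespace Fermat.Agent.S55

local notation "GQ" => (AlgebraicClosure ℚ ≃ₐ[ℚ] AlgebraicClosure ℚ)
local notation "Qbar" => AlgebraicClosure ℚ

noncomputable section

variable {p : ℕ} {S : Finset Nat.Primes} (𝔖 : du_Seam p S) {K₀ a b : du_Lev S}
  (ha : K₀ ≤ a) (hab : a ≤ b) (Y : Rep.{0} ℤ K₀.Γ)

/-! ### The subgroups `𝒞_Y(a; b)` -/

/-- Homomorphisms `Y → C(a)` whose composite with `t_{a,b}` is valued in `C°(b)`. -/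
def xd_Cfin : AddSubgroup (sl_Y Y ha ⟶ (𝔖.dat a).C) where
  carrier := {φ | ∀ y, 𝔖.tC hab (φ.hom y) ∈ du_Co (𝔖.dat b)}
  zero_mem' := fun y => by
    have : (0 : sl_Y Y ha ⟶ (𝔖.dat a).C).hom y = 0 := rfl
    rw [this, map_zero]
    exact zero_mem _
  add_mem' := by
    intro φ φ' hφ hφ' y
    have : (φ + φ').hom y = φ.hom y + φ'.hom y := rfl
    rw [this, map_add]
    exact add_mem (hφ y) (hφ' y)
  neg_mem' := by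
    intro φ hφ y
    have : (-φ).hom y = -(φ.hom y) := rfl
    rw [this, map_neg]
    exact neg_mem (hφ y)

lemma xd_mem_Cfin {φ : sl_Y Y ha ⟶ (𝔖.dat a).C} :
    φ ∈ xd_Cfin 𝔖 ha hab Y ↔ ∀ y, 𝔖.tC hab (φ.hom y) ∈ du_Co (𝔖.dat b) := Iff.rfl

/-- `𝒞_Y(a; b) ≤ 𝒞^∞_Y(a)`. -/
lemma xd_Cfin_le_Cinf : xd_Cfin 𝔖 ha hab Y ≤ du_Cinf 𝔖 a (sl_Y Y ha) :=
  fun _ hφ => ⟨b, hab, hφ⟩

/-- every element of `𝒞^∞_Y(a)` lies in some `𝒞_Y(a; b)`. -/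
lemma xd_exists_Cfin {φ : sl_Y Y ha ⟶ (𝔖.dat a).C} (hφ : φ ∈ du_Cinf 𝔖 a (sl_Y Y ha)) :
    ∃ (b : du_Lev S) (hab : a ≤ b), φ ∈ xd_Cfin 𝔖 ha hab Y := hφ

/-- monotonicity in `b`. -/
lemma xd_Cfin_mono {b' : du_Lev S} (hbb' : b ≤ b') :
    xd_Cfin 𝔖 ha hab Y ≤ xd_Cfin 𝔖 ha (le_trans hab hbb') Y := by
  intro φ hφ y
  rw [← 𝔖.tC_trans hab hbb']
  exact du_tC_mem_Co 𝔖 hbb' (hφ y)

/-- `Loc ≤ 𝒞_Y(a; b)`. -/
lemma xd_Loc_le_Cfin : ld_Loc (𝔖.dat a) (sl_Y Y ha) ≤ xd_Cfin 𝔖 ha hab Y := by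
  unfold ld_Loc
  rw [iSup_le_iff]
  rintro q _ ⟨ψ, rfl⟩
  intro y
  apply du_tC_mem_Co
  exact (le_iSup (fun q => ((𝔖.dat a).j q).hom.toAddMonoidHom.range) q) ⟨ψ.hom y, rfl⟩

/-! ### The map to `H⁰(Γ_b, Hom(Y, C°(b)))` -/

/-- `t_{a,b} ∘ φ` on the carriers of level `b`. -/
def xd_map (φ : sl_Y Y ha ⟶ (𝔖.dat a).C) :
    tl_Act (sl_Y Y (le_trans ha hab)) →+ tl_Act (𝔖.dat b).C :=
  (sl_tCact 𝔖 hab).comp ((sl_actMap φ).comp (sl_Yid Y ha (le_trans ha hab)))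

lemma xd_ofAct_map (φ : sl_Y Y ha ⟶ (𝔖.dat a).C) (y : tl_Act (sl_Y Y (le_trans ha hab))) :
    tl_ofAct _ (xd_map 𝔖 ha hab Y φ y) =
      𝔖.tC hab (φ.hom (tl_ofAct (sl_Y Y ha) (sl_Yid Y ha (le_trans ha hab) y))) := rfl

lemma xd_map_smul (φ : sl_Y Y ha ⟶ (𝔖.dat a).C) (g : b.Γ)
    (y : tl_Act (sl_Y Y (le_trans ha hab))) :
    xd_map 𝔖 ha hab Y φ (g • y) = g • xd_map 𝔖 ha hab Y φ y := by
  unfold xd_map
  simp only [AddMonoidHom.comp_apply]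
  rw [sl_Yid_smul Y ha hab, sl_actMap_smul, sl_tCact_smul]

lemma xd_map_add (φ φ' : sl_Y Y ha ⟶ (𝔖.dat a).C) :
    xd_map 𝔖 ha hab Y (φ + φ') = xd_map 𝔖 ha hab Y φ + xd_map 𝔖 ha hab Y φ' := by
  refine AddMonoidHom.ext fun y => ?_
  apply sl_ofAct_injective
  show 𝔖.tC hab ((φ + φ').hom _) = 𝔖.tC hab (φ.hom _) + 𝔖.tC hab (φ'.hom _)
  have : ∀ v, (φ + φ').hom v = φ.hom v + φ'.hom v := fun _ => rfl
  rw [this, map_add]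

lemma xd_map_mem_Co {φ : sl_Y Y ha ⟶ (𝔖.dat a).C} (hφ : φ ∈ xd_Cfin 𝔖 ha hab Y)
    (y : tl_Act (sl_Y Y (le_trans ha hab))) : xd_map 𝔖 ha hab Y φ y ∈ sl_Co 𝔖 b := by
  rw [sl_mem_Co, xd_ofAct_map]
  exact hφ _

/-- `t_{a,b} ∘ φ` as a `Γ_b`-invariant element of `Hom(Y, C°(b))`. -/
def xd_toH0 : ↥(xd_Cfin 𝔖 ha hab Y) →+
    ↥(lvH0 (G := b.Γ) (LvHom (tl_Act (sl_Y Y (le_trans ha hab))) ↥(sl_Co 𝔖 b))) :=
  AddMonoidHom.mk' (fun φ =>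
    ⟨LvHom.of ((xd_map 𝔖 ha hab Y φ.1).codRestrict (sl_Co 𝔖 b)
        (xd_map_mem_Co 𝔖 ha hab Y φ.2)),
      (LvHom.mem_lvH0_iff _).2 (fun g y => Subtype.ext (xd_map_smul 𝔖 ha hab Y φ.1 g y))⟩)
    (fun φ φ' => by
      apply Subtype.ext
      refine LvHom.ext fun y => Subtype.ext ?_
      show xd_map 𝔖 ha hab Y (φ.1 + φ'.1) y = _
      rw [xd_map_add]
      rfl)

lemma xd_toH0_apply (φ : ↥(xd_Cfin 𝔖 ha hab Y)) (y : tl_Act (sl_Y Y (le_trans ha hab))) :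
    (((xd_toH0 𝔖 ha hab Y φ).1 y : ↥(sl_Co 𝔖 b)) : tl_Act (𝔖.dat b).C) =
      xd_map 𝔖 ha hab Y φ.1 y := rfl

/-! ### The connecting map -/

variable [Nonempty ↥S]

/-- The map `Δ_b : 𝒞_Y(a; b) → H¹(G_S, T_Y)`: inflation of the connecting map of the level-`b`
sequence applied to `t_{a,b} ∘ φ`. -/
def xd_Δ (hY : ld_IsLattice Y) :
    ↥(xd_Cfin 𝔖 ha hab Y) →+ lvH1 (tl_levelsS S) (dm_T S K₀.q Y) :=
  ((dm_ql_Q 𝔖 (le_trans ha hab) Y).mor.H1.comp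
    ((sl_homSes 𝔖 Y (le_trans ha hab) hY).δ0 (LevelSys.trivial b.Γ)
      (sl_isSmooth_trivial _))).comp (xd_toH0 𝔖 ha hab Y)

lemma xd_Δ_apply (hY : ld_IsLattice Y) (φ : ↥(xd_Cfin 𝔖 ha hab Y)) :
    xd_Δ 𝔖 ha hab Y hY φ = (dm_ql_Q 𝔖 (le_trans ha hab) Y).mor.H1
      ((sl_homSes 𝔖 Y (le_trans ha hab) hY).δ0 (LevelSys.trivial b.Γ) (sl_isSmooth_trivial _)
        (xd_toH0 𝔖 ha hab Y φ)) := rfl


/-! ### (P1) `Δ_b` takes locally trivial values -/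

/-- **(P1)** the class `Δ_b φ` is locally trivial at every `q ∈ S`. -/
theorem xd_Δ_loc (hY : ld_IsLattice Y) (φ : ↥(xd_Cfin 𝔖 ha hab Y)) (q : ↥S) :
    (dm_locT S K₀.q q.1 Y).H1 (xd_Δ 𝔖 ha hab Y hY φ) = 0 := by
  rw [xd_Δ_apply, dm_ql_loc_H1_eq_zero_iff]
  have hmi : ((sl_homSes 𝔖 Y (le_trans ha hab) hY).mi (LevelSys.trivial b.Γ)).H1
      ((sl_homSes 𝔖 Y (le_trans ha hab) hY).δ0 (LevelSys.trivial b.Γ) (sl_isSmooth_trivial _)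
        (xd_toH0 𝔖 ha hab Y φ)) = 0 :=
    ((sl_homSes 𝔖 Y (le_trans ha hab) hY).exact_H1A (LevelSys.trivial b.Γ)
      (sl_isSmooth_trivial _) _).2 ⟨_, rfl⟩
  exact (hmb_seam_hloc1 𝔖 b (sl_Y Y (le_trans ha hab)) hY
    ((sl_homSes 𝔖 Y (le_trans ha hab) hY).mi (LevelSys.trivial b.Γ)) rfl (fun _ _ _ => rfl)
    (fun q => dm_ql_rho 𝔖 q (le_trans ha hab) Y) (fun _ => rfl) (fun _ _ _ => rfl) _).2 hmi q

/-- **(P1)**, `lvSha1` form (`= dm_XR S K₀.q A` for `Y = la_R A`). -/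
theorem xd_Δ_mem_sha (hY : ld_IsLattice Y) (φ : ↥(xd_Cfin 𝔖 ha hab Y)) :
    xd_Δ 𝔖 ha hab Y hY φ ∈ lvSha1 (fun q : ↥S => dm_locT S K₀.q q.1 Y) :=
  mem_lvSha1.2 (fun q => xd_Δ_loc 𝔖 ha hab Y hY φ q)

/-! ### (P2) independence of the level `b` -/

lemma xd_mC_toH0 (hY : ld_IsLattice Y) {b' : du_Lev S} (hbb' : b ≤ b')
    (φ : ↥(xd_Cfin 𝔖 ha hab Y)) :
    (sl_homSesMor 𝔖 Y (le_trans ha hab) hbb' hY).mC.H0 (xd_toH0 𝔖 ha hab Y φ) =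
      xd_toH0 𝔖 ha (le_trans hab hbb') Y ⟨φ.1, xd_Cfin_mono 𝔖 ha hab Y hbb' φ.2⟩ := by
  apply Subtype.ext
  refine LvHom.ext fun y => Subtype.ext ?_
  apply sl_ofAct_injective
  show 𝔖.tC hbb' (𝔖.tC hab (φ.1.hom _)) = 𝔖.tC (le_trans hab hbb') (φ.1.hom _)
  exact 𝔖.tC_trans hab hbb' _

/-- **(P2)** `Δ_{b'} φ = Δ_b φ` for `b ≤ b'`. -/
theorem xd_Δ_trans (hY : ld_IsLattice Y) {b' : du_Lev S} (hbb' : b ≤ b')
    (φ : ↥(xd_Cfin 𝔖 ha hab Y)) :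
    xd_Δ 𝔖 ha (le_trans hab hbb') Y hY ⟨φ.1, xd_Cfin_mono 𝔖 ha hab Y hbb' φ.2⟩ =
      xd_Δ 𝔖 ha hab Y hY φ := by
  rw [xd_Δ_apply, xd_Δ_apply, ← xd_mC_toH0 𝔖 ha hab Y hY hbb' φ,
    ← (sl_homSesMor 𝔖 Y (le_trans ha hab) hbb' hY).δ0_comm (sl_isSmooth_trivial _)
      (sl_isSmooth_trivial _)]
  have hmor : dm_ql_trans 𝔖 (le_trans ha hab) hbb' Y =
      (sl_homSesMor 𝔖 Y (le_trans ha hab) hbb' hY).mA := hmb_LvMor_ext rfl rfl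
  rw [← hmor]
  exact dm_ql_Q_trans₁ 𝔖 (le_trans ha hab) hbb' Y _

/-! ### `xd_toH0` is bijective -/

omit [Nonempty ↥S] in
theorem xd_toH0_injective : Function.Injective (xd_toH0 𝔖 ha hab Y) := by
  intro φ φ' h
  apply Subtype.ext
  refine Rep.hom_ext (DFunLike.ext _ _ fun y => ?_)
  apply 𝔖.tC_inj hab
  have h1 := congrArg (fun f => tl_ofAct _
    (((f : ↥(lvH0 (G := b.Γ) (LvHom (tl_Act (sl_Y Y (le_trans ha hab))) ↥(sl_Co 𝔖 b)))).1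
      (tl_toAct (sl_Y Y (le_trans ha hab)) y) : ↥(sl_Co 𝔖 b)) : tl_Act (𝔖.dat b).C)) h
  exact h1


omit [Nonempty ↥S] in
theorem xd_toH0_surjective : Function.Surjective (xd_toH0 𝔖 ha hab Y) := by
  intro f
  have hf := (LvHom.mem_lvH0_iff f.1).1 f.2
  -- the value map `Y → C(b)`
  let v : Y.V → (𝔖.dat b).C.V := fun y₀ => tl_ofAct (𝔖.dat b).C
    ((f.1 (tl_toAct (sl_Y Y (le_trans ha hab)) y₀) : ↥(sl_Co 𝔖 b)) : tl_Act (𝔖.dat b).C)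
  have hv_add : ∀ y y', v (y + y') = v y + v y' := by
    intro y y'
    show tl_ofAct (𝔖.dat b).C
      ((f.1 (tl_toAct (sl_Y Y (le_trans ha hab)) (y + y')) : ↥(sl_Co 𝔖 b)) :
        tl_Act (𝔖.dat b).C) = _
    rw [map_add, map_add]
    rfl
  have hv_smul : ∀ (g : b.Γ) (y₀ : Y.V),
      v (Y.ρ (du_Lev.res (le_trans ha hab) g) y₀) = (𝔖.dat b).C.ρ g (v y₀) := fun g y₀ =>
    congrArg (fun c : ↥(sl_Co 𝔖 b) => tl_ofAct (𝔖.dat b).C (c : tl_Act (𝔖.dat b).C))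
      (hf g (tl_toAct (sl_Y Y (le_trans ha hab)) y₀))
  have hv_fix : ∀ (y₀ : Y.V), ∀ σ ∈ a.L.fixingSubgroup,
      (𝔖.dat b).C.ρ (b.q σ) (v y₀) = v y₀ := by
    intro y₀ σ hσ
    rw [← hv_smul, du_Lev.res_q]
    have h1 : K₀.q σ = 1 :=
      (K₀.q_eq_one_iff σ).2 (IntermediateField.fixingSubgroup_antitone ha hσ)
    rw [h1, map_one]
    rfl
  choose φ₀ hφ₀ using fun y₀ => 𝔖.tC_range hab (v y₀) (hv_fix y₀)
  have hφ_add : ∀ y y', φ₀ (y + y') = φ₀ y + φ₀ y' := by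
    intro y y'
    apply 𝔖.tC_inj hab
    rw [map_add, hφ₀, hφ₀, hφ₀, hv_add]
  have hφ_equiv : ∀ (g' : a.Γ) (y₀ : (sl_Y Y ha).V),
      φ₀ ((sl_Y Y ha).ρ g' y₀) = (𝔖.dat a).C.ρ g' (φ₀ y₀) := by
    intro g' y₀
    obtain ⟨g, rfl⟩ := du_Lev.res_surjective hab g'
    apply 𝔖.tC_inj hab
    rw [sl_tC_res, hφ₀, hφ₀, ← hv_smul]
    congr 1
    show Y.ρ (du_Lev.res ha (du_Lev.res hab g)) y₀ = _
    rw [sl_res_res]
  let φ : sl_Y Y ha ⟶ (𝔖.dat a).C :=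
    la_ofAddHom (A := sl_Y Y ha) (B := (𝔖.dat a).C) (AddMonoidHom.mk' φ₀ hφ_add) hφ_equiv
  have hφmem : φ ∈ xd_Cfin 𝔖 ha hab Y := fun y => by
    show 𝔖.tC hab (φ₀ y) ∈ _
    rw [hφ₀]
    exact (f.1 _).2
  refine ⟨⟨φ, hφmem⟩, ?_⟩
  apply Subtype.ext
  refine LvHom.ext fun y => Subtype.ext ?_
  apply sl_ofAct_injective
  show 𝔖.tC hab (φ₀ _) = _
  rw [hφ₀]
  rfl

omit [Nonempty ↥S] in
theorem xd_toH0_bijective : Function.Bijective (xd_toH0 𝔖 ha hab Y) :=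
  ⟨xd_toH0_injective 𝔖 ha hab Y, xd_toH0_surjective 𝔖 ha hab Y⟩

end

/-! ### `ld_Loc` as the group of sums `∑ q, χ_q ≫ j_q` -/

section Loc

variable {Γ : Type} [Group Γ] {ι : Type} [Fintype ι] {p : ℕ} (𝔻 : ld_Data p Γ ι)
  (Y : Rep.{0} ℤ Γ)

/-- evaluation of a morphism at a vector, as an additive map. -/
def xd_ev {C : Rep.{0} ℤ Γ} (y : Y.V) : (Y ⟶ C) →+ C.V :=
  AddMonoidHom.mk' (fun f => f.hom y) (fun _ _ => rfl)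

lemma xd_ev_apply {C : Rep.{0} ℤ Γ} (y : Y.V) (f : Y ⟶ C) : xd_ev Y y f = f.hom y := rfl

lemma xd_sum_hom {C : Rep.{0} ℤ Γ} (f : ι → (Y ⟶ C)) (y : Y.V) :
    (∑ q, f q).hom y = ∑ q, (f q).hom y := by
  have := map_sum (xd_ev Y (C := C) y) f Finset.univ
  exact this

theorem xd_mem_Loc_iff (φ : Y ⟶ 𝔻.C) :
    φ ∈ ld_Loc 𝔻 Y ↔ ∃ χ : ∀ q, Y ⟶ 𝔻.Jq q, φ = ∑ q, χ q ≫ 𝔻.j q := by
  classical
  constructor
  · intro hφ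
    unfold ld_Loc at hφ
    induction hφ using AddSubgroup.iSup_induction' with
    | hp q x hx =>
      obtain ⟨ψ, rfl⟩ := hx
      refine ⟨Pi.single q ψ, ?_⟩
      rw [Finset.sum_eq_single q]
      · rw [Pi.single_eq_same]
        rfl
      · intro q' _ hq'
        rw [Pi.single_eq_of_ne hq']
        exact Limits.zero_comp
      · intro hq
        exact absurd (Finset.mem_univ q) hq
    | h1 =>
      refine ⟨0, ?_⟩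
      symm
      refine Finset.sum_eq_zero fun q _ => ?_
      exact Limits.zero_comp
    | hadd x y _ _ hx hy =>
      obtain ⟨χ, rfl⟩ := hx
      obtain ⟨χ', rfl⟩ := hy
      refine ⟨χ + χ', ?_⟩
      rw [← Finset.sum_add_distrib]
      refine Finset.sum_congr rfl fun q _ => ?_
      exact (Preadditive.add_comp _ _ _ _ _ _).symm
  · rintro ⟨χ, rfl⟩
    refine sum_mem fun q _ => ?_
    exact (le_iSup (fun q => (ld_a 𝔻 Y q).range) q) ⟨χ q, rfl⟩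

end Loc

noncomputable section

variable {p : ℕ} {S : Finset Nat.Primes} (𝔖 : du_Seam p S) {K₀ a b : du_Lev S}
  (ha : K₀ ≤ a) (hab : a ≤ b) (Y : Rep.{0} ℤ K₀.Γ) [Nonempty ↥S]

/-! ### (P3) the kernel of `Δ_b` -/

/-- `Δ_b φ = 0` iff `t ∘ φ` lifts to an invariant of `Hom(Y, ∏ J_q(b))`. -/
lemma xd_Δ_eq_zero_iff_lift (hY : ld_IsLattice Y) (φ : ↥(xd_Cfin 𝔖 ha hab Y)) :
    xd_Δ 𝔖 ha hab Y hY φ = 0 ↔
      ∃ β : ↥(lvH0 (G := b.Γ) (LvHom (tl_Act (sl_Y Y (le_trans ha hab))) (sl_J 𝔖 b))),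
        ∀ y, sl_sum 𝔖 b (β.1 y) = xd_map 𝔖 ha hab Y φ.1 y := by
  rw [xd_Δ_apply]
  constructor
  · intro h
    have h1 := (dm_ql_Q 𝔖 (le_trans ha hab) Y).H1_injective (h.trans (map_zero _).symm)
    obtain ⟨β, hβ⟩ := ((sl_homSes 𝔖 Y (le_trans ha hab) hY).exact_H0C (LevelSys.trivial b.Γ)
      (sl_isSmooth_trivial _) _).1 h1
    refine ⟨β, fun y => ?_⟩
    have h2 := congrArg (fun f : ↥(lvH0 (G := b.Γ)
      (LvHom (tl_Act (sl_Y Y (le_trans ha hab))) ↥(sl_Co 𝔖 b))) =>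
        ((f.1 y : ↥(sl_Co 𝔖 b)) : tl_Act (𝔖.dat b).C)) hβ
    exact h2
  · rintro ⟨β, hβ⟩
    have h1 : (sl_homSes 𝔖 Y (le_trans ha hab) hY).δ0 (LevelSys.trivial b.Γ)
        (sl_isSmooth_trivial _) (xd_toH0 𝔖 ha hab Y φ) = 0 := by
      rw [(sl_homSes 𝔖 Y (le_trans ha hab) hY).exact_H0C]
      refine ⟨β, ?_⟩
      apply Subtype.ext
      refine LvHom.ext fun y => Subtype.ext ?_
      exact hβ y
    rw [h1, map_zero]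


/-- the lift attached to a family `χ_q : Y → J_q(a)`. -/
def xd_liftJ (χ : ∀ q : ↥S, sl_Y Y ha ⟶ (𝔖.dat a).Jq q) :
    tl_Act (sl_Y Y (le_trans ha hab)) →+ sl_J 𝔖 b :=
  (sl_tJ 𝔖 hab).comp (AddMonoidHom.pi fun q : ↥S =>
    (sl_actMap (χ q)).comp (sl_Yid Y ha (le_trans ha hab)))

omit [Nonempty ↥S] in
lemma xd_liftJ_smul (χ : ∀ q : ↥S, sl_Y Y ha ⟶ (𝔖.dat a).Jq q) (g : b.Γ)
    (y : tl_Act (sl_Y Y (le_trans ha hab))) :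
    xd_liftJ 𝔖 ha hab Y χ (g • y) = g • xd_liftJ 𝔖 ha hab Y χ y := by
  unfold xd_liftJ
  rw [AddMonoidHom.comp_apply, AddMonoidHom.comp_apply, ← sl_tJ_smul]
  congr 1
  funext q
  show sl_actMap (χ q) (sl_Yid Y ha (le_trans ha hab) (g • y)) =
    du_Lev.res hab g • sl_actMap (χ q) (sl_Yid Y ha (le_trans ha hab) y)
  rw [sl_Yid_smul Y ha hab, sl_actMap_smul]

omit [Nonempty ↥S] in
lemma xd_sum_liftJ (χ : ∀ q : ↥S, sl_Y Y ha ⟶ (𝔖.dat a).Jq q)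
    (y : tl_Act (sl_Y Y (le_trans ha hab))) :
    sl_sum 𝔖 b (xd_liftJ 𝔖 ha hab Y χ y) =
      xd_map 𝔖 ha hab Y (∑ q, χ q ≫ (𝔖.dat a).j q) y := by
  unfold xd_liftJ xd_map
  rw [AddMonoidHom.comp_apply, ← sl_tCact_sum, AddMonoidHom.comp_apply, AddMonoidHom.comp_apply]
  congr 1
  apply sl_ofAct_injective
  rw [sl_ofAct_sum, sl_ofAct_actMap, xd_sum_hom]
  rfl

/-- **(P3)** `Δ_b φ = 0` iff `φ` is a sum of semi-local homomorphisms. -/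
theorem xd_Δ_eq_zero_iff (hY : ld_IsLattice Y) (φ : ↥(xd_Cfin 𝔖 ha hab Y)) :
    xd_Δ 𝔖 ha hab Y hY φ = 0 ↔
      (φ : sl_Y Y ha ⟶ (𝔖.dat a).C) ∈ ld_Loc (𝔖.dat a) (sl_Y Y ha) := by
  rw [xd_Δ_eq_zero_iff_lift, xd_mem_Loc_iff]
  constructor
  · rintro ⟨β, hβ⟩
    have hβe := (LvHom.mem_lvH0_iff β.1).1 β.2
    -- the components
    let v : ∀ q : ↥S, Y.V → ((𝔖.dat b).Jq q).V := fun q y₀ =>
      tl_ofAct ((𝔖.dat b).Jq q) (β.1 (tl_toAct (sl_Y Y (le_trans ha hab)) y₀) q)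
    have hv_add : ∀ q y y', v q (y + y') = v q y + v q y' := by
      intro q y y'
      show tl_ofAct ((𝔖.dat b).Jq q)
        (β.1 (tl_toAct (sl_Y Y (le_trans ha hab)) (y + y')) q) = _
      rw [map_add, map_add]
      rfl
    have hv_smul : ∀ (q : ↥S) (g : b.Γ) (y₀ : Y.V),
        v q (Y.ρ (du_Lev.res (le_trans ha hab) g) y₀) = ((𝔖.dat b).Jq q).ρ g (v q y₀) :=
      fun q g y₀ => congrArg (fun x : sl_J 𝔖 b => tl_ofAct ((𝔖.dat b).Jq q) (x q))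
        (hβe g (tl_toAct (sl_Y Y (le_trans ha hab)) y₀))
    have hv_fix : ∀ (q : ↥S) (y₀ : Y.V), ∀ σ ∈ a.L.fixingSubgroup,
        ((𝔖.dat b).Jq q).ρ (b.q σ) (v q y₀) = v q y₀ := by
      intro q y₀ σ hσ
      rw [← hv_smul, du_Lev.res_q]
      have h1 : K₀.q σ = 1 :=
        (K₀.q_eq_one_iff σ).2 (IntermediateField.fixingSubgroup_antitone ha hσ)
      rw [h1, map_one]
      rfl
    choose χ₀ hχ₀ using fun q y₀ => 𝔖.tJ_range hab q (v q y₀) (hv_fix q y₀)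
    have hχ_add : ∀ q y y', χ₀ q (y + y') = χ₀ q y + χ₀ q y' := by
      intro q y y'
      apply 𝔖.tJ_inj hab q
      rw [map_add, hχ₀, hχ₀, hχ₀, hv_add]
    have hχ_equiv : ∀ (q : ↥S) (g' : a.Γ) (y₀ : (sl_Y Y ha).V),
        χ₀ q ((sl_Y Y ha).ρ g' y₀) = ((𝔖.dat a).Jq q).ρ g' (χ₀ q y₀) := by
      intro q g' y₀
      obtain ⟨g, rfl⟩ := du_Lev.res_surjective hab g'
      apply 𝔖.tJ_inj hab q
      rw [sl_tJ_res, hχ₀, hχ₀, ← hv_smul]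
      congr 1
      show Y.ρ (du_Lev.res ha (du_Lev.res hab g)) y₀ = _
      rw [sl_res_res]
    let χ : ∀ q : ↥S, sl_Y Y ha ⟶ (𝔖.dat a).Jq q := fun q =>
      la_ofAddHom (A := sl_Y Y ha) (B := (𝔖.dat a).Jq q)
        (AddMonoidHom.mk' (χ₀ q) (hχ_add q)) (hχ_equiv q)
    refine ⟨χ, ?_⟩
    refine Rep.hom_ext (DFunLike.ext _ _ fun y₀ => ?_)
    apply 𝔖.tC_inj hab
    have h1 : 𝔖.tC hab (φ.1.hom y₀) =
        tl_ofAct _ (sl_sum 𝔖 b (β.1 (tl_toAct (sl_Y Y (le_trans ha hab)) y₀))) := by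
      rw [hβ]
      rfl
    rw [h1, sl_ofAct_sum]
    show _ = 𝔖.tC hab ((∑ q, χ q ≫ (𝔖.dat a).j q).hom y₀)
    rw [xd_sum_hom, map_sum]
    refine Finset.sum_congr rfl fun q _ => ?_
    show ((𝔖.dat b).j q).hom (v q y₀) = 𝔖.tC hab (((𝔖.dat a).j q).hom (χ₀ q y₀))
    rw [𝔖.tC_j, hχ₀]
  · rintro ⟨χ, hχ⟩
    refine ⟨⟨LvHom.of (xd_liftJ 𝔖 ha hab Y χ),
      (LvHom.mem_lvH0_iff _).2 (fun g y => xd_liftJ_smul 𝔖 ha hab Y χ g y)⟩, fun y => ?_⟩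
    show sl_sum 𝔖 b (xd_liftJ 𝔖 ha hab Y χ y) = _
    rw [xd_sum_liftJ, ← hχ]

end

/-! ### (P4) naturality along `la_ι A : R ⟶ F` -/

noncomputable section Pre

variable {p : ℕ} {S : Finset Nat.Primes} (𝔖 : du_Seam p S) {K₀ a b : du_Lev S}
  (ha : K₀ ≤ a) (hab : a ≤ b) (A : Rep.{0} ℤ K₀.Γ)

/-- `la_ι A` on the carriers of a level `b`. -/
def xd_ιact (hb : K₀ ≤ b) : tl_Act (sl_Y (la_R A) hb) →+ tl_Act (sl_Y (la_F A) hb) :=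
  (tl_toAct (sl_Y (la_F A) hb)).comp
    (((la_ι A).hom : (la_R A).V →+ (la_F A).V).comp (tl_ofAct (sl_Y (la_R A) hb)))

lemma xd_ιact_smul (hb : K₀ ≤ b) (g : b.Γ) (r : tl_Act (sl_Y (la_R A) hb)) :
    xd_ιact A hb (g • r) = (MonoidHom.id b.Γ g) • xd_ιact A hb r := by
  apply sl_ofAct_injective
  exact Rep.hom_comm_apply (la_ι A) (du_Lev.res hb g) _

/-- **(P4a)** precomposition with `la_ι A` maps `𝒞_F(a; b)` into `𝒞_R(a; b)`. -/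
lemma xd_pre_mem {ψ : sl_Y (la_F A) ha ⟶ (𝔖.dat a).C} (hψ : ψ ∈ xd_Cfin 𝔖 ha hab (la_F A)) :
    (Rep.resFunctor (du_Lev.res ha)).map (la_ι A) ≫ ψ ∈ xd_Cfin 𝔖 ha hab (la_R A) :=
  fun r => hψ ((la_ι A).hom r)

variable [Nonempty ↥S] (hF : ld_IsLattice (la_F A)) (hR : ld_IsLattice (la_R A))

/-- Precomposition with `la_ι A` as a morphism between the level-`b` sequences of `F` and `R`. -/
def xd_preMor (hb : K₀ ≤ b) :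
    LvSESMor (sl_homSes 𝔖 (la_F A) hb hF) (LevelSys.trivial b.Γ)
      (sl_homSes 𝔖 (la_R A) hb hR) (LevelSys.trivial b.Γ) where
  mA := LvHom.lvMor _ _ (MonoidHom.id b.Γ) (sl_levels_trivial _)
    (xd_ιact A hb) (xd_ιact_smul A hb) (AddMonoidHom.id _) (fun _ _ => rfl)
  mB := LvHom.lvMor _ _ (MonoidHom.id b.Γ) (sl_levels_trivial _)
    (xd_ιact A hb) (xd_ιact_smul A hb) (AddMonoidHom.id _) (fun _ _ => rfl)
  mC := LvHom.lvMor _ _ (MonoidHom.id b.Γ) (sl_levels_trivial _)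
    (xd_ιact A hb) (xd_ιact_smul A hb) (AddMonoidHom.id _) (fun _ _ => rfl)
  fAB := rfl
  fBC := rfl
  comm_i _ := rfl
  comm_π _ := rfl

lemma xd_preMor_toH0 (ψ : ↥(xd_Cfin 𝔖 ha hab (la_F A))) :
    (xd_preMor 𝔖 A hF hR (le_trans ha hab)).mC.H0 (xd_toH0 𝔖 ha hab (la_F A) ψ) =
      xd_toH0 𝔖 ha hab (la_R A) ⟨_, xd_pre_mem 𝔖 ha hab A ψ.2⟩ := rfl

variable [Fact p.Prime] (hpS : pPrime p ∈ S) (M : Rep.{0} (ZMod p) GQ)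
  [FiniteDimensional (ZMod p) M] (e : A.V ≃+ (M.dualTwist (cycloChar p)).V)
  (he : ∀ (σ : GQ) (x : A.V), e (A.ρ (K₀.q σ) x) = (M.dualTwist (cycloChar p)).ρ σ (e x))
  {ζ : Qbar} (hζ : IsPrimitiveRoot ζ p)

/-- inflation to `G_S` commutes with precomposition by `la_ι A`. -/
lemma xd_Q_pre (hb : K₀ ≤ b) (x : lvH1 (LevelSys.trivial b.Γ) (dm_ql_TE 𝔖 hb (la_F A))) :
    (dm_ql_Q 𝔖 hb (la_R A)).mor.H1 ((xd_preMor 𝔖 A hF hR hb).mA.H1 x) =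
      ((dm_Eglob S hpS M K₀.q A e he hζ).mπ (tl_levelsS S)).H1
        ((dm_ql_Q 𝔖 hb (la_F A)).mor.H1 x) := by
  rw [← LvMor.H1_comp, ← LvMor.H1_comp]
  have hcomp : (dm_ql_Q 𝔖 hb (la_R A)).mor.comp (xd_preMor 𝔖 A hF hR hb).mA =
      ((dm_Eglob S hpS M K₀.q A e he hζ).mπ (tl_levelsS S)).comp
        (dm_ql_Q 𝔖 hb (la_F A)).mor := hmb_LvMor_ext rfl rfl
  rw [hcomp]

/-- **(P4)** naturality of `Δ_b` along `la_ι A : R ⟶ F`: `Δ_b^R (ι ≫ ψ) = π_* (Δ_b^F ψ)` for the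
map `π_* : H¹(G_S, T_F) → H¹(G_S, T_R)` of the global sequence `dm_Eglob`. -/
theorem xd_Δ_pre (ψ : ↥(xd_Cfin 𝔖 ha hab (la_F A))) :
    xd_Δ 𝔖 ha hab (la_R A) hR ⟨_, xd_pre_mem 𝔖 ha hab A ψ.2⟩ =
      ((dm_Eglob S hpS M K₀.q A e he hζ).mπ (tl_levelsS S)).H1
        (xd_Δ 𝔖 ha hab (la_F A) hF ψ) := by
  rw [xd_Δ_apply, xd_Δ_apply, ← xd_Q_pre 𝔖 A hF hR hpS M e he hζ (le_trans ha hab),
    (xd_preMor 𝔖 A hF hR (le_trans ha hab)).δ0_comm (sl_isSmooth_trivial _)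
      (sl_isSmooth_trivial _), xd_preMor_toH0]

end Pre

end Fermat.Agent.S55
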