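import Fermat.Agent.S55.Dual.Levels

/-!
# Homomorphisms into `C` which land in `C°` at a higher level (block [D] of S55, prefix `du_`)

For a level `a`, a `Γ_a`-module `Y` and the seam `𝔖`, `du_Cinf 𝔖 a Y ≤ Hom_Γ(Y, C(a))` is the
subgroup of homomorphisms `φ` such that `t_{a,b} ∘ φ` takes values in `C°(b)` for some `b ≥ a`.
Capitulation (`𝔖.cap`) shows that for a lattice `Y` every `φ` has a prime-to-`p` multiple in
`du_Cinf`.
-/

set_option autoImplicit false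

open CategoryTheory

namespace Fermat.Agent.S55

variable {p : ℕ} {S : Finset Nat.Primes} (𝔖 : du_Seam p S)

/-- Transition maps send `C°` into `C°`. -/
lemma du_tC_mem_Co {a b : du_Lev S} (h : a ≤ b) {c : (𝔖.dat a).C.V}
    (hc : c ∈ du_Co (𝔖.dat a)) : 𝔖.tC h c ∈ du_Co (𝔖.dat b) := by
  unfold du_Co at hc
  induction hc using AddSubgroup.iSup_induction' with
  | hp q x hx =>
    obtain ⟨z, rfl⟩ := hx
    show 𝔖.tC h (((𝔖.dat a).j q).hom z) ∈ _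
    rw [𝔖.tC_j]
    exact (le_iSup (fun q => ((𝔖.dat b).j q).hom.toAddMonoidHom.range) q) ⟨_, rfl⟩
  | h1 => rw [map_zero]; exact zero_mem _
  | hadd x y _ _ hx hy => rw [map_add]; exact add_mem hx hy

/-- The transition map of `a ≤ a` is the identity. -/
lemma du_tC_refl {a : du_Lev S} (h : a ≤ a) (c : (𝔖.dat a).C.V) : 𝔖.tC h c = c := by
  apply 𝔖.tC_inj h
  exact 𝔖.tC_trans h h c

/-- Homomorphisms `Y → C(a)` landing in `C°` at some higher level. -/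
def du_Cinf (a : du_Lev S) (Y : Rep.{0} ℤ a.Γ) : AddSubgroup (Y ⟶ (𝔖.dat a).C) where
  carrier := {φ | ∃ b : du_Lev S, ∃ h : a ≤ b, ∀ y, 𝔖.tC h (φ.hom y) ∈ du_Co (𝔖.dat b)}
  zero_mem' := ⟨a, le_rfl, fun y => by
    have : (0 : Y ⟶ (𝔖.dat a).C).hom y = 0 := rfl
    rw [this, map_zero]
    exact zero_mem _⟩
  add_mem' := by
    rintro φ φ' ⟨b, h, hφ⟩ ⟨b', h', hφ'⟩
    refine ⟨du_Lev.sup b b', le_trans h (du_Lev.le_sup_left b b'), fun y => ?_⟩
    have : (φ + φ').hom y = φ.hom y + φ'.hom y := rfl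
    rw [this, map_add]
    refine add_mem ?_ ?_
    · rw [← 𝔖.tC_trans h (du_Lev.le_sup_left b b')]
      exact du_tC_mem_Co 𝔖 _ (hφ y)
    · have h2 : 𝔖.tC (le_trans h (du_Lev.le_sup_left b b')) (φ'.hom y) =
          𝔖.tC (du_Lev.le_sup_right b b') (𝔖.tC h' (φ'.hom y)) :=
        (𝔖.tC_trans h' (du_Lev.le_sup_right b b') _).symm
      rw [h2]
      exact du_tC_mem_Co 𝔖 _ (hφ' y)
  neg_mem' := by
    rintro φ ⟨b, h, hφ⟩
    refine ⟨b, h, fun y => ?_⟩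
    have : (-φ).hom y = -(φ.hom y) := rfl
    rw [this, map_neg]
    exact neg_mem (hφ y)

lemma du_mem_Cinf {a : du_Lev S} {Y : Rep.{0} ℤ a.Γ} {φ : Y ⟶ (𝔖.dat a).C} :
    φ ∈ du_Cinf 𝔖 a Y ↔
      ∃ b : du_Lev S, ∃ h : a ≤ b, ∀ y, 𝔖.tC h (φ.hom y) ∈ du_Co (𝔖.dat b) := Iff.rfl

/-- Local images land in `C°` already at level `a`. -/
lemma du_Loc_le_Cinf (a : du_Lev S) (Y : Rep.{0} ℤ a.Γ) :
    ld_Loc (𝔖.dat a) Y ≤ du_Cinf 𝔖 a Y := by
  unfold ld_Loc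
  rw [iSup_le_iff]
  rintro q _ ⟨ψ, rfl⟩
  refine ⟨a, le_rfl, fun y => ?_⟩
  apply du_tC_mem_Co
  exact (le_iSup (fun q => ((𝔖.dat a).j q).hom.toAddMonoidHom.range) q) ⟨ψ.hom y, rfl⟩

/-- The image of `du_Cinf` for `F` under precomposition with `i : R ⟶ F`. -/
noncomputable def du_Vinf (a : du_Lev S) {R F : Rep.{0} ℤ a.Γ} (i : R ⟶ F) :
    AddSubgroup (R ⟶ (𝔖.dat a).C) :=
  (du_Cinf 𝔖 a F).map (ld_pre (𝔖.dat a) i)

lemma du_Vinf_le_Cinf (a : du_Lev S) {R F : Rep.{0} ℤ a.Γ} (i : R ⟶ F) :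
    du_Vinf 𝔖 a i ≤ du_Cinf 𝔖 a R := by
  rintro _ ⟨φ, ⟨b, h, hφ⟩, rfl⟩
  exact ⟨b, h, fun y => hφ (i.hom y)⟩

lemma du_Vinf_le_range (a : du_Lev S) {R F : Rep.{0} ℤ a.Γ} (i : R ⟶ F) :
    du_Vinf 𝔖 a i ≤ (ld_pre (𝔖.dat a) i).range := by
  rintro _ ⟨φ, -, rfl⟩
  exact ⟨φ, rfl⟩

section cap

variable [hp : Fact p.Prime]

/-- **Capitulation for lattices**: every `φ : Y ⟶ C(a)` has a prime-to-`p` multiple landing in
`C°` at a higher level. -/
theorem du_cap_mem (a : du_Lev S) (Y : Rep.{0} ℤ a.Γ) (hY : ld_IsLattice Y)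
    (φ : Y ⟶ (𝔖.dat a).C) : ∃ n : ℕ, ¬ p ∣ n ∧ n • φ ∈ du_Cinf 𝔖 a Y := by
  classical
  obtain ⟨m, ⟨e⟩⟩ := hY
  obtain ⟨b, h, hcap⟩ := 𝔖.cap a
  -- the basis
  let yb : Fin m → Y.V := fun i => e.symm (Pi.single i 1)
  have hdec : ∀ y : Y.V, y = ∑ i, (e y i) • yb i := by
    intro y
    apply e.injective
    rw [map_sum]
    funext k
    simp only [Finset.sum_apply, map_zsmul, yb, AddEquiv.apply_symm_apply, Pi.smul_apply,
      Pi.single_apply, smul_eq_mul, mul_ite, mul_one, mul_zero, Finset.sum_ite_eq,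
      Finset.mem_univ, if_true]
  choose n hn hmem using fun i => hcap (φ.hom (yb i))
  refine ⟨∏ i, n i, ?_, b, h, fun y => ?_⟩
  · intro hdvd
    obtain ⟨i, -, hi⟩ := (Prime.dvd_finsetProd_iff (Nat.Prime.prime hp.out) _).mp hdvd
    exact hn i hi
  · have h1 : ((∏ i, n i) • φ).hom y = (∏ i, n i) • φ.hom y := by
      induction (∏ i, n i) with
      | zero => rw [zero_smul, zero_smul]; rfl
      | succ k ih =>
        rw [succ_nsmul, succ_nsmul, ← ih]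
        rfl
    rw [h1]
    have hy : φ.hom y = ∑ i, (e y i) • φ.hom (yb i) := by
      conv_lhs => rw [hdec y]
      rw [map_sum]
      refine Finset.sum_congr rfl fun i _ => ?_
      rw [map_zsmul]
    rw [hy, Finset.smul_sum, map_sum]
    refine sum_mem fun i _ => ?_
    rw [smul_comm, map_zsmul]
    refine zsmul_mem ?_ _
    have hsplit : (∏ j, n j) = (∏ j ∈ Finset.univ.erase i, n j) * n i :=
      (Finset.prod_erase_mul Finset.univ n (Finset.mem_univ i)).symm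
    rw [hsplit, mul_smul, map_nsmul, map_nsmul]
    exact nsmul_mem (hmem i) _

end cap

end Fermat.Agent.S55
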