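import Fermat.Agent.S55.Dual.SeamUnits
import Fermat.Agent.S55.Dual.Cinf
import Fermat.Agent.S55.Level.HomModule
import Fermat.Agent.S55.Level.Bridge

/-!
# The finite-level exact sequences of the seam (block [D] of S55, prefix `sl_`)

For a level `a` of the seam `𝔖 : du_Seam p S`:

* carriers with a `DistribMulAction a.Γ`: `tl_Act (𝔖.E a)`, `sl_J 𝔖 a = ∏_q J_q(a)`,
  `sl_Co 𝔖 a = C°(a) ≤ C(a)`;
* `sl_ses 𝔖 a : LvSES a.Γ E(a) (∏ J_q(a)) C°(a)`;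
* for a lattice `Y` over `K₀.Γ` and `K₀ ≤ a`: `sl_Y h Y` and
  `sl_homSes : LvSES a.Γ Hom(Y, E(a)) Hom(Y, ∏ J_q(a)) Hom(Y, C°(a))`;
* for `a ≤ b` the transition `sl_homSesMor : LvSESMor (sl_homSes a) _ (sl_homSes b) _`.
-/

set_option autoImplicit false

open CategoryTheory groupCohomology

namespace Fermat.Agent.S55

noncomputable section

/-! ### Morphisms of representations on the carriers `tl_Act` -/

section ActMap

variable {G : Type} [Group G]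

/-- The additive map of carriers induced by a morphism of representations. -/
def sl_actMap {A B : Rep.{0} ℤ G} (f : A ⟶ B) : tl_Act A →+ tl_Act B :=
  (tl_toAct B).comp (f.hom.toAddMonoidHom.comp (tl_ofAct A))

lemma sl_ofAct_actMap {A B : Rep.{0} ℤ G} (f : A ⟶ B) (x : tl_Act A) :
    tl_ofAct B (sl_actMap f x) = f.hom (tl_ofAct A x) := rfl

lemma sl_actMap_toAct {A B : Rep.{0} ℤ G} (f : A ⟶ B) (x : A.V) :
    sl_actMap f (tl_toAct A x) = tl_toAct B (f.hom x) := rfl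

lemma sl_ofAct_smul (A : Rep.{0} ℤ G) (g : G) (x : tl_Act A) :
    tl_ofAct A (g • x) = A.ρ g (tl_ofAct A x) := rfl

lemma sl_toAct_ρ (A : Rep.{0} ℤ G) (g : G) (x : A.V) :
    tl_toAct A (A.ρ g x) = g • tl_toAct A x := rfl

lemma sl_ofAct_toAct (A : Rep.{0} ℤ G) (x : A.V) : tl_ofAct A (tl_toAct A x) = x := rfl

lemma sl_toAct_ofAct (A : Rep.{0} ℤ G) (x : tl_Act A) : tl_toAct A (tl_ofAct A x) = x := rfl

lemma sl_ofAct_injective (A : Rep.{0} ℤ G) : Function.Injective (tl_ofAct A) := fun _ _ h => h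

lemma sl_toAct_injective (A : Rep.{0} ℤ G) : Function.Injective (tl_toAct A) := fun _ _ h => h

lemma sl_actMap_smul {A B : Rep.{0} ℤ G} (f : A ⟶ B) (g : G) (x : tl_Act A) :
    sl_actMap f (g • x) = g • sl_actMap f x := by
  apply sl_ofAct_injective
  rw [sl_ofAct_actMap, sl_ofAct_smul, sl_ofAct_smul, sl_ofAct_actMap]
  exact Rep.hom_comm_apply f g _

end ActMap

variable {p : ℕ} {S : Finset Nat.Primes} (𝔖 : du_Seam p S)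

/-! ### Carriers -/

/-- The product of the semi-local modules of level `a`. -/
abbrev sl_J (a : du_Lev S) : Type := ∀ q : ↥S, tl_Act ((𝔖.dat a).Jq q)

/-- `C°(a)` as a subgroup of the carrier `tl_Act C(a)`. -/
def sl_Co (a : du_Lev S) : AddSubgroup (tl_Act (𝔖.dat a).C) :=
  (du_Co (𝔖.dat a)).comap (tl_ofAct (𝔖.dat a).C)

lemma sl_mem_Co {a : du_Lev S} {c : tl_Act (𝔖.dat a).C} :
    c ∈ sl_Co 𝔖 a ↔ tl_ofAct (𝔖.dat a).C c ∈ du_Co (𝔖.dat a) := Iff.rfl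

lemma sl_j_mem_Co {a : du_Lev S} (q : ↥S) (x : ((𝔖.dat a).Jq q).V) :
    ((𝔖.dat a).j q).hom x ∈ du_Co (𝔖.dat a) :=
  (le_iSup (fun q => ((𝔖.dat a).j q).hom.toAddMonoidHom.range) q) ⟨x, rfl⟩

lemma sl_ρ_mem_Co {a : du_Lev S} (g : a.Γ) {c : (𝔖.dat a).C.V}
    (hc : c ∈ du_Co (𝔖.dat a)) : (𝔖.dat a).C.ρ g c ∈ du_Co (𝔖.dat a) := by
  unfold du_Co at hc
  induction hc using AddSubgroup.iSup_induction' with
  | hp q x hx =>
    obtain ⟨z, rfl⟩ := hx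
    show (𝔖.dat a).C.ρ g (((𝔖.dat a).j q).hom z) ∈ _
    rw [← Rep.hom_comm_apply]
    exact sl_j_mem_Co 𝔖 q _
  | h1 => rw [map_zero]; exact zero_mem _
  | hadd x y _ _ hx hy => rw [map_add]; exact add_mem hx hy

lemma sl_smul_mem_Co {a : du_Lev S} (g : a.Γ) {c : tl_Act (𝔖.dat a).C}
    (hc : c ∈ sl_Co 𝔖 a) : g • c ∈ sl_Co 𝔖 a := by
  rw [sl_mem_Co] at hc ⊢
  rw [sl_ofAct_smul]
  exact sl_ρ_mem_Co 𝔖 g hc

instance sl_Co.instDistribMulAction (a : du_Lev S) : DistribMulAction a.Γ ↥(sl_Co 𝔖 a) where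
  smul g c := ⟨g • (c : tl_Act (𝔖.dat a).C), sl_smul_mem_Co 𝔖 g c.2⟩
  one_smul _ := Subtype.ext (one_smul _ _)
  mul_smul _ _ _ := Subtype.ext (mul_smul _ _ _)
  smul_zero _ := Subtype.ext (smul_zero _)
  smul_add _ _ _ := Subtype.ext (smul_add _ _ _)

@[simp] lemma sl_Co_coe_smul {a : du_Lev S} (g : a.Γ) (c : ↥(sl_Co 𝔖 a)) :
    ((g • c : ↥(sl_Co 𝔖 a)) : tl_Act (𝔖.dat a).C) = g • (c : tl_Act (𝔖.dat a).C) := rfl

/-! ### The short exact sequence `0 → E → ∏ J_q → C° → 0` -/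

/-- The sum of the maps `j_q`. -/
def sl_sum (a : du_Lev S) : sl_J 𝔖 a →+ tl_Act (𝔖.dat a).C :=
  ∑ q : ↥S, (sl_actMap ((𝔖.dat a).j q)).comp
    (Pi.evalAddMonoidHom (fun q : ↥S => tl_Act ((𝔖.dat a).Jq q)) q)

lemma sl_sum_apply {a : du_Lev S} (x : sl_J 𝔖 a) :
    sl_sum 𝔖 a x = ∑ q : ↥S, sl_actMap ((𝔖.dat a).j q) (x q) := by
  rw [sl_sum, AddMonoidHom.finsetSum_apply]
  rfl

lemma sl_ofAct_sum {a : du_Lev S} (x : sl_J 𝔖 a) :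
    tl_ofAct _ (sl_sum 𝔖 a x) =
      ∑ q : ↥S, ((𝔖.dat a).j q).hom (tl_ofAct ((𝔖.dat a).Jq q) (x q)) := by
  rw [sl_sum_apply, map_sum]
  rfl

lemma sl_sum_mem_Co {a : du_Lev S} (x : sl_J 𝔖 a) : sl_sum 𝔖 a x ∈ sl_Co 𝔖 a := by
  rw [sl_mem_Co, sl_ofAct_sum]
  exact sum_mem fun q _ => sl_j_mem_Co 𝔖 q _

lemma sl_exists_sum_eq' {a : du_Lev S} {c : (𝔖.dat a).C.V} (hc : c ∈ du_Co (𝔖.dat a)) :
    ∃ x : sl_J 𝔖 a, tl_ofAct _ (sl_sum 𝔖 a x) = c := by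
  classical
  unfold du_Co at hc
  induction hc using AddSubgroup.iSup_induction' with
  | hp q x hx =>
    obtain ⟨z, rfl⟩ := hx
    refine ⟨Pi.single q (tl_toAct _ z), ?_⟩
    rw [sl_ofAct_sum, Finset.sum_eq_single q]
    · rw [Pi.single_eq_same]; rfl
    · intro q' _ hq'
      rw [Pi.single_eq_of_ne hq', map_zero, map_zero]
    · intro h
      exact absurd (Finset.mem_univ q) h
  | h1 => exact ⟨0, by rw [map_zero, map_zero]⟩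
  | hadd x y _ _ hx hy =>
    obtain ⟨x', hx'⟩ := hx
    obtain ⟨y', hy'⟩ := hy
    exact ⟨x' + y', by rw [map_add, map_add, hx', hy']⟩

lemma sl_exists_sum_eq {a : du_Lev S} {c : tl_Act (𝔖.dat a).C} (hc : c ∈ sl_Co 𝔖 a) :
    ∃ x : sl_J 𝔖 a, sl_sum 𝔖 a x = c := by
  obtain ⟨x, hx⟩ := sl_exists_sum_eq' 𝔖 ((sl_mem_Co 𝔖).1 hc)
  exact ⟨x, sl_ofAct_injective _ hx⟩

lemma sl_sum_smul {a : du_Lev S} (g : a.Γ) (x : sl_J 𝔖 a) :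
    sl_sum 𝔖 a (g • x) = g • sl_sum 𝔖 a x := by
  rw [sl_sum_apply, sl_sum_apply, Finset.smul_sum]
  refine Finset.sum_congr rfl fun q _ => ?_
  exact sl_actMap_smul ((𝔖.dat a).j q) g (x q)

/-- The diagonal map `E(a) → ∏ J_q(a)`. -/
def sl_eps (a : du_Lev S) : tl_Act (𝔖.E a) →+ sl_J 𝔖 a :=
  AddMonoidHom.mk' (fun e q => sl_actMap (𝔖.ε a q) e) (fun e e' => by
    funext q
    exact map_add _ _ _)

@[simp] lemma sl_eps_apply {a : du_Lev S} (e : tl_Act (𝔖.E a)) (q : ↥S) :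
    sl_eps 𝔖 a e q = sl_actMap (𝔖.ε a q) e := rfl

/-- The short exact sequence `0 → E(a) → ∏ J_q(a) → C°(a) → 0` of `Γ_a`-modules. -/
def sl_ses [Nonempty ↥S] (a : du_Lev S) :
    LvSES a.Γ (tl_Act (𝔖.E a)) (sl_J 𝔖 a) ↥(sl_Co 𝔖 a) where
  i := sl_eps 𝔖 a
  π := (sl_sum 𝔖 a).codRestrict (sl_Co 𝔖 a) (sl_sum_mem_Co 𝔖)
  i_equiv g e := by
    funext q
    exact sl_actMap_smul (𝔖.ε a q) g e
  π_equiv g x := Subtype.ext (sl_sum_smul 𝔖 g x)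
  i_inj e e' h := by
    obtain ⟨q⟩ := (inferInstance : Nonempty ↥S)
    exact 𝔖.ε_inj a q (congrFun h q)
  π_surj c := by
    obtain ⟨x, hx⟩ := sl_exists_sum_eq 𝔖 c.2
    exact ⟨x, Subtype.ext hx⟩
  exact x := by
    constructor
    · intro hx
      have h0 : tl_ofAct _ (sl_sum 𝔖 a x) = 0 := congrArg Subtype.val hx
      rw [sl_ofAct_sum] at h0
      obtain ⟨e, he⟩ := (𝔖.ε_exact a (fun q => tl_ofAct _ (x q))).1 h0
      exact ⟨tl_toAct _ e, funext he⟩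
    · rintro ⟨e, rfl⟩
      apply Subtype.ext
      apply sl_ofAct_injective
      show tl_ofAct _ (sl_sum 𝔖 a _) = 0
      rw [sl_ofAct_sum]
      exact (𝔖.ε_exact a _).2 ⟨tl_ofAct _ e, fun _ => rfl⟩

@[simp] lemma sl_ses_i [Nonempty ↥S] (a : du_Lev S) : (sl_ses 𝔖 a).i = sl_eps 𝔖 a := rfl

lemma sl_ses_π_coe [Nonempty ↥S] (a : du_Lev S) (x : sl_J 𝔖 a) :
    (((sl_ses 𝔖 a).π x : ↥(sl_Co 𝔖 a)) : tl_Act (𝔖.dat a).C) = sl_sum 𝔖 a x := rfl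

/-! ### `Hom(Y, -)` of the sequence, for a lattice `Y` over a base level -/

section Hom

/-- The identity `tl_Act A ≃+ A.V`. -/
def sl_actEquiv {G : Type} [Group G] (A : Rep.{0} ℤ G) : tl_Act A ≃+ A.V where
  toFun := tl_ofAct A
  invFun := tl_toAct A
  left_inv _ := rfl
  right_inv _ := rfl
  map_add' _ _ := rfl

lemma sl_isSmooth_trivial {Γ : Type*} [Group Γ] [Finite Γ] (X : Type*) [AddCommGroup X]
    [DistribMulAction Γ X] : (LevelSys.trivial Γ).IsSmooth X := fun x =>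
  ⟨⊥, rfl, fun u hu => by rw [Subgroup.mem_bot.mp hu, one_smul]⟩

lemma sl_levels_trivial {Γ Γ' : Type*} [Group Γ] [Finite Γ] [Group Γ'] [Finite Γ'] (r : Γ' →* Γ) :
    ∀ U ∈ (LevelSys.trivial Γ).levels, ∃ V ∈ (LevelSys.trivial Γ').levels, V ≤ U.comap r := by
  rintro U rfl
  exact ⟨⊥, rfl, bot_le⟩

lemma sl_res_res {K₀ a b : du_Lev S} (ha : K₀ ≤ a) (hab : a ≤ b) (g : b.Γ) :
    du_Lev.res ha (du_Lev.res hab g) = du_Lev.res (le_trans ha hab) g := by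
  obtain ⟨σ, rfl⟩ := b.q_surjective g
  rw [du_Lev.res_q, du_Lev.res_q, du_Lev.res_q]

variable {K₀ : du_Lev S} (Y : Rep.{0} ℤ K₀.Γ)

/-- `Y` as a representation of `Γ_a`, `a ≥ K₀`. -/
abbrev sl_Y {a : du_Lev S} (h : K₀ ≤ a) : Rep.{0} ℤ a.Γ := Rep.res (du_Lev.res h) Y

lemma sl_Y_smul {a : du_Lev S} (h : K₀ ≤ a) (g : a.Γ) (y : tl_Act (sl_Y Y h)) :
    tl_ofAct (sl_Y Y h) (g • y) = Y.ρ (du_Lev.res h g) (tl_ofAct (sl_Y Y h) y) := rfl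

/-- The identity of `Y` between the carriers of two levels. -/
def sl_Yid {a b : du_Lev S} (ha : K₀ ≤ a) (hb : K₀ ≤ b) :
    tl_Act (sl_Y Y hb) →+ tl_Act (sl_Y Y ha) :=
  (tl_toAct (sl_Y Y ha)).comp (tl_ofAct (sl_Y Y hb))

lemma sl_Yid_smul {a b : du_Lev S} (ha : K₀ ≤ a) (hab : a ≤ b) (g : b.Γ)
    (y : tl_Act (sl_Y Y (le_trans ha hab))) :
    sl_Yid Y ha (le_trans ha hab) (g • y) =
      du_Lev.res hab g • sl_Yid Y ha (le_trans ha hab) y := by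
  apply sl_ofAct_injective
  show Y.ρ (du_Lev.res (le_trans ha hab) g) _ = Y.ρ (du_Lev.res ha (du_Lev.res hab g)) _
  rw [sl_res_res]
  rfl

/-- `0 → Hom(Y, E(a)) → Hom(Y, ∏ J_q(a)) → Hom(Y, C°(a)) → 0`. -/
def sl_homSes [Nonempty ↥S] {a : du_Lev S} (h : K₀ ≤ a) (hY : ld_IsLattice Y) :
    LvSES a.Γ (LvHom (tl_Act (sl_Y Y h)) (tl_Act (𝔖.E a)))
      (LvHom (tl_Act (sl_Y Y h)) (sl_J 𝔖 a)) (LvHom (tl_Act (sl_Y Y h)) ↥(sl_Co 𝔖 a)) :=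
  (sl_ses 𝔖 a).homLeft (tl_Act (sl_Y Y h)) (fun g => by
    obtain ⟨n, ⟨e⟩⟩ := hY
    exact lvLift_of_free ((sl_actEquiv (sl_Y Y h)).trans e) _ (sl_ses 𝔖 a).π_surj g)

/-! ### Transitions between levels -/

/-- `tE` on carriers. -/
def sl_tEact {a b : du_Lev S} (hab : a ≤ b) : tl_Act (𝔖.E a) →+ tl_Act (𝔖.E b) :=
  (tl_toAct (𝔖.E b)).comp ((sl_tE 𝔖 hab).comp (tl_ofAct (𝔖.E a)))

lemma sl_tEact_smul {a b : du_Lev S} (hab : a ≤ b) (g : b.Γ) (x : tl_Act (𝔖.E a)) :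
    sl_tEact 𝔖 hab (du_Lev.res hab g • x) = g • sl_tEact 𝔖 hab x := by
  apply sl_ofAct_injective
  exact sl_tE_res 𝔖 hab g _

/-- `tJ` on the product carriers. -/
def sl_tJ {a b : du_Lev S} (hab : a ≤ b) : sl_J 𝔖 a →+ sl_J 𝔖 b :=
  AddMonoidHom.mk' (fun x q => tl_toAct _ (𝔖.tJ hab q (tl_ofAct _ (x q)))) (fun x y => by
    funext q
    show tl_toAct _ (𝔖.tJ hab q (tl_ofAct _ (x q + y q))) = _
    rw [map_add, map_add, map_add]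
    rfl)

@[simp] lemma sl_tJ_apply {a b : du_Lev S} (hab : a ≤ b) (x : sl_J 𝔖 a) (q : ↥S) :
    sl_tJ 𝔖 hab x q = tl_toAct _ (𝔖.tJ hab q (tl_ofAct _ (x q))) := rfl

lemma sl_tJ_smul {a b : du_Lev S} (hab : a ≤ b) (g : b.Γ) (x : sl_J 𝔖 a) :
    sl_tJ 𝔖 hab (du_Lev.res hab g • x) = g • sl_tJ 𝔖 hab x := by
  funext q
  apply sl_ofAct_injective
  exact sl_tJ_res 𝔖 hab q g _

/-- `tC` on carriers. -/
def sl_tCact {a b : du_Lev S} (hab : a ≤ b) : tl_Act (𝔖.dat a).C →+ tl_Act (𝔖.dat b).C :=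
  (tl_toAct (𝔖.dat b).C).comp ((𝔖.tC hab).comp (tl_ofAct (𝔖.dat a).C))

lemma sl_tCact_smul {a b : du_Lev S} (hab : a ≤ b) (g : b.Γ) (x : tl_Act (𝔖.dat a).C) :
    sl_tCact 𝔖 hab (du_Lev.res hab g • x) = g • sl_tCact 𝔖 hab x := by
  apply sl_ofAct_injective
  exact sl_tC_res 𝔖 hab g _

lemma sl_tCact_mem_Co {a b : du_Lev S} (hab : a ≤ b) {c : tl_Act (𝔖.dat a).C}
    (hc : c ∈ sl_Co 𝔖 a) : sl_tCact 𝔖 hab c ∈ sl_Co 𝔖 b :=
  du_tC_mem_Co 𝔖 hab hc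

/-- `tC` restricted to `C°`. -/
def sl_tCo {a b : du_Lev S} (hab : a ≤ b) : ↥(sl_Co 𝔖 a) →+ ↥(sl_Co 𝔖 b) :=
  ((sl_tCact 𝔖 hab).comp (sl_Co 𝔖 a).subtype).codRestrict (sl_Co 𝔖 b)
    (fun c => sl_tCact_mem_Co 𝔖 hab c.2)

@[simp] lemma sl_tCo_coe {a b : du_Lev S} (hab : a ≤ b) (c : ↥(sl_Co 𝔖 a)) :
    ((sl_tCo 𝔖 hab c : ↥(sl_Co 𝔖 b)) : tl_Act (𝔖.dat b).C) = sl_tCact 𝔖 hab c := rfl

lemma sl_tCo_smul {a b : du_Lev S} (hab : a ≤ b) (g : b.Γ) (c : ↥(sl_Co 𝔖 a)) :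
    sl_tCo 𝔖 hab (du_Lev.res hab g • c) = g • sl_tCo 𝔖 hab c :=
  Subtype.ext (sl_tCact_smul 𝔖 hab g c)

lemma sl_tCact_sum {a b : du_Lev S} (hab : a ≤ b) (x : sl_J 𝔖 a) :
    sl_tCact 𝔖 hab (sl_sum 𝔖 a x) = sl_sum 𝔖 b (sl_tJ 𝔖 hab x) := by
  apply sl_ofAct_injective
  rw [sl_ofAct_sum]
  show 𝔖.tC hab (tl_ofAct _ (sl_sum 𝔖 a x)) = _
  rw [sl_ofAct_sum, map_sum]
  refine Finset.sum_congr rfl fun q _ => ?_
  exact 𝔖.tC_j hab q _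

lemma sl_tJ_eps {a b : du_Lev S} (hab : a ≤ b) (e : tl_Act (𝔖.E a)) :
    sl_tJ 𝔖 hab (sl_eps 𝔖 a e) = sl_eps 𝔖 b (sl_tEact 𝔖 hab e) := by
  funext q
  apply sl_ofAct_injective
  exact sl_tJ_ε 𝔖 hab q _

/-- The transition between the `Hom` sequences of two levels. -/
def sl_homSesMor [Nonempty ↥S] {a b : du_Lev S} (ha : K₀ ≤ a) (hab : a ≤ b)
    (hY : ld_IsLattice Y) :
    LvSESMor (sl_homSes 𝔖 Y ha hY) (LevelSys.trivial a.Γ)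
      (sl_homSes 𝔖 Y (le_trans ha hab) hY) (LevelSys.trivial b.Γ) where
  mA := LvHom.lvMor _ _ (du_Lev.res hab) (sl_levels_trivial _)
    (sl_Yid Y ha (le_trans ha hab)) (sl_Yid_smul Y ha hab) (sl_tEact 𝔖 hab) (sl_tEact_smul 𝔖 hab)
  mB := LvHom.lvMor _ _ (du_Lev.res hab) (sl_levels_trivial _)
    (sl_Yid Y ha (le_trans ha hab)) (sl_Yid_smul Y ha hab) (sl_tJ 𝔖 hab) (sl_tJ_smul 𝔖 hab)
  mC := LvHom.lvMor _ _ (du_Lev.res hab) (sl_levels_trivial _)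
    (sl_Yid Y ha (le_trans ha hab)) (sl_Yid_smul Y ha hab) (sl_tCo 𝔖 hab) (sl_tCo_smul 𝔖 hab)
  fAB := rfl
  fBC := rfl
  comm_i ψ := by
    refine LvHom.ext fun y => ?_
    exact sl_tJ_eps 𝔖 hab _
  comm_π ψ := by
    refine LvHom.ext fun y => Subtype.ext ?_
    exact sl_tCact_sum 𝔖 hab _

end Hom

end

end Fermat.Agent.S55
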