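import Fermat.Agent.S55.Dual.ModulesLevel
import Fermat.Agent.S55.Dual.SeamLevel
import Fermat.Agent.S55.Dual.HomBridge
import Fermat.Agent.S55.Dual.LocalVanish

/-!
# The `X`-side: locally trivial classes come from `C°`-valued homomorphisms (block [D], D3X)

For a lattice `Y` over `Γ_{K₀}` and a level `a₀ ≥ K₀`: every locally trivial class
`x ∈ H¹(G_S, Hom(Y, E_S))` is, at some level `b ≥ a₀`, the inflation of `δ⁰ c` for an invariant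
`c ∈ H⁰(Γ_b, Hom(Y, C°(b)))` of the finite-level sequence
`0 → Hom(Y, E(b)) → Hom(Y, ∏ J_q(b)) → Hom(Y, C°(b)) → 0` (`sl_homSes`).
-/

set_option autoImplicit false

open CategoryTheory groupCohomology ExtCitation

namespace Fermat.Agent.S55

variable {p : ℕ} {S : Finset Nat.Primes} (𝔖 : du_Seam p S) [Nonempty ↥S] {K₀ : du_Lev S}
  (Y : Rep.{0} ℤ K₀.Γ) (hY : ld_IsLattice Y)

/-- A class of `H¹(Γ_b, Hom(Y, E(b)))` which is locally trivial at the finite level is `δ⁰` of an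
invariant homomorphism with values in `C°(b)`. -/
theorem xj_exists_δ0_of_rho {b : du_Lev S} (hb : K₀ ≤ b)
    (y : lvH1 (LevelSys.trivial b.Γ) (dm_ql_TE 𝔖 hb Y))
    (hy : ∀ q : ↥S, (dm_ql_rho 𝔖 q hb Y).H1 y = 0) :
    ∃ c : lvH0 (G := b.Γ) (LvHom (tl_Act (sl_Y Y hb)) ↥(sl_Co 𝔖 b)),
      (sl_homSes 𝔖 Y hb hY).δ0 (LevelSys.trivial b.Γ) (sl_isSmooth_trivial _) c = y := by
  have h1 : ((sl_homSes 𝔖 Y hb hY).mi (LevelSys.trivial b.Γ)).H1 y = 0 :=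
    (hmb_seam_hloc1 𝔖 b (sl_Y Y hb) hY ((sl_homSes 𝔖 Y hb hY).mi (LevelSys.trivial b.Γ)) rfl
      (fun _ _ _ => rfl) (fun q => dm_ql_rho 𝔖 q hb Y) (fun _ => rfl) (fun _ _ _ => rfl) y).1 hy
  exact ((sl_homSes 𝔖 Y hb hY).exact_H1A (LevelSys.trivial b.Γ) (sl_isSmooth_trivial _) y).1 h1

/-- **Surjectivity of the `X`-side maps.**  A locally trivial class of `H¹(G_S, Hom(Y, E_S))` is,
at some level `b` above any given level `a₀ ≥ K₀`, the inflation of `δ⁰ c`. -/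
theorem xj_exists_level_δ0 (a₀ : du_Lev S)
    (x : lvH1 (tl_levelsS S) (dm_T S K₀.q Y))
    (hloc : ∀ q : ↥S, (dm_locT S K₀.q q.1 Y).H1 x = 0) :
    ∃ (b : du_Lev S) (_ : a₀ ≤ b) (hb : K₀ ≤ b)
      (c : lvH0 (G := b.Γ) (LvHom (tl_Act (sl_Y Y hb)) ↥(sl_Co 𝔖 b))),
      (dm_ql_Q 𝔖 hb Y).mor.H1
        ((sl_homSes 𝔖 Y hb hY).δ0 (LevelSys.trivial b.Γ) (sl_isSmooth_trivial _) c) = x := by
  obtain ⟨b₁, h₁, y₁, hy₁, -⟩ := dm_ql_exists_level₁ 𝔖 Y x hloc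
  have hab : b₁ ≤ du_Lev.sup a₀ b₁ := du_Lev.le_sup_right a₀ b₁
  have hb : K₀ ≤ du_Lev.sup a₀ b₁ := le_trans h₁ hab
  have hx : (dm_ql_Q 𝔖 hb Y).mor.H1 ((dm_ql_trans 𝔖 h₁ hab Y).H1 y₁) = x := by
    rw [← hy₁]
    exact dm_ql_Q_trans₁ 𝔖 h₁ hab Y y₁
  have hy : ∀ q : ↥S, (dm_ql_rho 𝔖 q hb Y).H1 ((dm_ql_trans 𝔖 h₁ hab Y).H1 y₁) = 0 := by
    intro q
    rw [← dm_ql_loc_H1_eq_zero_iff 𝔖 q hb Y, hx]
    exact hloc q
  obtain ⟨c, hc⟩ := xj_exists_δ0_of_rho 𝔖 Y hY hb _ hy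
  exact ⟨du_Lev.sup a₀ b₁, du_Lev.le_sup_left a₀ b₁, hb, c, by rw [hc, hx]⟩

/-- **[X3]: surjectivity of the `X`-side maps**, in the shape used by the final assembly: the
level `b` is found above a given `a ≥ K₀`, and `K₀ ≤ b` is `ha.trans hab`. -/
theorem xj_surj {a : du_Lev S} (ha : K₀ ≤ a)
    (x : lvH1 (tl_levelsS S) (dm_T S K₀.q Y))
    (hx : ∀ q : ↥S, (dm_locT S K₀.q q.1 Y).H1 x = 0) :
    ∃ (b : du_Lev S) (hab : a ≤ b)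
      (c : lvH0 (G := b.Γ) (LvHom (tl_Act (sl_Y Y (ha.trans hab))) ↥(sl_Co 𝔖 b))),
      (dm_ql_Q 𝔖 (ha.trans hab) Y).mor.H1
        ((sl_homSes 𝔖 Y (ha.trans hab) hY).δ0 (LevelSys.trivial b.Γ)
          (sl_isSmooth_trivial _) c) = x := by
  obtain ⟨b, hab, _, c, hc⟩ := xj_exists_level_δ0 𝔖 Y hY a x hx
  exact ⟨b, hab, c, hc⟩

/-- **[X3] for the free module `F = ℤ[X]`:** every class of `H¹(G_S, Hom(F, E_S))` is locally
trivial (`dm_lv_V1`), hence comes from some `δ⁰ c` at a finite level. -/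
theorem xj_surj_F {a : du_Lev S} (ha : K₀ ≤ a) (A : Rep.{0} ℤ K₀.Γ)
    (hF : ld_IsLattice (la_F A))
    (x : lvH1 (tl_levelsS S) (dm_T S K₀.q (la_F A))) :
    ∃ (b : du_Lev S) (hab : a ≤ b)
      (c : lvH0 (G := b.Γ) (LvHom (tl_Act (sl_Y (la_F A) (ha.trans hab))) ↥(sl_Co 𝔖 b))),
      (dm_ql_Q 𝔖 (ha.trans hab) (la_F A)).mor.H1
        ((sl_homSes 𝔖 (la_F A) (ha.trans hab) hF).δ0 (LevelSys.trivial b.Γ)
          (sl_isSmooth_trivial _) c) = x :=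
  xj_surj 𝔖 (la_F A) hF ha x fun q => dm_lv_V1 K₀.q q.1 A _

end Fermat.Agent.S55
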