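import Fermat.Agent.S55.Dual.XLimit
import Fermat.Agent.S55.Dual.XDelta
import Fermat.Agent.S55.Dual.XSurj
import Fermat.Agent.S55.Dual.Assemble

/-!
# (D3X): the `X`-side map (block [D] of S55, leaf [X4], prefix `xf_`)

`xf_main`: for a finite `Γ_{K₀}`-module `A ≅ M^*(1)` with its resolution `0 → R → F → A → 0` and
every level `a ≥ K₀` there is a surjection `Φ_a : 𝒞^∞_R(a) → X_R ⧸ im H¹(G_S, T_F)` with kernel
`(Loc ⊔ i^*𝒞^∞_F(a)) ∩ 𝒞^∞_R(a)`.  `xf_D3X` is the instance `du_D3X` consumed by `du_result'`.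

Assembly of the directed-union bookkeeping `xl_main` ([X1]) with the level maps `xd_Δ` ([X2]) and
the surjectivity statements `xj_surj`, `xj_surj_F` ([X3]).
-/

set_option autoImplicit false

open CategoryTheory groupCohomology ExtCitation

namespace Fermat.Agent.S55

local notation "Qbar" => AlgebraicClosure ℚ
local notation "GQ" => (AlgebraicClosure ℚ ≃ₐ[ℚ] AlgebraicClosure ℚ)

variable {p : ℕ} [hp : Fact p.Prime] {S : Finset Nat.Primes} (𝔖 : du_Seam p S)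

/-- **The `X`-side map** for a resolution `0 → R → F → A → 0` over `Γ_{K₀}`. -/
theorem xf_main [Nonempty ↥S] (hpS : pPrime p ∈ S) (M : Rep.{0} (ZMod p) GQ)
    [FiniteDimensional (ZMod p) M] {K₀ : du_Lev S} (A : Rep.{0} ℤ K₀.Γ) [Finite A.V]
    (e : A.V ≃+ (M.dualTwist (cycloChar p)).V)
    (he : ∀ (σ : GQ) (x : A.V), e (A.ρ (K₀.q σ) x) = (M.dualTwist (cycloChar p)).ρ σ (e x))
    {ζ : Qbar} (hζ : IsPrimitiveRoot ζ p) {a : du_Lev S} (h : K₀ ≤ a) :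
    ∃ Φ : ↥(du_Cinf 𝔖 a (sl_Y (la_R A) h)) →+
        ↥(dm_XR S K₀.q A) ⧸
          (((dm_Eglob S hpS M K₀.q A e he hζ).mπ (tl_levelsS S)).H1.range).addSubgroupOf
            (dm_XR S K₀.q A),
      Function.Surjective Φ ∧ ∀ φ, Φ φ = 0 ↔
        (φ : sl_Y (la_R A) h ⟶ (𝔖.dat a).C) ∈
          ld_Loc (𝔖.dat a) (sl_Y (la_R A) h) ⊔
            du_Vinf 𝔖 a ((Rep.resFunctor (du_Lev.res h)).map (la_ι A)) := by
  have hneI : Nonempty {b : du_Lev S // a ≤ b} := ⟨⟨a, le_rfl⟩⟩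
  refine xl_main (I := {b : du_Lev S // a ≤ b})
    (𝒢 := sl_Y (la_R A) h ⟶ (𝔖.dat a).C)
    (X := lvH1 (tl_levelsS S) (dm_T S K₀.q (la_R A)))
    (fun i j => i.1 ≤ j.1)
    (fun i j => ⟨⟨du_Lev.sup i.1 j.1, le_trans i.2 (du_Lev.le_sup_left i.1 j.1)⟩,
      du_Lev.le_sup_left i.1 j.1, du_Lev.le_sup_right i.1 j.1⟩)
    (fun i => xd_Cfin 𝔖 h i.2 (la_R A))
    (fun {i j} hij => xd_Cfin_mono 𝔖 h i.2 (la_R A) hij)
    (fun i => xd_Δ 𝔖 h i.2 (la_R A) (la_free_R A))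
    (fun {i j} hij c => xd_Δ_trans 𝔖 h i.2 (la_R A) (la_free_R A) hij c)
    (du_Cinf 𝔖 a (sl_Y (la_R A) h))
    (fun c => ⟨fun ⟨b, hab, hφ⟩ => ⟨⟨b, hab⟩, hφ⟩, fun ⟨i, hi⟩ => ⟨i.1, i.2, hi⟩⟩)
    (dm_XR S K₀.q A)
    (((dm_Eglob S hpS M K₀.q A e he hζ).mπ (tl_levelsS S)).H1.range)
    (fun i c => xd_Δ_mem_sha 𝔖 h i.2 (la_R A) (la_free_R A) c)
    (ld_Loc (𝔖.dat a) (sl_Y (la_R A) h))
    (du_Vinf 𝔖 a ((Rep.resFunctor (du_Lev.res h)).map (la_ι A)))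
    (fun i => (xd_Cfin 𝔖 h i.2 (la_F A)).map
      (ld_pre (𝔖.dat a) ((Rep.resFunctor (du_Lev.res h)).map (la_ι A))))
    (fun v => ⟨fun ⟨ψ, ⟨b, hab, hψ⟩, hv⟩ => ⟨⟨b, hab⟩, ψ, hψ, hv⟩,
      fun ⟨i, ψ, hψ, hv⟩ => ⟨ψ, ⟨i.1, i.2, hψ⟩, hv⟩⟩)
    (fun i => xd_Loc_le_Cfin 𝔖 h i.2 (la_R A))
    ?_ ?_
    (fun i c => xd_Δ_eq_zero_iff 𝔖 h i.2 (la_R A) (la_free_R A) c)
    ?_ ?_
  · -- `Vfin i ≤ Cfin i`
    rintro i _ ⟨ψ, hψ, rfl⟩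
    exact xd_pre_mem 𝔖 h i.2 A hψ
  · -- surjectivity
    intro x hx
    obtain ⟨b, hab, c, hc⟩ := xj_surj 𝔖 (la_R A) (la_free_R A) h x (mem_lvSha1.1 hx)
    obtain ⟨φ, hφ⟩ := xd_toH0_surjective 𝔖 h hab (la_R A) c
    refine ⟨⟨b, hab⟩, φ, ?_⟩
    have h1 := xd_Δ_apply 𝔖 h hab (la_R A) (la_free_R A) φ
    rw [hφ] at h1
    exact h1.trans hc
  · -- (k2)
    rintro i c ⟨ψ, hψ, hψc⟩
    have hc : c = ⟨_, xd_pre_mem 𝔖 h i.2 A hψ⟩ := Subtype.ext hψc.symm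
    rw [hc]
    exact ⟨_, (xd_Δ_pre 𝔖 h i.2 A (la_free_F A) (la_free_R A) hpS M e he hζ ⟨ψ, hψ⟩).symm⟩
  · -- (k3)
    rintro i c ⟨w, hw⟩
    obtain ⟨b, hab, cF, hcF⟩ := xj_surj_F 𝔖 (le_trans h i.2) A (la_free_F A) w
    obtain ⟨ψ, hψ⟩ := xd_toH0_surjective 𝔖 h (le_trans i.2 hab) (la_F A) cF
    refine ⟨⟨b, le_trans i.2 hab⟩, hab,
      ⟨_, xd_pre_mem 𝔖 h (le_trans i.2 hab) A ψ.2⟩, ⟨ψ.1, ψ.2, rfl⟩, ?_⟩
    rw [map_sub, sub_eq_zero]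
    have h1 := xd_Δ_trans 𝔖 h i.2 (la_R A) (la_free_R A) hab c
    have h2 := xd_Δ_pre 𝔖 h (le_trans i.2 hab) A (la_free_F A) (la_free_R A) hpS M e he hζ ψ
    have h3 := xd_Δ_apply 𝔖 h (le_trans i.2 hab) (la_F A) (la_free_F A) ψ
    rw [hψ] at h3
    rw [h3.trans hcF] at h2
    exact h1.trans (hw.symm.trans h2.symm)

variable (M : Rep.{0} (ZMod p) GQ) [FiniteDimensional (ZMod p) M] (K : du_Lev S)
  (hA : ∀ σ ∈ K.L.fixingSubgroup, ∀ x : (M.dualTwist (cycloChar p)).V,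
    (M.dualTwist (cycloChar p)).ρ σ x = x)

/-- **(D3X)** in the form consumed by `du_result'` / `du_top` / `id_top`. -/
theorem xf_D3X (hpS : pPrime p ∈ S) {ζ : Qbar} (hζ : IsPrimitiveRoot ζ p) {a : du_Lev S}
    (h : K ≤ a) : du_D3X 𝔖 M K hA hpS hζ h := by
  have hne : Nonempty ↥S := ⟨⟨pPrime p, hpS⟩⟩
  have hfin : Finite (du_AK (M.dualTwist (cycloChar p)) K hA).V :=
    dm_finite_A M (du_AK (M.dualTwist (cycloChar p)) K hA)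
      (tl_sf_descE (M.dualTwist (cycloChar p)) K.L hA)
  exact xf_main 𝔖 hpS M (du_AK (M.dualTwist (cycloChar p)) K hA)
    (tl_sf_descE (M.dualTwist (cycloChar p)) K.L hA)
    (tl_sf_descE_apply (M.dualTwist (cycloChar p)) K.L hA) hζ h

end Fermat.Agent.S55
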