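import Mathlib

/-!
# S55, block [D], leaf D-EXT: extending homomorphisms into a `p`-divisible group

If `R ≤ F` has finite `p`-power index (every element of `F` is moved into `R` by a power of `p`)
and `E` is `p`-divisible, every additive map `R → E` extends to `F`.
-/

set_option autoImplicit false

namespace Fermat.Agent.S55

variable {F E : Type*} [AddCommGroup F] [AddCommGroup E]

/-- if `x ∉ R`, `p • x ∈ R` and `n • x ∈ R` then `p ∣ n` -/
theorem ex_dvd_of_zsmul_mem (p : ℕ) [hp : Fact p.Prime] (R : AddSubgroup F) {x : F} (hx : x ∉ R)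
    (hpx : p • x ∈ R) {n : ℤ} (hn : n • x ∈ R) : (p : ℤ) ∣ n := by
  by_contra hnd
  have hcop : IsCoprime n (p : ℤ) := by
    have hp' : Prime (p : ℤ) := Nat.prime_iff_prime_int.mp hp.out
    exact (IsCoprime.symm ((Prime.coprime_iff_not_dvd hp').mpr hnd))
  obtain ⟨a, b, hab⟩ := hcop
  apply hx
  have h1 : x = a • (n • x) + b • ((p : ℤ) • x) := by
    rw [smul_smul, smul_smul, ← add_smul, hab, one_smul]
  rw [h1]
  refine R.add_mem (R.zsmul_mem hn a) (R.zsmul_mem ?_ b)
  rw [natCast_zsmul]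
  exact hpx

/-- one-step extension: adjoin an element `x ∉ R` with `p • x ∈ R` -/
theorem ex_extend_step (p : ℕ) [Fact p.Prime] (R : AddSubgroup F)
    (hE : ∀ e : E, ∃ e', p • e' = e) (f : R →+ E) {x : F} (hx : x ∉ R) (hpx : p • x ∈ R) :
    ∃ (R' : AddSubgroup F) (hle : R ≤ R') (g : R' →+ E), x ∈ R' ∧
      ∀ r : R, g ⟨r, hle r.2⟩ = f r := by
  obtain ⟨e', he'⟩ := hE (f ⟨p • x, hpx⟩)
  -- the two maps on `R × ℤ`
  let φ : R × ℤ →+ F :=
    (R.subtype).coprod ((zmultiplesHom F) x)
  let ψ : R × ℤ →+ E := f.coprod ((zmultiplesHom E) e')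
  have hφ : ∀ a : R × ℤ, φ a = (a.1 : F) + a.2 • x := fun a => by
    simp [φ, AddMonoidHom.coprod_apply]
  have hψ : ∀ a : R × ℤ, ψ a = f a.1 + a.2 • e' := fun a => by
    simp [ψ, AddMonoidHom.coprod_apply]
  have hker : ∀ a ∈ φ.ker, ψ a = 0 := by
    intro a ha
    rw [AddMonoidHom.mem_ker, hφ] at ha
    have hnx : a.2 • x ∈ R := by
      have : a.2 • x = -(a.1 : F) := eq_neg_of_add_eq_zero_right ha
      rw [this]
      exact R.neg_mem a.1.2
    obtain ⟨m, hm⟩ := ex_dvd_of_zsmul_mem p R hx hpx hnx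
    have h1 : (a.1 : F) = -(m • (p • x)) := by
      have : (a.1 : F) = -(a.2 • x) := eq_neg_of_add_eq_zero_left ha
      rw [this, hm, mul_comm, mul_smul, natCast_zsmul]
    have h2 : a.1 = -(m • (⟨p • x, hpx⟩ : R)) := Subtype.ext (by
      rw [h1]; simp)
    rw [hψ, h2, map_neg, map_zsmul, ← he', hm, mul_comm, mul_smul, natCast_zsmul, neg_add_cancel]
  let g0 : (R × ℤ) ⧸ φ.ker →+ E := QuotientAddGroup.lift φ.ker ψ hker
  let eqv : (R × ℤ) ⧸ φ.ker ≃+ φ.range := QuotientAddGroup.quotientKerEquivRange φ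
  have heqv : ∀ a : R × ℤ, eqv (a : (R × ℤ) ⧸ φ.ker) = ⟨φ a, ⟨a, rfl⟩⟩ := fun a => rfl
  have hle : R ≤ φ.range := by
    intro r hr
    exact ⟨(⟨r, hr⟩, 0), by rw [hφ]; simp⟩
  refine ⟨φ.range, hle, g0.comp eqv.symm.toAddMonoidHom, ⟨(0, 1), by rw [hφ]; simp⟩, ?_⟩
  intro r
  have h3 : (⟨(r : F), hle r.2⟩ : φ.range) = eqv (((r, 0) : R × ℤ) : (R × ℤ) ⧸ φ.ker) := by
    rw [heqv]
    apply Subtype.ext
    show (r : F) = φ (r, 0)
    rw [hφ]
    simp
  rw [AddMonoidHom.comp_apply, h3]
  show g0 (eqv.symm (eqv _)) = f r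
  rw [AddEquiv.symm_apply_apply]
  show ψ (r, 0) = f r
  rw [hψ]
  simp

/-- **D-EXT.** Extension of additive maps into a `p`-divisible group along a subgroup of finite
`p`-power index. -/
theorem ex_extend (p : ℕ) [Fact p.Prime] (R : AddSubgroup F) [Finite (F ⧸ R)]
    (hFR : ∀ x : F, ∃ k : ℕ, p ^ k • x ∈ R) (hE : ∀ e : E, ∃ e', p • e' = e) (f : R →+ E) :
    ∃ f' : F →+ E, ∀ r : R, f' r = f r := by
  classical
  have hidx : R.index ≠ 0 := AddSubgroup.index_ne_zero_of_finite
  -- strong induction on the index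
  suffices H : ∀ n : ℕ, ∀ (R : AddSubgroup F), R.index = n → R.index ≠ 0 →
      (∀ x : F, ∃ k : ℕ, p ^ k • x ∈ R) → ∀ f : R →+ E, ∃ f' : F →+ E, ∀ r : R, f' r = f r from
    H R.index R rfl hidx hFR f
  intro n
  induction n using Nat.strong_induction_on with
  | _ n ih =>
    intro R hn hidx hFR f
    by_cases hR : R = ⊤
    · subst hR
      refine ⟨f.comp (AddSubgroup.topEquiv (G := F)).symm.toAddMonoidHom, fun r => ?_⟩
      show f ((AddSubgroup.topEquiv (G := F)).symm (r : F)) = f r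
      congr 1
    · obtain ⟨x, hx⟩ : ∃ x : F, x ∉ R := by
        by_contra hcon
        push Not at hcon
        exact hR (eq_top_iff.mpr fun x _ => hcon x)
      -- minimal power of `p` moving `x` into `R`
      set k := Nat.find (hFR x) with hk
      have hkR : p ^ k • x ∈ R := Nat.find_spec (hFR x)
      have hk0 : k ≠ 0 := by
        intro h0
        rw [h0, pow_zero, one_smul] at hkR
        exact hx hkR
      obtain ⟨k', hk'⟩ := Nat.exists_eq_succ_of_ne_zero hk0
      have hx' : p ^ k' • x ∉ R := Nat.find_min (hFR x) (by rw [← hk, hk']; exact Nat.lt_succ_self k')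
      have hpx' : p • (p ^ k' • x) ∈ R := by
        rw [smul_smul, ← pow_succ', ← Nat.succ_eq_add_one, ← hk']
        exact hkR
      obtain ⟨R', hle, g, hxR', hg⟩ := ex_extend_step p R hE f hx' hpx'
      have hlt : R < R' := lt_of_le_of_ne hle (fun h => hx' (h ▸ hxR'))
      have hidx' : R'.index ≠ 0 := by
        intro h0
        apply hidx
        rw [← AddSubgroup.relIndex_mul_index hle, h0, mul_zero]
      have hlt' : R'.index < n := by
        rw [← hn, ← AddSubgroup.relIndex_mul_index hle]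
        have h1 : R.relIndex R' ≠ 1 := by
          rw [Ne, AddSubgroup.relIndex_eq_one]
          exact not_le_of_gt hlt
        have h0 : R.relIndex R' ≠ 0 := by
          intro h0
          apply hidx
          rw [← AddSubgroup.relIndex_mul_index hle, h0, zero_mul]
        have h2 : 2 ≤ R.relIndex R' := by omega
        have hpos : 0 < R'.index := Nat.pos_of_ne_zero hidx'
        nlinarith
      obtain ⟨f', hf'⟩ := ih R'.index hlt' R' rfl hidx'
        (fun y => (hFR y).imp fun k hk => hle hk) g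
      exact ⟨f', fun r => by rw [← hg r, ← hf' ⟨r, hle r.2⟩]⟩

end Fermat.Agent.S55
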