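import Mathlib
import Fermat.Agent.S55.Dual.ExtDiv

/-!
# S55 / [D], leaf D2c (generic core): the sequence `0 → V → Hom(F, X) → Hom(R, X) → 0`

Pure algebra, no Galois theory.  `V` is a finite-dimensional `ZMod p`-vector space, `F` an abelian
group with a surjection `ϖ : F →+ Module.Dual (ZMod p) V`, `X` an abelian group with an element
`z` of order `p` such that every element of `X` killed by `p` is a multiple of `z`
(`X = E_S` or `(ℚ̄_q)ˣ` written additively, `z = ζ_p`).

* `dm_pair z hz : ZMod p →+ X`, `c ↦ c • z`;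
* `dm_i ϖ z hz : V →+ (F →+ X)`, `m ↦ (f ↦ ⟨ϖ f, m⟩ • z)`;
* `dm_i_injective`, `dm_i_vanish`, `dm_exists_of_vanish` (exactness in the middle, by double
  duality), `dm_exists_extend` (surjectivity of the restriction, for `p`-divisible `X`);
* `dm_i_equivariant`: equivariance for the conjugation action, when `G` acts on `z` through a
  character `χ` and `ϖ` intertwines the action on `F` with the `χ`-twisted contragredient action;
* `dm_i_map`: compatibility with a change of the target.
-/

set_option autoImplicit false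

namespace Fermat.Agent.S55

section Pair

variable {p : ℕ} [Fact p.Prime] {X : Type*} [AddCommGroup X]

/-- The homomorphism `ZMod p →+ X`, `c ↦ c • z`, for an element `z` killed by `p`. -/
def dm_pair (z : X) (hz : p • z = 0) : ZMod p →+ X :=
  ZMod.lift p ⟨zmultiplesHom X z, by
    rw [zmultiplesHom_apply, natCast_zsmul]; exact hz⟩

variable (z : X) (hz : p • z = 0)

theorem dm_pair_intCast (n : ℤ) : dm_pair z hz (n : ZMod p) = n • z := by
  rw [dm_pair, ZMod.lift_coe]
  rfl

theorem dm_pair_natCast (n : ℕ) : dm_pair z hz (n : ZMod p) = n • z := by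
  have := dm_pair_intCast z hz (n : ℤ)
  rwa [Int.cast_natCast, natCast_zsmul] at this

theorem dm_pair_apply (c : ZMod p) : dm_pair z hz c = c.val • z := by
  rw [← dm_pair_natCast z hz, ZMod.natCast_zmod_val]

theorem dm_pair_one : dm_pair z hz 1 = z := by
  have := dm_pair_natCast z hz 1
  rwa [Nat.cast_one, one_smul] at this

theorem dm_pair_mul (a b : ZMod p) : dm_pair z hz (a * b) = a.val • dm_pair z hz b := by
  have h : a * b = a.val • b := by
    rw [nsmul_eq_mul, ZMod.natCast_zmod_val]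
  rw [h, map_nsmul]

theorem dm_pair_injective (hz0 : z ≠ 0) : Function.Injective (dm_pair z hz) := by
  rw [injective_iff_map_eq_zero]
  intro c hc
  by_contra hc0
  apply hz0
  have hp : p.Prime := Fact.out
  obtain ⟨d, hd⟩ : ∃ d : ZMod p, d * c = 1 := ⟨c⁻¹, inv_mul_cancel₀ hc0⟩
  have := dm_pair_mul z hz d c
  rw [hd, dm_pair_one, hc, smul_zero] at this
  exact this

theorem dm_pair_congr {z z' : X} (h : z = z') (hz : p • z = 0) (hz' : p • z' = 0) (c : ZMod p) :
    dm_pair z hz c = dm_pair z' hz' c := by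
  subst h
  rfl

theorem dm_pair_comp {X' : Type*} [AddCommGroup X'] (l : X →+ X') (c : ZMod p) :
    l (dm_pair z hz c) = dm_pair (l z) (by rw [← map_nsmul, hz, map_zero]) c := by
  rw [dm_pair_apply, dm_pair_apply, map_nsmul]

end Pair

section Core

variable {p : ℕ} [Fact p.Prime] {X : Type*} [AddCommGroup X]
  {V : Type*} [AddCommGroup V] [Module (ZMod p) V]
  {F : Type*} [AddCommGroup F] (ϖ : F →+ Module.Dual (ZMod p) V) (z : X) (hz : p • z = 0)

/-- `m ↦ (f ↦ ⟨ϖ f, m⟩ • z)`. -/
def dm_i : V →+ (F →+ X) where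
  toFun m := (dm_pair z hz).comp
    ((LinearMap.applyₗ (R := ZMod p) (M := V) (M₂ := ZMod p) m).toAddMonoidHom.comp ϖ)
  map_zero' := by
    ext f
    simp
  map_add' m m' := by
    ext f
    simp

theorem dm_i_apply (m : V) (f : F) : dm_i ϖ z hz m f = dm_pair z hz (ϖ f m) := rfl

theorem dm_i_vanish (m : V) {f : F} (hf : ϖ f = 0) : dm_i ϖ z hz m f = 0 := by
  rw [dm_i_apply, hf, LinearMap.zero_apply, map_zero]

theorem dm_i_injective (hϖ : Function.Surjective ϖ) (hz0 : z ≠ 0) :
    Function.Injective (dm_i ϖ z hz) := by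
  rw [injective_iff_map_eq_zero]
  intro m hm
  rw [← Module.forall_dual_apply_eq_zero_iff (ZMod p)]
  intro a
  obtain ⟨f, rfl⟩ := hϖ a
  have := DFunLike.congr_fun hm f
  rw [dm_i_apply, AddMonoidHom.zero_apply] at this
  exact (injective_iff_map_eq_zero _).1 (dm_pair_injective z hz hz0) _ this

theorem dm_i_map {X' : Type*} [AddCommGroup X'] (l : X →+ X') (m : V) (f : F) :
    l (dm_i ϖ z hz m f) = dm_i ϖ (l z) (by rw [← map_nsmul, hz, map_zero]) m f := by
  rw [dm_i_apply, dm_i_apply, dm_pair_comp]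

/-- **Exactness in the middle**: a homomorphism `F →+ X` which kills `ker ϖ` is of the form
`dm_i m` (double duality of the finite-dimensional space `V`). -/
theorem dm_exists_of_vanish [FiniteDimensional (ZMod p) V] (hϖ : Function.Surjective ϖ)
    (hz0 : z ≠ 0) (htors : ∀ x : X, p • x = 0 → ∃ c : ZMod p, x = dm_pair z hz c)
    (φ : F →+ X) (hφ : ∀ f, ϖ f = 0 → φ f = 0) : ∃ m : V, dm_i ϖ z hz m = φ := by
  classical
  have hinj := dm_pair_injective z hz hz0
  -- descend `φ` to the dual
  have hker : ϖ.ker ≤ φ.ker := fun f hf => hφ f hf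
  let φ' : Module.Dual (ZMod p) V →+ X :=
    (QuotientAddGroup.lift ϖ.ker φ hker).comp
      (QuotientAddGroup.quotientKerEquivOfSurjective ϖ hϖ).symm.toAddMonoidHom
  have hφ' : ∀ f, φ' (ϖ f) = φ f := by
    intro f
    have h1 : (QuotientAddGroup.quotientKerEquivOfSurjective ϖ hϖ).symm (ϖ f)
        = (f : F ⧸ ϖ.ker) := by
      rw [AddEquiv.symm_apply_eq]; rfl
    simp only [φ', AddMonoidHom.comp_apply, AddEquiv.coe_toAddMonoidHom, h1]
    rfl
  -- values are killed by `p`
  have hval : ∀ a, ∃ c : ZMod p, φ' a = dm_pair z hz c := by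
    intro a
    apply htors
    rw [← map_nsmul]
    have : p • a = 0 := by
      rw [← Nat.cast_smul_eq_nsmul (ZMod p), ZMod.natCast_self, zero_smul]
    rw [this, map_zero]
  choose c hc using hval
  have hadd : ∀ a b, c (a + b) = c a + c b := by
    intro a b
    apply hinj
    rw [map_add, ← hc, ← hc, ← hc, map_add]
  let cl : Module.Dual (ZMod p) (Module.Dual (ZMod p) V) :=
    (AddMonoidHom.mk' c hadd).toZModLinearMap p
  have hcl : ∀ a, cl a = c a := fun a => rfl
  refine ⟨(Module.evalEquiv (ZMod p) V).symm cl, ?_⟩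
  ext f
  rw [dm_i_apply]
  have h2 : (ϖ f) ((Module.evalEquiv (ZMod p) V).symm cl) = cl (ϖ f) := by
    have := Module.apply_evalEquiv_symm_apply (R := ZMod p) (M := V) (ϖ f) cl
    exact this
  rw [h2, hcl, ← hc, hφ']

/-- **Surjectivity of the restriction** to the kernel of `ϖ`, for a `p`-divisible target. -/
theorem dm_exists_extend [FiniteDimensional (ZMod p) V] (hϖ : Function.Surjective ϖ)
    (hX : ∀ x : X, ∃ y : X, p • y = x) {R : Type*} [AddCommGroup R] (ι : R →+ F)
    (hι : Function.Injective ι) (hex : ∀ f, ϖ f = 0 → ∃ r, ι r = f) (ψ : R →+ X) :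
    ∃ φ : F →+ X, ∀ r, φ (ι r) = ψ r := by
  classical
  have hfin : Finite (Module.Dual (ZMod p) V) := Module.finite_of_finite (ZMod p)
  have hle : ϖ.ker ≤ ι.range := fun f hf => hex f hf
  have : Finite (F ⧸ ϖ.ker) :=
    Finite.of_equiv _ (QuotientAddGroup.quotientKerEquivOfSurjective ϖ hϖ).symm.toEquiv
  have hfin' : Finite (F ⧸ ι.range) :=
    Finite.of_surjective (QuotientAddGroup.map ϖ.ker ι.range (AddMonoidHom.id F) hle)
      (fun x => by
        obtain ⟨f, rfl⟩ := QuotientAddGroup.mk_surjective x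
        exact ⟨(f : F ⧸ ϖ.ker), rfl⟩)
  have hFR : ∀ x : F, ∃ k : ℕ, p ^ k • x ∈ ι.range := by
    intro x
    refine ⟨1, hle ?_⟩
    rw [pow_one, AddMonoidHom.mem_ker, map_nsmul, ← Nat.cast_smul_eq_nsmul (ZMod p),
      ZMod.natCast_self, zero_smul]
  let e : R ≃+ ι.range := AddMonoidHom.ofInjective hι
  obtain ⟨φ, hφ⟩ := ex_extend p ι.range hFR hX (ψ.comp e.symm.toAddMonoidHom)
  refine ⟨φ, fun r => ?_⟩
  have := hφ (e r)
  simp only [AddMonoidHom.comp_apply, AddEquiv.coe_toAddMonoidHom, AddEquiv.symm_apply_apply]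
    at this
  exact this

end Core

section Equivariance

variable {p : ℕ} [Fact p.Prime] {X : Type*} [AddCommGroup X]
  {V : Type*} [AddCommGroup V] [Module (ZMod p) V]
  {F : Type*} [AddCommGroup F] (ϖ : F →+ Module.Dual (ZMod p) V) (z : X) (hz : p • z = 0)
  {G : Type*} [Group G] [DistribMulAction G V] [DistribMulAction G F] [DistribMulAction G X]
  (χ : G →* (ZMod p)ˣ)

/-- **Equivariance** of `dm_i` for the conjugation action on `Hom(F, X)`. -/
theorem dm_i_equivariant (hzχ : ∀ g : G, g • z = dm_pair z hz (χ g : ZMod p))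
    (hϖχ : ∀ (g : G) (f : F) (m : V), ϖ (g • f) m = (χ g : ZMod p) * ϖ f (g⁻¹ • m))
    (g : G) (m : V) (f : F) :
    g • (dm_i ϖ z hz m (g⁻¹ • f)) = dm_i ϖ z hz (g • m) f := by
  rw [dm_i_apply, dm_i_apply, dm_pair_apply z hz (ϖ (g⁻¹ • f) m), smul_comm g _ z, hzχ,
    ← dm_pair_mul, hϖχ, inv_inv, map_inv]
  congr 1
  rw [mul_comm, ← mul_assoc, Units.mul_inv, one_mul]

end Equivariance

end Fermat.Agent.S55
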