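import Fermat.Agent.S55.Kummer.Unram
import Fermat.Agent.S55.Trans.LocUnits
import Fermat.Agent.S55.Dual.ModulesCore

/-!
# S55 / [D], leaf D2c (part 1): the global multiplicative module `E_S`

`dm_ES S` is the group of `S`-units of the maximal extension of `ℚ` unramified outside `S`,
written additively, with its action of `Gal(ℚ̄/ℚ)`.

* `dm_isSmooth_ES`: it is a smooth module for `tl_levelsS S`;
* `dm_ES_divisible`: it is `p`-divisible when `p ∈ S` (Kummer, `ku_exists_root_unit`);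
* `dm_ESloc S q : dm_ES S →+ tl_locUnits q`: the localisation map induced by `padicEmbedding q`,
  equivariant along `primeLocalToGlobal q`, injective;
* `dm_zeta`: a primitive `p`-th root of unity as an element of `dm_ES S`; it generates the
  `p`-torsion (`dm_ES_torsion`) and the Galois group acts on it through `cycloChar p`
  (`dm_smul_zeta`); the same for its image `dm_zetaLoc` in `tl_locUnits q`.
-/

set_option autoImplicit false

open IntermediateField ExtCitation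

namespace Fermat.Agent.S55

local notation "GQ" => (AlgebraicClosure ℚ ≃ₐ[ℚ] AlgebraicClosure ℚ)
local notation "Qbar" => AlgebraicClosure ℚ

noncomputable section ES

variable (S : Finset Nat.Primes)

/-- The `S`-units of the maximal extension of `ℚ` unramified outside `S`. -/
def dm_ESsub : Subgroup Qbarˣ where
  carrier := {x | (∃ F : IntermediateField ℚ Qbar, F.IsUnramifiedOutside S ∧ (x : Qbar) ∈ F) ∧
    ku_IsSUnit S (x : Qbar)}
  one_mem' := ⟨⟨⊥, IntermediateField.isUnramifiedOutside_bot S, by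
    rw [Units.val_one]; exact one_mem _⟩, by rw [Units.val_one]; exact ku_isSUnit_one⟩
  mul_mem' := by
    rintro x y ⟨⟨F, hF, hx⟩, hxu⟩ ⟨⟨F', hF', hy⟩, hyu⟩
    refine ⟨⟨F ⊔ F', hF.sup hF', ?_⟩, ?_⟩
    · rw [Units.val_mul]
      exact mul_mem ((le_sup_left : F ≤ F ⊔ F') hx) ((le_sup_right : F' ≤ F ⊔ F') hy)
    · rw [Units.val_mul]
      exact hxu.mul hyu
  inv_mem' := by
    rintro x ⟨⟨F, hF, hx⟩, hxu⟩
    refine ⟨⟨F, hF, ?_⟩, ?_⟩
    · rw [Units.val_inv_eq_inv_val]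
      exact inv_mem hx
    · rw [Units.val_inv_eq_inv_val]
      exact hxu.inv

variable {S}

theorem dm_mem_ESsub {x : Qbarˣ} : x ∈ dm_ESsub S ↔
    (∃ F : IntermediateField ℚ Qbar, F.IsUnramifiedOutside S ∧ (x : Qbar) ∈ F) ∧
      ku_IsSUnit S (x : Qbar) := Iff.rfl

/-- `E_S` is stable under the Galois group. -/
theorem dm_smul_mem_ESsub (g : GQ) {x : Qbarˣ} (hx : x ∈ dm_ESsub S) : g • x ∈ dm_ESsub S := by
  obtain ⟨⟨F, hF, hxF⟩, hxu⟩ := hx
  refine ⟨⟨F.map (g : Qbar →ₐ[ℚ] Qbar), tl_isUnramifiedOutside_map hF g, ?_⟩, ?_⟩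
  · exact ⟨(x : Qbar), hxF, rfl⟩
  · exact hxu.map g

variable (S)

/-- The `Gal(ℚ̄/ℚ)`-module `E_S`, written additively. -/
def dm_ES : Type := Additive ↥(dm_ESsub S)

instance dm_ES.instAddCommGroup : AddCommGroup (dm_ES S) :=
  inferInstanceAs (AddCommGroup (Additive ↥(dm_ESsub S)))

/-- An element of the subgroup as an element of the additive module. -/
def dm_ES.of (x : ↥(dm_ESsub S)) : dm_ES S := Additive.ofMul x

/-- The underlying unit of `ℚ̄`. -/
def dm_ES.val : dm_ES S →+ Additive Qbarˣ :=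
  MonoidHom.toAdditive (dm_ESsub S).subtype

/-- The underlying element of `ℚ̄`. -/
def dm_ES.coe (x : dm_ES S) : Qbar := ((Additive.toMul (dm_ES.val S x) : Qbarˣ) : Qbar)

variable {S}

theorem dm_ES.coe_of (x : ↥(dm_ESsub S)) : dm_ES.coe S (dm_ES.of S x) = ((x : Qbarˣ) : Qbar) := rfl

theorem dm_ES.coe_zero : dm_ES.coe S 0 = 1 := rfl

theorem dm_ES.coe_add (x y : dm_ES S) : dm_ES.coe S (x + y) = dm_ES.coe S x * dm_ES.coe S y := rfl

theorem dm_ES.coe_nsmul (n : ℕ) (x : dm_ES S) : dm_ES.coe S (n • x) = dm_ES.coe S x ^ n := by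
  induction n with
  | zero => rw [zero_smul, pow_zero]; rfl
  | succ n ih => rw [succ_nsmul, pow_succ, dm_ES.coe_add, ih]

theorem dm_ES.coe_ne_zero (x : dm_ES S) : dm_ES.coe S x ≠ 0 := Units.ne_zero _

theorem dm_ES.coe_injective : Function.Injective (dm_ES.coe S) := by
  intro x y h
  have h1 : (Additive.toMul (dm_ES.val S x) : Qbarˣ) = Additive.toMul (dm_ES.val S y) :=
    Units.ext h
  exact Additive.toMul.injective (Subtype.ext h1)

theorem dm_ES.coe_mem (x : dm_ES S) :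
    (∃ F : IntermediateField ℚ Qbar, F.IsUnramifiedOutside S ∧ dm_ES.coe S x ∈ F) ∧
      ku_IsSUnit S (dm_ES.coe S x) :=
  (Additive.toMul x : ↥(dm_ESsub S)).2

/-- Constructor from a nonzero element of `ℚ̄`. -/
def dm_ES.mk (x : Qbar) (hx0 : x ≠ 0) (F : IntermediateField ℚ Qbar)
    (hF : F.IsUnramifiedOutside S) (hxF : x ∈ F) (hx : ku_IsSUnit S x) : dm_ES S :=
  dm_ES.of S ⟨Units.mk0 x hx0, ⟨F, hF, hxF⟩, hx⟩

theorem dm_ES.coe_mk (x : Qbar) (hx0 : x ≠ 0) (F : IntermediateField ℚ Qbar)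
    (hF : F.IsUnramifiedOutside S) (hxF : x ∈ F) (hx : ku_IsSUnit S x) :
    dm_ES.coe S (dm_ES.mk x hx0 F hF hxF hx) = x := rfl

/-- The action of the Galois group on `E_S`. -/
instance dm_ES.instDistribMulAction : DistribMulAction GQ (dm_ES S) where
  smul g x := dm_ES.of S ⟨g • ((Additive.toMul x : ↥(dm_ESsub S)) : Qbarˣ),
    dm_smul_mem_ESsub g (Additive.toMul x : ↥(dm_ESsub S)).2⟩
  one_smul _ := dm_ES.coe_injective rfl
  mul_smul _ _ _ := dm_ES.coe_injective rfl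
  smul_zero g := dm_ES.coe_injective (map_one g)
  smul_add g _ _ := dm_ES.coe_injective (map_mul g _ _)

theorem dm_ES.coe_smul (g : GQ) (x : dm_ES S) : dm_ES.coe S (g • x) = g (dm_ES.coe S x) := rfl

variable (S)

/-- **`E_S` is a smooth module for the levels unramified outside `S`.** -/
theorem dm_isSmooth_ES : (tl_levelsS S).IsSmooth (dm_ES S) := by
  intro x
  obtain ⟨⟨F, hF, hxF⟩, -⟩ := dm_ES.coe_mem x
  refine ⟨F.fixingSubgroup, ⟨F, hF, rfl⟩, fun u hu => dm_ES.coe_injective ?_⟩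
  rw [dm_ES.coe_smul]
  exact (IntermediateField.mem_fixingSubgroup_iff _ _).1 hu _ hxF

/-- **`E_S` is `p`-divisible for `p ∈ S`** (Kummer theory: `ku_exists_root_unit`). -/
theorem dm_ES_divisible {p : Nat.Primes} (hpS : p ∈ S) (x : dm_ES S) :
    ∃ y : dm_ES S, (p : ℕ) • y = x := by
  obtain ⟨⟨F, hF, hxF⟩, hxu⟩ := dm_ES.coe_mem x
  obtain ⟨F', -, hF', -, y, hyF', hy, hyu⟩ := ku_exists_root_unit hpS hF 1 hxF hxu
  rw [pow_one] at hy
  have hy0 : y ≠ 0 := by
    rintro rfl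
    rw [zero_pow p.2.ne_zero] at hy
    exact dm_ES.coe_ne_zero x hy.symm
  refine ⟨dm_ES.mk y hy0 F' hF' hyF' hyu, dm_ES.coe_injective ?_⟩
  rw [dm_ES.coe_nsmul, dm_ES.coe_mk, hy]

/-! ### Localisation -/

section Loc

variable (q : Nat.Primes)

/-- The underlying element of `ℚ̄_q` of an element of the local multiplicative module. -/
def dm_locCoe (x : tl_locUnits q) : letI : Fact (q : ℕ).Prime := ⟨q.2⟩; PadicAlgCl (q : ℕ) :=
  letI : Fact (q : ℕ).Prime := ⟨q.2⟩
  ((tl_locUnits.val q x : (PadicAlgCl (q : ℕ))ˣ) : PadicAlgCl (q : ℕ))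

theorem dm_locCoe_injective : Function.Injective (dm_locCoe q) := by
  have : Fact (q : ℕ).Prime := ⟨q.2⟩
  intro x y h
  exact Additive.toMul.injective (Units.ext h)

theorem dm_locCoe_add (x y : tl_locUnits q) :
    dm_locCoe q (x + y) = dm_locCoe q x * dm_locCoe q y := rfl

theorem dm_locCoe_zero : dm_locCoe q 0 = 1 := rfl

theorem dm_locCoe_nsmul (n : ℕ) (x : tl_locUnits q) :
    dm_locCoe q (n • x) = dm_locCoe q x ^ n := by
  induction n with
  | zero => rw [zero_smul, pow_zero]; rfl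
  | succ n ih => rw [succ_nsmul, pow_succ, dm_locCoe_add, ih]

theorem dm_locCoe_smul (σ : primeLocalGaloisGroup q) (x : tl_locUnits q) :
    letI : Fact (q : ℕ).Prime := ⟨q.2⟩
    dm_locCoe q (σ • x) =
      (show PadicAlgCl (q : ℕ) ≃ₐ[ℚ_[(q : ℕ)]] PadicAlgCl (q : ℕ) from σ) (dm_locCoe q x) := rfl

/-- **The localisation map `E_S → (ℚ̄_q)ˣ`** induced by `padicEmbedding q`. -/
def dm_ESloc : dm_ES S →+ tl_locUnits q :=
  letI : Fact (q : ℕ).Prime := ⟨q.2⟩
  MonoidHom.toAdditive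
    ((Units.map ((padicEmbedding (q : ℕ) : Qbar →ₐ[ℚ] PadicAlgCl (q : ℕ)) :
      Qbar →* PadicAlgCl (q : ℕ))).comp (dm_ESsub S).subtype)

theorem dm_locCoe_ESloc (x : dm_ES S) :
    letI : Fact (q : ℕ).Prime := ⟨q.2⟩
    dm_locCoe q (dm_ESloc S q x) = padicEmbedding (q : ℕ) (dm_ES.coe S x) := rfl

theorem dm_ESloc_injective : Function.Injective (dm_ESloc S q) := by
  have : Fact (q : ℕ).Prime := ⟨q.2⟩
  intro x y h
  apply dm_ES.coe_injective
  have := congrArg (dm_locCoe q) h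
  rw [dm_locCoe_ESloc, dm_locCoe_ESloc] at this
  exact (padicEmbedding (q : ℕ)).injective this

/-- The localisation map is equivariant along `primeLocalToGlobal q`. -/
theorem dm_ESloc_smul (σ : primeLocalGaloisGroup q) (x : dm_ES S) :
    dm_ESloc S q (primeLocalToGlobal q σ • x) = σ • dm_ESloc S q x := by
  have : Fact (q : ℕ).Prime := ⟨q.2⟩
  apply dm_locCoe_injective
  rw [dm_locCoe_ESloc, dm_ES.coe_smul, dm_locCoe_smul, dm_locCoe_ESloc]
  exact padicEmbedding_localGaloisToGlobal (q : ℕ) σ _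

end Loc

/-! ### The root of unity -/

section Zeta

variable {p : ℕ} [Fact p.Prime] (hpS : pPrime p ∈ S) {ζ : Qbar} (hζ : IsPrimitiveRoot ζ p)

include hpS hζ in
/-- Inertia groups outside `S ∋ p` fix the `p`-th roots of unity. -/
theorem dm_inertia_fixes_zeta (q : Nat.Primes) (hq : q ∉ S) (A : ValuationSubring Qbar)
    (hA : A.LiesOverPrime (q : ℕ)) (σ : GQ) (hσ : σ ∈ A.inertiaSubgroupIn ℚ) : σ ζ = ζ := by
  have hqp : (q : ℕ) ≠ p := by
    intro h
    apply hq
    have : q = pPrime p := Subtype.ext h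
    rwa [this]
  have hχ : cycloChar p σ = 1 := tl_cycloChar_eq_one_of_mem_inertia p q.2 hqp A hA hσ
  refine (Fermat.Agent.S14.Reduction.chi_eq_one_iff p σ hζ).1 ?_
  show ((cycloExp p σ : ℕ) : ZMod p) = 1
  rw [← coe_cycloChar, hχ, Units.val_one]

include hpS hζ in
theorem dm_isUnramifiedOutside_adjoin_zeta :
    (IntermediateField.adjoin ℚ {ζ}).IsUnramifiedOutside S := by
  have h := ku_isUnramifiedOutside_sup_adjoin_of_fixed
    (IntermediateField.isUnramifiedOutside_bot S) (Set.finite_singleton ζ)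
    (fun q hq A hA σ hσ y hy => by
      rw [Set.mem_singleton_iff] at hy
      subst hy
      exact dm_inertia_fixes_zeta S hpS hζ q hq A hA σ hσ)
  rwa [bot_sup_eq] at h

include hζ in
theorem dm_isSUnit_zeta : ku_IsSUnit S ζ := fun _ _ A _ =>
  tl_valuation_eq_one_of_pow_eq_one A (Fact.out : p.Prime).ne_zero hζ.pow_eq_one

/-- The primitive `p`-th root of unity `ζ` as an element of `E_S`. -/
def dm_zeta : dm_ES S :=
  dm_ES.mk ζ (hζ.ne_zero (Fact.out : p.Prime).ne_zero) (IntermediateField.adjoin ℚ {ζ})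
    (dm_isUnramifiedOutside_adjoin_zeta S hpS hζ) (IntermediateField.mem_adjoin_simple_self ℚ ζ)
    (dm_isSUnit_zeta S hζ)

theorem dm_coe_zeta : dm_ES.coe S (dm_zeta S hpS hζ) = ζ := rfl

theorem dm_nsmul_zeta : p • dm_zeta S hpS hζ = 0 := by
  apply dm_ES.coe_injective
  rw [dm_ES.coe_nsmul, dm_coe_zeta, hζ.pow_eq_one]
  rfl

theorem dm_zeta_ne_zero : dm_zeta S hpS hζ ≠ 0 := by
  intro h
  have := congrArg (dm_ES.coe S) h
  rw [dm_coe_zeta, dm_ES.coe_zero] at this
  exact hζ.ne_one (Fact.out : p.Prime).one_lt this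

theorem dm_coe_pair (c : ZMod p) :
    dm_ES.coe S (dm_pair (dm_zeta S hpS hζ) (dm_nsmul_zeta S hpS hζ) c) = ζ ^ c.val := by
  rw [dm_pair_apply, dm_ES.coe_nsmul, dm_coe_zeta]

/-- The `p`-torsion of `E_S` is generated by `ζ`. -/
theorem dm_ES_torsion (x : dm_ES S) (hx : p • x = 0) :
    ∃ c : ZMod p, x = dm_pair (dm_zeta S hpS hζ) (dm_nsmul_zeta S hpS hζ) c := by
  have h1 : dm_ES.coe S x ^ p = 1 := by
    rw [← dm_ES.coe_nsmul, hx]
    rfl
  obtain ⟨i, -, hi⟩ := hζ.eq_pow_of_pow_eq_one h1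
  refine ⟨(i : ZMod p), dm_ES.coe_injective ?_⟩
  rw [dm_pair_natCast, dm_ES.coe_nsmul, dm_coe_zeta, hi]

/-- The Galois group acts on `ζ` through the mod `p` cyclotomic character. -/
theorem dm_smul_zeta (g : GQ) :
    g • dm_zeta S hpS hζ =
      dm_pair (dm_zeta S hpS hζ) (dm_nsmul_zeta S hpS hζ) (cycloChar p g : ZMod p) := by
  apply dm_ES.coe_injective
  rw [dm_ES.coe_smul, dm_coe_zeta, dm_coe_pair, val_cycloChar]
  exact Fermat.Agent.S14.Reduction.apply_of_pow_eq_one p g hζ.pow_eq_one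

variable (q : Nat.Primes)

/-- The image of `ζ` in the local multiplicative module. -/
def dm_zetaLoc : tl_locUnits q := dm_ESloc S q (dm_zeta S hpS hζ)

theorem dm_nsmul_zetaLoc : p • dm_zetaLoc S hpS hζ q = 0 := by
  show p • dm_ESloc S q (dm_zeta S hpS hζ) = 0
  rw [← map_nsmul, dm_nsmul_zeta, map_zero]

theorem dm_zetaLoc_ne_zero : dm_zetaLoc S hpS hζ q ≠ 0 := by
  intro h
  apply dm_zeta_ne_zero S hpS hζ
  apply dm_ESloc_injective S q
  rw [map_zero]
  exact h

theorem dm_locCoe_zetaLoc :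
    letI : Fact (q : ℕ).Prime := ⟨q.2⟩
    dm_locCoe q (dm_zetaLoc S hpS hζ q) = padicEmbedding (q : ℕ) ζ := rfl

/-- The `p`-torsion of `(ℚ̄_q)ˣ` is generated by the image of `ζ`. -/
theorem dm_locUnits_torsion (x : tl_locUnits q) (hx : p • x = 0) :
    ∃ c : ZMod p, x = dm_pair (dm_zetaLoc S hpS hζ q) (dm_nsmul_zetaLoc S hpS hζ q) c := by
  have : Fact (q : ℕ).Prime := ⟨q.2⟩
  have hζq : IsPrimitiveRoot (padicEmbedding (q : ℕ) ζ) p :=
    hζ.map_of_injective (padicEmbedding (q : ℕ)).injective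
  have h1 : dm_locCoe q x ^ p = 1 := by
    rw [← dm_locCoe_nsmul, hx]
    rfl
  obtain ⟨i, -, hi⟩ := hζq.eq_pow_of_pow_eq_one h1
  refine ⟨(i : ZMod p), dm_locCoe_injective q ?_⟩
  rw [dm_pair_natCast, dm_locCoe_nsmul, dm_locCoe_zetaLoc, hi]

/-- The local Galois group acts on the image of `ζ` through the cyclotomic character. -/
theorem dm_smul_zetaLoc (σ : primeLocalGaloisGroup q) :
    σ • dm_zetaLoc S hpS hζ q =
      dm_pair (dm_zetaLoc S hpS hζ q) (dm_nsmul_zetaLoc S hpS hζ q)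
        (cycloChar p (primeLocalToGlobal q σ) : ZMod p) := by
  show σ • dm_ESloc S q (dm_zeta S hpS hζ) = _
  rw [← dm_ESloc_smul, dm_smul_zeta, dm_pair_comp]
  rfl

/-- The localisation map is compatible with `dm_pair`. -/
theorem dm_ESloc_pair (c : ZMod p) :
    dm_ESloc S q (dm_pair (dm_zeta S hpS hζ) (dm_nsmul_zeta S hpS hζ) c) =
      dm_pair (dm_zetaLoc S hpS hζ q) (dm_nsmul_zetaLoc S hpS hζ q) c :=
  dm_pair_comp _ _ _ _

end Zeta

end ES

end Fermat.Agent.S55
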