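/-
S55 (Poitou–Tate), block [D], leaf D-FD: Pontryagin duality of finite abelian groups with respect
to Mathlib's `CharacterModule A = (A →+ AddCircle (1 : ℚ))`, and `p`-primary parts.
Mathlib only.
-/
import Mathlib

set_option autoImplicit false

namespace Fermat.Agent.S55

noncomputable section

open CharacterModule

/-! ### Torsion of `ℚ/ℤ` -/

/-- The `n`-torsion of `ℚ/ℤ` is the image of `{0, …, n-1}` under `k ↦ k/n`. -/
theorem fd_torsion_subset (n : ℕ) (hn : 0 < n) (x : AddCircle (1 : ℚ)) (hx : n • x = 0) :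
    ∃ k : Fin n, x = ((((k : ℕ) : ℚ) / (n : ℚ) : ℚ) : AddCircle (1 : ℚ)) := by
  obtain ⟨r, rfl⟩ := QuotientAddGroup.mk_surjective x
  have h1 : ((n • r : ℚ) : AddCircle (1 : ℚ)) = 0 := by
    rw [← hx]; rfl
  obtain ⟨m, hm⟩ := (AddCircle.coe_eq_zero_iff (1 : ℚ)).mp h1
  have hn' : (n : ℚ) ≠ 0 := by exact_mod_cast hn.ne'
  have hr : r = (m : ℚ) / n := by
    rw [eq_div_iff hn']
    simp only [zsmul_eq_mul, mul_one, nsmul_eq_mul] at hm
    rw [hm]; ring
  have hnz : (n : ℤ) ≠ 0 := by exact_mod_cast hn.ne'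
  have hnpos : (0 : ℤ) < n := by exact_mod_cast hn
  refine ⟨⟨(m % n).toNat, ?_⟩, ?_⟩
  · have := Int.emod_lt_of_pos m hnpos
    have h0 := Int.emod_nonneg m hnz
    omega
  · rw [hr]
    apply (QuotientAddGroup.eq_iff_sub_mem).mpr
    refine AddSubgroup.mem_zmultiples_iff.mpr ⟨m / n, ?_⟩
    have h0 := Int.emod_nonneg m hnz
    have hcast : (((m % n).toNat : ℕ) : ℚ) = ((m % n : ℤ) : ℚ) := by
      have : (((m % n).toNat : ℕ) : ℤ) = m % n := Int.toNat_of_nonneg h0
      exact_mod_cast congrArg (fun z : ℤ => (z : ℚ)) this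
    simp only [zsmul_eq_mul, mul_one]
    rw [hcast]
    have hdecomp : (m : ℚ) = ((m % n : ℤ) : ℚ) + (n : ℚ) * ((m / n : ℤ) : ℚ) := by
      have := Int.emod_add_mul_ediv m n
      exact_mod_cast this.symm
    field_simp
    rw [hdecomp]; ring

/-- The `n`-torsion subgroup of `ℚ/ℤ`. -/
def fd_torsion (n : ℕ) : AddSubgroup (AddCircle (1 : ℚ)) where
  carrier := {x | n • x = 0}
  zero_mem' := smul_zero n
  add_mem' := fun {a b} ha hb => by
    simp only [Set.mem_ofPred_eq] at ha hb ⊢
    rw [smul_add, ha, hb, add_zero]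
  neg_mem' := fun {a} ha => by
    simp only [Set.mem_ofPred_eq] at ha ⊢
    rw [smul_neg, ha, neg_zero]

theorem fd_mem_torsion (n : ℕ) (x : AddCircle (1 : ℚ)) : x ∈ fd_torsion n ↔ n • x = 0 := Iff.rfl

theorem fd_torsion_surj (n : ℕ) (hn : 0 < n) :
    Function.Surjective (fun k : Fin n =>
      (⟨((((k : ℕ) : ℚ) / (n : ℚ) : ℚ) : AddCircle (1 : ℚ)), by
        rw [fd_mem_torsion]
        have hn' : (n : ℚ) ≠ 0 := by exact_mod_cast hn.ne'
        have : (n • ((((k : ℕ) : ℚ) / (n : ℚ) : ℚ)) : ℚ) = ((k : ℕ) : ℤ) • (1 : ℚ) := by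
          simp only [nsmul_eq_mul, zsmul_eq_mul, mul_one, Int.cast_natCast]
          field_simp
        change ((n • ((((k : ℕ) : ℚ) / (n : ℚ) : ℚ)) : ℚ) : AddCircle (1 : ℚ)) = 0
        rw [this]
        exact (AddCircle.coe_eq_zero_iff (1 : ℚ)).mpr ⟨_, rfl⟩⟩ : fd_torsion n)) := by
  rintro ⟨x, hx⟩
  obtain ⟨k, hk⟩ := fd_torsion_subset n hn x hx
  exact ⟨k, Subtype.ext hk.symm⟩

instance fd_torsion_finite (n : ℕ) [NeZero n] : Finite (fd_torsion n) :=
  Finite.of_surjective _ (fd_torsion_surj n (NeZero.pos n))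

theorem fd_card_torsion_le (n : ℕ) (hn : 0 < n) : Nat.card (fd_torsion n) ≤ n := by
  have := Nat.card_le_card_of_surjective _ (fd_torsion_surj n hn)
  simpa using this

/-! ### Finiteness and cardinality of the character module -/

section finite

variable {G : Type*} [AddCommGroup G]

/-- A character as an additive monoid homomorphism (definitional unfolding). -/
def fd_toHom : CharacterModule G ≃+ (G →+ AddCircle (1 : ℚ)) := AddEquiv.refl _

@[simp] theorem fd_toHom_apply (χ : CharacterModule G) (g : G) : fd_toHom χ g = χ g := rfl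

@[simp] theorem fd_toHom_symm_apply (f : G →+ AddCircle (1 : ℚ)) (g : G) :
    fd_toHom.symm f g = f g := rfl

/-- Every character of a finite group takes values in the `|G|`-torsion. -/
theorem fd_apply_mem_torsion [Finite G] (χ : CharacterModule G) (g : G) :
    χ g ∈ fd_torsion (Nat.card G) := by
  rw [fd_mem_torsion, ← map_nsmul, card_nsmul_eq_zero', map_zero]

instance fd_finite [Finite G] : Finite (CharacterModule G) := by
  have : NeZero (Nat.card G) := ⟨Nat.card_pos.ne'⟩
  refine Finite.of_injective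
    (fun χ : CharacterModule G => fun g : G => (⟨χ g, fd_apply_mem_torsion χ g⟩ :
      fd_torsion (Nat.card G))) ?_
  intro χ ψ h
  ext g
  exact congrArg Subtype.val (congrFun h g)

end finite

section card

universe u

/-- Characters of a cyclic group `zmultiples a` embed in the `addOrderOf a`-torsion. -/
theorem fd_card_zmultiples_le {G : Type u} [AddCommGroup G] [Finite G] (a : G) :
    Nat.card (CharacterModule (AddSubgroup.zmultiples a)) ≤
      Nat.card (AddSubgroup.zmultiples a) := by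
  have hpos : 0 < addOrderOf a := addOrderOf_pos a
  have : NeZero (addOrderOf a) := ⟨hpos.ne'⟩
  let a' : AddSubgroup.zmultiples a := ⟨a, AddSubgroup.mem_zmultiples a⟩
  have hmem : ∀ χ : CharacterModule (AddSubgroup.zmultiples a),
      χ a' ∈ fd_torsion (addOrderOf a) := by
    intro χ
    rw [fd_mem_torsion, ← map_nsmul]
    have : addOrderOf a • a' = 0 := Subtype.ext (by simp [a', addOrderOf_nsmul_eq_zero])
    rw [this, map_zero]
  have hinj : Function.Injective (fun χ : CharacterModule (AddSubgroup.zmultiples a) =>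
      (⟨χ a', hmem χ⟩ : fd_torsion (addOrderOf a))) := by
    intro χ ψ h
    have h' : χ a' = ψ a' := congrArg Subtype.val h
    ext ⟨x, hx⟩
    obtain ⟨k, rfl⟩ := AddSubgroup.mem_zmultiples_iff.mp hx
    have : (⟨k • a, hx⟩ : AddSubgroup.zmultiples a) = k • a' := Subtype.ext (by simp [a'])
    rw [this, map_zsmul, map_zsmul, h']
  calc Nat.card (CharacterModule (AddSubgroup.zmultiples a))
      ≤ Nat.card (fd_torsion (addOrderOf a)) := Nat.card_le_card_of_injective _ hinj
    _ ≤ addOrderOf a := fd_card_torsion_le _ hpos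
    _ = Nat.card (AddSubgroup.zmultiples a) := (Nat.card_zmultiples a).symm

theorem fd_card_le_aux (n : ℕ) : ∀ (G : Type u) [AddCommGroup G] [Finite G],
    Nat.card G = n → Nat.card (CharacterModule G) ≤ Nat.card G := by
  induction n using Nat.strong_induction_on with
  | _ n ih =>
    intro G _ _ hn
    by_cases hsub : Subsingleton G
    · have : Subsingleton (CharacterModule G) :=
        ⟨fun χ ψ => by ext g; rw [Subsingleton.elim g 0, map_zero, map_zero]⟩
      rw [Nat.card_eq_one_iff_unique.mpr ⟨this, ⟨0⟩⟩]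
      exact Nat.card_pos
    · rw [not_subsingleton_iff_nontrivial] at hsub
      obtain ⟨a, ha⟩ := exists_ne (0 : G)
      set H := AddSubgroup.zmultiples a with hH
      -- restriction to `H`
      let res : CharacterModule G →+ CharacterModule H :=
        { toFun := fun χ => fd_toHom.symm ((fd_toHom χ).comp H.subtype)
          map_zero' := rfl
          map_add' := fun _ _ => rfl }
      have hcard := AddSubgroup.card_eq_card_quotient_mul_card_addSubgroup res.ker
      have h1 : Nat.card (CharacterModule G ⧸ res.ker) ≤ Nat.card H := by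
        calc Nat.card (CharacterModule G ⧸ res.ker)
            ≤ Nat.card (CharacterModule H) :=
              Nat.card_le_card_of_injective _ (QuotientAddGroup.kerLift_injective res)
          _ ≤ Nat.card H := fd_card_zmultiples_le a
      have hHcard : 1 < Nat.card H := by
        rw [Finite.one_lt_card_iff_nontrivial]
        exact ⟨⟨⟨a, AddSubgroup.mem_zmultiples a⟩, 0, fun h => ha (congrArg Subtype.val h)⟩⟩
      have hG := AddSubgroup.card_eq_card_quotient_mul_card_addSubgroup H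
      have hQpos : 0 < Nat.card (G ⧸ H) := Nat.card_pos
      have hlt : Nat.card (G ⧸ H) < n := by
        rw [← hn, hG]
        nlinarith
      have h2 : Nat.card res.ker ≤ Nat.card (G ⧸ H) := by
        have hker : ∀ χ : res.ker, H ≤ AddMonoidHom.ker (fd_toHom (χ : CharacterModule G)) := by
          rintro ⟨χ, hχ⟩ x hx
          rw [AddMonoidHom.mem_ker]
          have := congrArg (fun ψ : CharacterModule H => ψ ⟨x, hx⟩) (AddMonoidHom.mem_ker.mp hχ)
          exact this
        have hinj : Function.Injective (fun χ : res.ker =>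
            (fd_toHom.symm (QuotientAddGroup.lift H (fd_toHom (χ : CharacterModule G)) (hker χ)) :
              CharacterModule (G ⧸ H))) := by
          intro χ ψ h
          apply Subtype.ext
          ext g
          have := congrArg (fun ξ : CharacterModule (G ⧸ H) => ξ (QuotientAddGroup.mk g)) h
          exact this
        calc Nat.card res.ker ≤ Nat.card (CharacterModule (G ⧸ H)) :=
              Nat.card_le_card_of_injective _ hinj
          _ ≤ Nat.card (G ⧸ H) := ih _ hlt (G ⧸ H) rfl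
      rw [hcard, hG, mul_comm (Nat.card (G ⧸ H))]
      exact Nat.mul_le_mul h1 h2

/-- `|Ĝ| ≤ |G|`. -/
theorem fd_card_le (G : Type u) [AddCommGroup G] [Finite G] :
    Nat.card (CharacterModule G) ≤ Nat.card G := fd_card_le_aux _ G rfl

variable {G : Type u} [AddCommGroup G]

/-- Evaluation `G → Ĝ̂`. -/
def fd_eval : G →+ CharacterModule (CharacterModule G) where
  toFun g :=
    { toFun := fun χ => χ g
      map_zero' := rfl
      map_add' := fun _ _ => rfl }
  map_zero' := by ext χ; exact map_zero χ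
  map_add' g h := by ext χ; exact map_add χ g h

@[simp] theorem fd_eval_apply (g : G) (χ : CharacterModule G) : fd_eval g χ = χ g := rfl

theorem fd_eval_injective : Function.Injective (fd_eval (G := G)) := by
  rw [injective_iff_map_eq_zero]
  intro g hg
  apply CharacterModule.eq_zero_of_character_apply
  intro χ
  exact congrArg (fun ξ : CharacterModule (CharacterModule G) => ξ χ) hg

/-- `|Ĝ| = |G|` for a finite abelian group. -/
theorem fd_card [Finite G] : Nat.card (CharacterModule G) = Nat.card G := by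
  apply le_antisymm (fd_card_le G)
  calc Nat.card G ≤ Nat.card (CharacterModule (CharacterModule G)) :=
        Nat.card_le_card_of_injective _ fd_eval_injective
    _ ≤ Nat.card (CharacterModule G) := fd_card_le _

theorem fd_eval_bijective [Finite G] : Function.Bijective (fd_eval (G := G)) := by
  rw [Nat.bijective_iff_injective_and_card]
  exact ⟨fd_eval_injective, by rw [fd_card, fd_card]⟩

end card

/-! ### Separating subgroups, factorisation, adjoint maps -/

section separating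

universe u v w

variable {G : Type u} [AddCommGroup G]

/-- A subgroup of `Ĝ` that separates the points of the finite group `G` is everything. -/
theorem fd_eq_top_of_separating [Finite G] (I : AddSubgroup (CharacterModule G))
    (h : ∀ g : G, (∀ χ ∈ I, χ g = 0) → g = 0) : I = ⊤ := by
  by_contra hI
  -- a nonzero element of `Ĝ ⧸ I`
  obtain ⟨χ₀, hχ₀⟩ : ∃ χ₀ : CharacterModule G, χ₀ ∉ I := by
    by_contra hall
    push Not at hall
    exact hI (eq_top_iff.mpr fun χ _ => hall χ)
  have hne : (QuotientAddGroup.mk χ₀ : CharacterModule G ⧸ I) ≠ 0 := by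
    rwa [Ne, QuotientAddGroup.eq_zero_iff]
  obtain ⟨ψ, hψ⟩ := CharacterModule.exists_character_apply_ne_zero_of_ne_zero hne
  -- pull back to a character of `Ĝ`
  let Ψ : CharacterModule (CharacterModule G) :=
    fd_toHom.symm ((fd_toHom ψ).comp (QuotientAddGroup.mk' I))
  obtain ⟨g, hg⟩ := (fd_eval_bijective (G := G)).2 Ψ
  have hg0 : g = 0 := by
    apply h g
    intro χ hχ
    have h1 : Ψ χ = χ g := by rw [← hg]; rfl
    have h2 : Ψ χ = ψ (QuotientAddGroup.mk χ) := rfl
    have h3 : (QuotientAddGroup.mk χ : CharacterModule G ⧸ I) = 0 :=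
      (QuotientAddGroup.eq_zero_iff χ).mpr hχ
    rw [← h1, h2, h3, map_zero]
  apply hψ
  have h2 : Ψ χ₀ = ψ (QuotientAddGroup.mk χ₀) := rfl
  rw [← h2, ← hg, hg0, map_zero]
  rfl

/-- A homomorphism into `Ĝ` whose image separates the points of the finite group `G` is
surjective. -/
theorem fd_surjective_of_separating [Finite G] {Q : Type v} [AddCommGroup Q]
    (B : Q →+ CharacterModule G) (h : ∀ g : G, (∀ x : Q, B x g = 0) → g = 0) :
    Function.Surjective B := by
  rw [← AddMonoidHom.range_eq_top]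
  apply fd_eq_top_of_separating
  intro g hg
  exact h g fun x => hg (B x) ⟨x, rfl⟩

/-- A character vanishing on the kernel of `f : G →+ K` factors through `f` (no finiteness). -/
theorem fd_factor {K : Type v} [AddCommGroup K] (f : G →+ K) (χ : CharacterModule G)
    (h : ∀ g, f g = 0 → χ g = 0) : ∃ ξ : CharacterModule K, ∀ g, ξ (f g) = χ g := by
  -- the character on `range f`
  have hker : f.ker ≤ AddMonoidHom.ker (fd_toHom χ) := fun g hg =>
    AddMonoidHom.mem_ker.mpr (h g (AddMonoidHom.mem_ker.mp hg))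
  let χ₁ : (G ⧸ f.ker) →+ AddCircle (1 : ℚ) := QuotientAddGroup.lift f.ker (fd_toHom χ) hker
  let e : (G ⧸ f.ker) ≃+ f.range := QuotientAddGroup.quotientKerEquivRange f
  let χ₂ : CharacterModule f.range := fd_toHom.symm (χ₁.comp e.symm.toAddMonoidHom)
  obtain ⟨ξ, hξ⟩ := CharacterModule.dual_surjective_of_injective (R := ℤ)
    (f.range.subtype.toIntLinearMap) (Subtype.val_injective) χ₂
  refine ⟨ξ, fun g => ?_⟩
  have h1 : ξ (f g) = χ₂ ⟨f g, ⟨g, rfl⟩⟩ := by
    rw [← hξ]; rfl
  rw [h1]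
  change χ₁ (e.symm ⟨f g, ⟨g, rfl⟩⟩) = χ g
  have h2 : e.symm ⟨f g, ⟨g, rfl⟩⟩ = (QuotientAddGroup.mk g : G ⧸ f.ker) := by
    rw [AddEquiv.symm_apply_eq]
    rfl
  rw [h2]
  rfl

/-- **Adjoint maps**: if `u : Z₁ → Z₂` and `v : Q₂ → Q₁` are adjoint with respect to perfect
pairings `Qᵢ ≃ Ẑᵢ`, then `|ker u| = |coker v|`. -/
theorem fd_card_ker_eq_card_coker {Z₁ : Type u} {Z₂ : Type v} {Q₁ : Type w} {Q₂ : Type*}
    [AddCommGroup Z₁] [AddCommGroup Z₂] [AddCommGroup Q₁] [AddCommGroup Q₂]
    [Finite Z₁] [Finite Z₂]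
    (B₁ : Q₁ →+ CharacterModule Z₁) (B₂ : Q₂ →+ CharacterModule Z₂)
    (h₁ : Function.Bijective B₁) (h₂ : Function.Bijective B₂)
    (u : Z₁ →+ Z₂) (v : Q₂ →+ Q₁) (hadj : ∀ x z, B₁ (v x) z = B₂ x (u z)) :
    Nat.card u.ker = Nat.card (Q₁ ⧸ v.range) := by
  -- restriction of `B₁ x` to `ker u`
  let ρ : Q₁ →+ CharacterModule u.ker :=
    { toFun := fun x => fd_toHom.symm ((fd_toHom (B₁ x)).comp u.ker.subtype)
      map_zero' := by rw [map_zero]; rfl
      map_add' := fun x y => by rw [map_add]; rfl }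
  have hρ : ∀ x (z : u.ker), ρ x z = B₁ x z := fun _ _ => rfl
  have hsurj : Function.Surjective ρ := by
    intro χ
    obtain ⟨ξ, hξ⟩ := CharacterModule.dual_surjective_of_injective (R := ℤ)
      (u.ker.subtype.toIntLinearMap) (Subtype.val_injective) χ
    obtain ⟨x, hx⟩ := h₁.2 ξ
    refine ⟨x, ?_⟩
    ext z
    rw [hρ, hx, ← hξ]
    rfl
  have hker : ρ.ker = v.range := by
    ext x
    constructor
    · intro hx
      have hx' : ∀ z, u z = 0 → B₁ x z = 0 := by
        intro z hz
        have := congrArg (fun χ : CharacterModule u.ker => χ ⟨z, AddMonoidHom.mem_ker.mpr hz⟩)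
          (AddMonoidHom.mem_ker.mp hx)
        exact this
      obtain ⟨ξ, hξ⟩ := fd_factor u (B₁ x) hx'
      obtain ⟨x₂, hx₂⟩ := h₂.2 ξ
      refine ⟨x₂, h₁.1 ?_⟩
      ext z
      rw [hadj, hx₂, hξ]
    · rintro ⟨x₂, rfl⟩
      rw [AddMonoidHom.mem_ker]
      ext ⟨z, hz⟩
      rw [hρ, hadj, AddMonoidHom.mem_ker.mp hz, map_zero]
      rfl
  have e : Q₁ ⧸ ρ.ker ≃+ CharacterModule u.ker :=
    QuotientAddGroup.quotientKerEquivOfSurjective ρ hsurj
  rw [← fd_card (G := u.ker), ← Nat.card_congr e.toEquiv, hker]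

end separating

/-! ### `p`-primary parts -/

section primary

universe u v

variable (p : ℕ) {A : Type u} [AddCommGroup A]

/-- The `p`-primary part of an abelian group. -/
def fd_pPrimary (A : Type u) [AddCommGroup A] : AddSubgroup A where
  carrier := {a | ∃ k : ℕ, p ^ k • a = 0}
  zero_mem' := ⟨0, smul_zero _⟩
  add_mem' := by
    rintro a b ⟨k, hk⟩ ⟨l, hl⟩
    refine ⟨k + l, ?_⟩
    have h1 : p ^ (k + l) • a = 0 := by rw [pow_add, mul_comm, mul_smul, hk, smul_zero]
    have h2 : p ^ (k + l) • b = 0 := by rw [pow_add, mul_smul, hl, smul_zero]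
    rw [smul_add, h1, h2, add_zero]
  neg_mem' := by
    rintro a ⟨k, hk⟩
    exact ⟨k, by rw [smul_neg, hk, neg_zero]⟩

theorem fd_mem_pPrimary {a : A} : a ∈ fd_pPrimary p A ↔ ∃ k : ℕ, p ^ k • a = 0 := Iff.rfl

variable [hp : Fact p.Prime]

/-- The `p`-saturation of a subgroup: elements with a prime-to-`p` multiple in `N`. -/
def fd_pSat (N : AddSubgroup A) : AddSubgroup A where
  carrier := {a | ∃ n : ℕ, ¬ p ∣ n ∧ n • a ∈ N}
  zero_mem' := ⟨1, hp.out.not_dvd_one, by rw [smul_zero]; exact N.zero_mem⟩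
  add_mem' := by
    rintro a b ⟨n, hn, hna⟩ ⟨m, hm, hmb⟩
    refine ⟨n * m, fun h => (hp.out.dvd_mul.mp h).elim hn hm, ?_⟩
    rw [smul_add]
    refine N.add_mem ?_ ?_
    · rw [mul_comm, mul_smul]; exact N.nsmul_mem hna m
    · rw [mul_smul]; exact N.nsmul_mem hmb n
  neg_mem' := by
    rintro a ⟨n, hn, hna⟩
    exact ⟨n, hn, by rw [smul_neg]; exact N.neg_mem hna⟩

theorem fd_mem_pSat {N : AddSubgroup A} {a : A} :
    a ∈ fd_pSat p N ↔ ∃ n : ℕ, ¬ p ∣ n ∧ n • a ∈ N := Iff.rfl

theorem fd_le_pSat (N : AddSubgroup A) : N ≤ fd_pSat p N := fun a ha =>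
  ⟨1, hp.out.not_dvd_one, by rwa [one_smul]⟩

theorem fd_pSat_mono {N N' : AddSubgroup A} (h : N ≤ N') : fd_pSat p N ≤ fd_pSat p N' := by
  rintro a ⟨n, hn, hna⟩
  exact ⟨n, hn, h hna⟩

theorem fd_pSat_idem (N : AddSubgroup A) : fd_pSat p (fd_pSat p N) = fd_pSat p N := by
  apply le_antisymm _ (fd_le_pSat p _)
  rintro a ⟨n, hn, m, hm, hmn⟩
  refine ⟨m * n, fun h => (hp.out.dvd_mul.mp h).elim hm hn, ?_⟩
  rwa [mul_smul]

/-- An element killed by a power of `p` and by a prime-to-`p` integer is zero. -/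
theorem fd_eq_zero_of_coprime {c : A} {k n : ℕ} (hk : p ^ k • c = 0) (hn : ¬ p ∣ n)
    (hnc : n • c = 0) : c = 0 := by
  have hcop : Nat.Coprime (p ^ k) n :=
    Nat.Coprime.pow_left k ((Nat.Prime.coprime_iff_not_dvd hp.out).mpr hn)
  have h1 : addOrderOf c ∣ p ^ k := addOrderOf_dvd_of_nsmul_eq_zero hk
  have h2 : addOrderOf c ∣ n := addOrderOf_dvd_of_nsmul_eq_zero hnc
  have h3 : addOrderOf c = 1 := Nat.eq_one_of_dvd_coprimes hcop h1 h2
  exact AddMonoid.addOrderOf_eq_one_iff.mp h3

theorem fd_pPrimary_inf_pSat_bot : fd_pPrimary p A ⊓ fd_pSat p (⊥ : AddSubgroup A) = ⊥ := by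
  rw [eq_bot_iff]
  rintro a ⟨⟨k, hk⟩, n, hn, hna⟩
  exact (AddSubgroup.mem_bot).mpr (fd_eq_zero_of_coprime p hk hn ((AddSubgroup.mem_bot).mp hna))

/-- In a finite group, every element is the sum of a `p`-primary and a prime-to-`p` element. -/
theorem fd_exists_decomp [Finite A] (a : A) :
    ∃ a₁ ∈ fd_pPrimary p A, ∃ a₂ ∈ fd_pSat p (⊥ : AddSubgroup A), a = a₁ + a₂ := by
  obtain ⟨k, m, hm, hcard⟩ := Nat.exists_eq_pow_mul_and_not_dvd (Nat.card_pos (α := A)).ne' p
    hp.out.ne_one
  have hcop : IsCoprime ((p ^ k : ℕ) : ℤ) (m : ℤ) := by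
    rw [Nat.isCoprime_iff_coprime]
    exact Nat.Coprime.pow_left k ((Nat.Prime.coprime_iff_not_dvd hp.out).mpr hm)
  obtain ⟨x, y, hxy⟩ := hcop
  have hkill : ((p ^ k : ℕ) : ℤ) • ((m : ℤ) • a) = 0 := by
    rw [← mul_smul]
    have : ((p ^ k : ℕ) : ℤ) * (m : ℤ) = ((Nat.card A : ℕ) : ℤ) := by rw [hcard]; push_cast; ring
    rw [this, natCast_zsmul, card_nsmul_eq_zero']
  refine ⟨(y * m) • a, ⟨k, ?_⟩, (x * ((p ^ k : ℕ) : ℤ)) • a, ⟨m, hm, ?_⟩, ?_⟩
  · rw [← natCast_zsmul, mul_smul, smul_comm, hkill, smul_zero]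
  · rw [AddSubgroup.mem_bot, ← natCast_zsmul, mul_smul, smul_comm,
      smul_comm (m : ℤ) ((p ^ k : ℕ) : ℤ) a, hkill, smul_zero]
  · rw [← add_smul, add_comm, hxy, one_smul]

theorem fd_pPrimary_sup_pSat_bot [Finite A] :
    fd_pPrimary p A ⊔ fd_pSat p (⊥ : AddSubgroup A) = ⊤ := by
  rw [eq_top_iff]
  intro a _
  obtain ⟨a₁, h₁, a₂, h₂, rfl⟩ := fd_exists_decomp p a
  exact AddSubgroup.add_mem_sup h₁ h₂

/-- The natural map from the `p`-primary part to the quotient by the prime-to-`p` part. -/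
def fd_pPrimaryToQuot (A : Type u) [AddCommGroup A] :
    fd_pPrimary p A →+ A ⧸ fd_pSat p (⊥ : AddSubgroup A) :=
  (QuotientAddGroup.mk' _).comp (fd_pPrimary p A).subtype

theorem fd_pPrimaryToQuot_bijective [Finite A] :
    Function.Bijective (fd_pPrimaryToQuot p A) := by
  constructor
  · rw [injective_iff_map_eq_zero]
    rintro ⟨a, ha⟩ h
    have h' : a ∈ fd_pSat p (⊥ : AddSubgroup A) := (QuotientAddGroup.eq_zero_iff a).mp h
    have : a ∈ fd_pPrimary p A ⊓ fd_pSat p (⊥ : AddSubgroup A) := ⟨ha, h'⟩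
    rw [fd_pPrimary_inf_pSat_bot] at this
    exact Subtype.ext ((AddSubgroup.mem_bot).mp this)
  · intro x
    obtain ⟨a, rfl⟩ := QuotientAddGroup.mk_surjective x
    obtain ⟨a₁, h₁, a₂, h₂, rfl⟩ := fd_exists_decomp p a
    refine ⟨⟨a₁, h₁⟩, ?_⟩
    change (QuotientAddGroup.mk a₁ : A ⧸ fd_pSat p (⊥ : AddSubgroup A)) = QuotientAddGroup.mk (a₁ + a₂)
    rw [QuotientAddGroup.mk_add, (QuotientAddGroup.eq_zero_iff a₂).mpr h₂, add_zero]

/-- For a finite group, the quotient by the prime-to-`p` part is the `p`-primary part. -/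
def fd_quotEquiv (A : Type u) [AddCommGroup A] [Finite A] :
    A ⧸ fd_pSat p (⊥ : AddSubgroup A) ≃+ fd_pPrimary p A :=
  (AddEquiv.ofBijective (fd_pPrimaryToQuot p A) (fd_pPrimaryToQuot_bijective p)).symm

theorem fd_quotEquiv_symm_apply [Finite A] (a : fd_pPrimary p A) :
    (fd_quotEquiv p A).symm a = QuotientAddGroup.mk (a : A) := rfl

/-- The cardinality of the `p`-primary part is the `p`-part of the cardinality. -/
theorem fd_card_pPrimary [Finite A] :
    Nat.card (fd_pPrimary p A) = p ^ (Nat.card A).factorization p := by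
  -- `|A_p|` is a power of `p`
  have hpow : ∃ j, Nat.card (fd_pPrimary p A) = p ^ j := by
    refine ⟨_, Nat.eq_prime_pow_of_unique_prime_dvd Nat.card_pos.ne' ?_⟩
    intro d hd hdvd
    have : Fact d.Prime := ⟨hd⟩
    obtain ⟨c, hc⟩ := exists_prime_addOrderOf_dvd_card' (G := fd_pPrimary p A) d hdvd
    obtain ⟨k, hk⟩ := c.2
    have h1 : addOrderOf (c : A) = d := by rw [AddSubgroup.addOrderOf_coe]; exact hc
    have h2 : d ∣ p ^ k := h1 ▸ addOrderOf_dvd_of_nsmul_eq_zero hk
    exact (Nat.prime_dvd_prime_iff_eq hd hp.out).mp (hd.dvd_of_dvd_pow h2)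
  -- `p ∤ |A_{p'}|`
  have hnd : ¬ p ∣ Nat.card (fd_pSat p (⊥ : AddSubgroup A)) := by
    intro hdvd
    obtain ⟨c, hc⟩ :=
      exists_prime_addOrderOf_dvd_card' (G := fd_pSat p (⊥ : AddSubgroup A)) p hdvd
    obtain ⟨n, hn, hnc⟩ := c.2
    have h1 : addOrderOf (c : A) = p := by rw [AddSubgroup.addOrderOf_coe]; exact hc
    have h2 : p ^ 1 • (c : A) = 0 := by
      have := addOrderOf_nsmul_eq_zero (c : A)
      rw [h1] at this
      rwa [pow_one]
    have h3 : (c : A) = 0 := fd_eq_zero_of_coprime p h2 hn ((AddSubgroup.mem_bot).mp hnc)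
    rw [h3, addOrderOf_zero] at h1
    exact hp.out.one_lt.ne h1
  obtain ⟨j, hj⟩ := hpow
  have hcard : Nat.card A = p ^ j * Nat.card (fd_pSat p (⊥ : AddSubgroup A)) := by
    rw [AddSubgroup.card_eq_card_quotient_mul_card_addSubgroup (fd_pSat p (⊥ : AddSubgroup A)),
      Nat.card_congr (fd_quotEquiv p A).toEquiv, hj]
  rw [hj, hcard, Nat.factorization_mul (pow_pos hp.out.pos j).ne' Nat.card_pos.ne',
    hp.out.factorization_pow, Finsupp.add_apply, Finsupp.single_eq_same,
    Nat.factorization_eq_zero_of_not_dvd hnd, add_zero]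

omit hp in
/-- An additive map restricts to `p`-primary parts. -/
def fd_pMap {B : Type v} [AddCommGroup B] (f : A →+ B) : fd_pPrimary p A →+ fd_pPrimary p B where
  toFun a := ⟨f (a : A), by
    obtain ⟨k, hk⟩ := a.2
    exact ⟨k, by rw [← map_nsmul, hk, map_zero]⟩⟩
  map_zero' := Subtype.ext (map_zero f)
  map_add' a b := Subtype.ext (map_add f (a : A) (b : A))

omit hp in
@[simp] theorem fd_pMap_coe {B : Type v} [AddCommGroup B] (f : A →+ B) (a : fd_pPrimary p A) :
    ((fd_pMap p f a : fd_pPrimary p B) : B) = f a := rfl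

omit hp in
/-- Kernels commute with `p`-primary parts. -/
theorem fd_mem_ker_pMap {B : Type v} [AddCommGroup B] (f : A →+ B) (a : fd_pPrimary p A) :
    a ∈ (fd_pMap p f).ker ↔ (a : A) ∈ f.ker := by
  rw [AddMonoidHom.mem_ker, AddMonoidHom.mem_ker, Subtype.ext_iff]
  rfl

/-- Cokernels commute with `p`-primary parts (finite groups): the natural map
`B_p ⧸ f(A_p) → (B ⧸ f(A))_p` is an isomorphism. -/
theorem fd_card_pPrimary_coker {B : Type v} [AddCommGroup B] [Finite A] [Finite B] (f : A →+ B) :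
    Nat.card (fd_pPrimary p (B ⧸ f.range)) =
      Nat.card (fd_pPrimary p B ⧸ (fd_pMap p f).range) := by
  let θ : fd_pPrimary p B →+ fd_pPrimary p (B ⧸ f.range) := fd_pMap p (QuotientAddGroup.mk' f.range)
  have hsurj : Function.Surjective θ := by
    rintro ⟨x, k, hk⟩
    obtain ⟨b, rfl⟩ := QuotientAddGroup.mk_surjective x
    obtain ⟨b₁, h₁, b₂, ⟨n, hn, hnb⟩, rfl⟩ := fd_exists_decomp p b
    refine ⟨⟨b₁, h₁⟩, Subtype.ext ?_⟩
    change (QuotientAddGroup.mk b₁ : B ⧸ f.range) = QuotientAddGroup.mk (b₁ + b₂)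
    obtain ⟨l, hl⟩ := h₁
    have hb₂ : (QuotientAddGroup.mk b₂ : B ⧸ f.range) = 0 := by
      apply fd_eq_zero_of_coprime p (k := k + l) (n := n) _ hn
      · rw [← QuotientAddGroup.mk_nsmul, (AddSubgroup.mem_bot).mp hnb, QuotientAddGroup.mk_zero]
      · have e1 : (QuotientAddGroup.mk b₂ : B ⧸ f.range) =
            QuotientAddGroup.mk (b₁ + b₂) - QuotientAddGroup.mk b₁ := by
          rw [QuotientAddGroup.mk_add, add_sub_cancel_left]
        rw [e1, smul_sub]
        have h1 : p ^ (k + l) • (QuotientAddGroup.mk (b₁ + b₂) : B ⧸ f.range) = 0 := by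
          rw [pow_add, mul_comm, mul_smul, hk, smul_zero]
        have h2 : p ^ (k + l) • (QuotientAddGroup.mk b₁ : B ⧸ f.range) = 0 := by
          rw [← QuotientAddGroup.mk_nsmul, pow_add, mul_smul, hl, smul_zero,
            QuotientAddGroup.mk_zero]
        rw [h1, h2, sub_zero]
    rw [QuotientAddGroup.mk_add, hb₂, add_zero]
  have hker : θ.ker = (fd_pMap p f).range := by
    ext ⟨b, hb⟩
    constructor
    · intro h
      have h' : (QuotientAddGroup.mk b : B ⧸ f.range) = 0 :=
        congrArg Subtype.val (AddMonoidHom.mem_ker.mp h)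
      obtain ⟨a, rfl⟩ := (QuotientAddGroup.eq_zero_iff b).mp h'
      obtain ⟨a₁, h₁, a₂, ⟨n, hn, hna⟩, rfl⟩ := fd_exists_decomp p a
      refine ⟨⟨a₁, h₁⟩, Subtype.ext ?_⟩
      change f a₁ = f (a₁ + a₂)
      obtain ⟨k, hk⟩ := hb
      obtain ⟨l, hl⟩ := h₁
      have hfa₂ : f a₂ = 0 := by
        apply fd_eq_zero_of_coprime p (k := k + l) (n := n) _ hn
        · rw [← map_nsmul, (AddSubgroup.mem_bot).mp hna, map_zero]
        · have e1 : f a₂ = f (a₁ + a₂) - f a₁ := by rw [map_add, add_sub_cancel_left]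
          have h1 : p ^ (k + l) • f (a₁ + a₂) = 0 := by
            rw [pow_add, mul_comm, mul_smul, hk, smul_zero]
          have h2 : p ^ (k + l) • f a₁ = 0 := by
            rw [← map_nsmul, pow_add, mul_smul, hl, smul_zero, map_zero]
          rw [e1, smul_sub, h1, h2, sub_zero]
      rw [map_add, hfa₂, add_zero]
    · rintro ⟨a, ha⟩
      rw [AddMonoidHom.mem_ker]
      apply Subtype.ext
      have hb' : b = f a := (congrArg Subtype.val ha).symm
      change (QuotientAddGroup.mk b : B ⧸ f.range) = 0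
      rw [QuotientAddGroup.eq_zero_iff, hb']
      exact ⟨a, rfl⟩
  have e : fd_pPrimary p B ⧸ θ.ker ≃+ fd_pPrimary p (B ⧸ f.range) :=
    QuotientAddGroup.quotientKerEquivOfSurjective θ hsurj
  rw [← Nat.card_congr e.toEquiv, hker]

omit hp in
/-- Kernels commute with `p`-primary parts, as an equivalence. -/
def fd_kerEquiv {B : Type v} [AddCommGroup B] (f : A →+ B) :
    (fd_pMap p f).ker ≃ fd_pPrimary p f.ker where
  toFun a := ⟨⟨(a : fd_pPrimary p A), (fd_mem_ker_pMap p f a.1).mp a.2⟩, by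
    obtain ⟨k, hk⟩ := a.1.2
    exact ⟨k, Subtype.ext (by rw [AddSubgroup.coe_nsmul]; exact hk)⟩⟩
  invFun a := ⟨⟨(a : f.ker), by
    obtain ⟨k, hk⟩ := a.2
    refine ⟨k, ?_⟩
    have := congrArg Subtype.val hk
    rwa [AddSubgroup.coe_nsmul] at this⟩, by
    rw [fd_mem_ker_pMap]
    exact a.1.2⟩
  left_inv _ := rfl
  right_inv _ := rfl

omit hp in
theorem fd_card_ker_pMap {B : Type v} [AddCommGroup B] (f : A →+ B) :
    Nat.card (fd_pMap p f).ker = Nat.card (fd_pPrimary p f.ker) :=
  Nat.card_congr (fd_kerEquiv p f)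

/-- The `p`-primary parts of a finite group and of its character module have the same
cardinality. -/
theorem fd_card_pPrimary_characterModule [Finite A] :
    Nat.card (fd_pPrimary p (CharacterModule A)) = Nat.card (fd_pPrimary p A) := by
  rw [fd_card_pPrimary, fd_card_pPrimary, fd_card]

end primary

end

end Fermat.Agent.S55
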