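import Fermat.Agent.S55.Dual.Levels

/-!
# Reduction of (G-abs) to the existence theorem in exponent `p` (block [D]/[G5] of S55, prefix `ar_`)

`ar_Tower p S`: the part of the seam `du_Seam p S` made of the one-level data and the transition
maps.  For such a tower, (G-abs) — the field `abs` of `du_Seam` — follows from
* `hfin`: `C(K)/C°(K)` is killed by a positive integer (finiteness of the `S`-class group);
* `hE1`: for every level `K` there are levels `K ≤ K₁ ≤ L` with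
  `N_{L/K₁} C(L) ⊆ t(p • C(K₁))` (existence theorem in exponent `p`, after adjoining `ζ_p`).
-/

set_option autoImplicit false

open CategoryTheory

namespace Fermat.Agent.S55

local notation "Qbar" => AlgebraicClosure ℚ
local notation "GQ" => (AlgebraicClosure ℚ ≃ₐ[ℚ] AlgebraicClosure ℚ)

/-- The tower part of the seam: one-level data and transition maps. -/
structure ar_Tower (p : ℕ) (S : Finset Nat.Primes) where
  dat : ∀ a : du_Lev S, ld_Data p a.Γ ↥S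
  tC : ∀ {a b : du_Lev S}, a ≤ b → (dat a).C.V →+ (dat b).C.V
  tJ : ∀ {a b : du_Lev S}, a ≤ b → ∀ q : ↥S, ((dat a).Jq q).V →+ ((dat b).Jq q).V
  tC_inj : ∀ {a b : du_Lev S} (h : a ≤ b), Function.Injective (tC h)
  tC_equiv : ∀ {a b : du_Lev S} (h : a ≤ b) (σ : GQ) (c : (dat a).C.V),
    tC h ((dat a).C.ρ (a.q σ) c) = (dat b).C.ρ (b.q σ) (tC h c)
  tC_range : ∀ {a b : du_Lev S} (h : a ≤ b) (c : (dat b).C.V),
    (∀ σ ∈ a.L.fixingSubgroup, (dat b).C.ρ (b.q σ) c = c) → ∃ c₀, tC h c₀ = c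
  tC_j : ∀ {a b : du_Lev S} (h : a ≤ b) (q : ↥S) (x : ((dat a).Jq q).V),
    tC h (((dat a).j q).hom x) = ((dat b).j q).hom (tJ h q x)
  tC_trans : ∀ {a b c : du_Lev S} (h : a ≤ b) (h' : b ≤ c) (x : (dat a).C.V),
    tC h' (tC h x) = tC (le_trans (α := IntermediateField ℚ Qbar) h h') x

/-- The tower of a seam. -/
def du_Seam.toTower {p : ℕ} {S : Finset Nat.Primes} (𝔖 : du_Seam p S) : ar_Tower p S where
  dat := 𝔖.dat
  tC := 𝔖.tC
  tJ := 𝔖.tJ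
  tC_inj := 𝔖.tC_inj
  tC_equiv := 𝔖.tC_equiv
  tC_range := 𝔖.tC_range
  tC_j := 𝔖.tC_j
  tC_trans := 𝔖.tC_trans

section Norm

variable {p : ℕ} {S : Finset Nat.Primes} (𝔗 : ar_Tower p S)

open Classical in
/-- The relative norm `N_{a/K}` on `C(a)`. -/
noncomputable def ar_N (a K : du_Lev S) (c : (𝔗.dat a).C.V) : (𝔗.dat a).C.V :=
  ∑ h ∈ Finset.univ.filter (fun h : a.Γ => h ∈ a.rel K), (𝔗.dat a).C.ρ h c

lemma ar_tC_refl {a : du_Lev S} (h : a ≤ a) (c : (𝔗.dat a).C.V) : 𝔗.tC h c = c := by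
  apply 𝔗.tC_inj h
  exact 𝔗.tC_trans h h c

lemma ar_mem_rel_self {a : du_Lev S} (g : a.Γ) : g ∈ a.rel a ↔ g = 1 := by
  constructor
  · rintro ⟨σ, hσ, rfl⟩
    exact (a.q_eq_one_iff σ).2 hσ
  · rintro rfl
    exact one_mem _

lemma ar_N_self (a : du_Lev S) (c : (𝔗.dat a).C.V) : ar_N 𝔗 a a c = c := by
  classical
  unfold ar_N
  have : Finset.univ.filter (fun h : a.Γ => h ∈ a.rel a) = {1} := by
    ext g
    simp [ar_mem_rel_self]
  rw [this, Finset.sum_singleton, map_one]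
  rfl

/-- The norm is invariant under `Gal(ℚ̄/K)`. -/
lemma ar_N_invariant (a K : du_Lev S) (c : (𝔗.dat a).C.V) (σ : GQ)
    (hσ : σ ∈ K.L.fixingSubgroup) : (𝔗.dat a).C.ρ (a.q σ) (ar_N 𝔗 a K c) = ar_N 𝔗 a K c := by
  classical
  unfold ar_N
  rw [map_sum]
  have hmem : a.q σ ∈ a.rel K := ⟨σ, hσ, rfl⟩
  refine Finset.sum_nbij' (fun h => a.q σ * h) (fun h => (a.q σ)⁻¹ * h) ?_ ?_ ?_ ?_ ?_
  · intro h hh
    simp only [Finset.mem_filter, Finset.mem_univ, true_and] at hh ⊢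
    exact mul_mem hmem hh
  · intro h hh
    simp only [Finset.mem_filter, Finset.mem_univ, true_and] at hh ⊢
    exact mul_mem (inv_mem hmem) hh
  · intro h _
    simp
  · intro h _
    simp
  · intro h _
    rw [map_mul]
    rfl

/-- The norm descends to `C(K)`. -/
lemma ar_N_descends {a K : du_Lev S} (h : K ≤ a) (c : (𝔗.dat a).C.V) :
    ∃ d : (𝔗.dat K).C.V, 𝔗.tC h d = ar_N 𝔗 a K c :=
  𝔗.tC_range h _ (fun σ hσ => ar_N_invariant 𝔗 a K c σ hσ)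

lemma ar_mem_rel_iff_res {K L a : du_Lev S} (hKL : K ≤ L) (hLa : L ≤ a) (g : a.Γ) :
    g ∈ a.rel K ↔ du_Lev.res hLa g ∈ L.rel K := by
  obtain ⟨σ, rfl⟩ := a.q_surjective g
  rw [du_Lev.res_q]
  constructor
  · rintro ⟨τ, hτ, hτσ⟩
    refine ⟨τ, hτ, ?_⟩
    have := congrArg (du_Lev.res hLa) hτσ
    rwa [du_Lev.res_q, du_Lev.res_q] at this
  · rintro ⟨τ, hτ, hτσ⟩
    have h1 : τ⁻¹ * σ ∈ L.L.fixingSubgroup := by
      rw [← du_Lev.q_eq_one_iff, map_mul, map_inv, hτσ, inv_mul_cancel]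
    have h2 : τ⁻¹ * σ ∈ K.L.fixingSubgroup := IntermediateField.fixingSubgroup_antitone hKL h1
    refine ⟨σ, ?_, rfl⟩
    have : σ = τ * (τ⁻¹ * σ) := by group
    rw [this]
    exact mul_mem hτ h2

/-- **Transitivity of norms.** -/
lemma ar_N_trans {K L a : du_Lev S} (hKL : K ≤ L) (hLa : L ≤ a) (c : (𝔗.dat a).C.V)
    (d : (𝔗.dat L).C.V) (hd : ar_N 𝔗 a L c = 𝔗.tC hLa d) :
    ar_N 𝔗 a K c = 𝔗.tC hLa (ar_N 𝔗 L K d) := by
  classical
  have hfib : ∀ b ∈ Finset.univ.filter (fun b : L.Γ => b ∈ L.rel K),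
      ∑ g ∈ (Finset.univ.filter (fun g : a.Γ => g ∈ a.rel K)).filter
        (fun g => du_Lev.res hLa g = b), (𝔗.dat a).C.ρ g c =
      𝔗.tC hLa ((𝔗.dat L).C.ρ b d) := by
    intro b hb
    have hb' : b ∈ L.rel K := (Finset.mem_filter.1 hb).2
    obtain ⟨σ, rfl⟩ := L.q_surjective b
    rw [𝔗.tC_equiv hLa σ d, ← hd]
    unfold ar_N
    rw [map_sum]
    refine Finset.sum_nbij' (fun g => (a.q σ)⁻¹ * g) (fun g => a.q σ * g) ?_ ?_ ?_ ?_ ?_
    · intro g hg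
      simp only [Finset.mem_filter, Finset.mem_univ, true_and] at hg ⊢
      rw [← du_Lev.ker_res hLa, MonoidHom.mem_ker, map_mul, map_inv, du_Lev.res_q, hg.2,
        inv_mul_cancel]
    · intro g hg
      simp only [Finset.mem_filter, Finset.mem_univ, true_and] at hg ⊢
      have h1 : du_Lev.res hLa (a.q σ * g) = L.q σ := by
        rw [map_mul, du_Lev.res_q]
        have : du_Lev.res hLa g = 1 := by
          rw [← MonoidHom.mem_ker, du_Lev.ker_res]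
          exact hg
        rw [this, mul_one]
      refine ⟨?_, h1⟩
      rw [ar_mem_rel_iff_res hKL hLa, h1]
      exact hb'
    · intro g _
      simp
    · intro g _
      simp
    · intro g _
      have : g = a.q σ * ((a.q σ)⁻¹ * g) := by group
      conv_lhs => rw [this, map_mul]
      rfl
  have hmaps : ∀ g ∈ Finset.univ.filter (fun g : a.Γ => g ∈ a.rel K),
      du_Lev.res hLa g ∈ Finset.univ.filter (fun b : L.Γ => b ∈ L.rel K) := by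
    intro g hg
    simp only [Finset.mem_filter, Finset.mem_univ, true_and] at hg ⊢
    exact (ar_mem_rel_iff_res hKL hLa g).1 hg
  have h1 := Finset.sum_fiberwise_of_maps_to hmaps (fun g => (𝔗.dat a).C.ρ g c)
  show ∑ g ∈ Finset.univ.filter (fun g : a.Γ => g ∈ a.rel K), (𝔗.dat a).C.ρ g c = _
  rw [← h1, Finset.sum_congr rfl hfib]
  unfold ar_N
  rw [map_sum]

/-- The norm commutes with multiples. -/
lemma ar_N_nsmul (a K : du_Lev S) (n : ℕ) (c : (𝔗.dat a).C.V) :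
    ar_N 𝔗 a K (n • c) = n • ar_N 𝔗 a K c := by
  classical
  unfold ar_N
  rw [Finset.smul_sum]
  exact Finset.sum_congr rfl fun h _ => map_nsmul _ _ _

/-- Elements of `C°` are sums of semi-local images. -/
lemma ar_exists_of_mem_Co {Γ ι : Type} [Group Γ] [Fintype ι] (𝔻 : ld_Data p Γ ι) (c : 𝔻.C.V)
    (hc : c ∈ du_Co 𝔻) : ∃ x : ∀ q, (𝔻.Jq q).V, c = ∑ q, (𝔻.j q).hom (x q) := by
  classical
  unfold du_Co at hc
  induction hc using AddSubgroup.iSup_induction' with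
  | hp q c hc =>
    obtain ⟨z, rfl⟩ := hc
    refine ⟨Pi.single q z, ?_⟩
    rw [Finset.sum_eq_single q]
    · rw [Pi.single_eq_same]
      rfl
    · intro q' _ hq'
      rw [Pi.single_eq_of_ne hq', map_zero]
    · intro h
      exact absurd (Finset.mem_univ q) h
  | h1 => exact ⟨0, by simp⟩
  | hadd c c' _ _ hc hc' =>
    obtain ⟨x, rfl⟩ := hc
    obtain ⟨x', rfl⟩ := hc'
    refine ⟨x + x', ?_⟩
    rw [← Finset.sum_add_distrib]
    exact Finset.sum_congr rfl fun q _ => by rw [Pi.add_apply, map_add]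

/-- Iteration of the existence theorem in exponent `p`. -/
lemma ar_iterate
    (hE1 : ∀ K : du_Lev S, ∃ K₁ L : du_Lev S, ∃ _ : K ≤ K₁, ∃ h : K₁ ≤ L,
      ∀ c : (𝔗.dat L).C.V, ∃ d : (𝔗.dat K₁).C.V, ar_N 𝔗 L K₁ c = 𝔗.tC h (p • d))
    (k : ℕ) (K : du_Lev S) : ∃ L : du_Lev S, ∃ h : K ≤ L,
      ∀ c : (𝔗.dat L).C.V, ∃ d : (𝔗.dat K).C.V, ar_N 𝔗 L K c = 𝔗.tC h (p ^ k • d) := by
  induction k with
  | zero =>
    refine ⟨K, le_rfl, fun c => ⟨c, ?_⟩⟩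
    rw [ar_N_self, pow_zero, one_smul, ar_tC_refl]
  | succ k ih =>
    obtain ⟨L, hKL, hL⟩ := ih
    obtain ⟨K₁, L', hLK₁, hK₁L', hL'⟩ := hE1 L
    have hLL' : L ≤ L' := le_trans hLK₁ hK₁L'
    refine ⟨L', le_trans hKL hLL', fun c => ?_⟩
    -- norm from `L'` to `K₁`
    obtain ⟨d₁, hd₁⟩ := hL' c
    -- norm from `K₁` to `L`
    obtain ⟨d₂, hd₂⟩ := ar_N_descends 𝔗 hLK₁ d₁
    have h1 : ar_N 𝔗 L' L c = 𝔗.tC hLL' (p • d₂) := by
      rw [ar_N_trans 𝔗 hLK₁ hK₁L' c (p • d₁) hd₁, ar_N_nsmul, ← hd₂, ← map_nsmul,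
        𝔗.tC_trans hLK₁ hK₁L']
    -- norm from `L` to `K`
    obtain ⟨d₃, hd₃⟩ := hL d₂
    refine ⟨d₃, ?_⟩
    rw [ar_N_trans 𝔗 hKL hLL' c (p • d₂) h1, ar_N_nsmul, hd₃, ← map_nsmul, 𝔗.tC_trans hKL hLL',
      pow_succ, mul_smul, smul_comm]

end Norm

section Main

variable {p : ℕ} [hp : Fact p.Prime] {S : Finset Nat.Primes} (𝔗 : ar_Tower p S)

open Classical in
/-- **(G-abs) from the existence theorem in exponent `p`.**  The conclusion is the field `abs` of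
`du_Seam` for the tower `𝔗`. -/
theorem ar_abs
    (hfin : ∀ K : du_Lev S, ∃ m : ℕ, 0 < m ∧ ∀ d : (𝔗.dat K).C.V, m • d ∈ du_Co (𝔗.dat K))
    (hE1 : ∀ K : du_Lev S, ∃ K₁ L : du_Lev S, ∃ _ : K ≤ K₁, ∃ h : K₁ ≤ L,
      ∀ c : (𝔗.dat L).C.V, ∃ d : (𝔗.dat K₁).C.V, ar_N 𝔗 L K₁ c = 𝔗.tC h (p • d))
    (K : du_Lev S) :
    ∃ a₁ : du_Lev S, K ≤ a₁ ∧ ∀ a : du_Lev S, a₁ ≤ a → ∀ hKa : K ≤ a,
      ∀ c : (𝔗.dat a).C.V, ∃ n : ℕ, ¬ p ∣ n ∧ ∃ x : ∀ q : ↥S, ((𝔗.dat K).Jq q).V,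
        n • (∑ h ∈ Finset.univ.filter (fun h : a.Γ => h ∈ a.rel K), (𝔗.dat a).C.ρ h c) =
          ∑ q, ((𝔗.dat a).j q).hom (𝔗.tJ hKa q (x q)) := by
  obtain ⟨m, hm0, hm⟩ := hfin K
  obtain ⟨k, m', hm', rfl⟩ := Nat.exists_eq_pow_mul_and_not_dvd hm0.ne' p hp.out.ne_one
  obtain ⟨L, hKL, hL⟩ := ar_iterate 𝔗 hE1 k K
  refine ⟨L, hKL, fun a hLa hKa c => ⟨m', hm', ?_⟩⟩
  obtain ⟨d₀, hd₀⟩ := ar_N_descends 𝔗 hLa c
  obtain ⟨d, hd⟩ := hL d₀
  obtain ⟨x, hx⟩ := ar_exists_of_mem_Co (𝔗.dat K) _ (hm d)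
  refine ⟨x, ?_⟩
  have h1 : ar_N 𝔗 a K c = 𝔗.tC hKa (p ^ k • d) := by
    rw [ar_N_trans 𝔗 hKL hLa c d₀ hd₀.symm, hd, 𝔗.tC_trans hKL hLa]
  show m' • ar_N 𝔗 a K c = _
  rw [h1, ← map_nsmul, ← mul_smul, mul_comm, hx, map_sum]
  exact Finset.sum_congr rfl fun q _ => 𝔗.tC_j hKa q (x q)

end Main

end Fermat.Agent.S55
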