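import Fermat.Agent.S55.Dual.BInjLevel
import Fermat.Agent.S55.Dual.ModulesLevel
import Fermat.Agent.S55.Dual.HomBridge
import Fermat.Agent.S55.Dual.Assemble

/-!
# (B-INJ): localisation is injective on the `p`-torsion of `H²(G_S, T_F)` (leaf D2e of S55)

`bi_V2`: for the seam `𝔖 : du_Seam p S`, a base level `K₀` and `A : Rep ℤ Γ_{K₀}` such that
`F = ℤ[Γ_{K₀} × A]` is a lattice: a `p`-torsion class of `H²(G_S, Hom(F, E_S))` (level cohomology)
which is locally trivial at all `q ∈ S` vanishes.  This is hypothesis (V2) of `dm_step2'`, and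
`bi_du_V2` is the form `du_V2` consumed by `du_result'`.

Proof: the class lives at a finite level `a` (`dm_ql_exists_level`), where it is `p`-torsion and
dies in all `H²(D_q, Hom(F, X_q))`; by Shapiro (`hmb_seam_hloc2`) it dies in
`H²(Γ_a, Hom(F, ∏ J_q))`, and the finite-level chase `bi_finite_level` kills it at a higher level.
-/

set_option autoImplicit false

open CategoryTheory groupCohomology ExtCitation

namespace Fermat.Agent.S55

local notation "Qbar" => AlgebraicClosure ℚ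
local notation "GQ" => (AlgebraicClosure ℚ ≃ₐ[ℚ] AlgebraicClosure ℚ)

variable {p : ℕ} [hp : Fact p.Prime] {S : Finset Nat.Primes}

/-- **(B-INJ) = (V2).** -/
theorem bi_V2 (𝔖 : du_Seam p S) [Nonempty ↥S] (K₀ : du_Lev S) (A : Rep.{0} ℤ K₀.Γ) (hY : ld_IsLattice (la_F A))
    (z : lvH2 (tl_levelsS S) (dm_T S K₀.q (la_F A))) (hz : p • z = 0)
    (hloc : ∀ q : ↥S, (dm_locT S K₀.q q.1 (la_F A)).H2 z = 0) : z = 0 := by
  obtain ⟨a, h, y, hyz, hpy, hrho⟩ := dm_ql_exists_level 𝔖 (la_F A) hY z hz hloc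
  -- Shapiro: the class dies in `H²(Γ_a, Hom(F, ∏ J_q))`
  have hmi : ((sl_homSes 𝔖 (la_F A) h hY).mi (LevelSys.trivial a.Γ)).H2 y = 0 :=
    (hmb_seam_hloc2 𝔖 a (sl_Y (la_F A) h) hY
      ((sl_homSes 𝔖 (la_F A) h hY).mi (LevelSys.trivial a.Γ)) rfl (fun _ _ _ => rfl)
      (fun q => dm_ql_rho 𝔖 q h (la_F A)) (fun _ => rfl) (fun _ _ _ => rfl) y).1 hrho
  -- the chase
  obtain ⟨b, hab, hb⟩ := bi_finite_level 𝔖 h A hY y ⟨1, by rwa [pow_one]⟩ hmi
  have htr : (dm_ql_trans 𝔖 h hab (la_F A)).H2 y = 0 := by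
    have hmor : dm_ql_trans 𝔖 h hab (la_F A) = (sl_homSesMor 𝔖 (la_F A) h hab hY).mA :=
      hmb_LvMor_ext rfl rfl
    rw [hmor]
    exact hb
  rw [← hyz, ← dm_ql_Q_trans 𝔖 h hab (la_F A) y, htr, map_zero]

/-- **(V2) in the form consumed by `du_result'`.** -/
theorem bi_du_V2 (𝔖 : du_Seam p S) (hpS : pPrime p ∈ S) (M : Rep.{0} (ZMod p) GQ) [FiniteDimensional (ZMod p) M]
    (K : du_Lev S)
    (hA : ∀ σ ∈ K.L.fixingSubgroup, ∀ x : (M.dualTwist (cycloChar p)).V,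
      (M.dualTwist (cycloChar p)).ρ σ x = x) : du_V2 M K hA := by
  have : Nonempty ↥S := ⟨⟨pPrime p, hpS⟩⟩
  have hfin : Finite (du_AK (M.dualTwist (cycloChar p)) K hA).V :=
    dm_finite_A M (du_AK (M.dualTwist (cycloChar p)) K hA)
      (tl_sf_descE (M.dualTwist (cycloChar p)) K.L hA)
  intro z hz hloc
  exact bi_V2 𝔖 K (du_AK (M.dualTwist (cycloChar p)) K hA)
    (la_free_F (du_AK (M.dualTwist (cycloChar p)) K hA)) z hz hloc

end Fermat.Agent.S55
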