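import Fermat.Agent.S55.Recip.OrbitCochain

set_option autoImplicit false

/-!
# S55 / Dual / BInjAux

Plain-cochain auxiliaries for (B-INJ):

* `bi_card_smul_isCoboundary₁`: `H¹` of a finite group is killed by the group order;
* `bi_isCoboundary₁_of_loc_primary`: for a module with an equivariant product decomposition
  (`ob_Decomp`), `H¹(H, P)` has no `p`-torsion as soon as the local `H¹`'s have none.
-/

namespace Fermat.Agent.S55

open groupCohomology

section Torsion

variable {Γ : Type*} [Group Γ] [Fintype Γ] {X : Type*} [AddCommGroup X] [DistribMulAction Γ X]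

/-- `|Γ| • c` is a coboundary for every `1`-cocycle `c` of a finite group. -/
theorem bi_card_smul_isCoboundary₁ {c : Γ → X} (hc : IsCocycle₁ c) :
    IsCoboundary₁ (Fintype.card Γ • c) := by
  classical
  refine ⟨-∑ h : Γ, c h, fun g => ?_⟩
  have h1 : ∑ h : Γ, c (g * h) = ∑ h : Γ, c h :=
    Equiv.sum_comp (Equiv.mulLeft g) (fun h => c h)
  have h2 : ∑ h : Γ, c (g * h) = g • ∑ h : Γ, c h + Fintype.card Γ • c g := by
    simp_rw [hc g]
    rw [Finset.sum_add_distrib, Finset.smul_sum]
    simp
  have h3 : g • ∑ h : Γ, c h = ∑ h : Γ, c h - Fintype.card Γ • c g := by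
    rw [eq_sub_iff_add_eq, ← h2, h1]
  rw [smul_neg, h3]
  simp only [Pi.smul_apply]
  abel

end Torsion

section Loc

variable {H : Type*} [Group H] {X : Type*} [MulAction H X] [Fintype X]
variable {P : Type*} [AddCommGroup P] [DistribMulAction H P]

open scoped Classical in
/-- If every local `H¹(Stab x, P_x)` has no `n`-torsion, neither has `H¹(H, P)`.  The local
hypothesis is stated for cochains of the stabiliser with values in `P` lying in the range of
`π x`. -/
theorem bi_isCoboundary₁_of_loc_torsion (D : ob_Decomp H X P) (n : ℕ)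
    (hloc : ∀ ω : MulAction.orbitRel.Quotient H X,
      ∀ c₀ : ↥(MulAction.stabilizer H ω.out) → P,
        (∀ s, D.π ω.out (c₀ s) = c₀ s) → IsCocycle₁ c₀ →
        (∃ m : P, ∀ s : ↥(MulAction.stabilizer H ω.out), s • m - m = n • c₀ s) →
        ∃ m₀ : P, ∀ s : ↥(MulAction.stabilizer H ω.out), s • m₀ - m₀ = c₀ s)
    {c : H → P} (hc : IsCocycle₁ c) (hn : IsCoboundary₁ (n • c)) : IsCoboundary₁ c := by
  apply ob_isCoboundary₁_of_loc_all D hc
  intro ω
  obtain ⟨m, hm⟩ := hn
  have hstab : ∀ (s : ↥(MulAction.stabilizer H ω.out)) (y : P),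
      (s : H) • D.π ω.out y = D.π ω.out ((s : H) • y) := by
    intro s y
    rw [D.smul_π]
    have hs : (s : H) • ω.out = ω.out := s.2
    rw [hs]
  apply hloc ω (fun s => D.π ω.out (c (s : H)))
  · intro s
    exact D.idem _ _
  · intro s s'
    show D.π ω.out (c ((s : H) * (s' : H))) = s • D.π ω.out (c (s' : H)) + D.π ω.out (c (s : H))
    rw [hc, map_add]
    congr 1
    exact (hstab s _).symm
  · refine ⟨D.π ω.out m, fun s => ?_⟩
    show (s : H) • D.π ω.out m - D.π ω.out m = n • D.π ω.out (c (s : H))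
    rw [hstab, ← map_sub, hm]
    simp

end Loc

end Fermat.Agent.S55
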