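import Mathlib

set_option autoImplicit false

/-!
# S55 / Dual / BInjChase

The abstract diagram chase behind (B-INJ) (step (2) of the lattice route, finite level):

```
                       H⁰(Q) --δ⁰--> H¹(K) --b--> H¹(C)
                                       |
                                       δ¹
                                       v
                                     H²(E) --a--> H²(J)
```

with both rows/columns exact, `H¹(K)` and `H⁰(Q)` torsion and `H¹(C)` without `p`-torsion.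
A `p`-primary `z ∈ H²(E)` with `a z = 0` is `δ¹ (δ⁰ d)` for a `p`-primary `d ∈ H⁰(Q)`.
-/

namespace Fermat.Agent.S55

section Primary

variable {A : Type*} [AddCommGroup A] (p : ℕ) [hp : Fact p.Prime]

/-- A torsion element is the sum of a `p`-primary element and an element of order prime
to `p`. -/
theorem bi_primary_decomp (x : A) (hx : ∃ n : ℕ, n ≠ 0 ∧ n • x = 0) :
    ∃ (xp x' : A) (k m : ℕ), ¬ p ∣ m ∧ x = xp + x' ∧ p ^ k • xp = 0 ∧ m • x' = 0 := by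
  obtain ⟨n, hn0, hn⟩ := hx
  obtain ⟨k, m, hm, rfl⟩ := Nat.exists_eq_pow_mul_and_not_dvd hn0 p hp.out.ne_one
  have hcop : IsCoprime ((p ^ k : ℕ) : ℤ) (m : ℤ) := by
    rw [Nat.isCoprime_iff_coprime]
    exact Nat.Coprime.pow_left k ((Nat.Prime.coprime_iff_not_dvd hp.out).mpr hm)
  obtain ⟨s, t, hst⟩ := hcop
  -- s * p^k + t * m = 1
  refine ⟨(t * m) • x, (s * (p ^ k : ℕ)) • x, k, m, hm, ?_, ?_, ?_⟩
  · rw [← add_smul, add_comm, hst, one_smul]
  · rw [← natCast_zsmul, smul_smul]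
    have : ((p ^ k : ℕ) : ℤ) * (t * m) = t * ((p ^ k * m : ℕ) : ℤ) := by push_cast; ring
    rw [this, mul_smul, natCast_zsmul, hn, smul_zero]
  · rw [← natCast_zsmul, smul_smul]
    have : (m : ℤ) * (s * ((p ^ k : ℕ) : ℤ)) = s * ((p ^ k * m : ℕ) : ℤ) := by push_cast; ring
    rw [this, mul_smul, natCast_zsmul, hn, smul_zero]

/-- An element which is both `p`-primary and killed by an integer prime to `p` vanishes. -/
theorem bi_eq_zero_of_primary_of_coprime (x : A) {k m : ℕ} (hm : ¬ p ∣ m)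
    (h1 : p ^ k • x = 0) (h2 : m • x = 0) : x = 0 := by
  have hcop : IsCoprime ((p ^ k : ℕ) : ℤ) (m : ℤ) := by
    rw [Nat.isCoprime_iff_coprime]
    exact Nat.Coprime.pow_left k ((Nat.Prime.coprime_iff_not_dvd hp.out).mpr hm)
  obtain ⟨s, t, hst⟩ := hcop
  have : x = (s * ((p ^ k : ℕ) : ℤ) + t * (m : ℤ)) • x := by rw [hst, one_smul]
  rw [this, add_smul, mul_smul, mul_smul, natCast_zsmul, natCast_zsmul, h1, h2, smul_zero,
    smul_zero, add_zero]

end Primary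

section Chase

variable {H2E H2J H1K H1C H0Q : Type*} [AddCommGroup H2E] [AddCommGroup H2J]
  [AddCommGroup H1K] [AddCommGroup H1C] [AddCommGroup H0Q]
  (p : ℕ) [hp : Fact p.Prime]
  (a : H2E →+ H2J) (δ1 : H1K →+ H2E) (b : H1K →+ H1C) (δ0 : H0Q →+ H1K)

/-- **The (B-INJ) chase.** -/
theorem bi_chase
    (ex2 : ∀ z, a z = 0 → ∃ c, δ1 c = z)
    (ex1 : ∀ c, b c = 0 → ∃ d, δ0 d = c)
    (tor1 : ∀ c : H1K, ∃ n : ℕ, n ≠ 0 ∧ n • c = 0)
    (tor0 : ∀ d : H0Q, ∃ n : ℕ, n ≠ 0 ∧ n • d = 0)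
    (hC : ∀ x : H1C, (∃ k : ℕ, p ^ k • x = 0) → x = 0)
    (z : H2E) (hz : ∃ k : ℕ, p ^ k • z = 0) (haz : a z = 0) :
    ∃ d : H0Q, (∃ k : ℕ, p ^ k • d = 0) ∧ δ1 (δ0 d) = z := by
  obtain ⟨kz, hkz⟩ := hz
  obtain ⟨c, hc⟩ := ex2 z haz
  -- replace `c` by its `p`-primary part
  obtain ⟨cp, c', k, m, hm, hcsum, hcp, hc'⟩ := bi_primary_decomp p c (tor1 c)
  have hδsum : z = δ1 cp + δ1 c' := by rw [← hc, hcsum, map_add]
  have hδv : δ1 c' = 0 := by
    apply bi_eq_zero_of_primary_of_coprime p (δ1 c') (k := kz + k) hm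
    · have h1 : δ1 c' = z - δ1 cp := by rw [hδsum]; abel
      have h2 : p ^ (kz + k) • z = 0 := by rw [pow_add, mul_comm, mul_smul, hkz, smul_zero]
      have h3 : p ^ (kz + k) • δ1 cp = 0 := by
        rw [pow_add, mul_smul, ← map_nsmul δ1 (p ^ k), hcp, map_zero, smul_zero]
      rw [h1, smul_sub, h2, h3, sub_zero]
    · rw [← map_nsmul, hc', map_zero]
  have hzc : δ1 cp = z := by rw [hδsum, hδv, add_zero]
  -- the image of `cp` in `H¹(C)` is `p`-primary, hence zero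
  have hb : b cp = 0 := hC _ ⟨k, by rw [← map_nsmul, hcp, map_zero]⟩
  obtain ⟨d, hd⟩ := ex1 _ hb
  obtain ⟨dp, d', k', m', hm', hdsum, hdp, hd'⟩ := bi_primary_decomp p d (tor0 d)
  have hδsum' : cp = δ0 dp + δ0 d' := by rw [← hd, hdsum, map_add]
  have hδv' : δ0 d' = 0 := by
    apply bi_eq_zero_of_primary_of_coprime p (δ0 d') (k := k + k') hm'
    · have h1 : δ0 d' = cp - δ0 dp := by rw [hδsum']; abel
      have h2 : p ^ (k + k') • cp = 0 := by rw [pow_add, mul_comm, mul_smul, hcp, smul_zero]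
      have h3 : p ^ (k + k') • δ0 dp = 0 := by
        rw [pow_add, mul_smul, ← map_nsmul δ0 (p ^ k'), hdp, map_zero, smul_zero]
      rw [h1, smul_sub, h2, h3, sub_zero]
    · rw [← map_nsmul, hd', map_zero]
  refine ⟨dp, ⟨k', hdp⟩, ?_⟩
  have : δ0 dp = cp := by rw [hδsum', hδv', add_zero]
  rw [this, hzc]

/-- Transition form: if the `p`-primary part of `H⁰(Q)` dies at a higher level, so does `z`. -/
theorem bi_chase_trans {H2E' H0Q' : Type*} [AddCommGroup H2E'] [AddCommGroup H0Q']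
    (t2 : H2E →+ H2E') (t0 : H0Q →+ H0Q') (δδ' : H0Q' →+ H2E')
    (hcomm : ∀ d, t2 (δ1 (δ0 d)) = δδ' (t0 d))
    (hcap : ∀ d : H0Q, (∃ k : ℕ, p ^ k • d = 0) → t0 d = 0)
    (ex2 : ∀ z, a z = 0 → ∃ c, δ1 c = z)
    (ex1 : ∀ c, b c = 0 → ∃ d, δ0 d = c)
    (tor1 : ∀ c : H1K, ∃ n : ℕ, n ≠ 0 ∧ n • c = 0)
    (tor0 : ∀ d : H0Q, ∃ n : ℕ, n ≠ 0 ∧ n • d = 0)
    (hC : ∀ x : H1C, (∃ k : ℕ, p ^ k • x = 0) → x = 0)
    (z : H2E) (hz : ∃ k : ℕ, p ^ k • z = 0) (haz : a z = 0) : t2 z = 0 := by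
  obtain ⟨d, hd, rfl⟩ := bi_chase p a δ1 b δ0 ex2 ex1 tor1 tor0 hC z hz haz
  rw [hcomm, hcap d hd, map_zero]

end Chase

end Fermat.Agent.S55
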