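import Fermat.Agent.S55.Dual.SeamLevel
import Fermat.Agent.S55.Dual.LocalVanish
import Fermat.Agent.S55.Dual.BInjChase
import Fermat.Agent.S55.Dual.BInjAux

/-!
# (B-INJ), the finite-level chase (block [D] of S55, leaf D2e, prefix `bi_`)

At a level `a ≥ K₀` of the seam, for the permutation lattice `F = ℤ[Δ × A]` (`Δ = K₀.Γ`):

* `bi_H1C_primary`: `H¹(Γ_a, Hom(F, C(a)))` has no `p`-primary torsion (Shapiro for the
  permutation basis + `P.h1` on the stabilisers);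
* `bi_cap_step`: a `p`-primary class of `H¹(Γ_a, Hom(Y, C°(a)))` dying in `H¹(Γ_a, Hom(Y, C(a)))`
  dies at a higher level (capitulation `𝔖.cap`);
* `bi_finite_level`: a `p`-primary class of `H²(Γ_a, Hom(F, E(a)))` dying in
  `H²(Γ_a, Hom(F, ∏ J_q(a)))` dies at a higher level.
-/

set_option autoImplicit false
set_option linter.unusedSectionVars false

open CategoryTheory groupCohomology

namespace Fermat.Agent.S55

noncomputable section

/-! ### Generalities -/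

section General

/-- No `p`-torsion implies no `p`-primary torsion. -/
lemma bi_eq_zero_of_pow_smul {X : Type*} [AddCommGroup X] {p : ℕ}
    (h : ∀ x : X, p • x = 0 → x = 0) : ∀ (k : ℕ) (x : X), p ^ k • x = 0 → x = 0 := by
  intro k
  induction k with
  | zero => intro x hx; simpa using hx
  | succ k ih =>
    intro x hx
    apply ih
    apply h
    rw [← mul_smul, ← pow_succ']
    exact hx

/-- `H¹` of a finite group is killed by the order of the group (level form). -/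
lemma bi_card_smul_lvH1 {Γ : Type*} [Group Γ] [Finite Γ] {X : Type*} [AddCommGroup X]
    [DistribMulAction Γ X] (x : lvH1 (LevelSys.trivial Γ) X) : Nat.card Γ • x = 0 := by
  classical
  have := Fintype.ofFinite Γ
  obtain ⟨c, rfl⟩ := lvH1mk_surjective x
  rw [← map_nsmul, lvH1mk_eq_zero_iff]
  obtain ⟨m, hm⟩ := bi_card_smul_isCoboundary₁ (c := (c : Γ → X)) c.2.1
  refine ⟨m, ?_⟩
  funext g
  rw [lvD0_apply, hm g, Nat.card_eq_fintype_card]
  rfl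

end General

variable {p : ℕ} [hp : Fact p.Prime] {S : Finset Nat.Primes} (𝔖 : du_Seam p S)

/-! ### `H¹(Γ_a, Hom(F, C(a)))` has no `p`-primary torsion -/

section H1C

variable {K₀ a : du_Lev S} (h : K₀ ≤ a) (A : Rep.{0} ℤ K₀.Γ)

/-- The action of `Γ_a` on `Δ × A` through `Δ = K₀.Γ`. -/
@[reducible] def bi_mulAction : MulAction a.Γ (la_X A) :=
  MulAction.compHom (la_X A) (du_Lev.res h)

/-- The permutation basis of `F = ℤ[Δ × A]` on the carrier of level `a`. -/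
def bi_basis : la_X A → tl_Act (sl_Y (la_F A) h) := fun t => MonoidAlgebra.single t (1 : ℤ)

theorem bi_basis_smul (g : a.Γ) (t : la_X A) :
    g • bi_basis h A t = bi_basis h A ((bi_mulAction h A).smul g t) := by
  apply sl_ofAct_injective
  rw [sl_Y_smul]
  exact Representation.ofMulAction_single _ _ _

theorem bi_basis_ext {X : Type*} [AddCommGroup X]
    (φ ψ : LvHom (tl_Act (sl_Y (la_F A) h)) X)
    (hφψ : ∀ t, φ (bi_basis h A t) = ψ (bi_basis h A t)) : φ = ψ := by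
  have h1 := dm_lv_ext_aux (show MonoidAlgebra ℤ (la_X A) →+ X from LvHom.toHom φ)
    (show MonoidAlgebra ℤ (la_X A) →+ X from LvHom.toHom ψ) hφψ
  exact LvHom.ext fun y => DFunLike.congr_fun h1 y

theorem bi_basis_lift {X : Type*} [AddCommGroup X] (f : la_X A → X) :
    ∃ φ : LvHom (tl_Act (sl_Y (la_F A) h)) X, ∀ t, φ (bi_basis h A t) = f t := by
  obtain ⟨φ, hφ⟩ := dm_lv_lift_aux (X := X) f
  exact ⟨LvHom.of (show tl_Act (sl_Y (la_F A) h) →+ X from φ), hφ⟩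

/-- `H¹(H, C)` has no `p`-primary torsion for every subgroup `H ≤ Γ_a`, in cocycle form. -/
theorem bi_h1_subgroup (H : Subgroup a.Γ) (c₀ : H → tl_Act (𝔖.dat a).C) (hc : IsCocycle₁ c₀)
    (k : ℕ) (x₀ : tl_Act (𝔖.dat a).C) (hx₀ : ∀ n : H, p ^ k • c₀ n = n • x₀ - x₀) :
    ∃ x : tl_Act (𝔖.dat a).C, ∀ n : H, c₀ n = n • x - x := by
  let z : lvZ1 (LevelSys.trivial H) (tl_Act (𝔖.dat a).C) := ⟨c₀, hc, LevelSys.isLC1_trivial c₀⟩
  have hz : p ^ k • lvH1mk _ _ z = 0 := by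
    rw [← map_nsmul, lvH1mk_eq_zero_iff]
    refine ⟨x₀, ?_⟩
    funext n
    rw [lvD0_apply]
    exact (hx₀ n).symm
  have he : ∀ (g : H) (x : tl_Act (𝔖.dat a).C),
      sl_actEquiv (𝔖.dat a).C (g • x) =
        (tt_res H (𝔖.dat a).C).ρ g (sl_actEquiv (𝔖.dat a).C x) := fun _ _ => rfl
  have h1 := bi_eq_zero_of_pow_smul ((𝔖.dat a).P.h1 H) k
    (lvH1Equiv (tt_res H (𝔖.dat a).C) (sl_actEquiv (𝔖.dat a).C) he (lvH1mk _ _ z))
    (by rw [← map_nsmul, hz, map_zero])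
  have h2 : lvH1mk _ _ z = 0 := by
    apply (lvH1Equiv (tt_res H (𝔖.dat a).C) (sl_actEquiv (𝔖.dat a).C) he).injective
    rw [h1, map_zero]
  rw [lvH1mk_eq_zero_iff] at h2
  obtain ⟨x, hx⟩ := h2
  refine ⟨x, fun n => ?_⟩
  have := congrFun hx n
  rw [lvD0_apply] at this
  exact this.symm

/-- **`H¹(Γ_a, Hom(F, C(a)))` has no `p`-primary torsion.** -/
theorem bi_H1C_primary
    (x : lvH1 (LevelSys.trivial a.Γ) (LvHom (tl_Act (sl_Y (la_F A) h)) (tl_Act (𝔖.dat a).C)))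
    (hx : ∃ k : ℕ, p ^ k • x = 0) : x = 0 := by
  obtain ⟨k, hk⟩ := hx
  obtain ⟨c, rfl⟩ := lvH1mk_surjective x
  rw [← map_nsmul, lvH1mk_eq_zero_iff] at hk
  obtain ⟨β, hβ⟩ := hk
  rw [lvH1mk_eq_zero_iff]
  let _ : MulAction a.Γ (la_X A) := bi_mulAction h A
  set cf : a.Γ → LvHom (tl_Act (sl_Y (la_F A) h)) (tl_Act (𝔖.dat a).C) :=
    (c : a.Γ → LvHom (tl_Act (sl_Y (la_F A) h)) (tl_Act (𝔖.dat a).C)) with hcf
  have hcoc : IsCocycle₁ cf := c.2.1
  have hβ' : ∀ (g : a.Γ) (y : tl_Act (sl_Y (la_F A) h)),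
      g • β (g⁻¹ • y) - β y = p ^ k • cf g y := by
    intro g y
    have h2 := congrFun hβ g
    rw [lvD0_apply] at h2
    have h3 := congrArg (fun ψ : LvHom (tl_Act (sl_Y (la_F A) h)) (tl_Act (𝔖.dat a).C) =>
      ψ y) h2
    exact h3
  have hstab : ∀ t : la_X A, ∃ x : tl_Act (𝔖.dat a).C, ∀ n : a.Γ, n • t = t →
      cf n (bi_basis h A t) = n • x - x := by
    intro t
    have hfix : ∀ n : MulAction.stabilizer a.Γ t, (n : a.Γ)⁻¹ • bi_basis h A t = bi_basis h A t := by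
      intro n
      have hn : (n : a.Γ)⁻¹ • t = t := by
        have := n.2
        rw [MulAction.mem_stabilizer_iff] at this
        rw [inv_smul_eq_iff, this]
      rw [bi_basis_smul]
      exact congrArg (bi_basis h A) hn
    have h1 : IsCocycle₁ (fun n : MulAction.stabilizer a.Γ t => cf n (bi_basis h A t)) := by
      intro n m
      show cf ((n : a.Γ) * (m : a.Γ)) (bi_basis h A t) =
        (n : a.Γ) • cf m (bi_basis h A t) + cf n (bi_basis h A t)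
      rw [hcoc n m, LvHom.add_apply, LvHom.smul_apply, hfix n]
    obtain ⟨x, hx⟩ := bi_h1_subgroup 𝔖 (MulAction.stabilizer a.Γ t) _ h1 k (β (bi_basis h A t))
      (by
        intro n
        have h2 := hβ' (n : a.Γ) (bi_basis h A t)
        rw [hfix n] at h2
        exact h2.symm)
    exact ⟨x, fun n hn => hx ⟨n, MulAction.mem_stabilizer_iff.2 hn⟩⟩
  obtain ⟨β₁, hβ₁⟩ := LvHom.isCoboundary_of_stabilizer (bi_basis h A)
    (fun g t => bi_basis_smul h A g t) (bi_basis_ext h A) (bi_basis_lift h A) cf hcoc hstab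
  refine ⟨β₁, ?_⟩
  funext g
  rw [lvD0_apply]
  exact (hβ₁ g).symm

end H1C

/-! ### The capitulation step -/

section Cap

variable {K₀ a : du_Lev S} (ha : K₀ ≤ a) (Y : Rep.{0} ℤ K₀.Γ)

/-- The coefficient morphism `Hom(Y, C°(a)) → Hom(Y, C(a))`. -/
def bi_inclMor :
    LvMor (LevelSys.trivial a.Γ) (LvHom (tl_Act (sl_Y Y ha)) ↥(sl_Co 𝔖 a))
      (LevelSys.trivial a.Γ) (LvHom (tl_Act (sl_Y Y ha)) (tl_Act (𝔖.dat a).C)) :=
  LvMor.ofCoeff _ (LvHom.postcomp (sl_Co 𝔖 a).subtype) (fun _ _ => rfl)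

/-- Capitulation for additive maps out of a lattice. -/
lemma bi_cap_hom {Y' : Type*} [AddCommGroup Y'] {m : ℕ} (e : Y' ≃+ (Fin m → ℤ))
    (β : Y' →+ tl_Act (𝔖.dat a).C) {b : du_Lev S} (hab : a ≤ b)
    (hcap : ∀ c : (𝔖.dat a).C.V, ∃ n : ℕ, ¬ p ∣ n ∧ n • 𝔖.tC hab c ∈ du_Co (𝔖.dat b)) :
    ∃ N : ℕ, ¬ p ∣ N ∧ ∀ y : Y', N • sl_tCact 𝔖 hab (β y) ∈ sl_Co 𝔖 b := by
  classical
  let yb : Fin m → Y' := fun i => e.symm (Pi.single i 1)
  have hdec : ∀ y : Y', y = ∑ i, (e y i) • yb i := by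
    intro y
    apply e.injective
    rw [map_sum]
    funext k
    simp only [Finset.sum_apply, map_zsmul, yb, AddEquiv.apply_symm_apply, Pi.smul_apply,
      Pi.single_apply, smul_eq_mul, mul_ite, mul_one, mul_zero, Finset.sum_ite_eq,
      Finset.mem_univ, if_true]
  choose n hn hmem using fun i => hcap (tl_ofAct _ (β (yb i)))
  refine ⟨∏ i, n i, ?_, fun y => ?_⟩
  · intro hdvd
    obtain ⟨i, -, hi⟩ := (Prime.dvd_finsetProd_iff (Nat.Prime.prime hp.out) _).mp hdvd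
    exact hn i hi
  · have hy : β y = ∑ i, (e y i) • β (yb i) := by
      conv_lhs => rw [hdec y]
      rw [map_sum]
      refine Finset.sum_congr rfl fun i _ => ?_
      rw [map_zsmul]
    rw [hy, map_sum, Finset.smul_sum]
    refine sum_mem fun i _ => ?_
    rw [map_zsmul, smul_comm]
    refine zsmul_mem ?_ _
    have hsplit : (∏ j, n j) = (∏ j ∈ Finset.univ.erase i, n j) * n i :=
      (Finset.prod_erase_mul Finset.univ n (Finset.mem_univ i)).symm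
    rw [hsplit, mul_smul]
    exact nsmul_mem (hmem i) _

variable [Nonempty ↥S] (hY : ld_IsLattice Y)

/-- **The capitulation step.**  A `p`-primary class of `H¹(Γ_a, Hom(Y, C°(a)))` which dies in
`H¹(Γ_a, Hom(Y, C(a)))` dies at a higher level. -/
theorem bi_cap_step
    (x : lvH1 (LevelSys.trivial a.Γ) (LvHom (tl_Act (sl_Y Y ha)) ↥(sl_Co 𝔖 a)))
    (hx : ∃ k : ℕ, p ^ k • x = 0) (hx0 : (bi_inclMor 𝔖 ha Y).H1 x = 0) :
    ∃ (b : du_Lev S) (hab : a ≤ b), (sl_homSesMor 𝔖 Y ha hab hY).mC.H1 x = 0 := by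
  obtain ⟨k, hk⟩ := hx
  obtain ⟨c, rfl⟩ := lvH1mk_surjective x
  rw [LvMor.H1_mk, lvH1mk_eq_zero_iff] at hx0
  obtain ⟨β, hβ⟩ := hx0
  obtain ⟨b, hab, hcap⟩ := 𝔖.cap a
  obtain ⟨m, ⟨e⟩⟩ := id hY
  obtain ⟨N, hN, hmem⟩ := bi_cap_hom 𝔖 ((sl_actEquiv (sl_Y Y ha)).trans e) (LvHom.toHom β) hab hcap
  refine ⟨b, hab, ?_⟩
  set cf : a.Γ → LvHom (tl_Act (sl_Y Y ha)) ↥(sl_Co 𝔖 a) :=
    (c : a.Γ → LvHom (tl_Act (sl_Y Y ha)) ↥(sl_Co 𝔖 a)) with hcf
  -- the relation `ι ∘ c = d β`, pointwise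
  have hβ' : ∀ (g : a.Γ) (y : tl_Act (sl_Y Y ha)),
      g • β (g⁻¹ • y) - β y = ((cf g y : ↥(sl_Co 𝔖 a)) : tl_Act (𝔖.dat a).C) := by
    intro g y
    have h2 := congrFun hβ g
    rw [lvD0_apply] at h2
    exact congrArg (fun ψ : LvHom (tl_Act (sl_Y Y ha)) (tl_Act (𝔖.dat a).C) => ψ y) h2
  have h1 : p ^ k • (sl_homSesMor 𝔖 Y ha hab hY).mC.H1 (lvH1mk _ _ c) = 0 := by
    rw [← map_nsmul, hk, map_zero]
  have h2 : N • (sl_homSesMor 𝔖 Y ha hab hY).mC.H1 (lvH1mk _ _ c) = 0 := by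
    rw [LvMor.H1_mk, ← map_nsmul, lvH1mk_eq_zero_iff]
    let β₁ : tl_Act (sl_Y Y (le_trans ha hab)) →+ tl_Act (𝔖.dat b).C :=
      N • ((sl_tCact 𝔖 hab).comp ((LvHom.toHom β).comp (sl_Yid Y ha (le_trans ha hab))))
    have hβ₁ : ∀ y, β₁ y = N • sl_tCact 𝔖 hab (β (sl_Yid Y ha (le_trans ha hab) y)) := fun _ => rfl
    let β' : LvHom (tl_Act (sl_Y Y (le_trans ha hab))) ↥(sl_Co 𝔖 b) :=
      LvHom.of (β₁.codRestrict (sl_Co 𝔖 b) (fun y => by rw [hβ₁]; exact hmem _))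
    have hβ'c : ∀ y, ((β' y : ↥(sl_Co 𝔖 b)) : tl_Act (𝔖.dat b).C) =
        N • sl_tCact 𝔖 hab (β (sl_Yid Y ha (le_trans ha hab) y)) := fun _ => rfl
    refine ⟨β', ?_⟩
    funext g
    rw [lvD0_apply]
    refine LvHom.ext fun y => Subtype.ext ?_
    show g • ((β' (g⁻¹ • y) : ↥(sl_Co 𝔖 b)) : tl_Act (𝔖.dat b).C) - (β' y : ↥(sl_Co 𝔖 b)) =
      N • sl_tCact 𝔖 hab ((cf (du_Lev.res hab g) (sl_Yid Y ha (le_trans ha hab) y) :
        ↥(sl_Co 𝔖 a)) : tl_Act (𝔖.dat a).C)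
    rw [hβ'c, hβ'c, ← hβ' (du_Lev.res hab g), map_sub, smul_sub, sl_tCact_smul, smul_comm N g]
    have hinv : sl_Yid Y ha (le_trans ha hab) (g⁻¹ • y) =
        (du_Lev.res hab g)⁻¹ • sl_Yid Y ha (le_trans ha hab) y := by
      rw [sl_Yid_smul, map_inv]
    rw [hinv]
  exact bi_eq_zero_of_primary_of_coprime p _ hN h1 h2

end Cap

/-! ### The finite-level chase -/

section Chase

variable [Nonempty ↥S] {K₀ a : du_Lev S} (ha : K₀ ≤ a) (A : Rep.{0} ℤ K₀.Γ)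
  (hY : ld_IsLattice (la_F A))

/-- **(B-INJ) at a finite level.**  A `p`-primary class of `H²(Γ_a, Hom(F, E(a)))` which dies in
`H²(Γ_a, Hom(F, ∏ J_q(a)))` dies at a higher level. -/
theorem bi_finite_level
    (y : lvH2 (LevelSys.trivial a.Γ) (LvHom (tl_Act (sl_Y (la_F A) ha)) (tl_Act (𝔖.E a))))
    (hy : ∃ k : ℕ, p ^ k • y = 0)
    (hmi : ((sl_homSes 𝔖 (la_F A) ha hY).mi (LevelSys.trivial a.Γ)).H2 y = 0) :
    ∃ (b : du_Lev S) (hab : a ≤ b), (sl_homSesMor 𝔖 (la_F A) ha hab hY).mA.H2 y = 0 := by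
  obtain ⟨kz, hkz⟩ := hy
  have hB := sl_isSmooth_trivial (Γ := a.Γ) (LvHom (tl_Act (sl_Y (la_F A) ha)) (sl_J 𝔖 a))
  obtain ⟨c, hc⟩ := ((sl_homSes 𝔖 (la_F A) ha hY).exact_H2A (LevelSys.trivial a.Γ) hB y).1 hmi
  -- the `p`-primary part of `c`
  have hcard : Nat.card a.Γ ≠ 0 := Nat.card_pos.ne'
  obtain ⟨cp, c', k, m, hm, hcsum, hcp, hc'⟩ :=
    bi_primary_decomp p c ⟨Nat.card a.Γ, hcard, bi_card_smul_lvH1 c⟩
  set δ := (sl_homSes 𝔖 (la_F A) ha hY).δ1 (LevelSys.trivial a.Γ) hB with hδ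
  have hδsum : y = δ cp + δ c' := by rw [← hc, hcsum, map_add]
  have hδv : δ c' = 0 := by
    apply bi_eq_zero_of_primary_of_coprime p (δ c') (k := kz + k) hm
    · have h1 : δ c' = y - δ cp := by rw [hδsum]; abel
      have h2 : p ^ (kz + k) • y = 0 := by rw [pow_add, mul_comm, mul_smul, hkz, smul_zero]
      have h3 : p ^ (kz + k) • δ cp = 0 := by
        rw [pow_add, mul_smul, ← map_nsmul δ (p ^ k), hcp, map_zero, smul_zero]
      rw [h1, nsmul_sub, h2, h3, sub_zero]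
    · rw [← map_nsmul, hc', map_zero]
  have hzc : δ cp = y := by rw [hδsum, hδv, add_zero]
  -- the image of `cp` in `H¹(Hom(F, C))` vanishes
  have hb : (bi_inclMor 𝔖 ha (la_F A)).H1 cp = 0 :=
    bi_H1C_primary 𝔖 ha A _ ⟨k, by rw [← map_nsmul, hcp, map_zero]⟩
  obtain ⟨b, hab, hcap⟩ := bi_cap_step 𝔖 ha (la_F A) hY cp ⟨k, hcp⟩ hb
  refine ⟨b, hab, ?_⟩
  have hB' := sl_isSmooth_trivial (Γ := b.Γ)
    (LvHom (tl_Act (sl_Y (la_F A) (le_trans ha hab))) (sl_J 𝔖 b))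
  rw [← hzc, hδ, (sl_homSesMor 𝔖 (la_F A) ha hab hY).δ1_comm hB hB', hcap, map_zero]

end Chase

end

end Fermat.Agent.S55
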