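import Fermat.Agent.S55.Dual.FinDual

/-!
# Complements to `FinDual` (block [D] of S55, prefix `fdx_`)

Surjective-pairing version of the adjoint-maps count, restriction of characters, and the
comparison lemma for quotients up to prime-to-`p` saturation.
-/

set_option autoImplicit false

namespace Fermat.Agent.S55

open AddSubgroup

/-- Restriction of characters to a subgroup is surjective. -/
theorem fdx_restrict_surjective {G : Type*} [AddCommGroup G] (Z : AddSubgroup G)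
    (χ : CharacterModule Z) : ∃ ξ : CharacterModule G, ∀ z : Z, ξ z = χ z := by
  obtain ⟨ξ, hξ⟩ := CharacterModule.dual_surjective_of_injective (R := ℤ)
    Z.subtype.toIntLinearMap Subtype.val_injective χ
  exact ⟨ξ, fun z => DFunLike.congr_fun hξ z⟩

/-- If `u : Z₁ → Z₂` and `v : Q₂ → Q₁` are adjoint for surjective pairings `Qᵢ → Zᵢ*`, the kernel
of `u` is dual to the cokernel of `v` modulo the kernel of the first pairing. -/
theorem fdx_card_ker_eq_card_coker {Z₁ Z₂ Q₁ Q₂ : Type*} [AddCommGroup Z₁] [AddCommGroup Z₂]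
    [AddCommGroup Q₁] [AddCommGroup Q₂] [Finite Z₁]
    (B₁ : Q₁ →+ CharacterModule Z₁) (B₂ : Q₂ →+ CharacterModule Z₂)
    (h₁ : Function.Surjective B₁) (h₂ : Function.Surjective B₂)
    (u : Z₁ →+ Z₂) (v : Q₂ →+ Q₁) (hadj : ∀ x z, B₁ (v x) z = B₂ x (u z)) :
    Nat.card u.ker = Nat.card (Q₁ ⧸ (B₁.ker ⊔ v.range)) := by
  -- the pairing `Q₁ → (ker u)*`
  let r : CharacterModule Z₁ →+ CharacterModule u.ker :=
    { toFun := fun χ => (χ : Z₁ →+ AddCircle (1 : ℚ)).comp u.ker.subtype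
      map_zero' := rfl
      map_add' := fun _ _ => rfl }
  let B : Q₁ →+ CharacterModule u.ker := r.comp B₁
  have hB : Function.Surjective B := by
    intro χ
    obtain ⟨ξ, hξ⟩ := fdx_restrict_surjective u.ker χ
    obtain ⟨x, rfl⟩ := h₁ ξ
    exact ⟨x, by ext z; exact hξ z⟩
  have hker : B.ker = B₁.ker ⊔ v.range := by
    apply le_antisymm
    · intro x hx
      have hx' : ∀ z, u z = 0 → B₁ x z = 0 := fun z hz =>
        DFunLike.congr_fun (AddMonoidHom.mem_ker.mp hx) ⟨z, hz⟩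
      obtain ⟨ξ, hξ⟩ := fd_factor u (B₁ x) hx'
      obtain ⟨x₂, rfl⟩ := h₂ ξ
      have : x - v x₂ ∈ B₁.ker := by
        rw [AddMonoidHom.mem_ker, map_sub, sub_eq_zero]
        ext z
        rw [hadj, hξ]
      have hsum : x = (x - v x₂) + v x₂ := by abel
      rw [hsum]
      exact add_mem (mem_sup_left this) (mem_sup_right ⟨x₂, rfl⟩)
    · rw [sup_le_iff]
      constructor
      · intro x hx
        rw [AddMonoidHom.mem_ker] at hx ⊢
        show r (B₁ x) = 0
        rw [hx, map_zero]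
      · rintro _ ⟨x₂, rfl⟩
        rw [AddMonoidHom.mem_ker]
        ext z
        show B₁ (v x₂) z.1 = 0
        rw [hadj, z.2, map_zero]
  rw [← hker, Nat.card_congr (QuotientAddGroup.quotientKerEquivOfSurjective B hB).toEquiv, fd_card]

/-- In the situation of `fdx_card_ker_eq_card_coker`: if `n` kills `ker u` then `n` kills the
quotient `Q₁ ⧸ (ker B₁ ⊔ range v)`. -/
theorem fdx_smul_mem_of_ker_killed {Z₁ Z₂ Q₁ Q₂ : Type*} [AddCommGroup Z₁] [AddCommGroup Z₂]
    [AddCommGroup Q₁] [AddCommGroup Q₂]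
    (B₁ : Q₁ →+ CharacterModule Z₁) (B₂ : Q₂ →+ CharacterModule Z₂)
    (h₂ : Function.Surjective B₂)
    (u : Z₁ →+ Z₂) (v : Q₂ →+ Q₁) (hadj : ∀ x z, B₁ (v x) z = B₂ x (u z))
    (n : ℕ) (hn : ∀ z : Z₁, u z = 0 → n • z = 0) (x : Q₁) :
    n • x ∈ B₁.ker ⊔ v.range := by
  have hx' : ∀ z, u z = 0 → B₁ (n • x) z = 0 := by
    intro z hz
    rw [map_nsmul]
    show n • (B₁ x z) = 0
    rw [← map_nsmul, hn z hz, map_zero]
  obtain ⟨ξ, hξ⟩ := fd_factor u (B₁ (n • x)) hx'
  obtain ⟨x₂, rfl⟩ := h₂ ξ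
  have : n • x - v x₂ ∈ B₁.ker := by
    rw [AddMonoidHom.mem_ker, map_sub, sub_eq_zero]
    ext z
    rw [hadj, hξ]
  have hsum : n • x = (n • x - v x₂) + v x₂ := by abel
  rw [hsum]
  exact add_mem (mem_sup_left this) (mem_sup_right ⟨x₂, rfl⟩)

section pPrimary

variable {p : ℕ} [hp : Fact p.Prime]

/-- A subgroup is saturated iff it contains its saturation. -/
lemma fdx_pSat_le_iff {A : Type*} [AddCommGroup A] {N K : AddSubgroup A}
    (hK : ∀ a : A, ∀ n : ℕ, ¬ p ∣ n → n • a ∈ K → a ∈ K) :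
    fd_pSat p N ≤ K ↔ N ≤ K := by
  constructor
  · exact fun h => (fd_le_pSat p N).trans h
  · rintro h a ⟨n, hn, hna⟩
    exact hK a n hn (h hna)

/-- If `p • a` and `n • a` (with `n` prime to `p`) lie in a subgroup then so does `a`. -/
lemma fdx_mem_of_smul_mem {A : Type*} [AddCommGroup A] {N : AddSubgroup A} {a : A} {n : ℕ}
    (hn : ¬ p ∣ n) (hna : n • a ∈ N) (hpa : p • a ∈ N) : a ∈ N := by
  have hcop : Nat.Coprime n p := ((Nat.Prime.coprime_iff_not_dvd hp.out).mpr hn).symm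
  have hb := Nat.gcd_eq_gcd_ab n p
  rw [hcop.gcd_eq_one] at hb
  have : a = (n.gcdA p) • (n • a) + (n.gcdB p) • (p • a) := by
    rw [← natCast_zsmul a n, ← natCast_zsmul a p, ← mul_smul, ← mul_smul, ← add_smul,
      mul_comm _ (n : ℤ), mul_comm _ (p : ℤ), ← hb]
    simp
  rw [this]
  exact N.add_mem (N.zsmul_mem hna _) (N.zsmul_mem hpa _)

/-- Comparison of a quotient of a `p'`-cofinal subgroup with a quotient of the whole group, both
killed by `p`. -/
theorem fdx_card_quot_compare {G : Type*} [AddCommGroup G] (A N N' : AddSubgroup G)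
    (hNN' : N ≤ N')
    (hGA : ∀ g : G, ∃ n : ℕ, ¬ p ∣ n ∧ n • g ∈ A)
    (hN' : ∀ x ∈ A, x ∈ N' → ∃ n : ℕ, ¬ p ∣ n ∧ n • x ∈ N)
    (hpA : ∀ x ∈ A, p • x ∈ N) (hpG : ∀ g : G, p • g ∈ N') :
    Nat.card (A ⧸ N.addSubgroupOf A) = Nat.card (G ⧸ N') := by
  let φ : A →+ G ⧸ N' := (QuotientAddGroup.mk' N').comp A.subtype
  have hsurj : Function.Surjective φ := by
    intro y
    obtain ⟨g, rfl⟩ := QuotientAddGroup.mk_surjective y
    obtain ⟨n, hn, hng⟩ := hGA g
    have hcop : Nat.Coprime n p := ((Nat.Prime.coprime_iff_not_dvd hp.out).mpr hn).symm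
    have hb := Nat.gcd_eq_gcd_ab n p
    rw [hcop.gcd_eq_one] at hb
    refine ⟨⟨(n.gcdA p) • (n • g), A.zsmul_mem hng _⟩, ?_⟩
    show (QuotientAddGroup.mk ((n.gcdA p) • (n • g)) : G ⧸ N') = QuotientAddGroup.mk g
    rw [QuotientAddGroup.eq]
    have : -((n.gcdA p) • (n • g)) + g = (n.gcdB p) • (p • g) := by
      have hg : g = (n.gcdA p) • (n • g) + (n.gcdB p) • (p • g) := by
        rw [← natCast_zsmul g n, ← natCast_zsmul g p, ← mul_smul, ← mul_smul, ← add_smul,
          mul_comm _ (n : ℤ), mul_comm _ (p : ℤ), ← hb]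
        simp
      nth_rewrite 2 [hg]
      abel
    rw [this]
    exact N'.zsmul_mem (hpG g) _
  have hker : φ.ker = N.addSubgroupOf A := by
    ext ⟨x, hx⟩
    rw [AddMonoidHom.mem_ker, AddSubgroup.mem_addSubgroupOf]
    show (QuotientAddGroup.mk x : G ⧸ N') = 0 ↔ x ∈ N
    rw [QuotientAddGroup.eq_zero_iff]
    constructor
    · intro hxN'
      obtain ⟨n, hn, hnx⟩ := hN' x hx hxN'
      exact fdx_mem_of_smul_mem hn hnx (hpA x hx)
    · exact fun h => hNN' h
  rw [← hker]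
  exact Nat.card_congr (QuotientAddGroup.quotientKerEquivOfSurjective φ hsurj).toEquiv

end pPrimary

end Fermat.Agent.S55
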