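import Fermat.Agent.S55.Dual.Step1
import Fermat.Agent.S55.Dual.LevelDuality

/-!
# The `Z`-side at a finite level (block [D] of S55, prefix `zs_`)

Step 1 (`ds_step1`) combined with the finite-level duality count (`ld_card`): for a resolution
`0 ⟶ R ⟶ F ⟶ A' ⟶ 0` over `Δ` by lattices with `F` a permutation module, `A'` killed by `p`,
restricted along `π : Γ →* Δ`, the group `Ш¹(Γ, A')` is counted by a quotient of
`Hom_Γ(R, C)`, and that quotient is killed by `p`.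
-/

set_option autoImplicit false

open CategoryTheory groupCohomology Rep

namespace Fermat.Agent.S55

section nsmul

variable {k Γ : Type} [CommRing k] [Group Γ]

theorem zs_coeffMap_nsmul {Y C : Rep.{0} k Γ} (φ : Y ⟶ C) (n m : ℕ) :
    tt_coeffMap (m • φ) n = m • tt_coeffMap φ n := by
  induction m with
  | zero => rw [zero_smul, zero_smul]; exact ld_coeffMap_zero n
  | succ m ih => rw [succ_nsmul, succ_nsmul, ld_coeffMap_add, ih]

/-- If `m` kills the module `A`, it kills `Hⁿ(Γ, A)`. -/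
theorem zs_nsmul_eq_zero (A : Rep.{0} k Γ) (m : ℕ) (hm : ∀ a : A.V, m • a = 0) (n : ℕ)
    (x : groupCohomology A n) : m • x = 0 := by
  have h0 : m • (𝟙 A : A ⟶ A) = 0 := by
    ext a
    show m • a = 0
    exact hm a
  have h1 : tt_coeffMap (m • (𝟙 A : A ⟶ A)) n = m • tt_coeffMap (𝟙 A) n :=
    zs_coeffMap_nsmul _ n m
  rw [h0, ld_coeffMap_zero] at h1
  have h2 : (tt_coeffMap (𝟙 A) n) = 𝟙 _ := groupCohomology.map_id n
  rw [h2] at h1
  have := congrArg (fun f => f.hom x) h1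
  exact this.symm

end nsmul

section zside

variable {Γ Δ : Type} [Group Γ] [Fintype Γ] [Group Δ] (π : Γ →* Δ)
  {p : ℕ} [hp : Fact p.Prime] {ι : Type} [Finite ι] (𝔻 : ld_Data p Γ ι)
  {Y : ShortComplex (Rep.{0} ℤ Δ)} (hY : Y.ShortExact)
  (X : Type) [MulAction Δ X] (e : Y.X₂ ≅ Rep.ofMulAction ℤ Δ X)

/-- The classes counted in `ld_card` are exactly the target of `ds_step1`, provided they are
`p`-primary. -/
noncomputable def zs_equiv
    (hprim : ∀ y : groupCohomology (res π Y.X₁) 2,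
      y ∈ ds_sha 𝔻.D (res π Y.X₁) 2 ⊓
        LinearMap.ker (map (MonoidHom.id Γ) ((resFunctor π).map Y.f) 2).hom → tt_IsPPrimary p y) :
    ↥(ds_sha 𝔻.D (res π Y.X₁) 2 ⊓
        LinearMap.ker (map (MonoidHom.id Γ) ((resFunctor π).map Y.f) 2).hom) ≃
      {y : ld_P (p := p) (res π Y.X₁) // (∀ q, ld_f 𝔻 (res π Y.X₁) q y = 0) ∧
        fd_pMap p (tt_coeffMap ((resFunctor π).map Y.f) 2).hom.toAddMonoidHom y = 0} where
  toFun y := ⟨⟨y.1, hprim y.1 y.2⟩, by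
    obtain ⟨h1, h2⟩ := Submodule.mem_inf.mp y.2
    rw [ds_mem_sha] at h1
    refine ⟨fun q => Subtype.ext (h1 q), Subtype.ext ?_⟩
    exact LinearMap.mem_ker.mp h2⟩
  invFun y := ⟨y.1.1, by
    rw [Submodule.mem_inf, ds_mem_sha]
    refine ⟨fun q => congrArg Subtype.val (y.2.1 q), ?_⟩
    rw [LinearMap.mem_ker]
    exact congrArg Subtype.val y.2.2⟩
  left_inv _ := rfl
  right_inv _ := rfl

omit hp [Finite ι] in
include hY e in
/-- Elements in the image of Step 1 are killed by `p` when `A'` is. -/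
theorem zs_isPPrimary (hA : ∀ a : Y.X₃.V, p • a = 0)
    (y : groupCohomology (res π Y.X₁) 2)
    (hy : y ∈ ds_sha 𝔻.D (res π Y.X₁) 2 ⊓
        LinearMap.ker (map (MonoidHom.id Γ) ((resFunctor π).map Y.f) 2).hom) :
    tt_IsPPrimary p y := by
  obtain ⟨x, hx⟩ := (ds_step1 π 𝔻.D hY X e).surjective ⟨y, hy⟩
  have hxy : y = (δ (ds_shortExact_res π hY) 1 2 rfl).hom x.1 := by
    have := ds_step1_apply π 𝔻.D (hY := hY) X e x
    rw [hx] at this
    exact this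
  refine ⟨1, ?_⟩
  have hpx : p • x.1 = 0 := zs_nsmul_eq_zero (res π Y.X₃) p hA 1 x.1
  have hd : p • (δ (ds_shortExact_res π hY) 1 2 rfl).hom x.1 =
      (δ (ds_shortExact_res π hY) 1 2 rfl).hom (p • x.1) :=
    (map_nsmul (δ (ds_shortExact_res π hY) 1 2 rfl).hom p _).symm
  have h0 : (δ (ds_shortExact_res π hY) 1 2 rfl).hom (p • x.1) = 0 :=
    (congrArg (δ (ds_shortExact_res π hY) 1 2 rfl).hom hpx).trans (map_zero _)
  rw [pow_one, hxy]
  exact hd.trans h0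

include hY e in
/-- **`Z`-side count.** -/
theorem zs_card (hA : ∀ a : Y.X₃.V, p • a = 0)
    (hR : ld_IsLattice Y.X₁) (hF : ld_IsLattice Y.X₂)
    [Finite (groupCohomology (res π Y.X₁) 2)] [Finite (groupCohomology (res π Y.X₂) 2)]
    [∀ q, Finite (groupCohomology (tt_res (𝔻.D q) (res π Y.X₁)) 2)]
    (hTR : ld_TNR 𝔻.P) (hTL : ld_TNL 𝔻.P) (hN : ld_NrmZero 𝔻.C)
    (hRq : ∀ q, ld_TNR (𝔻.Pq q)) :
    Nat.card ↥(ds_sha 𝔻.D (res π Y.X₃) 1) =
      Nat.card ((res π Y.X₁ ⟶ 𝔻.C) ⧸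
        (fd_pSat p (ld_Nrm (res π Y.X₁) 𝔻.C ⊔ ld_Loc 𝔻 (res π Y.X₁)) ⊔
          (ld_pre 𝔻 ((resFunctor π).map Y.f)).range)) := by
  rw [ds_step1_card π 𝔻.D hY X e,
    Nat.card_congr (zs_equiv π 𝔻 (zs_isPPrimary π 𝔻 hY X e hA))]
  exact ld_card 𝔻 ((resFunctor π).map Y.f) hR hF hTR hTL hN hRq

include hY e in
/-- The counting quotient of `zs_card` is killed by `p`. -/
theorem zs_smul_mem (hA : ∀ a : Y.X₃.V, p • a = 0)
    (hR : ld_IsLattice Y.X₁) (hF : ld_IsLattice Y.X₂)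
    [Finite (groupCohomology (res π Y.X₂) 2)]
    [∀ q, Finite (groupCohomology (tt_res (𝔻.D q) (res π Y.X₁)) 2)]
    (hTR : ld_TNR 𝔻.P) (hTL : ld_TNL 𝔻.P) (hN : ld_NrmZero 𝔻.C)
    (hRq : ∀ q, ld_TNR (𝔻.Pq q)) (φ : res π Y.X₁ ⟶ 𝔻.C) :
    p • φ ∈ fd_pSat p (ld_Nrm (res π Y.X₁) 𝔻.C ⊔ ld_Loc 𝔻 (res π Y.X₁)) ⊔
          (ld_pre 𝔻 ((resFunctor π).map Y.f)).range := by
  refine ld_smul_mem 𝔻 ((resFunctor π).map Y.f) hR hF hTR hTL hN hRq p ?_ φ
  intro y h1 h2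
  have hy : y.1 ∈ ds_sha 𝔻.D (res π Y.X₁) 2 ⊓
        LinearMap.ker (map (MonoidHom.id Γ) ((resFunctor π).map Y.f) 2).hom := by
    rw [Submodule.mem_inf, ds_mem_sha]
    refine ⟨fun q => congrArg Subtype.val (h1 q), ?_⟩
    rw [LinearMap.mem_ker]
    exact congrArg Subtype.val h2
  obtain ⟨x, hx⟩ := (ds_step1 π 𝔻.D hY X e).surjective ⟨y.1, hy⟩
  have hxy : y.1 = (δ (ds_shortExact_res π hY) 1 2 rfl).hom x.1 := by
    have := ds_step1_apply π 𝔻.D (hY := hY) X e x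
    rw [hx] at this
    exact this
  apply Subtype.ext
  show p • y.1 = 0
  have hpx : p • x.1 = 0 := zs_nsmul_eq_zero (res π Y.X₃) p hA 1 x.1
  have hd : p • (δ (ds_shortExact_res π hY) 1 2 rfl).hom x.1 =
      (δ (ds_shortExact_res π hY) 1 2 rfl).hom (p • x.1) :=
    (map_nsmul (δ (ds_shortExact_res π hY) 1 2 rfl).hom p _).symm
  have h0 : (δ (ds_shortExact_res π hY) 1 2 rfl).hom (p • x.1) = 0 :=
    (congrArg (δ (ds_shortExact_res π hY) 1 2 rfl).hom hpx).trans (map_zero _)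
  rw [hxy]
  exact hd.trans h0

end zside

end Fermat.Agent.S55
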