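import Fermat.Agent.S55.Dual.Stab
import Fermat.Agent.S55.Dual.ZSide
import Fermat.Agent.S55.FinGrp.FiniteH2
import Fermat.Agent.S55.Trans.Final

/-!
# The Poitou–Tate count from the seam (block [D] of S55, prefix `du_`)

`du_level_card`: at one level `a ≥ K`, `|Ш¹(Γ_a, A')| = |𝒞^∞_R(a) ⧸ (Loc ⊔ i^*𝒞^∞_F(a))|`
(finite-level duality `zs_card`, capitulation `du_cap_mem`, absorption of norms, glueing
`gl_card_eq`).

`du_main`: with the `X`-side identification `Ш²(M) ≃ 𝒞^∞_R(a) ⧸ (Loc ⊔ i^*𝒞^∞_F(a))` as a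
hypothesis, both Tate–Shafarevich groups are finite of the same cardinality.
-/

set_option autoImplicit false

open CategoryTheory groupCohomology ExtCitation

namespace Fermat.Agent.S55

local notation "Qbar" => AlgebraicClosure ℚ
local notation "GQ" => (AlgebraicClosure ℚ ≃ₐ[ℚ] AlgebraicClosure ℚ)

/-- `H¹(Γ, B)` is finite for a finite group and a finite module. -/
theorem du_finite_H1 {Γ : Type} [Group Γ] [Finite Γ] (B : Rep.{0} ℤ Γ) [Finite B.V] :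
    Finite (groupCohomology B 1) := by
  have h1 : Finite ↥(cocycles₁ B) := Finite.of_injective (fun c => (c.1 : Γ → B.V))
    Subtype.val_injective
  have hsurj : Function.Surjective (H1π B).hom :=
    (ModuleCat.epi_iff_surjective (H1π B)).mp inferInstance
  exact Finite.of_surjective _ hsurj

/-- Norms induce zero on `H²` (from `fh_coeffMap_eq_zero_of_norm`). -/
theorem du_nrmZero {Γ : Type} [Group Γ] [Fintype Γ] (C : Rep.{0} ℤ Γ) : ld_NrmZero C := by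
  rintro Y φ ⟨ψ, hψ⟩
  exact fh_coeffMap_eq_zero_of_norm Y C φ ψ hψ

section OneLevel

variable {p : ℕ} [hp : Fact p.Prime] {S : Finset Nat.Primes} (𝔖 : du_Seam p S)
  {k : Type} [CommRing k] (A : Rep.{0} k GQ)
  (K : du_Lev S) (hA : ∀ σ ∈ K.L.fixingSubgroup, ∀ x : A.V, A.ρ σ x = x)

/-- The relation lattice of `A`, as a `Γ_a`-module. -/
noncomputable abbrev du_R {a : du_Lev S} (h : K ≤ a) : Rep.{0} ℤ a.Γ :=
  Rep.res (du_Lev.res h) (la_seq (du_AK A K hA)).X₁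

/-- The permutation lattice of `A`, as a `Γ_a`-module. -/
noncomputable abbrev du_F {a : du_Lev S} (h : K ≤ a) : Rep.{0} ℤ a.Γ :=
  Rep.res (du_Lev.res h) (la_seq (du_AK A K hA)).X₂

/-- The inclusion `R ⟶ F` over `Γ_a`. -/
noncomputable abbrev du_i {a : du_Lev S} (h : K ≤ a) : du_R A K hA h ⟶ du_F A K hA h :=
  (Rep.resFunctor (du_Lev.res h)).map (la_seq (du_AK A K hA)).f

/-- The group `𝒞^∞_R(a) ⧸ (Loc ⊔ i^*𝒞^∞_F(a))`. -/
abbrev du_XQ {a : du_Lev S} (h : K ≤ a) : Type :=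
  ↥(du_Cinf 𝔖 a (du_R A K hA h)) ⧸
    ((ld_Loc (𝔖.dat a) (du_R A K hA h) ⊔ du_Vinf 𝔖 a (du_i A K hA h)).addSubgroupOf
      (du_Cinf 𝔖 a (du_R A K hA h)))

variable [Finite A.V]

lemma du_isLattice_R {a : du_Lev S} (h : K ≤ a) : ld_IsLattice (du_R A K hA h) :=
  haveI : Finite (du_AK A K hA).V := inferInstanceAs (Finite A.V)
  la_free_R (du_AK A K hA)

lemma du_isLattice_F {a : du_Lev S} (h : K ≤ a) : ld_IsLattice (du_F A K hA h) :=
  haveI : Finite (du_AK A K hA).V := inferInstanceAs (Finite A.V)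
  la_free_F (du_AK A K hA)

/-- **One-level count.** -/
theorem du_level_card {a : du_Lev S} (h : K ≤ a) (hpA : ∀ x : A.V, p • x = 0)
    (hTR : ld_TNR (𝔖.dat a).P) (hTL : ld_TNL (𝔖.dat a).P)
    (hRq : ∀ q, ld_TNR ((𝔖.dat a).Pq q))
    (habs : ld_Nrm (du_R A K hA h) (𝔖.dat a).C ≤
      fd_pSat p (ld_Loc (𝔖.dat a) (du_R A K hA h)))
    (hpX : ∀ x ∈ du_Cinf 𝔖 a (du_R A K hA h),
      p • x ∈ ld_Loc (𝔖.dat a) (du_R A K hA h) ⊔ du_Vinf 𝔖 a (du_i A K hA h)) :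
    Nat.card ↥(ds_sha (du_Dec a) (du_AΓ A K hA h) 1) = Nat.card (du_XQ 𝔖 A K hA h) := by
  have hD : (𝔖.dat a).D = du_Dec a := funext (𝔖.dat_D a)
  have hR := du_isLattice_R A K hA h
  have hF := du_isLattice_F A K hA h
  have : Finite (groupCohomology (du_R A K hA h) 2) := fh_finite_H2 _ hR
  have : Finite (groupCohomology (du_F A K hA h) 2) := fh_finite_H2 _ hF
  have : ∀ q, Finite (groupCohomology (tt_res ((𝔖.dat a).D q) (du_R A K hA h)) 2) :=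
    fun q => fh_finite_H2 _ (ld_isLattice_res _ hR)
  have hN := du_nrmZero (𝔖.dat a).C
  have hz := zs_card (du_Lev.res h) (𝔖.dat a) (la_shortExact (du_AK A K hA))
    (la_X (du_AK A K hA)) (la_isoMid (du_AK A K hA)) hpA hR hF hTR hTL hN hRq
  have hpZ := zs_smul_mem (du_Lev.res h) (𝔖.dat a) (la_shortExact (du_AK A K hA))
    (la_X (du_AK A K hA)) (la_isoMid (du_AK A K hA)) hpA hR hF hTR hTL hN hRq
  have hg := gl_card_eq (p := p) (du_Cinf 𝔖 a (du_R A K hA h))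
    (ld_Loc (𝔖.dat a) (du_R A K hA h)) (ld_Nrm (du_R A K hA h) (𝔖.dat a).C)
    (ld_pre (𝔖.dat a) (du_i A K hA h)).range (du_Vinf 𝔖 a (du_i A K hA h))
    (du_Vinf_le_range 𝔖 a _) (du_cap_mem 𝔖 a _ hR) ?_ habs hpX hpZ
  · rw [hg, ← hz]
    exact congrArg (fun D => Nat.card ↥(ds_sha D (du_AΓ A K hA h) 1)) hD.symm
  · rintro _ ⟨φ, rfl⟩
    obtain ⟨n, hn, hmem⟩ := du_cap_mem 𝔖 a _ hF φ
    refine ⟨n, hn, ?_⟩
    rw [← map_nsmul]
    exact ⟨_, hmem, rfl⟩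

end OneLevel

section Main

variable {p : ℕ} [hp : Fact p.Prime] {S : Finset Nat.Primes} (𝔖 : du_Seam p S)
  (M : Rep.{0} (ZMod p) GQ) [FiniteDimensional (ZMod p) M] (K : du_Lev S)
  (hA : ∀ σ ∈ K.L.fixingSubgroup, ∀ x : (M.dualTwist (cycloChar p)).V,
    (M.dualTwist (cycloChar p)).ρ σ x = x)

/-- The lattices pulled back from `Γ_K` are trivial on `Gal(L_a/K)`. -/
lemma du_res_rel_trivial {a : du_Lev S} (h : K ≤ a) (R : Rep.{0} ℤ K.Γ) (g : a.Γ)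
    (hg : g ∈ a.rel K) (y : R.V) : (Rep.res (du_Lev.res h) R).ρ g y = y := by
  have h1 : (Rep.res (du_Lev.res h) R).ρ g y = R.ρ (du_Lev.res h g) y := rfl
  have h2 : du_Lev.res h g = 1 := by
    rw [← MonoidHom.mem_ker, du_Lev.ker_res]
    exact hg
  rw [h1, h2, map_one]
  rfl

/-- **The Poitou–Tate count.**  From the seam, Tate–Nakayama at every level, absorption of
norms and the `X`-side identification: both Tate–Shafarevich groups are finite of the same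
cardinality. -/
theorem du_main
    (hTN : ∀ a : du_Lev S, ld_TNR (𝔖.dat a).P ∧ ld_TNL (𝔖.dat a).P ∧
      ∀ q, ld_TNR ((𝔖.dat a).Pq q))
    (habs : ∃ a₁ : du_Lev S, K ≤ a₁ ∧ ∀ a : du_Lev S, a₁ ≤ a → K ≤ a →
      ∀ R : Rep.{0} ℤ a.Γ, ld_IsLattice R → (∀ h ∈ a.rel K, ∀ y : R.V, R.ρ h y = y) →
        ld_Nrm R (𝔖.dat a).C ≤ fd_pSat p (ld_Loc (𝔖.dat a) R))
    (hX : ∃ a₂ : du_Lev S, ∀ (a : du_Lev S) (h : K ≤ a), a₂ ≤ a →
      Nonempty (↥(tl_lvSha2 S M) ≃+ du_XQ 𝔖 (M.dualTwist (cycloChar p)) K hA h)) :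
    Finite ↥(tl_lvSha1 S (M.dualTwist (cycloChar p))) ∧ Finite ↥(tl_lvSha2 S M) ∧
      Nat.card ↥(tl_lvSha1 S (M.dualTwist (cycloChar p))) = Nat.card ↥(tl_lvSha2 S M) := by
  have hfinA : Finite (M.dualTwist (cycloChar p)).V :=
    Module.finite_of_finite (ZMod p)
  have hpA : ∀ x : (M.dualTwist (cycloChar p)).V, p • x = 0 := fun x =>
    ZModModule.char_nsmul_eq_zero p x
  have hpM : ∀ x : tl_Act M, p • x = 0 := fun x =>
    ZModModule.char_nsmul_eq_zero p x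
  obtain ⟨a₁, -, habs⟩ := habs
  obtain ⟨a₂, hX⟩ := hX
  let a₀ := du_Lev.sup (du_Lev.sup K a₁) a₂
  have hK₀ : K ≤ a₀ := le_trans (du_Lev.le_sup_left K a₁) (du_Lev.le_sup_left _ a₂)
  have h1₀ : a₁ ≤ a₀ := le_trans (du_Lev.le_sup_right K a₁) (du_Lev.le_sup_left _ a₂)
  have h2₀ : a₂ ≤ a₀ := du_Lev.le_sup_right _ a₂
  have hcard : ∀ (a : du_Lev S) (h : K ≤ a), a₀ ≤ a →
      Nat.card ↥(ds_sha (du_Dec a) (du_AΓ (M.dualTwist (cycloChar p)) K hA h) 1) =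
        Nat.card ↥(tl_lvSha2 S M) := by
    intro a h ha
    obtain ⟨e⟩ := hX a h (le_trans h2₀ ha)
    rw [Nat.card_congr e.toEquiv]
    refine du_level_card 𝔖 (M.dualTwist (cycloChar p)) K hA h hpA (hTN a).1 (hTN a).2.1
      (hTN a).2.2 ?_ ?_
    · exact habs a (le_trans h1₀ ha) h _ (du_isLattice_R _ K hA h)
        (fun g hg y => du_res_rel_trivial K h _ g hg y)
    · intro x hx
      have h0 : p • e.symm (QuotientAddGroup.mk ⟨x, hx⟩) = 0 := by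
        apply Subtype.ext
        rw [AddSubgroup.coe_nsmul]
        exact lvH2_nsmul_eq_zero hpM _
      have h1 : p • (QuotientAddGroup.mk ⟨x, hx⟩ :
          du_XQ 𝔖 (M.dualTwist (cycloChar p)) K hA h) = 0 := by
        have := congrArg e h0
        rwa [map_nsmul, AddEquiv.apply_symm_apply, map_zero] at this
      rw [← QuotientAddGroup.mk_nsmul, QuotientAddGroup.eq_zero_iff] at h1
      exact h1
  have hc : Nat.card ↥(tl_lvSha2 S M) ≠ 0 := by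
    rw [← hcard a₀ hK₀ le_rfl]
    have : Finite (du_AΓ (M.dualTwist (cycloChar p)) K hA hK₀).V := hfinA
    have : Finite (groupCohomology (du_AΓ (M.dualTwist (cycloChar p)) K hA hK₀) 1) :=
      du_finite_H1 _
    exact Nat.card_pos.ne'
  obtain ⟨hf1, hc1⟩ := du_stable (M.dualTwist (cycloChar p)) K hA _ hc a₀ hcard
  exact ⟨hf1, Nat.finite_of_card_ne_zero hc, hc1⟩

end Main

section Result

variable {p : ℕ} [Fact p.Prime]

/-- **S55 from the seam.**  The statement of S55, from a term of `du_Seam p S`, Tate–Nakayama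
for its class modules, absorption of norms and the `X`-side identification. -/
theorem du_result (hp2 : p ≠ 2) (S : Finset Nat.Primes) (hpS : pPrime p ∈ S)
    (M : Rep.{0} (ZMod p) GQ) [FiniteDimensional (ZMod p) M]
    (hsm : ∀ m : M, ∃ F : IntermediateField ℚ Qbar, FiniteDimensional ℚ F ∧
      ∀ s ∈ F.fixingSubgroup, M.ρ s m = m)
    (hMur : ∀ q : Nat.Primes, q ∉ S → ∀ A : ValuationSubring Qbar,
      A.LiesOverPrime (q : ℕ) → ∀ g ∈ A.inertiaSubgroupIn ℚ, M.ρ g = 1)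
    (𝔖 : du_Seam p S)
    (hTN : ∀ a : du_Lev S, ld_TNR (𝔖.dat a).P ∧ ld_TNL (𝔖.dat a).P ∧
      ∀ q, ld_TNR ((𝔖.dat a).Pq q))
    (habs : ∀ K : du_Lev S, ∃ a₁ : du_Lev S, K ≤ a₁ ∧ ∀ a : du_Lev S, a₁ ≤ a → K ≤ a →
      ∀ R : Rep.{0} ℤ a.Γ, ld_IsLattice R → (∀ h ∈ a.rel K, ∀ y : R.V, R.ρ h y = y) →
        ld_Nrm R (𝔖.dat a).C ≤ fd_pSat p (ld_Loc (𝔖.dat a) R))
    (hX : ∀ (K : du_Lev S), (∀ σ ∈ K.L.fixingSubgroup, M.ρ σ = 1) →
      (∀ σ ∈ K.L.fixingSubgroup, cycloChar p σ = 1) →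
      ∀ hA : (∀ σ ∈ K.L.fixingSubgroup, ∀ x : (M.dualTwist (cycloChar p)).V,
        (M.dualTwist (cycloChar p)).ρ σ x = x),
      ∃ a₂ : du_Lev S, ∀ (a : du_Lev S) (h : K ≤ a), a₂ ≤ a →
        Nonempty (↥(tl_lvSha2 S M) ≃+ du_XQ 𝔖 (M.dualTwist (cycloChar p)) K hA h)) :
    ∃ B : sha₁ S (M.dualTwist (cycloChar p)) →ₗ[ZMod p] sha₂ S M →ₗ[ZMod p] ZMod p,
      (∀ y, (∀ x, B y x = 0) → y = 0) ∧ (∀ x, (∀ y, B y x = 0) → x = 0) := by
  obtain ⟨K, hM, hχ, hA'⟩ := du_exists_K0 S M hpS hsm hMur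
  have hA : ∀ σ ∈ K.L.fixingSubgroup, ∀ x : (M.dualTwist (cycloChar p)).V,
      (M.dualTwist (cycloChar p)).ρ σ x = x := by
    intro σ hσ x
    rw [hA' σ hσ]
    rfl
  obtain ⟨hf1, hf2, hc⟩ := du_main 𝔖 M K hA hTN (habs K) (hX K hM hχ hA)
  exact tl_result_of_card hp2 S M hf1 hf2 hc

end Result

end Fermat.Agent.S55
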