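import Fermat.Agent.S55.Dual.FinDualExtra

/-!
# The final count of the lattice route (block [D] of S55, prefix `gl_`)

Pure abelian-group bookkeeping.  `G` plays the role of `Hom_Γ(R, C_S(L))` at a large level `L`,
`Cinf` of the homomorphisms landing in `C°_S(L')` for some `L' ⊇ L`, `Loc` of the semi-local
images, `Nrm` of the norms, `V` of the image of `Hom_Γ(F, C_S(L))` and `Vinf` of the image of
the `C°`-valued ones.  The `X`-side (step 2 + 3X) counts `Sha²` by `Cinf / (Loc + Vinf)`, the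
`Z`-side (step 1 + duality) counts `Sha¹` at level `L` by `G / (sat_p (Nrm + Loc) + V)`.
Capitulation and absorption make the two quotients equinumerous.
-/

set_option autoImplicit false

namespace Fermat.Agent.S55

open AddSubgroup

variable {p : ℕ} [hp : Fact p.Prime]

/-- Absorption turns the saturation of norms plus local images into the saturation of local
images. -/
lemma gl_pSat_absorb {G : Type*} [AddCommGroup G] (Nrm Loc : AddSubgroup G)
    (habs : Nrm ≤ fd_pSat p Loc) : fd_pSat p (Nrm ⊔ Loc) = fd_pSat p Loc := by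
  apply le_antisymm
  · calc fd_pSat p (Nrm ⊔ Loc) ≤ fd_pSat p (fd_pSat p Loc) :=
          fd_pSat_mono p (sup_le habs (fd_le_pSat p Loc))
      _ = fd_pSat p Loc := fd_pSat_idem p Loc
  · exact fd_pSat_mono p le_sup_right

/-- **The final count.** -/
theorem gl_card_eq {G : Type*} [AddCommGroup G] (Cinf Loc Nrm V Vinf : AddSubgroup G)
    (hVV : Vinf ≤ V)
    (hcapR : ∀ g : G, ∃ n : ℕ, ¬ p ∣ n ∧ n • g ∈ Cinf)
    (hcapF : ∀ v ∈ V, ∃ n : ℕ, ¬ p ∣ n ∧ n • v ∈ Vinf)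
    (habs : Nrm ≤ fd_pSat p Loc)
    (hpX : ∀ x ∈ Cinf, p • x ∈ Loc ⊔ Vinf)
    (hpZ : ∀ g : G, p • g ∈ fd_pSat p (Nrm ⊔ Loc) ⊔ V) :
    Nat.card (Cinf ⧸ (Loc ⊔ Vinf).addSubgroupOf Cinf) =
      Nat.card (G ⧸ (fd_pSat p (Nrm ⊔ Loc) ⊔ V)) := by
  rw [gl_pSat_absorb Nrm Loc habs] at hpZ ⊢
  refine fdx_card_quot_compare Cinf (Loc ⊔ Vinf) (fd_pSat p Loc ⊔ V)
    (sup_le ((fd_le_pSat p Loc).trans le_sup_left) (hVV.trans le_sup_right)) hcapR ?_ hpX hpZ
  intro x _ hx
  obtain ⟨s, hs, v, hv, rfl⟩ := AddSubgroup.mem_sup.mp hx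
  obtain ⟨n₁, hn₁, hs'⟩ := hs
  obtain ⟨n₂, hn₂, hv'⟩ := hcapF v hv
  refine ⟨n₁ * n₂, fun h => (hp.out.dvd_mul.mp h).elim hn₁ hn₂, ?_⟩
  rw [smul_add]
  refine add_mem (mem_sup_left ?_) (mem_sup_right ?_)
  · rw [mul_comm, mul_smul]
    exact nsmul_mem hs' n₂
  · rw [mul_smul]
    exact nsmul_mem hv' n₁

/-- Stabilisation: an increasing directed union of finite subsets of constant cardinality. -/
theorem gl_card_of_stable {X : Type*} {I : Type*} [Preorder I] [IsDirected I (· ≤ ·)]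
    (U : I → Set X) (hmono : ∀ i j, i ≤ j → U i ⊆ U j) (hcov : ∀ x : X, ∃ i, x ∈ U i)
    (i₁ : I) (c : ℕ) (hc : c ≠ 0) (hcard : ∀ i, i₁ ≤ i → Nat.card (U i) = c) :
    Finite X ∧ Nat.card X = c := by
  have hfin : ∀ i, i₁ ≤ i → (U i).Finite := fun i hi =>
    Set.finite_coe_iff.mp (Nat.finite_of_card_ne_zero (by rw [hcard i hi]; exact hc))
  have huniv : U i₁ = Set.univ := by
    apply Set.eq_univ_of_forall
    intro x
    obtain ⟨i, hi⟩ := hcov x
    obtain ⟨j, hij, h₁j⟩ := exists_ge_ge i i₁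
    have hsub : U i₁ ⊆ U j := hmono i₁ j h₁j
    have heq : U i₁ = U j := by
      apply Set.eq_of_subset_of_ncard_le hsub ?_ (hfin j h₁j)
      rw [← Nat.card_coe_set_eq, ← Nat.card_coe_set_eq, hcard j h₁j, hcard i₁ le_rfl]
    rw [heq]
    exact hmono i j hij hi
  have hfinX : Finite X := by
    have : (Set.univ : Set X).Finite := huniv ▸ hfin i₁ le_rfl
    exact Set.finite_univ_iff.mp this
  refine ⟨hfinX, ?_⟩
  rw [← hcard i₁ le_rfl, huniv]
  exact (Nat.card_congr (Equiv.Set.univ X)).symm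

end Fermat.Agent.S55
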