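import Fermat.Agent.S55.Level.InfRes
import Fermat.Agent.S55.Trans.LocH90

/-!
# Local inflation is injective on `H²` (block [D] of S55, used by B-INJ and the `X`-side)

For a finite quotient `Q` of the local Galois group `G_q` whose kernel acts trivially on a lattice
`Y`, inflation `H²(Γ, X') → lvH2 (tl_levelsLoc q) (Hom(Y, (PadicAlgCl q)ˣ))` is injective:
degree-2 inflation–restriction (`LvQuot.H2_injective_of_ker`) plus Hilbert 90 for the kernel
(`tl_locUnits_coboundary`).  The degree-1 statement `LvQuot.H1_injective` needs no hypothesis.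
-/

set_option autoImplicit false

open ExtCitation groupCohomology

namespace Fermat.Agent.S55

variable (q : Nat.Primes) {Y : Type*} [AddCommGroup Y] [DistribMulAction (primeLocalGaloisGroup q) Y]
  {Γ : Type*} [Group Γ] [Finite Γ] {X' : Type*} [AddCommGroup X'] [DistribMulAction Γ X']

/-- Level-constant 1-cocycles of a subgroup `H` of `G_q` acting trivially on a lattice `Y`, with
values in `Hom(Y, (PadicAlgCl q)ˣ)`, are coboundaries. -/
theorem li_hom_locUnits_coboundary (H : Subgroup (primeLocalGaloisGroup q))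
    (hY : ∀ n ∈ H, ∀ y : Y, n • y = y) {m : ℕ} (e : Y ≃+ (Fin m → ℤ))
    (c₀ : H → LvHom Y (tl_locUnits q)) (hc : IsCocycle₁ c₀)
    (hlc : ((tl_levelsLoc q).comap H.subtype).IsLC1 c₀) :
    ∃ β : LvHom Y (tl_locUnits q), ∀ n : H, c₀ n = n • β - β := by
  obtain ⟨β, hβ⟩ := LvHom.isCoboundary_of_trivial_action (N := H) (Y := Y) (X := tl_locUnits q)
    ((tl_levelsLoc q).comap H.subtype) (fun n y => hY n n.2 y) e
    (fun c hc' hlc' => tl_locUnits_coboundary q H c hc' hlc') c₀
    (fun n n' => hc n n') hlc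
  exact ⟨β, fun n => hβ n⟩

/-- **Local inflation is injective on `H²`** for `Hom(Y, (PadicAlgCl q)ˣ)`, `Y` a lattice on which
the kernel of the finite quotient acts trivially. -/
theorem li_H2_injective (Q : LvQuot (tl_levelsLoc q) (LvHom Y (tl_locUnits q)) Γ X')
    (hY : ∀ n ∈ Q.q.ker, ∀ y : Y, n • y = y) {m : ℕ} (e : Y ≃+ (Fin m → ℤ)) :
    Function.Injective Q.mor.H2 :=
  Q.H2_injective_of_ker fun c₀ hc hlc => li_hom_locUnits_coboundary q Q.q.ker hY e c₀ hc hlc

end Fermat.Agent.S55
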