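import Fermat.Agent.S55.Dual.ModulesSES
import Fermat.Agent.S55.Dual.ModulesES
import Fermat.Agent.S55.Dual.Lattice
import Fermat.Agent.S55.Level.ShaSeq
import Fermat.Agent.S55.Trans.H2Bridge
import Fermat.Agent.S55.Trans.Final

/-!
# S55 / [D], leaf D2c: the modules of step (2) and the two short exact sequences

Data: `M : Rep (ZMod p) Gal(ℚ̄/ℚ)` finite-dimensional, a finite group `Δ` with `π₀ : Gal(ℚ̄/ℚ) →* Δ`
(think `Δ = Gal(K₀/ℚ)`), `A : Rep ℤ Δ` with `e : A.V ≃+ (M.dualTwist (cycloChar p)).V` equivariant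
(`he`), a primitive `p`-th root of unity `ζ`; `0 → la_R A → la_F A → A → 0` is the lattice resolution
of `Dual/Lattice.lean`.

* `dm_Yg π₀ Y`, `dm_Yl π₀ q Y`: a `Δ`-module `Y` as a module over the global / local Galois group;
* `dm_T S π₀ Y = LvHom (dm_Yg π₀ Y) (dm_ES S)`, `dm_Tl π₀ q Y = LvHom (dm_Yl π₀ q Y) (tl_locUnits q)`,
  smooth for lattices `Y` (`dm_isSmooth_T`, `dm_isSmooth_Tl`);
* `dm_locT S π₀ q Y : LvMor (tl_levelsS S) (dm_T S π₀ Y) (tl_levelsLoc q) (dm_Tl π₀ q Y)`;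
* `dm_Eglob : LvSES GQ (tl_Act M) (dm_T S π₀ (la_F A)) (dm_T S π₀ (la_R A))`,
  `dm_Eloc q`, `dm_t q : LvSESMor dm_Eglob (tl_levelsS S) (dm_Eloc q) (tl_levelsLoc q)` with
  `mA = tl_locMor S (primeLocalToGlobal q) M`, `mB = dm_locT .. (la_F A)`, `mC = dm_locT .. (la_R A)`;
* `dm_XR`, `dm_step2 : ↥(tl_lvSha2 S M) ≃+ dm_XR ⧸ image of H¹(G_S, T_F)` under the hypotheses
  (V1) local vanishing and (V2) injectivity of localisation on `p`-torsion of `H²(G_S, T_F)`.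
-/

set_option autoImplicit false

open ExtCitation CategoryTheory

namespace Fermat.Agent.S55

local notation "GQ" => (AlgebraicClosure ℚ ≃ₐ[ℚ] AlgebraicClosure ℚ)
local notation "Qbar" => AlgebraicClosure ℚ

noncomputable section

/-! ### The carriers -/

section Carriers

variable {Δ : Type} [Group Δ]

/-- A `Δ`-module as a `Gal(ℚ̄/ℚ)`-module through `π₀`. -/
abbrev dm_Yg (π₀ : GQ →* Δ) (Y : Rep.{0} ℤ Δ) : Type := tl_Act (Rep.res π₀ Y)

/-- A `Δ`-module as a module over the local Galois group at `q`. -/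
abbrev dm_Yl (π₀ : GQ →* Δ) (q : Nat.Primes) (Y : Rep.{0} ℤ Δ) : Type :=
  tl_Act (Rep.res (π₀.comp (primeLocalToGlobal q)) Y)

/-- The global module `T_Y = Hom(Y, E_S)`. -/
abbrev dm_T (S : Finset Nat.Primes) (π₀ : GQ →* Δ) (Y : Rep.{0} ℤ Δ) : Type :=
  LvHom (dm_Yg π₀ Y) (dm_ES S)

/-- The local module `T_Y^q = Hom(Y, (ℚ̄_q)ˣ)`. -/
abbrev dm_Tl (π₀ : GQ →* Δ) (q : Nat.Primes) (Y : Rep.{0} ℤ Δ) : Type :=
  LvHom (dm_Yl π₀ q Y) (tl_locUnits q)

theorem dm_Yg_smul (π₀ : GQ →* Δ) (Y : Rep.{0} ℤ Δ) (g : GQ) (y : dm_Yg π₀ Y) :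
    g • y = Y.ρ (π₀ g) y := rfl

theorem dm_Yl_smul (π₀ : GQ →* Δ) (q : Nat.Primes) (Y : Rep.{0} ℤ Δ)
    (g : primeLocalGaloisGroup q) (y : dm_Yl π₀ q Y) :
    g • y = Y.ρ (π₀ (primeLocalToGlobal q g)) y := rfl

variable (S : Finset Nat.Primes) (π₀ : GQ →* Δ)

/-- `Y` is smooth when `π₀` is trivial on a level. -/
theorem dm_isSmooth_Yg (hπ₀ : ∃ U ∈ (tl_levelsS S).levels, U ≤ π₀.ker) (Y : Rep.{0} ℤ Δ) :
    (tl_levelsS S).IsSmooth (dm_Yg π₀ Y) := by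
  obtain ⟨U, hU, hle⟩ := hπ₀
  intro y
  refine ⟨U, hU, fun u hu => ?_⟩
  rw [dm_Yg_smul, MonoidHom.mem_ker.1 (hle hu), map_one]
  rfl

theorem dm_isSmooth_Yl (hπ₀ : ∃ U ∈ (tl_levelsS S).levels, U ≤ π₀.ker) (q : Nat.Primes)
    (Y : Rep.{0} ℤ Δ) : (tl_levelsLoc q).IsSmooth (dm_Yl π₀ q Y) := by
  obtain ⟨U, hU, hle⟩ := hπ₀
  intro y
  refine ⟨U.comap (primeLocalToGlobal q), ⟨U, tl_levelsS_le_levelsAll hU, rfl⟩, fun u hu => ?_⟩
  rw [dm_Yl_smul, MonoidHom.mem_ker.1 (hle hu), map_one]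
  rfl

/-- A free abelian group of finite rank is finitely generated. -/
theorem dm_fg_of_free {Y : Type*} [AddCommGroup Y] (h : ∃ n, Nonempty (Y ≃+ (Fin n → ℤ))) :
    AddGroup.FG Y := by
  obtain ⟨n, ⟨e⟩⟩ := h
  exact lvFG_of_free e

/-- `T_Y` is smooth for a lattice `Y`. -/
theorem dm_isSmooth_T (hπ₀ : ∃ U ∈ (tl_levelsS S).levels, U ≤ π₀.ker) (Y : Rep.{0} ℤ Δ)
    (hY : ∃ n, Nonempty (Y.V ≃+ (Fin n → ℤ))) : (tl_levelsS S).IsSmooth (dm_T S π₀ Y) :=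
  LvHom.isSmooth _ (dm_isSmooth_Yg S π₀ hπ₀ Y) (dm_isSmooth_ES S) (dm_fg_of_free hY)

/-- `T_Y^q` is smooth for a lattice `Y`. -/
theorem dm_isSmooth_Tl (hπ₀ : ∃ U ∈ (tl_levelsS S).levels, U ≤ π₀.ker) (q : Nat.Primes)
    (Y : Rep.{0} ℤ Δ) (hY : ∃ n, Nonempty (Y.V ≃+ (Fin n → ℤ))) :
    (tl_levelsLoc q).IsSmooth (dm_Tl π₀ q Y) :=
  LvHom.isSmooth _ (dm_isSmooth_Yl S π₀ hπ₀ q Y) (tl_isSmooth_locUnits q) (dm_fg_of_free hY)

/-- The localisation morphism `T_Y → T_Y^q`. -/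
def dm_locT (q : Nat.Primes) (Y : Rep.{0} ℤ Δ) :
    LvMor (tl_levelsS S) (dm_T S π₀ Y) (tl_levelsLoc q) (dm_Tl π₀ q Y) :=
  LvHom.lvMor (tl_levelsS S) (tl_levelsLoc q) (primeLocalToGlobal q)
    (fun U hU => ⟨U.comap (primeLocalToGlobal q), ⟨U, tl_levelsS_le_levelsAll hU, rfl⟩, le_rfl⟩)
    (AddMonoidHom.id Y.V) (fun _ _ => rfl) (dm_ESloc S q) (dm_ESloc_smul S q)

theorem dm_locT_f (q : Nat.Primes) (Y : Rep.{0} ℤ Δ) :
    (dm_locT S π₀ q Y).f = primeLocalToGlobal q := rfl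

theorem dm_locT_φ_apply (q : Nat.Primes) (Y : Rep.{0} ℤ Δ) (φ : dm_T S π₀ Y) (y : Y.V) :
    (dm_locT S π₀ q Y).φ φ y = dm_ESloc S q (φ y) := rfl

end Carriers

/-! ### The lattice resolution, elementwise -/

section LatticeElem

/-- Elementwise exactness of a short exact sequence of representations. -/
theorem dm_exact_apply {k G : Type} [CommRing k] [Group G] {X : ShortComplex (Rep.{0} k G)}
    (hX : X.ShortExact) {y : X.X₂.V} (hy : X.g.hom y = 0) : ∃ x : X.X₁.V, X.f.hom x = y := by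
  have hex : LinearMap.range X.f.hom.toLinearMap = LinearMap.ker X.g.hom.toLinearMap :=
    (hX.exact.map (forget₂ (Rep k G) (ModuleCat k))).moduleCat_range_eq_ker
  have : y ∈ LinearMap.ker X.g.hom.toLinearMap := hy
  rw [← hex] at this
  exact this

variable {Δ : Type} [Group Δ] (A : Rep.{0} ℤ Δ)

theorem dm_la_ι_injective : Function.Injective (la_ι A).hom :=
  (Rep.mono_iff_injective (la_ι A)).mp inferInstance

theorem dm_la_π_ι (r : (la_R A).V) : (la_π A).hom ((la_ι A).hom r) = 0 := by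
  have h := la_ι_π A
  have := congrArg (fun f => f.hom r) h
  exact this

theorem dm_la_exact {f : (la_F A).V} (hf : (la_π A).hom f = 0) :
    ∃ r : (la_R A).V, (la_ι A).hom r = f :=
  dm_exact_apply (X := la_seq A) (la_shortExact A) hf

end LatticeElem

/-! ### The two inputs -/

section Inputs

instance dm_finiteDimensional_act {k G : Type} [Field k] [Group G] (M : Rep.{0} k G)
    [FiniteDimensional k M] : FiniteDimensional k (tl_Act M) :=
  inferInstanceAs (FiniteDimensional k M)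

instance dm_finiteDimensional_res {k G H : Type} [Field k] [Group G] [Group H] (r : H →* G)
    (M : Rep.{0} k G) [FiniteDimensional k M] : FiniteDimensional k (Rep.res r M) :=
  inferInstanceAs (FiniteDimensional k M)

variable {p : ℕ} [Fact p.Prime] (S : Finset Nat.Primes) (hpS : pPrime p ∈ S)
  (M : Rep.{0} (ZMod p) GQ)
  {Δ : Type} [Group Δ] (π₀ : GQ →* Δ) (A : Rep.{0} ℤ Δ)
  (e : A.V ≃+ (M.dualTwist (cycloChar p)).V)
  (he : ∀ (σ : GQ) (a : A.V), e (A.ρ (π₀ σ) a) = (M.dualTwist (cycloChar p)).ρ σ (e a))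
  {ζ : Qbar} (hζ : IsPrimitiveRoot ζ p)

/-- The augmentation `F → M^*`, as an additive map. -/
def dm_varpi : (la_F A).V →+ Module.Dual (ZMod p) M.V :=
  e.toAddMonoidHom.comp (la_πAdd A)

theorem dm_varpi_apply (f : (la_F A).V) : dm_varpi M A e f = e ((la_π A).hom f) := rfl

theorem dm_varpi_surjective : Function.Surjective (dm_varpi M A e) := by
  intro a
  obtain ⟨f, hf⟩ := la_π_surjective A (e.symm a)
  exact ⟨f, by rw [dm_varpi_apply, hf, AddEquiv.apply_symm_apply]⟩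

theorem dm_varpi_eq_zero_iff (f : (la_F A).V) : dm_varpi M A e f = 0 ↔ (la_π A).hom f = 0 := by
  rw [dm_varpi_apply, AddEquiv.map_eq_zero_iff]

include he in
theorem dm_varpi_smul (σ : GQ) (f : (la_F A).V) (m : M.V) :
    dm_varpi M A e ((la_F A).ρ (π₀ σ) f) m =
      (cycloChar p σ : ZMod p) * dm_varpi M A e f (M.ρ σ⁻¹ m) := by
  rw [dm_varpi_apply, Rep.hom_comm_apply, he, Rep.dualTwist_ρ_apply]
  rfl

variable [FiniteDimensional (ZMod p) M]

/-- **The global input**: `0 → R → F → M^*(1) → 0` over `Gal(ℚ̄/ℚ)` and `X = E_S`. -/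
def dm_inputGlob :
    dm_Input p GQ (tl_Act M) (dm_Yg π₀ (la_F A)) (dm_Yg π₀ (la_R A)) (dm_ES S) where
  ϖ := dm_varpi M A e
  ι := ((la_ι A).hom : (la_R A).V →+ (la_F A).V)
  z := dm_zeta S hpS hζ
  χ := cycloChar p
  ϖ_surj := dm_varpi_surjective M A e
  ι_inj := dm_la_ι_injective A
  ι_equiv g r := Rep.hom_comm_apply (la_ι A) (π₀ g) r
  ϖ_ι r := (dm_varpi_eq_zero_iff M A e _).2 (dm_la_π_ι A r)
  exact f hf := dm_la_exact A ((dm_varpi_eq_zero_iff M A e f).1 hf)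
  hz := dm_nsmul_zeta S hpS hζ
  hz0 := dm_zeta_ne_zero S hpS hζ
  tors := dm_ES_torsion S hpS hζ
  div := dm_ES_divisible S (p := pPrime p) hpS
  zχ := dm_smul_zeta S hpS hζ
  ϖχ g f m := dm_varpi_smul M π₀ A e he g f m

/-- **The local input** at `q`: the same resolution over the local Galois group and
`X = (ℚ̄_q)ˣ`. -/
def dm_inputLoc (q : Nat.Primes) :
    dm_Input p (primeLocalGaloisGroup q) (tl_Act (Rep.res (primeLocalToGlobal q) M))
      (dm_Yl π₀ q (la_F A)) (dm_Yl π₀ q (la_R A)) (tl_locUnits q) where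
  ϖ := dm_varpi M A e
  ι := ((la_ι A).hom : (la_R A).V →+ (la_F A).V)
  z := dm_zetaLoc S hpS hζ q
  χ := (cycloChar p).comp (primeLocalToGlobal q)
  ϖ_surj := dm_varpi_surjective M A e
  ι_inj := dm_la_ι_injective A
  ι_equiv g r := Rep.hom_comm_apply (la_ι A) (π₀ (primeLocalToGlobal q g)) r
  ϖ_ι r := (dm_varpi_eq_zero_iff M A e _).2 (dm_la_π_ι A r)
  exact f hf := dm_la_exact A ((dm_varpi_eq_zero_iff M A e f).1 hf)
  hz := dm_nsmul_zetaLoc S hpS hζ q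
  hz0 := dm_zetaLoc_ne_zero S hpS hζ q
  tors := dm_locUnits_torsion S hpS hζ q
  div := tl_locUnits_divisible q p (Fact.out : p.Prime).ne_zero
  zχ := dm_smul_zetaLoc S hpS hζ q
  ϖχ g f m := by
    have := dm_varpi_smul M π₀ A e he (primeLocalToGlobal q g) f m
    rw [← map_inv] at this
    exact this

/-- **The localisation morphism between the two inputs.** -/
def dm_inputMor (q : Nat.Primes) :
    dm_InputMor (dm_inputGlob S hpS M π₀ A e he hζ) (dm_inputLoc S hpS M π₀ A e he hζ q) where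
  r := primeLocalToGlobal q
  mV := AddMonoidHom.id M.V
  κF := AddMonoidHom.id (la_F A).V
  κR := AddMonoidHom.id (la_R A).V
  l := dm_ESloc S q
  mV_equiv _ _ := rfl
  κF_equiv _ _ := rfl
  κR_equiv _ _ := rfl
  l_equiv := dm_ESloc_smul S q
  l_z := rfl
  ι_κ _ := rfl
  ϖ_κ _ _ := rfl

/-- **The global short exact sequence** `0 → M → T_F → T_R → 0`. -/
def dm_Eglob : LvSES GQ (tl_Act M) (dm_T S π₀ (la_F A)) (dm_T S π₀ (la_R A)) :=
  (dm_inputGlob S hpS M π₀ A e he hζ).ses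

/-- **The local short exact sequence** `0 → M → T_F^q → T_R^q → 0`. -/
def dm_Eloc (q : Nat.Primes) :
    LvSES (primeLocalGaloisGroup q) (tl_Act (Rep.res (primeLocalToGlobal q) M))
      (dm_Tl π₀ q (la_F A)) (dm_Tl π₀ q (la_R A)) :=
  (dm_inputLoc S hpS M π₀ A e he hζ q).ses

/-- **The localisation morphism of short exact sequences.** -/
def dm_t (q : Nat.Primes) :
    LvSESMor (dm_Eglob S hpS M π₀ A e he hζ) (tl_levelsS S)
      (dm_Eloc S hpS M π₀ A e he hζ q) (tl_levelsLoc q) :=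
  (dm_inputMor S hpS M π₀ A e he hζ q).sesMor (tl_levelsS S) (tl_levelsLoc q)
    (fun U hU => ⟨U.comap (primeLocalToGlobal q), ⟨U, tl_levelsS_le_levelsAll hU, rfl⟩, le_rfl⟩)

theorem dm_t_mA (q : Nat.Primes) :
    (dm_t S hpS M π₀ A e he hζ q).mA = tl_locMor S (primeLocalToGlobal q) M := rfl

theorem dm_t_mB (q : Nat.Primes) :
    (dm_t S hpS M π₀ A e he hζ q).mB = dm_locT S π₀ q (la_F A) := rfl

theorem dm_t_mC (q : Nat.Primes) :
    (dm_t S hpS M π₀ A e he hζ q).mC = dm_locT S π₀ q (la_R A) := rfl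

theorem dm_Eglob_i_apply (m : M.V) (f : (la_F A).V) :
    (dm_Eglob S hpS M π₀ A e he hζ).i m f =
      dm_pair (dm_zeta S hpS hζ) (dm_nsmul_zeta S hpS hζ) (e ((la_π A).hom f) m) := rfl

theorem dm_Eglob_π_apply (φ : dm_T S π₀ (la_F A)) (r : (la_R A).V) :
    (dm_Eglob S hpS M π₀ A e he hζ).π φ r = φ ((la_ι A).hom r) := rfl

theorem dm_Eloc_i_apply (q : Nat.Primes) (m : M.V) (f : (la_F A).V) :
    (dm_Eloc S hpS M π₀ A e he hζ q).i m f =
      dm_pair (dm_zetaLoc S hpS hζ q) (dm_nsmul_zetaLoc S hpS hζ q) (e ((la_π A).hom f) m) := rfl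

theorem dm_Eloc_π_apply (q : Nat.Primes) (φ : dm_Tl π₀ q (la_F A)) (r : (la_R A).V) :
    (dm_Eloc S hpS M π₀ A e he hζ q).π φ r = φ ((la_ι A).hom r) := rfl

/-! ### Step (2) -/

/-- `X_R`: the locally trivial classes of `H¹(G_S, T_R)`. -/
def dm_XR : AddSubgroup (lvH1 (tl_levelsS S) (dm_T S π₀ (la_R A))) :=
  lvSha1 (fun q : ↥S => dm_locT S π₀ q.1 (la_R A))

omit [FiniteDimensional (ZMod p) M] in
theorem dm_nsmul_act (a : tl_Act M) : p • a = 0 := by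
  have h : (p : ZMod p) • a = 0 := by rw [ZMod.natCast_self, zero_smul]
  rw [Nat.cast_smul_eq_nsmul] at h
  exact h

include e in
theorem dm_finite_A : Finite A.V := by
  have : Finite (Module.Dual (ZMod p) M.V) := Module.finite_of_finite (ZMod p)
  exact Finite.of_equiv _ e.symm.toEquiv

variable [Finite Δ]

include e in
theorem dm_isSmooth_TF (hπ₀ : ∃ U ∈ (tl_levelsS S).levels, U ≤ π₀.ker) :
    (tl_levelsS S).IsSmooth (dm_T S π₀ (la_F A)) := by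
  have := dm_finite_A M A e
  exact dm_isSmooth_T S π₀ hπ₀ _ (la_free_F A)

include e in
theorem dm_isSmooth_TR (hπ₀ : ∃ U ∈ (tl_levelsS S).levels, U ≤ π₀.ker) :
    (tl_levelsS S).IsSmooth (dm_T S π₀ (la_R A)) := by
  have := dm_finite_A M A e
  exact dm_isSmooth_T S π₀ hπ₀ _ (la_free_R A)

include e in
theorem dm_isSmooth_TlF (hπ₀ : ∃ U ∈ (tl_levelsS S).levels, U ≤ π₀.ker) (q : Nat.Primes) :
    (tl_levelsLoc q).IsSmooth (dm_Tl π₀ q (la_F A)) := by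
  have := dm_finite_A M A e
  exact dm_isSmooth_Tl S π₀ hπ₀ q _ (la_free_F A)

include e in
theorem dm_isSmooth_TlR (hπ₀ : ∃ U ∈ (tl_levelsS S).levels, U ≤ π₀.ker) (q : Nat.Primes) :
    (tl_levelsLoc q).IsSmooth (dm_Tl π₀ q (la_R A)) := by
  have := dm_finite_A M A e
  exact dm_isSmooth_Tl S π₀ hπ₀ q _ (la_free_R A)

/-- **Step (2) of the lattice route**: `Ш²_S(M)` is `X_R` modulo the image of `H¹(G_S, T_F)`,
provided (V1) the local groups `H¹(G_q, T_F^q)` vanish and (V2) localisation is injective on the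
`p`-torsion of `H²(G_S, T_F)`. -/
def dm_step2 (hπ₀ : ∃ U ∈ (tl_levelsS S).levels, U ≤ π₀.ker)
    (V1 : ∀ (q : ↥S) (z : lvH1 (tl_levelsLoc q.1) (dm_Tl π₀ q.1 (la_F A))), z = 0)
    (V2 : ∀ z : lvH2 (tl_levelsS S) (dm_T S π₀ (la_F A)), p • z = 0 →
      (∀ q : ↥S, (dm_locT S π₀ q.1 (la_F A)).H2 z = 0) → z = 0) :
    ↥(tl_lvSha2 S M) ≃+
      (↥(dm_XR S π₀ A) ⧸
        (((dm_Eglob S hpS M π₀ A e he hζ).mπ (tl_levelsS S)).H1.range).addSubgroupOf
          (dm_XR S π₀ A)) :=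
  lvShaEquiv' (dm_Eglob S hpS M π₀ A e he hζ) (tl_levelsS S)
    (fun q : ↥S => dm_t S hpS M π₀ A e he hζ q.1)
    (dm_isSmooth_TF S M π₀ A e hπ₀) (fun q => dm_isSmooth_TlF S M π₀ A e hπ₀ q.1)
    (dm_nsmul_act M) V1 V2

theorem dm_step2_symm_mk (hπ₀ : ∃ U ∈ (tl_levelsS S).levels, U ≤ π₀.ker)
    (V1 : ∀ (q : ↥S) (z : lvH1 (tl_levelsLoc q.1) (dm_Tl π₀ q.1 (la_F A))), z = 0)
    (V2 : ∀ z : lvH2 (tl_levelsS S) (dm_T S π₀ (la_F A)), p • z = 0 →
      (∀ q : ↥S, (dm_locT S π₀ q.1 (la_F A)).H2 z = 0) → z = 0) (x : ↥(dm_XR S π₀ A)) :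
    (((dm_step2 S hpS M π₀ A e he hζ hπ₀ V1 V2).symm (QuotientAddGroup.mk x) :
      ↥(tl_lvSha2 S M)) : lvH2 (tl_levelsS S) (tl_Act M)) =
      (dm_Eglob S hpS M π₀ A e he hζ).δ1 (tl_levelsS S) (dm_isSmooth_TF S M π₀ A e hπ₀) x := rfl

end Inputs

end

end Fermat.Agent.S55
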