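import Fermat.Agent.S55.Level.HomModule
import Fermat.Agent.S55.Dual.ModulesCore

/-!
# S55 / [D], leaf D2c (generic part 2): the `LvSES` `0 → V → LvHom F X → LvHom R X → 0`

* `dm_Input p G V F R X`: the data and hypotheses (a resolution `0 → R → F → V^*(χ) → 0` of the
  twisted dual of a finite-dimensional `ZMod p[G]`-module `V`, and a `p`-divisible `G`-module `X`
  whose `p`-torsion is generated by an element `z` on which `G` acts through `χ`);
* `dm_Input.ses : LvSES G V (LvHom F X) (LvHom R X)`;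
* `dm_InputMor D D'` and `dm_InputMor.sesMor : LvSESMor D.ses L D'.ses LH`.
-/

set_option autoImplicit false

namespace Fermat.Agent.S55

section Input

/-- The input of the construction of the short exact sequence
`0 → V → Hom(F, X) → Hom(R, X) → 0`. -/
structure dm_Input (p : ℕ) [Fact p.Prime] (G : Type*) [Group G]
    (V : Type*) [AddCommGroup V] [Module (ZMod p) V] [DistribMulAction G V]
    (F : Type*) [AddCommGroup F] [DistribMulAction G F]
    (R : Type*) [AddCommGroup R] [DistribMulAction G R]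
    (X : Type*) [AddCommGroup X] [DistribMulAction G X] where
  /-- the augmentation onto the dual of `V` -/
  ϖ : F →+ Module.Dual (ZMod p) V
  /-- the inclusion of the relation module -/
  ι : R →+ F
  /-- the root of unity -/
  z : X
  /-- the character through which `G` acts on `z` -/
  χ : G →* (ZMod p)ˣ
  ϖ_surj : Function.Surjective ϖ
  ι_inj : Function.Injective ι
  ι_equiv : ∀ (g : G) (r : R), ι (g • r) = g • ι r
  ϖ_ι : ∀ r : R, ϖ (ι r) = 0
  exact : ∀ f : F, ϖ f = 0 → ∃ r : R, ι r = f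
  hz : p • z = 0
  hz0 : z ≠ 0
  tors : ∀ x : X, p • x = 0 → ∃ c : ZMod p, x = dm_pair z hz c
  div : ∀ x : X, ∃ y : X, p • y = x
  zχ : ∀ g : G, g • z = dm_pair z hz (χ g : ZMod p)
  ϖχ : ∀ (g : G) (f : F) (m : V), ϖ (g • f) m = (χ g : ZMod p) * ϖ f (g⁻¹ • m)

variable {p : ℕ} [Fact p.Prime] {G : Type*} [Group G]
  {V : Type*} [AddCommGroup V] [Module (ZMod p) V] [DistribMulAction G V]
  {F : Type*} [AddCommGroup F] [DistribMulAction G F]
  {R : Type*} [AddCommGroup R] [DistribMulAction G R]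
  {X : Type*} [AddCommGroup X] [DistribMulAction G X]

namespace dm_Input

variable (D : dm_Input p G V F R X)

/-- The inclusion `V → Hom(F, X)`, `m ↦ (f ↦ ⟨ϖ f, m⟩ • z)`. -/
def i : V →+ LvHom F X :=
  (LvHom.of (Y := F) (X := X)).toAddMonoidHom.comp (dm_i D.ϖ D.z D.hz)

/-- The restriction `Hom(F, X) → Hom(R, X)`. -/
def π : LvHom F X →+ LvHom R X where
  toFun φ := LvHom.of ((LvHom.toHom φ).comp D.ι)
  map_zero' := rfl
  map_add' _ _ := rfl

theorem i_apply (m : V) (f : F) : D.i m f = dm_pair D.z D.hz (D.ϖ f m) := rfl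

theorem π_apply (φ : LvHom F X) (r : R) : D.π φ r = φ (D.ι r) := rfl

/-- **The short exact sequence `0 → V → Hom(F, X) → Hom(R, X) → 0`.** -/
def ses [FiniteDimensional (ZMod p) V] : LvSES G V (LvHom F X) (LvHom R X) where
  i := D.i
  π := D.π
  i_equiv g m := by
    ext f
    rw [LvHom.smul_apply, i_apply, i_apply]
    exact (dm_i_equivariant D.ϖ D.z D.hz D.χ D.zχ D.ϖχ g m f).symm
  π_equiv g φ := by
    ext r
    rw [LvHom.smul_apply, π_apply, π_apply, LvHom.smul_apply, D.ι_equiv]
  i_inj := by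
    intro m m' h
    apply dm_i_injective D.ϖ D.z D.hz D.ϖ_surj D.hz0
    ext f
    exact DFunLike.congr_fun h f
  π_surj := by
    intro ψ
    obtain ⟨φ, hφ⟩ := dm_exists_extend D.ϖ D.ϖ_surj D.div D.ι D.ι_inj D.exact (LvHom.toHom ψ)
    exact ⟨LvHom.of φ, LvHom.ext fun r => hφ r⟩
  exact := by
    intro φ
    constructor
    · intro h
      obtain ⟨m, hm⟩ := dm_exists_of_vanish D.ϖ D.z D.hz D.ϖ_surj D.hz0 D.tors (LvHom.toHom φ)
        (fun f hf => by
          obtain ⟨r, rfl⟩ := D.exact f hf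
          exact DFunLike.congr_fun h r)
      exact ⟨m, LvHom.ext fun f => DFunLike.congr_fun hm f⟩
    · rintro ⟨m, rfl⟩
      ext r
      rw [π_apply, i_apply, D.ϖ_ι, LinearMap.zero_apply, map_zero]
      rfl

@[simp] theorem ses_i [FiniteDimensional (ZMod p) V] : D.ses.i = D.i := rfl
@[simp] theorem ses_π [FiniteDimensional (ZMod p) V] : D.ses.π = D.π := rfl

end dm_Input

end Input

section SesMor

variable {p : ℕ} [Fact p.Prime] {G : Type*} [Group G]
  {V : Type*} [AddCommGroup V] [Module (ZMod p) V] [DistribMulAction G V]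
  [FiniteDimensional (ZMod p) V]
  {F : Type*} [AddCommGroup F] [DistribMulAction G F]
  {R : Type*} [AddCommGroup R] [DistribMulAction G R]
  {X : Type*} [AddCommGroup X] [DistribMulAction G X]
  {H : Type*} [Group H]
  {V' : Type*} [AddCommGroup V'] [Module (ZMod p) V'] [DistribMulAction H V']
  [FiniteDimensional (ZMod p) V']
  {F' : Type*} [AddCommGroup F'] [DistribMulAction H F']
  {R' : Type*} [AddCommGroup R'] [DistribMulAction H R']
  {X' : Type*} [AddCommGroup X'] [DistribMulAction H X']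

/-- A morphism between two inputs, over a group homomorphism `r : H →* G`. -/
structure dm_InputMor (D : dm_Input p G V F R X) (D' : dm_Input p H V' F' R' X') where
  r : H →* G
  mV : V →+ V'
  κF : F' →+ F
  κR : R' →+ R
  l : X →+ X'
  mV_equiv : ∀ (h : H) (v : V), mV (r h • v) = h • mV v
  κF_equiv : ∀ (h : H) (f : F'), κF (h • f) = r h • κF f
  κR_equiv : ∀ (h : H) (x : R'), κR (h • x) = r h • κR x
  l_equiv : ∀ (h : H) (x : X), l (r h • x) = h • l x
  l_z : l D.z = D'.z
  ι_κ : ∀ x : R', D.ι (κR x) = κF (D'.ι x)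
  ϖ_κ : ∀ (f : F') (v : V), D'.ϖ f (mV v) = D.ϖ (κF f) v

namespace dm_InputMor

variable {D : dm_Input p G V F R X} {D' : dm_Input p H V' F' R' X'} (T : dm_InputMor D D')
  (L : LevelSys G) (LH : LevelSys H)
  (hlev : ∀ U ∈ L.levels, ∃ W ∈ LH.levels, W ≤ U.comap T.r)

/-- The morphism on the kernels `V → V'`. -/
def mA : LvMor L V LH V' where
  f := T.r
  φ := T.mV
  equivariant := T.mV_equiv
  levels := hlev

/-- The morphism `Hom(F, X) → Hom(F', X')`. -/
def mB : LvMor L (LvHom F X) LH (LvHom F' X') :=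
  LvHom.lvMor L LH T.r hlev T.κF T.κF_equiv T.l T.l_equiv

/-- The morphism `Hom(R, X) → Hom(R', X')`. -/
def mC : LvMor L (LvHom R X) LH (LvHom R' X') :=
  LvHom.lvMor L LH T.r hlev T.κR T.κR_equiv T.l T.l_equiv

/-- **The morphism of short exact sequences.** -/
def sesMor : LvSESMor D.ses L D'.ses LH where
  mA := T.mA L LH hlev
  mB := T.mB L LH hlev
  mC := T.mC L LH hlev
  fAB := rfl
  fBC := rfl
  comm_i m := by
    ext f
    show T.l (D.i m (T.κF f)) = D'.i (T.mV m) f
    rw [dm_Input.i_apply, dm_Input.i_apply, dm_pair_comp, T.ϖ_κ]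
    exact dm_pair_congr T.l_z _ _ _
  comm_π φ := by
    ext x
    show T.l (D.π φ (T.κR x)) = D'.π ((T.mB L LH hlev).φ φ) x
    rw [dm_Input.π_apply, dm_Input.π_apply, T.ι_κ]
    rfl

@[simp] theorem sesMor_mA : (T.sesMor L LH hlev).mA = T.mA L LH hlev := rfl
@[simp] theorem sesMor_mB : (T.sesMor L LH hlev).mB = T.mB L LH hlev := rfl
@[simp] theorem sesMor_mC : (T.sesMor L LH hlev).mC = T.mC L LH hlev := rfl

end dm_InputMor

end SesMor

end Fermat.Agent.S55
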