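import Fermat.Agent.S55.Dual.Cinf
import Fermat.Agent.S55.Dual.Glue
import Fermat.Agent.S55.Dual.Lattice
import Fermat.Agent.S55.Trans.Sha1Finite

/-!
# Stabilisation of the finite-level `Ш¹` (block [D] of S55, prefix `du_`)

For a `G_ℚ`-module `A` trivial on `Gal(ℚ̄/K)`, the groups `Ш¹(Γ_a, A)`, `a ≥ K`, inject compatibly
into the level `Ш¹` of `A` and exhaust it; hence if their cardinality is eventually constant
(`= c ≠ 0`), the level `Ш¹` is finite of cardinality `c`.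
-/

set_option autoImplicit false

open CategoryTheory groupCohomology ExtCitation

namespace Fermat.Agent.S55

local notation "Qbar" => AlgebraicClosure ℚ
local notation "GQ" => (AlgebraicClosure ℚ ≃ₐ[ℚ] AlgebraicClosure ℚ)

section Stab

variable {S : Finset Nat.Primes} {k : Type} [CommRing k] (A : Rep.{0} k GQ)
  (K : du_Lev S) (hA : ∀ σ ∈ K.L.fixingSubgroup, ∀ x : A.V, A.ρ σ x = x)

/-- `A` as a `ℤ`-representation of `Γ_K`. -/
noncomputable abbrev du_AK : Rep.{0} ℤ K.Γ := tl_sf_descRep A K.L hA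

/-- `A` as a `ℤ`-representation of `Γ_a` for `a ≥ K`. -/
noncomputable abbrev du_AΓ {a : du_Lev S} (h : K ≤ a) : Rep.{0} ℤ a.Γ :=
  Rep.res (du_Lev.res h) (du_AK A K hA)

/-- The underlying additive group of `du_AΓ` is `A`. -/
noncomputable def du_AΓe {a : du_Lev S} (h : K ≤ a) : (du_AΓ A K hA h).V ≃+ A.V :=
  tl_sf_descE A K.L hA

lemma du_AΓe_apply {a : du_Lev S} (h : K ≤ a) (σ : GQ) (b : (du_AΓ A K hA h).V) :
    du_AΓe A K hA h ((du_AΓ A K hA h).ρ (AlgEquiv.restrictNormalHom a.L σ) b) =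
      A.ρ σ (du_AΓe A K hA h b) := by
  have h1 : (du_AΓ A K hA h).ρ (AlgEquiv.restrictNormalHom a.L σ) b =
      (du_AK A K hA).ρ (du_Lev.res h (a.q σ)) b := rfl
  rw [h1, du_Lev.res_q]
  exact tl_sf_descE_apply A K.L hA σ b

/-- Restrictions compose. -/
lemma du_res_res {a b c : du_Lev S} (h : a ≤ b) (h' : b ≤ c) (g : c.Γ) :
    du_Lev.res h (du_Lev.res h' g) = du_Lev.res (le_trans h h') g := by
  obtain ⟨σ, rfl⟩ := c.q_surjective g
  rw [du_Lev.res_q, du_Lev.res_q, du_Lev.res_q]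

/-- The local decomposition groups at level `a`, in the form used by `tl_sf_infl`. -/
noncomputable abbrev du_Dec (a : du_Lev S) : ↥S → Subgroup a.Γ :=
  fun q => tl_sf_D (primeLocalToGlobal q.1) a.L

lemma du_Dec_eq (a : du_Lev S) (q : ↥S) : du_Dec a q = a.D q.1 := rfl

/-- Inflation from `Ш¹(Γ_a, A)` to the level `Ш¹`. -/
noncomputable def du_infl {a : du_Lev S} (h : K ≤ a) :
    ds_sha (du_Dec a) (du_AΓ A K hA h) 1 →+
      lvSha1 (fun q : ↥S => tl_locMor S (primeLocalToGlobal q.1) A) :=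
  tl_sf_infl S A a.L a.unr (du_AΓ A K hA h) (du_AΓe A K hA h) (du_AΓe_apply A K hA h)

lemma du_infl_injective {a : du_Lev S} (h : K ≤ a) : Function.Injective (du_infl A K hA h) :=
  tl_sf_infl_injective S A a.L a.unr _ _ _

lemma du_trans_aux {a b : du_Lev S} (h : K ≤ a) (hab : a ≤ b) (g : b.Γ) (v : (du_AK A K hA).V) :
    (Rep.res (du_Lev.res hab) (du_AΓ A K hA h)).ρ g v =
      (du_AΓ A K hA (le_trans h hab)).ρ g v := by
  have h1 : (Rep.res (du_Lev.res hab) (du_AΓ A K hA h)).ρ g v =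
    (du_AK A K hA).ρ (du_Lev.res h (du_Lev.res hab g)) v := rfl
  have h2 : (du_AΓ A K hA (le_trans h hab)).ρ g v =
    (du_AK A K hA).ρ (du_Lev.res (le_trans h hab) g) v := rfl
  rw [h1, h2, du_res_res]

/-- The transition morphism (the identity on `A`). -/
noncomputable def du_trans {a b : du_Lev S} (h : K ≤ a) (hab : a ≤ b) :
    Rep.res (du_Lev.res hab) (du_AΓ A K hA h) ⟶ du_AΓ A K hA (le_trans h hab) :=
  la_ofAddHom (A := Rep.res (du_Lev.res hab) (du_AΓ A K hA h))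
    (B := du_AΓ A K hA (le_trans h hab)) (AddMonoidHom.id (du_AK A K hA).V)
    (fun g v => du_trans_aux A K hA h hab g v)

/-- Monotonicity of the images of the inflations. -/
lemma du_infl_range_mono {a b : du_Lev S} (h : K ≤ a) (hab : a ≤ b) :
    Set.range (du_infl A K hA h) ⊆ Set.range (du_infl A K hA (le_trans h hab)) := by
  rintro _ ⟨y, rfl⟩
  have htr := tl_sf_inflH1_trans S A a.L a.unr (du_AΓ A K hA h) (du_AΓe A K hA h)
    (du_AΓe_apply A K hA h) b.L b.unr (du_AΓ A K hA (le_trans h hab))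
    (du_AΓe A K hA (le_trans h hab)) (du_AΓe_apply A K hA (le_trans h hab))
    (du_Lev.res hab) (fun σ => du_Lev.res_q hab σ) (du_trans A K hA h hab) (fun _ => rfl) y.1
  have hmem : (groupCohomology.map (du_Lev.res hab) (du_trans A K hA h hab) 1).hom y.1 ∈
      ds_sha (du_Dec b) (du_AΓ A K hA (le_trans h hab)) 1 := by
    rw [tl_sf_mem_sha_iff S A b.L b.unr _ (du_AΓe A K hA (le_trans h hab))
      (du_AΓe_apply A K hA (le_trans h hab)), htr]
    exact (tl_sf_mem_sha_iff S A a.L a.unr _ (du_AΓe A K hA h) (du_AΓe_apply A K hA h) y.1).1 y.2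
  refine ⟨⟨_, hmem⟩, Subtype.ext ?_⟩
  exact htr

/-- Exhaustion: every class of the level `Ш¹` comes from a finite level `a ≥ K`. -/
lemma du_infl_exhaust (x : lvSha1 (fun q : ↥S => tl_locMor S (primeLocalToGlobal q.1) A)) :
    ∃ (a : du_Lev S) (h : K ≤ a), x ∈ Set.range (du_infl A K hA h) := by
  obtain ⟨F₀, hF₀, hx⟩ := tl_sf_exists_level_sha S A x
  obtain ⟨a₀, ha₀⟩ := du_Lev.exists_ge_field F₀ hF₀
  refine ⟨du_Lev.sup K a₀, du_Lev.le_sup_left K a₀, ?_⟩
  have hle : F₀ ≤ (du_Lev.sup K a₀).L := le_trans ha₀ (du_Lev.le_sup_right K a₀)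
  obtain ⟨y, hy⟩ := hx (du_Lev.sup K a₀).L (du_Lev.sup K a₀).unr hle
    (du_AΓ A K hA (du_Lev.le_sup_left K a₀)) (du_AΓe A K hA (du_Lev.le_sup_left K a₀))
    (du_AΓe_apply A K hA (du_Lev.le_sup_left K a₀))
  exact ⟨y, hy⟩

/-- **Stabilisation.**  If the finite-level `Ш¹` have constant cardinality `c ≠ 0` from some level
on, the level `Ш¹` is finite of cardinality `c`. -/
theorem du_stable (c : ℕ) (hc : c ≠ 0) (a₁ : du_Lev S)
    (hcard : ∀ (a : du_Lev S) (h : K ≤ a), a₁ ≤ a →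
      Nat.card ↥(ds_sha (du_Dec a) (du_AΓ A K hA h) 1) = c) :
    Finite ↥(lvSha1 (fun q : ↥S => tl_locMor S (primeLocalToGlobal q.1) A)) ∧
      Nat.card ↥(lvSha1 (fun q : ↥S => tl_locMor S (primeLocalToGlobal q.1) A)) = c := by
  let I := {a : du_Lev S // K ≤ a}
  have : IsDirected I (· ≤ ·) := ⟨fun a b =>
    ⟨⟨du_Lev.sup a.1 b.1, le_trans a.2 (du_Lev.le_sup_left a.1 b.1)⟩,
      du_Lev.le_sup_left a.1 b.1, du_Lev.le_sup_right a.1 b.1⟩⟩
  refine gl_card_of_stable (I := I) (fun a => Set.range (du_infl A K hA a.2)) ?_ ?_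
    ⟨du_Lev.sup K a₁, du_Lev.le_sup_left K a₁⟩ c hc ?_
  · intro a b hab
    exact du_infl_range_mono A K hA a.2 hab
  · intro x
    obtain ⟨a, h, hx⟩ := du_infl_exhaust A K hA x
    exact ⟨⟨a, h⟩, hx⟩
  · intro a ha
    rw [Nat.card_range_of_injective (du_infl_injective A K hA a.2)]
    exact hcard a.1 a.2 (le_trans (du_Lev.le_sup_right K a₁) ha)

end Stab

end Fermat.Agent.S55
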