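import Mathlib

/-!
# S55 / [D] Step 1 of the lattice route (finite level, pure group cohomology)

Carrier: Mathlib's `groupCohomology` on `Rep k G`.

* `ds_δ_res`: naturality of the connecting homomorphism with respect to restriction along a group
  homomorphism.
* `ds_sha D A n`: the classes of `Hⁿ(G, A)` restricting to `0` on every subgroup `D q`.
* `ds_step1Equiv` (abstract form): for a short exact sequence `0 ⟶ X₁ ⟶ X₂ ⟶ X₃ ⟶ 0` with
  `H¹(G, X₂) = 0` and `H¹(D q, X₂) = 0` for all `q`, the connecting homomorphism induces an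
  isomorphism `Ш¹(X₃) ≃+ Ш²(X₁) ⊓ ker (H²(X₁) ⟶ H²(X₂))`.
* `ds_isZero_H1_perm`: `H¹(Γ, ℤ[X]) = 0` for a finite group `Γ` acting on `X` through a
  homomorphism `Γ →* Δ`.
* `ds_step1` (concrete form): the same for `0 ⟶ R ⟶ F ⟶ A' ⟶ 0` over `Δ` with `F ≅ ℤ[X]`,
  restricted along `π : Γ →* Δ`.
-/

set_option autoImplicit false

open CategoryTheory groupCohomology Rep

namespace Fermat.Agent.S55

universe u

section Naturality

variable {k G H : Type u} [CommRing k] [Group G] [Group H]

/-- The restriction of a short exact sequence of representations is short exact. -/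
theorem ds_shortExact_res (f : H →* G) {X : ShortComplex (Rep k G)} (hX : X.ShortExact) :
    (X.map (resFunctor f)).ShortExact :=
  (Rep.shortExact_res f).mpr hX

/-- The morphism of short complexes of cochain complexes induced by restriction along `f`. -/
noncomputable def ds_resCochains (f : H →* G) (X : ShortComplex (Rep k G)) :
    X.map (cochainsFunctor k G) ⟶ (X.map (resFunctor f)).map (cochainsFunctor k H) where
  τ₁ := cochainsMap f (𝟙 (res f X.X₁))
  τ₂ := cochainsMap f (𝟙 (res f X.X₂))
  τ₃ := cochainsMap f (𝟙 (res f X.X₃))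
  comm₁₂ := by rfl
  comm₂₃ := by rfl

/-- Naturality of the connecting homomorphism with respect to restriction along a group
homomorphism. -/
theorem ds_δ_res (f : H →* G) {X : ShortComplex (Rep k G)} (hX : X.ShortExact) (i j : ℕ)
    (hij : i + 1 = j) :
    δ hX i j hij ≫ map f (𝟙 (res f X.X₁)) j =
      map f (𝟙 (res f X.X₃)) i ≫ δ (ds_shortExact_res f hX) i j hij :=
  HomologicalComplex.HomologySequence.δ_naturality (ds_resCochains f X)
    (map_cochainsFunctor_shortExact hX) (map_cochainsFunctor_shortExact (ds_shortExact_res f hX))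
    i j hij

end Naturality

section Step1

variable {k G : Type u} [CommRing k] [Group G]

/-- Restriction to a subgroup in group cohomology. -/
noncomputable abbrev ds_res (A : Rep k G) (S : Subgroup G) (n : ℕ) :
    groupCohomology A n ⟶ groupCohomology (res S.subtype A) n :=
  map S.subtype (𝟙 (res S.subtype A)) n

/-- The classes in `Hⁿ(G, A)` which restrict to zero on every subgroup `D q` of a family. -/
noncomputable def ds_sha {ι : Type*} (D : ι → Subgroup G) (A : Rep k G) (n : ℕ) :
    Submodule k (groupCohomology A n) :=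
  ⨅ q, LinearMap.ker (ds_res A (D q) n).hom

theorem ds_mem_sha {ι : Type*} (D : ι → Subgroup G) (A : Rep k G) (n : ℕ)
    (x : groupCohomology A n) :
    x ∈ ds_sha D A n ↔ ∀ q, (ds_res A (D q) n).hom x = 0 := by
  simp [ds_sha, Submodule.mem_iInf]

variable {X : ShortComplex (Rep k G)} (hX : X.ShortExact)

include hX in
/-- If `H¹(G, X₂) = 0`, the connecting homomorphism `H¹(G, X₃) ⟶ H²(G, X₁)` is injective. -/
theorem ds_δ_injective (h2 : Limits.IsZero (groupCohomology X.X₂ 1)) :
    Function.Injective (δ hX 1 2 rfl).hom := by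
  have := mono_δ_of_isZero hX 1 h2
  exact (ModuleCat.mono_iff_injective _).mp this

include hX in
/-- The image of the connecting homomorphism is the kernel of `H²(G, X₁) ⟶ H²(G, X₂)`. -/
theorem ds_range_δ :
    LinearMap.range (δ hX 1 2 rfl).hom = LinearMap.ker (map (MonoidHom.id G) X.f 2).hom :=
  (mapShortComplex₁_exact hX (i := 1) (j := 2) rfl).moduleCat_range_eq_ker

include hX in
/-- **Step 1, local-global compatibility.** If `H¹(D q, X₂) = 0` for all `q`, then a class
`x ∈ H¹(G, X₃)` is locally trivial iff `δ x ∈ H²(G, X₁)` is. -/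
theorem ds_mem_sha_iff {ι : Type*} (D : ι → Subgroup G)
    (h2q : ∀ q, Limits.IsZero (groupCohomology (res (D q).subtype X.X₂) 1))
    (x : groupCohomology X.X₃ 1) :
    x ∈ ds_sha D X.X₃ 1 ↔ (δ hX 1 2 rfl).hom x ∈ ds_sha D X.X₁ 2 := by
  rw [ds_mem_sha, ds_mem_sha]
  refine forall_congr' fun q => ?_
  have hnat := ds_δ_res (D q).subtype hX 1 2 rfl
  have hinj : Function.Injective (δ (ds_shortExact_res (D q).subtype hX) 1 2 rfl).hom :=
    ds_δ_injective (ds_shortExact_res (D q).subtype hX) (h2q q)
  have hx : (ds_res X.X₁ (D q) 2).hom ((δ hX 1 2 rfl).hom x) =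
      (δ (ds_shortExact_res (D q).subtype hX) 1 2 rfl).hom ((ds_res X.X₃ (D q) 1).hom x) := by
    have := congrArg (fun φ => (ModuleCat.Hom.hom φ) x) hnat
    exact this
  constructor
  · intro h
    exact hx.trans ((congrArg (δ (ds_shortExact_res (D q).subtype hX) 1 2 rfl).hom h).trans
      (map_zero (δ (ds_shortExact_res (D q).subtype hX) 1 2 rfl).hom))
  · intro h
    exact hinj ((hx.symm.trans h).trans
      (map_zero (δ (ds_shortExact_res (D q).subtype hX) 1 2 rfl).hom).symm)

/-- **Step 1 (abstract form).** If `H¹(G, X₂) = 0` and `H¹(D q, X₂) = 0` for all `q`, the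
connecting homomorphism induces a linear equivalence between the locally trivial classes of
`H¹(G, X₃)` and the locally trivial classes of `H²(G, X₁)` which die in `H²(G, X₂)`. -/
noncomputable def ds_step1Equiv {ι : Type*} (D : ι → Subgroup G)
    (h2 : Limits.IsZero (groupCohomology X.X₂ 1))
    (h2q : ∀ q, Limits.IsZero (groupCohomology (res (D q).subtype X.X₂) 1)) :
    ↥(ds_sha D X.X₃ 1) ≃+
      ↥(ds_sha D X.X₁ 2 ⊓ LinearMap.ker (map (MonoidHom.id G) X.f 2).hom) :=
  AddEquiv.ofBijective
    ({ toFun := fun x => ⟨(δ hX 1 2 rfl).hom x.1, by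
        refine ⟨(ds_mem_sha_iff hX D h2q x.1).mp x.2, ?_⟩
        rw [← ds_range_δ hX]
        exact ⟨x.1, rfl⟩⟩
       map_zero' := Subtype.ext (map_zero (δ hX 1 2 rfl).hom)
       map_add' := fun x y => Subtype.ext (map_add (δ hX 1 2 rfl).hom x.1 y.1) } :
      ↥(ds_sha D X.X₃ 1) →+
        ↥(ds_sha D X.X₁ 2 ⊓ LinearMap.ker (map (MonoidHom.id G) X.f 2).hom))
    ⟨fun x y hxy => Subtype.ext (ds_δ_injective hX h2 (congrArg Subtype.val hxy)), fun r => by
      have hr : r.1 ∈ LinearMap.range (δ hX 1 2 rfl).hom := by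
        rw [ds_range_δ hX]
        exact r.2.2
      obtain ⟨x, hx⟩ := hr
      refine ⟨⟨x, (ds_mem_sha_iff hX D h2q x).mpr ?_⟩, Subtype.ext hx⟩
      rw [hx]
      exact r.2.1⟩

@[simp]
theorem ds_step1Equiv_apply {ι : Type*} (D : ι → Subgroup G)
    (h2 : Limits.IsZero (groupCohomology X.X₂ 1))
    (h2q : ∀ q, Limits.IsZero (groupCohomology (res (D q).subtype X.X₂) 1))
    (x : ds_sha D X.X₃ 1) :
    ((ds_step1Equiv hX D h2 h2q x : _) : groupCohomology X.X₁ 2) = (δ hX 1 2 rfl).hom x.1 :=
  rfl

end Step1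

section Perm

variable {Γ Δ : Type} [Group Γ] [Finite Γ] [Group Δ] (f : Γ →* Δ) (X : Type) [MulAction Δ X]

/-- `H¹` of a finite group with values in a permutation module (with `ℤ`-coefficients) vanishes.
Stated for the restriction along an arbitrary homomorphism `f : Γ →* Δ` of the permutation
representation `ℤ[X]` of `Δ`. -/
theorem ds_isZero_H1_perm :
    Limits.IsZero (groupCohomology (res f (Rep.ofMulAction ℤ Δ X)) 1) := by
  classical
  have : Fintype Γ := Fintype.ofFinite Γ
  set A : Rep ℤ Γ := res f (Rep.ofMulAction ℤ Δ X) with hA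
  rw [ModuleCat.isZero_iff_subsingleton]
  refine ⟨fun x y => ?_⟩
  suffices h : ∀ z : H1 A, z = 0 by rw [h x, h y]
  intro z
  induction z using H1_induction_on with
  | h c =>
  rw [H1π_eq_zero_iff]
  -- the action on coefficients
  have hρ : ∀ (g : Γ) (a : MonoidAlgebra ℤ X) (x : X),
      (A.ρ g a).coeff x = a.coeff ((f g)⁻¹ • x) := by
    intro g a x
    exact Representation.coeff_ofMulAction (k := ℤ) (G := Δ) (f g) a x
  set n : ℤ := (Fintype.card Γ : ℤ) with hn
  have hn0 : n ≠ 0 := by
    rw [hn]; exact_mod_cast Fintype.card_ne_zero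
  set s : MonoidAlgebra ℤ X := ∑ h : Γ, c h with hs
  -- the averaging identity
  have havg : ∀ g : Γ, A.ρ g s = s - n • c g := by
    intro g
    have h1 : ∑ h : Γ, c (g * h) = s := by
      rw [hs]
      exact Equiv.sum_comp (Equiv.mulLeft g) (fun h => c h)
    have h2 : ∑ h : Γ, c (g * h) = A.ρ g s + n • c g := by
      simp_rw [(mem_cocycles₁_iff c).1 c.2 g]
      rw [Finset.sum_add_distrib, hs, map_sum]
      simp [hn]
    have h3 := h1.symm.trans h2
    rw [eq_sub_iff_add_eq]
    exact h3.symm
  -- quotient and remainder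
  set m : MonoidAlgebra ℤ X := MonoidAlgebra.ofCoeff (s.coeff.mapRange (· / n) (by simp)) with hm
  set t : MonoidAlgebra ℤ X := MonoidAlgebra.ofCoeff (s.coeff.mapRange (· % n) (by simp)) with ht
  have hst : s = n • m + t := by
    apply MonoidAlgebra.coeff_injective
    ext x
    simp only [hm, ht, MonoidAlgebra.coeff_add, MonoidAlgebra.coeff_smul,
      Finsupp.add_apply, Finsupp.smul_apply, Finsupp.mapRange_apply, smul_eq_mul]
    exact (Int.mul_ediv_add_emod _ _).symm
  have htinv : ∀ g : Γ, A.ρ g t = t := by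
    intro g
    apply MonoidAlgebra.coeff_injective
    ext x
    rw [hρ]
    simp only [ht, MonoidAlgebra.coeff_ofCoeff, Finsupp.mapRange_apply]
    have h1 : s.coeff ((f g)⁻¹ • x) = s.coeff x - n * (c g).coeff x := by
      rw [← hρ g s x, havg g]
      rfl
    rw [h1]
    exact Int.sub_mul_emod_self_left _ _ _
  refine ⟨-m, ?_⟩
  funext g
  have h3 : n • c g = n • (m - A.ρ g m) := by
    have := havg g
    rw [hst, map_add, map_zsmul, htinv g] at this
    have h4 : n • c g = (n • m + t) - (n • A.ρ g m + t) := by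
      rw [this]; abel
    rw [h4]
    simp only [smul_sub]
    abel
  have h5 : c g = m - A.ρ g m := by
    have := sub_eq_zero.mpr h3
    rw [← smul_sub] at this
    rcases smul_eq_zero.mp this with h | h
    · exact absurd h hn0
    · exact sub_eq_zero.mp h
  rw [h5]
  show A.ρ g (-m) - (-m) = m - A.ρ g m
  rw [map_neg]
  abel

end Perm


section Concrete

variable {Γ Δ : Type} [Group Γ] [Finite Γ] [Group Δ] (π : Γ →* Δ)
  {ι : Type*} (D : ι → Subgroup Γ)
  {Y : ShortComplex (Rep ℤ Δ)} (hY : Y.ShortExact)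
  (X : Type) [MulAction Δ X] (e : Y.X₂ ≅ Rep.ofMulAction ℤ Δ X)

include e in
/-- `H¹(Γ, F) = 0` for the middle term `F ≅ ℤ[X]` of the resolution, restricted to `Γ`. -/
theorem ds_isZero_H1_mid : Limits.IsZero (groupCohomology (res π Y.X₂) 1) :=
  (ds_isZero_H1_perm π X).of_iso
    ((groupCohomology.functor ℤ Γ 1).mapIso ((resFunctor π).mapIso e))

include e in
/-- `H¹(D, F) = 0` for every subgroup `D ≤ Γ`. -/
theorem ds_isZero_H1_mid_sub (S : Subgroup Γ) :
    Limits.IsZero (groupCohomology (res S.subtype (res π Y.X₂)) 1) :=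
  (ds_isZero_H1_perm (π.comp S.subtype) X).of_iso
    ((groupCohomology.functor ℤ S 1).mapIso
      ((resFunctor S.subtype).mapIso ((resFunctor π).mapIso e)))

/-- **Step 1 of the lattice route (finite level).** Let `0 ⟶ R ⟶ F ⟶ A' ⟶ 0` be a short exact
sequence of `ℤ[Δ]`-modules with `F ≅ ℤ[X]` a permutation module, let `π : Γ →* Δ` with `Γ` finite
and let `D q ≤ Γ` be a family of subgroups.  The connecting homomorphism induces an isomorphism
from `Ш¹(Γ, A')` (classes of `H¹(Γ, A')` dying in every `H¹(D q, A')`) onto the classes of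
`Ш²(Γ, R)` which die in `H²(Γ, F)`. -/
noncomputable def ds_step1 :
    ds_sha D (res π Y.X₃) 1 ≃+
      ↥(ds_sha D (res π Y.X₁) 2 ⊓
        LinearMap.ker (map (MonoidHom.id Γ) ((resFunctor π).map Y.f) 2).hom) :=
  ds_step1Equiv (X := Y.map (resFunctor π)) (ds_shortExact_res π hY) D
    (ds_isZero_H1_mid π X e) (fun q => ds_isZero_H1_mid_sub π X e (D q))

include hY e in
/-- Cardinality form of Step 1. -/
theorem ds_step1_card :
    Nat.card ↥(ds_sha D (res π Y.X₃) 1) =
      Nat.card ↥(ds_sha D (res π Y.X₁) 2 ⊓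
        LinearMap.ker (map (MonoidHom.id Γ) ((resFunctor π).map Y.f) 2).hom) :=
  Nat.card_congr (ds_step1 π D hY X e).toEquiv

theorem ds_step1_apply (x : ds_sha D (res π Y.X₃) 1) :
    ((ds_step1 π D (hY := hY) X e x : _) : groupCohomology (res π Y.X₁) 2) =
      (δ (ds_shortExact_res π hY) 1 2 rfl).hom x.1 :=
  rfl

end Concrete

end Fermat.Agent.S55
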