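import Fermat.Agent.S55.Dual.BInj
import Fermat.Agent.S55.Idele.SeamCap

/-!
# S55: the top of the assembly

`du_top`: S55 from a seam `𝔖 : du_Seam p S` and (D3X) alone ((B-inj) = `bi_du_V2` is plugged in,
and a primitive `p`-th root of unity of `Qbar` is chosen here).

`id_top`: S55 from the three arithmetic inputs of the idele seam (`P`, `hsum`, `habs`; capitulation
= `isc_hcap` is plugged in) and (D3X).
-/

set_option autoImplicit false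

open CategoryTheory groupCohomology ExtCitation

namespace Fermat.Agent.S55

local notation "Qbar" => AlgebraicClosure ℚ
local notation "GQ" => (AlgebraicClosure ℚ ≃ₐ[ℚ] AlgebraicClosure ℚ)

variable {p : ℕ} [Fact p.Prime]

/-- A primitive `p`-th root of unity in `Qbar`. -/
theorem du_exists_zeta (p : ℕ) [hp : Fact p.Prime] : ∃ ζ : Qbar, IsPrimitiveRoot ζ p := by
  have : NeZero (p : ℚ) := ⟨by exact_mod_cast hp.out.ne_zero⟩
  exact HasEnoughRootsOfUnity.exists_primitiveRoot Qbar p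

/-- **S55 from a seam and (D3X).** -/
theorem du_top (hp2 : p ≠ 2) (S : Finset Nat.Primes) (hpS : pPrime p ∈ S)
    (M : Rep.{0} (ZMod p) GQ) [FiniteDimensional (ZMod p) M]
    (hsm : ∀ m : M, ∃ F : IntermediateField ℚ Qbar, FiniteDimensional ℚ F ∧
      ∀ s ∈ F.fixingSubgroup, M.ρ s m = m)
    (hMur : ∀ q : Nat.Primes, q ∉ S → ∀ A : ValuationSubring Qbar,
      A.LiesOverPrime (q : ℕ) → ∀ g ∈ A.inertiaSubgroupIn ℚ, M.ρ g = 1)
    (𝔖 : du_Seam p S)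
    (hD3X : ∀ {ζ : Qbar} (hζ : IsPrimitiveRoot ζ p) (K : du_Lev S),
      (∀ σ ∈ K.L.fixingSubgroup, M.ρ σ = 1) →
      (∀ σ ∈ K.L.fixingSubgroup, cycloChar p σ = 1) →
      ∀ hA : (∀ σ ∈ K.L.fixingSubgroup, ∀ x : (M.dualTwist (cycloChar p)).V,
        (M.dualTwist (cycloChar p)).ρ σ x = x),
      ∀ (a : du_Lev S) (h : K ≤ a), du_D3X 𝔖 M K hA hpS hζ h) :
    ∃ B : sha₁ S (M.dualTwist (cycloChar p)) →ₗ[ZMod p] sha₂ S M →ₗ[ZMod p] ZMod p,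
      (∀ y, (∀ x, B y x = 0) → y = 0) ∧ (∀ x, (∀ y, B y x = 0) → x = 0) := by
  obtain ⟨ζ, hζ⟩ := du_exists_zeta p
  exact du_result' hp2 S hpS M hsm hMur 𝔖 hζ
    (fun K _ _ hA => bi_du_V2 𝔖 hpS M K hA) (hD3X hζ)

open Classical in
/-- **S55 from the arithmetic inputs of the idele seam and (D3X).** -/
theorem id_top (hp2 : p ≠ 2) (S : Finset Nat.Primes) (hpS : pPrime p ∈ S)
    (M : Rep.{0} (ZMod p) GQ) [FiniteDimensional (ZMod p) M]
    (hsm : ∀ m : M, ∃ F : IntermediateField ℚ Qbar, FiniteDimensional ℚ F ∧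
      ∀ s ∈ F.fixingSubgroup, M.ρ s m = m)
    (hMur : ∀ q : Nat.Primes, q ∉ S → ∀ A : ValuationSubring Qbar,
      A.LiesOverPrime (q : ℕ) → ∀ g ∈ A.inertiaSubgroupIn ℚ, M.ρ g = 1)
    (P : ∀ a : du_Lev S, PClassModule p (id_CRep S a.L))
    (hsum : ∀ (a : du_Lev S) (q : ↥S) (z : groupCohomology (id_ARep a.L q.1) 2),
      tt_IsPPrimary p z →
      (P a).invTop ((tt_coeffMap (id_jqRep S a.L q) 2).hom z) =
        (id_levPq p a q.1).invTop ((tt_coeffMap (il_pr q.1 a.L) 2).hom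
          ((tt_resMap (il_D (q.1 : ℕ) a.L) (id_ARep a.L q.1) 2).hom z)))
    (habs : ∀ K : du_Lev S, ∃ a₁ : du_Lev S, K ≤ a₁ ∧ ∀ a : du_Lev S, a₁ ≤ a → ∀ hKa : K ≤ a,
      ∀ c : (id_CRep S a.L).V, ∃ n : ℕ, ¬ p ∣ n ∧ ∃ x : ∀ q : ↥S, (id_ARep K.L q.1).V,
        n • (∑ h ∈ Finset.univ.filter (fun h : a.Γ => h ∈ a.rel K), (id_CRep S a.L).ρ h c) =
          ∑ q, (id_jqRep S a.L q).hom (id_tJ hKa q (x q)))
    (hD3X : ∀ (𝔖 : du_Seam p S) {ζ : Qbar} (hζ : IsPrimitiveRoot ζ p) (K : du_Lev S),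
      (∀ σ ∈ K.L.fixingSubgroup, M.ρ σ = 1) →
      (∀ σ ∈ K.L.fixingSubgroup, cycloChar p σ = 1) →
      ∀ hA : (∀ σ ∈ K.L.fixingSubgroup, ∀ x : (M.dualTwist (cycloChar p)).V,
        (M.dualTwist (cycloChar p)).ρ σ x = x),
      ∀ (a : du_Lev S) (h : K ≤ a), du_D3X 𝔖 M K hA hpS hζ h) :
    ∃ B : sha₁ S (M.dualTwist (cycloChar p)) →ₗ[ZMod p] sha₂ S M →ₗ[ZMod p] ZMod p,
      (∀ y, (∀ x, B y x = 0) → y = 0) ∧ (∀ x, (∀ y, B y x = 0) → x = 0) :=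
  du_top hp2 S hpS M hsm hMur
    (id_seam p ⟨pPrime p, hpS⟩ P hsum (isc_hcap p hpS P hsum) habs)
    (fun hζ => hD3X _ hζ)

end Fermat.Agent.S55
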