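import Mathlib

/-!
# Directed-union bookkeeping for the `X`-side map (leaf [X1] of D3X, prefix `xl_`)

Given a directed family `Cfin i` of subgroups of `𝒢` with compatible maps `Δ i : Cfin i →+ X`
with values in `Sha ≤ X`, we build `Φ : Cinf →+ Sha ⧸ Im` on the union `Cinf` and compute its
image and kernel from level-wise statements.
-/

set_option autoImplicit false

namespace Fermat.Agent.S55

section XLimit

variable {𝒢 X : Type*} [AddCommGroup 𝒢] [AddCommGroup X] {I : Type*}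
  (le : I → I → Prop)
  (hdir : ∀ i j : I, ∃ k, le i k ∧ le j k)
  (Cfin : I → AddSubgroup 𝒢) (hmono : ∀ {i j : I}, le i j → Cfin i ≤ Cfin j)
  (Δ : ∀ i, ↥(Cfin i) →+ X)
  (hΔ : ∀ {i j : I} (h : le i j) (c : ↥(Cfin i)), Δ j ⟨c.1, hmono h c.2⟩ = Δ i c)
  (Cinf : AddSubgroup 𝒢) (hCinf : ∀ c, c ∈ Cinf ↔ ∃ i, c ∈ Cfin i)

include hdir hΔ in
/-- The value `Δ i c` does not depend on the level `i`. -/
theorem xl_Δ_indep {i j : I} (c : 𝒢) (hi : c ∈ Cfin i) (hj : c ∈ Cfin j) :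
    Δ i ⟨c, hi⟩ = Δ j ⟨c, hj⟩ := by
  obtain ⟨k, hik, hjk⟩ := hdir i j
  rw [← hΔ hik ⟨c, hi⟩, ← hΔ hjk ⟨c, hj⟩]

open Classical in
/-- The limit map on the union, as a function. -/
noncomputable def xl_lim (c : ↥Cinf) : X :=
  Δ ((hCinf c.1).1 c.2).choose ⟨c.1, ((hCinf c.1).1 c.2).choose_spec⟩

include hdir hΔ in
theorem xl_lim_eq (c : ↥Cinf) {i : I} (hi : (c : 𝒢) ∈ Cfin i) :
    xl_lim Cfin Δ Cinf hCinf c = Δ i ⟨c.1, hi⟩ :=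
  xl_Δ_indep le hdir Cfin hmono Δ hΔ c.1 _ hi

include hdir hΔ in
theorem xl_lim_add (c c' : ↥Cinf) :
    xl_lim Cfin Δ Cinf hCinf (c + c') =
      xl_lim Cfin Δ Cinf hCinf c + xl_lim Cfin Δ Cinf hCinf c' := by
  obtain ⟨i, hi⟩ := (hCinf c.1).1 c.2
  obtain ⟨j, hj⟩ := (hCinf c'.1).1 c'.2
  obtain ⟨k, hik, hjk⟩ := hdir i j
  have hck : (c : 𝒢) ∈ Cfin k := hmono hik hi
  have hck' : (c' : 𝒢) ∈ Cfin k := hmono hjk hj
  have hsum : ((c + c' : ↥Cinf) : 𝒢) ∈ Cfin k := add_mem hck hck'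
  rw [xl_lim_eq le hdir Cfin hmono Δ hΔ Cinf hCinf c hck,
    xl_lim_eq le hdir Cfin hmono Δ hΔ Cinf hCinf c' hck',
    xl_lim_eq le hdir Cfin hmono Δ hΔ Cinf hCinf (c + c') hsum, ← map_add]
  rfl

include hdir hΔ hCinf in
/-- **The `X`-side map in the limit.** -/
theorem xl_main [Nonempty I]
    (Sha Im : AddSubgroup X) (hSha : ∀ i (c : ↥(Cfin i)), Δ i c ∈ Sha)
    (Loc Vinf : AddSubgroup 𝒢) (Vfin : I → AddSubgroup 𝒢)
    (hVinf : ∀ v, v ∈ Vinf ↔ ∃ i, v ∈ Vfin i)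
    (hLoc : ∀ i, Loc ≤ Cfin i) (hV : ∀ i, Vfin i ≤ Cfin i)
    (hsurj : ∀ x ∈ Sha, ∃ i, ∃ c : ↥(Cfin i), Δ i c = x)
    (k1 : ∀ i (c : ↥(Cfin i)), Δ i c = 0 ↔ (c : 𝒢) ∈ Loc)
    (k2 : ∀ i (c : ↥(Cfin i)), (c : 𝒢) ∈ Vfin i → Δ i c ∈ Im)
    (k3 : ∀ i (c : ↥(Cfin i)), Δ i c ∈ Im → ∃ j, ∃ h : le i j, ∃ v : ↥(Cfin j),
      (v : 𝒢) ∈ Vfin j ∧ Δ j (⟨c.1, hmono h c.2⟩ - v) = 0) :
    ∃ Φ : ↥Cinf →+ ↥Sha ⧸ Im.addSubgroupOf Sha, Function.Surjective Φ ∧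
      ∀ φ : ↥Cinf, Φ φ = 0 ↔ (φ : 𝒢) ∈ Loc ⊔ Vinf := by
  classical
  -- the limit map
  let L : ↥Cinf →+ X :=
    { toFun := xl_lim Cfin Δ Cinf hCinf
      map_zero' := by
        obtain ⟨i⟩ := ‹Nonempty I›
        have h0 : ((0 : ↥Cinf) : 𝒢) ∈ Cfin i := zero_mem _
        rw [xl_lim_eq le hdir Cfin hmono Δ hΔ Cinf hCinf 0 h0]
        exact map_zero (Δ i)
      map_add' := xl_lim_add le hdir Cfin hmono Δ hΔ Cinf hCinf }
  have hL : ∀ (c : ↥Cinf) {i : I} (hi : (c : 𝒢) ∈ Cfin i), L c = Δ i ⟨c.1, hi⟩ :=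
    fun c i hi => xl_lim_eq le hdir Cfin hmono Δ hΔ Cinf hCinf c hi
  have hLSha : ∀ c, L c ∈ Sha := by
    intro c
    obtain ⟨i, hi⟩ := (hCinf c.1).1 c.2
    rw [hL c hi]
    exact hSha i _
  let L' : ↥Cinf →+ ↥Sha := L.codRestrict Sha hLSha
  refine ⟨(QuotientAddGroup.mk' (Im.addSubgroupOf Sha)).comp L', ?_, ?_⟩
  · -- surjectivity
    intro y
    obtain ⟨x, rfl⟩ := QuotientAddGroup.mk'_surjective _ y
    obtain ⟨i, c, hc⟩ := hsurj x.1 x.2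
    have hcinf : (c : 𝒢) ∈ Cinf := (hCinf _).2 ⟨i, c.2⟩
    refine ⟨⟨c.1, hcinf⟩, ?_⟩
    have : L' ⟨c.1, hcinf⟩ = x := by
      apply Subtype.ext
      change L ⟨c.1, hcinf⟩ = x.1
      rw [hL ⟨c.1, hcinf⟩ c.2]
      exact hc
    rw [AddMonoidHom.comp_apply, this]
  · -- kernel
    intro φ
    have hker : ((QuotientAddGroup.mk' (Im.addSubgroupOf Sha)).comp L') φ = 0 ↔ L φ ∈ Im := by
      rw [AddMonoidHom.comp_apply, QuotientAddGroup.mk'_apply, QuotientAddGroup.eq_zero_iff,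
        AddSubgroup.mem_addSubgroupOf]
      rfl
    rw [hker]
    constructor
    · intro h
      obtain ⟨i, hi⟩ := (hCinf φ.1).1 φ.2
      rw [hL φ hi] at h
      obtain ⟨j, hij, v, hv, hz⟩ := k3 i ⟨φ.1, hi⟩ h
      have hloc := (k1 j _).1 hz
      have : (φ : 𝒢) = ((⟨φ.1, hmono hij hi⟩ - v : ↥(Cfin j)) : 𝒢) + (v : 𝒢) := by
        rw [AddSubgroup.coe_sub, sub_add_cancel]
      rw [this]
      exact add_mem (AddSubgroup.mem_sup_left hloc)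
        (AddSubgroup.mem_sup_right ((hVinf _).2 ⟨j, hv⟩))
    · intro h
      obtain ⟨l, hl, v, hv, hlv⟩ := AddSubgroup.mem_sup.1 h
      obtain ⟨j, hvj⟩ := (hVinf v).1 hv
      have hlj : l ∈ Cfin j := hLoc j hl
      have hvj' : v ∈ Cfin j := hV j hvj
      have hφj : (φ : 𝒢) ∈ Cfin j := by
        rw [← hlv]
        exact add_mem hlj hvj'
      rw [hL φ hφj]
      have hsplit : (⟨φ.1, hφj⟩ : ↥(Cfin j)) = ⟨l, hlj⟩ + ⟨v, hvj'⟩ := by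
        apply Subtype.ext
        exact hlv.symm
      rw [hsplit, map_add, (k1 j ⟨l, hlj⟩).2 hl, zero_add]
      exact k2 j ⟨v, hvj'⟩ hvj

end XLimit

end Fermat.Agent.S55
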