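import Mathlib

/-!
# The `X`-side of step (3): direct-limit bookkeeping (block [D] of S55, prefix `xs_`)

`𝒢` plays the role of `Hom_Γ(R, C_S(L))` at a fixed level `L`, `I` is the directed set of the
levels `L' ⊇ L`, `Cfin i` the homomorphisms landing in `C°_S(L_i)` after transition to `L_i`,
`Δ i : Cfin i →+ X` the composite `infl ∘ δ⁰` into `X = H¹(G_S, T_R)`, `Sha ≤ X` the locally
trivial classes, `Im ≤ X` the image of `H¹(G_S, T_F)`, `Loc` the semi-local images and `Vfin i`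
the image of the `C°_S(L_i)`-valued elements of `Hom_Γ(F, C_S(L))`.

Output: a surjection `⨆ i, Cfin i →+ Sha ⧸ Im` with kernel `Loc ⊔ ⨆ i, Vfin i`.
-/

set_option autoImplicit false

namespace Fermat.Agent.S55

open AddSubgroup

section Limit

variable {X : Type*} [AddCommGroup X] (Sha Im : AddSubgroup X)
  {𝒢 : Type*} [AddCommGroup 𝒢]
  {I : Type*} [Preorder I] [IsDirected I (· ≤ ·)] [Nonempty I]
  (Cfin : I → AddSubgroup 𝒢) (hmono : ∀ i j, i ≤ j → Cfin i ≤ Cfin j)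
  (Δ : ∀ i, Cfin i →+ X)
  (hcompat : ∀ i j (hij : i ≤ j) (x : Cfin i), Δ j ⟨x.1, hmono i j hij x.2⟩ = Δ i x)

include hmono in
/-- The directed union of the `Cfin i`. -/
lemma xs_mem_iSup {x : 𝒢} : x ∈ ⨆ i, Cfin i ↔ ∃ i, x ∈ Cfin i :=
  AddSubgroup.mem_iSup_of_directed
    (directed_of_isDirected_le (fun i j hij => hmono i j hij))

/-- A level at which an element of the union lives. -/
noncomputable def xs_lev (x : ↥(⨆ i, Cfin i)) (hmono : ∀ i j, i ≤ j → Cfin i ≤ Cfin j) : I :=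
  Classical.choose ((xs_mem_iSup Cfin hmono).1 x.2)

lemma xs_lev_spec (x : ↥(⨆ i, Cfin i)) : x.1 ∈ Cfin (xs_lev Cfin x hmono) :=
  Classical.choose_spec ((xs_mem_iSup Cfin hmono).1 x.2)

/-- The value of `Δ` on the union, computed at the chosen level. -/
noncomputable def xs_ΔinfFun (x : ↥(⨆ i, Cfin i)) : X :=
  Δ (xs_lev Cfin x hmono) ⟨x.1, xs_lev_spec Cfin hmono x⟩

include hcompat in
lemma xs_ΔinfFun_eq (x : ↥(⨆ i, Cfin i)) (i : I) (hx : x.1 ∈ Cfin i) :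
    xs_ΔinfFun Cfin hmono Δ x = Δ i ⟨x.1, hx⟩ := by
  obtain ⟨k, hk₁, hk₂⟩ := exists_ge_ge (xs_lev Cfin x hmono) i
  unfold xs_ΔinfFun
  rw [← hcompat _ k hk₁ ⟨x.1, xs_lev_spec Cfin hmono x⟩, ← hcompat i k hk₂ ⟨x.1, hx⟩]

/-- `Δ` on the union, as a homomorphism. -/
noncomputable def xs_Δinf : ↥(⨆ i, Cfin i) →+ X :=
  AddMonoidHom.mk' (xs_ΔinfFun Cfin hmono Δ) (by
    intro x y
    obtain ⟨k, hk₁, hk₂⟩ := exists_ge_ge (xs_lev Cfin x hmono) (xs_lev Cfin y hmono)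
    have hx : x.1 ∈ Cfin k := hmono _ k hk₁ (xs_lev_spec Cfin hmono x)
    have hy : y.1 ∈ Cfin k := hmono _ k hk₂ (xs_lev_spec Cfin hmono y)
    have hxy : (x + y).1 ∈ Cfin k := (Cfin k).add_mem hx hy
    rw [xs_ΔinfFun_eq Cfin hmono Δ hcompat (x + y) k hxy,
      xs_ΔinfFun_eq Cfin hmono Δ hcompat x k hx, xs_ΔinfFun_eq Cfin hmono Δ hcompat y k hy,
      ← map_add]
    rfl)

lemma xs_Δinf_eq (x : ↥(⨆ i, Cfin i)) (i : I) (hx : x.1 ∈ Cfin i) :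
    xs_Δinf Cfin hmono Δ hcompat x = Δ i ⟨x.1, hx⟩ :=
  xs_ΔinfFun_eq Cfin hmono Δ hcompat x i hx

variable (hSha : ∀ i (x : Cfin i), Δ i x ∈ Sha)

include hSha in
lemma xs_Δinf_mem (x : ↥(⨆ i, Cfin i)) : xs_Δinf Cfin hmono Δ hcompat x ∈ Sha :=
  hSha _ _

/-- The map `Φ : ⨆ i, Cfin i →+ Sha ⧸ Im`. -/
noncomputable def xs_Φ : ↥(⨆ i, Cfin i) →+ Sha ⧸ Im.addSubgroupOf Sha :=
  (QuotientAddGroup.mk' (Im.addSubgroupOf Sha)).comp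
    ((xs_Δinf Cfin hmono Δ hcompat).codRestrict Sha (xs_Δinf_mem Sha Cfin hmono Δ hcompat hSha))

lemma xs_Φ_eq_zero_iff (x : ↥(⨆ i, Cfin i)) :
    xs_Φ Sha Im Cfin hmono Δ hcompat hSha x = 0 ↔ xs_Δinf Cfin hmono Δ hcompat x ∈ Im := by
  unfold xs_Φ
  rw [AddMonoidHom.comp_apply, QuotientAddGroup.mk'_apply, QuotientAddGroup.eq_zero_iff,
    AddSubgroup.mem_addSubgroupOf]
  rfl

include hSha in
theorem xs_Φ_surjective
    (hsurj : ∀ s ∈ Sha, ∃ i, ∃ x : Cfin i, Δ i x = s) :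
    Function.Surjective (xs_Φ Sha Im Cfin hmono Δ hcompat hSha) := by
  intro z
  obtain ⟨⟨s, hs⟩, rfl⟩ := QuotientAddGroup.mk'_surjective _ z
  obtain ⟨i, x, hx⟩ := hsurj s hs
  have hx' : x.1 ∈ ⨆ i, Cfin i := (xs_mem_iSup Cfin hmono).2 ⟨i, x.2⟩
  refine ⟨⟨x.1, hx'⟩, ?_⟩
  unfold xs_Φ
  rw [AddMonoidHom.comp_apply]
  congr 1
  apply Subtype.ext
  show xs_Δinf Cfin hmono Δ hcompat ⟨x.1, hx'⟩ = s
  rw [xs_Δinf_eq Cfin hmono Δ hcompat ⟨x.1, hx'⟩ i x.2]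
  exact hx

variable (Loc : AddSubgroup 𝒢) (Vfin : I → AddSubgroup 𝒢)
  (hVmono : ∀ i j, i ≤ j → Vfin i ≤ Vfin j)
  (hLoc : ∀ i, Loc ≤ Cfin i) (hV : ∀ i, Vfin i ≤ Cfin i)

set_option linter.unusedSectionVars false in
include hLoc hV in
lemma xs_sup_le : Loc ⊔ ⨆ i, Vfin i ≤ ⨆ i, Cfin i := by
  obtain ⟨i₀⟩ := ‹Nonempty I›
  refine sup_le ((hLoc i₀).trans (le_iSup Cfin i₀)) (iSup_le fun i => (hV i).trans (le_iSup Cfin i))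

include hVmono hLoc in
/-- **Kernel of `Φ`.** -/
theorem xs_Φ_ker
    (hker : ∀ i (x : Cfin i), Δ i x = 0 ↔ x.1 ∈ Loc)
    (hVIm : ∀ i (v : 𝒢) (hv : v ∈ Vfin i), Δ i ⟨v, hV i hv⟩ ∈ Im)
    (hIm : ∀ i (x : Cfin i), Δ i x ∈ Im →
      ∃ j, ∃ hij : i ≤ j, ∃ v, ∃ hv : v ∈ Vfin j,
        Δ j ⟨x.1, hmono i j hij x.2⟩ = Δ j ⟨v, hV j hv⟩) :
    (xs_Φ Sha Im Cfin hmono Δ hcompat hSha).ker =
      (Loc ⊔ ⨆ i, Vfin i).addSubgroupOf (⨆ i, Cfin i) := by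
  ext x
  rw [AddMonoidHom.mem_ker, xs_Φ_eq_zero_iff, AddSubgroup.mem_addSubgroupOf]
  have hVdir : ∀ {v : 𝒢}, v ∈ ⨆ i, Vfin i ↔ ∃ i, v ∈ Vfin i :=
    AddSubgroup.mem_iSup_of_directed
      (directed_of_isDirected_le (fun i j hij => hVmono i j hij))
  constructor
  · intro h
    obtain ⟨i, hi⟩ := (xs_mem_iSup Cfin hmono).1 x.2
    rw [xs_Δinf_eq Cfin hmono Δ hcompat x i hi] at h
    obtain ⟨j, hij, v, hv, hjv⟩ := hIm i ⟨x.1, hi⟩ h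
    have hxj : x.1 ∈ Cfin j := hmono i j hij hi
    have hsub : Δ j (⟨x.1, hxj⟩ - ⟨v, hV j hv⟩) = 0 := by
      rw [map_sub, sub_eq_zero]
      exact hjv
    have hl : x.1 - v ∈ Loc := (hker j _).1 hsub
    have : x.1 = (x.1 - v) + v := by abel
    rw [this]
    exact add_mem (mem_sup_left hl) (mem_sup_right (hVdir.2 ⟨j, hv⟩))
  · intro h
    obtain ⟨l, hl, v, hv, hlv⟩ := AddSubgroup.mem_sup.1 h
    obtain ⟨j, hvj⟩ := hVdir.1 hv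
    have hlj : l ∈ Cfin j := hLoc j hl
    have hvj' : v ∈ Cfin j := hV j hvj
    have hxj : x.1 ∈ Cfin j := by
      rw [← hlv]
      exact add_mem hlj hvj'
    rw [xs_Δinf_eq Cfin hmono Δ hcompat x j hxj]
    have hsplit : (⟨x.1, hxj⟩ : Cfin j) = ⟨l, hlj⟩ + ⟨v, hvj'⟩ := Subtype.ext hlv.symm
    rw [hsplit, map_add, (hker j ⟨l, hlj⟩).2 hl, zero_add]
    exact hVIm j v hvj

include hcompat hSha hVmono hLoc in
/-- **The count on the `X`-side.** -/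
theorem xs_card_limit
    (hsurj : ∀ s ∈ Sha, ∃ i, ∃ x : Cfin i, Δ i x = s)
    (hker : ∀ i (x : Cfin i), Δ i x = 0 ↔ x.1 ∈ Loc)
    (hVIm : ∀ i (v : 𝒢) (hv : v ∈ Vfin i), Δ i ⟨v, hV i hv⟩ ∈ Im)
    (hIm : ∀ i (x : Cfin i), Δ i x ∈ Im →
      ∃ j, ∃ hij : i ≤ j, ∃ v, ∃ hv : v ∈ Vfin j,
        Δ j ⟨x.1, hmono i j hij x.2⟩ = Δ j ⟨v, hV j hv⟩) :
    Nat.card (↥(⨆ i, Cfin i) ⧸ (Loc ⊔ ⨆ i, Vfin i).addSubgroupOf (⨆ i, Cfin i)) =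
      Nat.card (Sha ⧸ Im.addSubgroupOf Sha) := by
  rw [← xs_Φ_ker Sha Im Cfin hmono Δ hcompat hSha Loc Vfin hVmono hLoc hV hker hVIm hIm]
  exact Nat.card_congr (QuotientAddGroup.quotientKerEquivOfSurjective _
    (xs_Φ_surjective Sha Im Cfin hmono Δ hcompat hSha hsurj)).toEquiv

include hcompat hSha hVmono hLoc in
/-- **The `X`-side map in the limit**: packaged form of `xs_Φ_surjective` and `xs_Φ_ker`. -/
theorem xs_limit_main (Cinf Vinf : AddSubgroup 𝒢) (hC : Cinf = ⨆ i, Cfin i)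
    (hVi : Vinf = ⨆ i, Vfin i)
    (hsurj : ∀ s ∈ Sha, ∃ i, ∃ x : Cfin i, Δ i x = s)
    (hker : ∀ i (x : Cfin i), Δ i x = 0 ↔ x.1 ∈ Loc)
    (hVIm : ∀ i (v : 𝒢) (hv : v ∈ Vfin i), Δ i ⟨v, hV i hv⟩ ∈ Im)
    (hIm : ∀ i (x : Cfin i), Δ i x ∈ Im →
      ∃ j, ∃ hij : i ≤ j, ∃ v, ∃ hv : v ∈ Vfin j,
        Δ j ⟨x.1, hmono i j hij x.2⟩ = Δ j ⟨v, hV j hv⟩) :
    ∃ Φ : ↥Cinf →+ Sha ⧸ Im.addSubgroupOf Sha, Function.Surjective Φ ∧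
      ∀ φ : ↥Cinf, Φ φ = 0 ↔ (φ : 𝒢) ∈ Loc ⊔ Vinf := by
  subst hC hVi
  refine ⟨xs_Φ Sha Im Cfin hmono Δ hcompat hSha,
    xs_Φ_surjective Sha Im Cfin hmono Δ hcompat hSha hsurj, fun φ => ?_⟩
  rw [← AddMonoidHom.mem_ker,
    xs_Φ_ker Sha Im Cfin hmono Δ hcompat hSha Loc Vfin hVmono hLoc hV hker hVIm hIm,
    AddSubgroup.mem_addSubgroupOf]

end Limit

end Fermat.Agent.S55
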