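import Fermat.Agent.S55.Dual.XSideMap
import Fermat.Agent.S55.Dual.XSideLimit
import Fermat.Agent.S55.Dual.Assemble

/-!
# The `X`-side of step (3): the map `Φ_a` (block [D] of S55, prefix `xs_`)

`xs_main`: for the seam `𝔖`, levels `K₀ ≤ a`, a finite `Γ_{K₀}`-module `A` modelling `M^*(1)` with
its lattice resolution `0 → R → F → A → 0`, a surjection
`Φ_a : 𝒞^∞_R(a) →+ X_R ⧸ im H¹(G_S, T_F)` with kernel `(Loc ⊔ i^*𝒞^∞_F(a)) ∩ 𝒞^∞_R(a)`.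

`xs_D3X`: the hypothesis (D3X) of `du_result'`.
-/

set_option autoImplicit false

open CategoryTheory groupCohomology ExtCitation

namespace Fermat.Agent.S55

local notation "Qbar" => AlgebraicClosure ℚ
local notation "GQ" => (AlgebraicClosure ℚ ≃ₐ[ℚ] AlgebraicClosure ℚ)

noncomputable section

section Index

variable {S : Finset Nat.Primes} (a : du_Lev S)

/-- The levels above `a`. -/
abbrev xs_I : Type := {b : du_Lev S // a ≤ b}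

instance xs_I.instIsDirected : IsDirected (xs_I a) (· ≤ ·) :=
  ⟨fun b c => ⟨⟨du_Lev.sup b.1 c.1, le_trans b.2 (du_Lev.le_sup_left b.1 c.1)⟩,
    du_Lev.le_sup_left b.1 c.1, du_Lev.le_sup_right b.1 c.1⟩⟩

instance xs_I.instNonempty : Nonempty (xs_I a) := ⟨⟨a, le_rfl⟩⟩

end Index

section Cinf

variable {p : ℕ} {S : Finset Nat.Primes} (𝔖 : du_Seam p S) {K₀ a : du_Lev S} (ha : K₀ ≤ a)
  (Y : Rep.{0} ℤ K₀.Γ)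

/-- `𝒞^∞` is the union of the `xs_Cfin`. -/
theorem xs_Cinf_eq_iSup :
    du_Cinf 𝔖 a (sl_Y Y ha) = ⨆ i : xs_I a, xs_Cfin 𝔖 ha i.2 Y := by
  apply le_antisymm
  · rintro φ ⟨b, hab, hφ⟩
    exact AddSubgroup.mem_iSup_of_mem (⟨b, hab⟩ : xs_I a) hφ
  · exact iSup_le fun i => xs_Cfin_le_Cinf 𝔖 ha i.2 Y

end Cinf

section Main

variable {p : ℕ} {S : Finset Nat.Primes} (𝔖 : du_Seam p S) [Nonempty ↥S]
  {K₀ a : du_Lev S} (ha : K₀ ≤ a) {R₀ F₀ : Rep.{0} ℤ K₀.Γ} (i₀ : R₀ ⟶ F₀)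
  (hR : ld_IsLattice R₀) (hF : ld_IsLattice F₀)
  (ρ : LvMor (tl_levelsS S) (dm_T S K₀.q F₀) (tl_levelsS S) (dm_T S K₀.q R₀))
  (hρf : ∀ g : GQ, ρ.f g = g)
  (hρφ : ∀ (f : dm_T S K₀.q F₀) (r : dm_Yg K₀.q R₀), ρ.φ f r = f (i₀.hom r))
  (hV1 : ∀ (q : ↥S) (z : lvH1 (tl_levelsLoc q.1) (dm_Tl K₀.q q.1 F₀)), z = 0)

include hR hF hρf hρφ hV1 in
/-- **The `X`-side map**, for a morphism of lattices `i₀ : R₀ ⟶ F₀` over `Γ_{K₀}` such that the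
local `H¹` of `Hom(F₀, -)` vanish. -/
theorem xs_main_aux :
    ∃ Φ : ↥(du_Cinf 𝔖 a (sl_Y R₀ ha)) →+
        (↥(lvSha1 (fun q : ↥S => dm_locT S K₀.q q.1 R₀)) ⧸
          (ρ.H1.range).addSubgroupOf (lvSha1 (fun q : ↥S => dm_locT S K₀.q q.1 R₀))),
      Function.Surjective Φ ∧ ∀ φ, Φ φ = 0 ↔
        (φ : sl_Y R₀ ha ⟶ (𝔖.dat a).C) ∈
          ld_Loc (𝔖.dat a) (sl_Y R₀ ha) ⊔ du_Vinf 𝔖 a (xs_ia ha i₀) := by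
  -- the data of the direct limit
  let Cfin : xs_I a → AddSubgroup (sl_Y R₀ ha ⟶ (𝔖.dat a).C) :=
    fun i => xs_Cfin 𝔖 ha i.2 R₀
  have hmono : ∀ i j : xs_I a, i ≤ j → Cfin i ≤ Cfin j :=
    fun i j hij => xs_Cfin_mono 𝔖 ha i.2 R₀ hij
  let Δ : ∀ i : xs_I a, Cfin i →+ lvH1 (tl_levelsS S) (dm_T S K₀.q R₀) :=
    fun i => xs_Δs 𝔖 ha i.2 R₀ hR
  have hcompat : ∀ (i j : xs_I a) (hij : i ≤ j) (x : Cfin i),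
      Δ j ⟨x.1, hmono i j hij x.2⟩ = Δ i x :=
    fun i j hij x => xs_Δs_trans 𝔖 ha i.2 R₀ hR hij x.1 x.2
  have hSha : ∀ (i : xs_I a) (x : Cfin i),
      Δ i x ∈ lvSha1 (fun q : ↥S => dm_locT S K₀.q q.1 R₀) :=
    fun i x => xs_Δs_mem_sha 𝔖 ha i.2 R₀ hR x
  have hsurj : ∀ s ∈ lvSha1 (fun q : ↥S => dm_locT S K₀.q q.1 R₀),
      ∃ i : xs_I a, ∃ x : Cfin i, Δ i x = s := by
    intro s hs
    obtain ⟨b, hab, -, φ, hφ⟩ := xs_exists_Δs 𝔖 ha R₀ hR s hs a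
    exact ⟨⟨b, hab⟩, φ, hφ⟩
  let Vfin : xs_I a → AddSubgroup (sl_Y R₀ ha ⟶ (𝔖.dat a).C) :=
    fun i => (xs_Cfin 𝔖 ha i.2 F₀).map (ld_pre (𝔖.dat a) (xs_ia ha i₀))
  have hVmono : ∀ i j : xs_I a, i ≤ j → Vfin i ≤ Vfin j :=
    fun i j hij => AddSubgroup.map_mono (xs_Cfin_mono 𝔖 ha i.2 F₀ hij)
  have hLoc : ∀ i : xs_I a, ld_Loc (𝔖.dat a) (sl_Y R₀ ha) ≤ Cfin i :=
    fun i => xs_Loc_le_Cfin 𝔖 ha i.2 R₀
  have hV : ∀ i : xs_I a, Vfin i ≤ Cfin i := by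
    rintro i _ ⟨ψ, hψ, rfl⟩
    exact xs_pre_mem_Cfin 𝔖 ha i.2 i₀ ψ hψ
  have hker : ∀ (i : xs_I a) (x : Cfin i),
      Δ i x = 0 ↔ x.1 ∈ ld_Loc (𝔖.dat a) (sl_Y R₀ ha) :=
    fun i x => xs_Δs_eq_zero_iff 𝔖 ha i.2 R₀ hR x
  have hρ : ∀ (i : xs_I a) (ψ : sl_Y F₀ ha ⟶ (𝔖.dat a).C)
      (hψ : ψ ∈ xs_Cfin 𝔖 ha i.2 F₀),
      ρ.H1 (xs_Δs 𝔖 ha i.2 F₀ hF ⟨ψ, hψ⟩) =
        Δ i ⟨ld_pre (𝔖.dat a) (xs_ia ha i₀) ψ, xs_pre_mem_Cfin 𝔖 ha i.2 i₀ ψ hψ⟩ :=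
    fun i ψ hψ => xs_Δs_coeff 𝔖 ha i.2 i₀ hR hF ρ hρf hρφ ψ hψ
  have hVIm : ∀ (i : xs_I a) (v : sl_Y R₀ ha ⟶ (𝔖.dat a).C) (hv : v ∈ Vfin i),
      Δ i ⟨v, hV i hv⟩ ∈ ρ.H1.range := by
    rintro i _ ⟨ψ, hψ, rfl⟩
    exact ⟨_, hρ i ψ hψ⟩
  have hIm : ∀ (i : xs_I a) (x : Cfin i), Δ i x ∈ ρ.H1.range →
      ∃ j, ∃ hij : i ≤ j, ∃ v, ∃ hv : v ∈ Vfin j,
        Δ j ⟨x.1, hmono i j hij x.2⟩ = Δ j ⟨v, hV j hv⟩ := by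
    rintro i x ⟨w, hw⟩
    have hwsha : w ∈ lvSha1 (fun q : ↥S => dm_locT S K₀.q q.1 F₀) :=
      mem_lvSha1.2 fun q => hV1 q _
    obtain ⟨b, hab, hib, ψ, hψ⟩ := xs_exists_Δs 𝔖 ha F₀ hF w hwsha i.1
    refine ⟨⟨b, hab⟩, hib, _, ⟨ψ.1, ψ.2, rfl⟩, ?_⟩
    rw [hcompat i ⟨b, hab⟩ hib x, ← hw, ← hψ]
    exact hρ ⟨b, hab⟩ ψ.1 ψ.2
  -- the limit map
  have hVinf : du_Vinf 𝔖 a (xs_ia ha i₀) = ⨆ i, Vfin i := by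
    unfold du_Vinf
    rw [xs_Cinf_eq_iSup 𝔖 ha F₀, AddSubgroup.map_iSup]
  exact xs_limit_main (lvSha1 (fun q : ↥S => dm_locT S K₀.q q.1 R₀)) ρ.H1.range Cfin
    hmono Δ hcompat hSha (ld_Loc (𝔖.dat a) (sl_Y R₀ ha)) Vfin hVmono hLoc hV
    (du_Cinf 𝔖 a (sl_Y R₀ ha)) (du_Vinf 𝔖 a (xs_ia ha i₀)) (xs_Cinf_eq_iSup 𝔖 ha R₀) hVinf
    hsurj hker hVIm hIm

end Main

section MainA

variable {p : ℕ} [hp : Fact p.Prime] {S : Finset Nat.Primes} (𝔖 : du_Seam p S)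
  (hpS : pPrime p ∈ S) (M : Rep.{0} (ZMod p) GQ) [FiniteDimensional (ZMod p) M]
  {K₀ a : du_Lev S} (ha : K₀ ≤ a) (A : Rep.{0} ℤ K₀.Γ)
  (hR : ld_IsLattice (la_R A)) (hF : ld_IsLattice (la_F A))
  (e : A.V ≃+ (M.dualTwist (cycloChar p)).V)
  (he : ∀ σ x, e (A.ρ (K₀.q σ) x) = (M.dualTwist (cycloChar p)).ρ σ (e x))
  {ζ : Qbar} (hζ : IsPrimitiveRoot ζ p)

include hR hF in
/-- **The `X`-side map** for the lattice resolution of a model `A` of `M^*(1)` over `Γ_{K₀}`. -/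
theorem xs_main :
    ∃ Φ : ↥(du_Cinf 𝔖 a (sl_Y (la_R A) ha)) →+
        (↥(dm_XR S K₀.q A) ⧸
          (((dm_Eglob S hpS M K₀.q A e he hζ).mπ (tl_levelsS S)).H1.range).addSubgroupOf
            (dm_XR S K₀.q A)),
      Function.Surjective Φ ∧ ∀ φ, Φ φ = 0 ↔
        (φ : sl_Y (la_R A) ha ⟶ (𝔖.dat a).C) ∈
          ld_Loc (𝔖.dat a) (sl_Y (la_R A) ha) ⊔ du_Vinf 𝔖 a (xs_ia ha (la_ι A)) := by
  have : Nonempty ↥S := ⟨⟨pPrime p, hpS⟩⟩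
  exact xs_main_aux 𝔖 ha (la_ι A) hR hF ((dm_Eglob S hpS M K₀.q A e he hζ).mπ (tl_levelsS S))
    (fun _ => rfl) (fun _ _ => rfl) (fun q z => dm_lv_V1 K₀.q q.1 A z)

end MainA

section D3X

variable {p : ℕ} [hp : Fact p.Prime] {S : Finset Nat.Primes} (𝔖 : du_Seam p S)
  (M : Rep.{0} (ZMod p) GQ) [FiniteDimensional (ZMod p) M] (K : du_Lev S)
  (hA : ∀ σ ∈ K.L.fixingSubgroup, ∀ x : (M.dualTwist (cycloChar p)).V,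
    (M.dualTwist (cycloChar p)).ρ σ x = x)

/-- **(D3X)** of `du_result'`. -/
theorem xs_D3X (hpS : pPrime p ∈ S) {ζ : Qbar} (hζ : IsPrimitiveRoot ζ p) {a : du_Lev S}
    (h : K ≤ a) : du_D3X 𝔖 M K hA hpS hζ h := by
  have : Finite (M.dualTwist (cycloChar p)).V := Module.finite_of_finite (ZMod p)
  have : Finite (du_AK (M.dualTwist (cycloChar p)) K hA).V :=
    inferInstanceAs (Finite (M.dualTwist (cycloChar p)).V)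
  exact xs_main 𝔖 hpS M h (du_AK (M.dualTwist (cycloChar p)) K hA)
    (la_free_R (du_AK (M.dualTwist (cycloChar p)) K hA))
    (la_free_F (du_AK (M.dualTwist (cycloChar p)) K hA))
    (tl_sf_descE (M.dualTwist (cycloChar p)) K.L hA)
    (tl_sf_descE_apply (M.dualTwist (cycloChar p)) K.L hA) hζ

end D3X

end

end Fermat.Agent.S55
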