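import Fermat.Agent.S55.Level.ShaSeq
import Fermat.Agent.S55.Level.Finite

/-!
# The `X`-side of step (3): one finite level (block [D] of S55, prefix `xs_`)

For a `G`-module `T` (think `T_R = Hom(R, E_S)`), a finite level `Q : LvQuot 𝕃 T Γ T₀` and a
short exact sequence `E₀ : 0 → T₀ → J₀ → C₀ → 0` of `Γ`-modules (think
`0 → Hom(R, E(L')) → Hom(R, ∏ J_q(L')) → Hom(R, C°(L')) → 0`), the map
`xs_Δ E₀ Q = infl ∘ δ⁰ : H⁰(Γ, C₀) →+ lvH1 𝕃 T`: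

* its kernel is the image of `H⁰(Γ, J₀)`;
* its range is the set of classes inflated from `Γ` which die in `H¹(Γ, J₀)`;
* if dying in `H¹(Γ, J₀)` is equivalent to local triviality, its range is the set of locally
  trivial classes inflated from `Γ`;
* it is compatible with transition maps between finite levels and with coefficient morphisms.
-/

set_option autoImplicit false

namespace Fermat.Agent.S55

open groupCohomology

/-- Every module over a finite group is smooth for the trivial level system. -/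
lemma xs_isSmooth_trivial (Γ : Type*) [Group Γ] [Finite Γ] (X : Type*) [AddCommGroup X]
    [DistribMulAction Γ X] : (LevelSys.trivial Γ).IsSmooth X :=
  fun _ => ⟨⊥, rfl, fun u hu => by rw [Subgroup.mem_bot.mp hu, one_smul]⟩

section OneLevel

variable {G : Type*} [Group G] {𝕃 : LevelSys G} {T : Type*} [AddCommGroup T] [DistribMulAction G T]
  {Γ : Type*} [Group Γ] [Finite Γ] {T₀ J₀ C₀ : Type*}
  [AddCommGroup T₀] [DistribMulAction Γ T₀] [AddCommGroup J₀] [DistribMulAction Γ J₀]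
  [AddCommGroup C₀] [DistribMulAction Γ C₀]
  (E₀ : LvSES Γ T₀ J₀ C₀) (Q : LvQuot 𝕃 T Γ T₀)

/-- The connecting map of a finite-level sequence. -/
noncomputable def xs_δ : lvH0 (G := Γ) C₀ →+ lvH1 (LevelSys.trivial Γ) T₀ :=
  E₀.δ0 (LevelSys.trivial Γ) (xs_isSmooth_trivial Γ J₀)

/-- `Δ = infl ∘ δ⁰`. -/
noncomputable def xs_Δ : lvH0 (G := Γ) C₀ →+ lvH1 𝕃 T :=
  Q.mor.H1.comp (xs_δ E₀)

lemma xs_Δ_apply (c : lvH0 (G := Γ) C₀) : xs_Δ E₀ Q c = Q.mor.H1 (xs_δ E₀ c) := rfl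

/-- The kernel of `Δ` is the image of `H⁰(Γ, J₀)`. -/
theorem xs_Δ_eq_zero_iff (c : lvH0 (G := Γ) C₀) :
    xs_Δ E₀ Q c = 0 ↔ ∃ b : lvH0 (G := Γ) J₀, (E₀.mπ (LevelSys.trivial Γ)).H0 b = c := by
  rw [xs_Δ_apply, ← E₀.exact_H0C (LevelSys.trivial Γ) (xs_isSmooth_trivial Γ J₀)]
  constructor
  · intro h
    exact Q.H1_injective (h.trans (map_zero _).symm)
  · intro h
    show Q.mor.H1 (xs_δ E₀ c) = 0
    unfold xs_δ
    rw [h, map_zero]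

/-- The range of `Δ`: inflated classes which die in `H¹(Γ, J₀)`. -/
theorem xs_mem_range_Δ_iff (x : lvH1 𝕃 T) :
    x ∈ (xs_Δ E₀ Q).range ↔
      ∃ y : lvH1 (LevelSys.trivial Γ) T₀, Q.mor.H1 y = x ∧
        (E₀.mi (LevelSys.trivial Γ)).H1 y = 0 := by
  constructor
  · rintro ⟨c, rfl⟩
    refine ⟨xs_δ E₀ c, rfl, ?_⟩
    rw [E₀.exact_H1A (LevelSys.trivial Γ) (xs_isSmooth_trivial Γ J₀)]
    exact ⟨c, rfl⟩
  · rintro ⟨y, rfl, hy⟩
    rw [E₀.exact_H1A (LevelSys.trivial Γ) (xs_isSmooth_trivial Γ J₀)] at hy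
    obtain ⟨c, rfl⟩ := hy
    exact ⟨c, rfl⟩

end OneLevel

section Local

variable {G : Type*} [Group G] {𝕃 : LevelSys G} {T : Type*} [AddCommGroup T] [DistribMulAction G T]
  {ι : Type*} {H : ι → Type*} [∀ q, Group (H q)] {LH : ∀ q, LevelSys (H q)}
  {T' : ι → Type*} [∀ q, AddCommGroup (T' q)] [∀ q, DistribMulAction (H q) (T' q)]
  (m : ∀ q, LvMor 𝕃 T (LH q) (T' q))
  {Γ : Type*} [Group Γ] [Finite Γ] {T₀ J₀ C₀ : Type*}
  [AddCommGroup T₀] [DistribMulAction Γ T₀] [AddCommGroup J₀] [DistribMulAction Γ J₀]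
  [AddCommGroup C₀] [DistribMulAction Γ C₀]
  (E₀ : LvSES Γ T₀ J₀ C₀) (Q : LvQuot 𝕃 T Γ T₀)
  (hloc : ∀ y : lvH1 (LevelSys.trivial Γ) T₀,
    (∀ q, (m q).H1 (Q.mor.H1 y) = 0) ↔ (E₀.mi (LevelSys.trivial Γ)).H1 y = 0)

include hloc in
/-- The values of `Δ` are locally trivial. -/
theorem xs_Δ_mem_sha (c : lvH0 (G := Γ) C₀) : xs_Δ E₀ Q c ∈ lvSha1 m := by
  rw [mem_lvSha1, xs_Δ_apply, hloc,
    E₀.exact_H1A (LevelSys.trivial Γ) (xs_isSmooth_trivial Γ J₀)]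
  exact ⟨c, rfl⟩

include hloc in
/-- A locally trivial class inflated from `Γ` is a value of `Δ`. -/
theorem xs_exists_Δ_of_sha (y : lvH1 (LevelSys.trivial Γ) T₀) (hy : Q.mor.H1 y ∈ lvSha1 m) :
    ∃ c : lvH0 (G := Γ) C₀, xs_Δ E₀ Q c = Q.mor.H1 y := by
  rw [mem_lvSha1, hloc] at hy
  have : Q.mor.H1 y ∈ (xs_Δ E₀ Q).range := (xs_mem_range_Δ_iff E₀ Q _).2 ⟨y, rfl, hy⟩
  exact this

end Local

section Transition

variable {G : Type*} [Group G] {𝕃 : LevelSys G} {T : Type*} [AddCommGroup T] [DistribMulAction G T]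
  {Γ : Type*} [Group Γ] [Finite Γ] {T₀ J₀ C₀ : Type*}
  [AddCommGroup T₀] [DistribMulAction Γ T₀] [AddCommGroup J₀] [DistribMulAction Γ J₀]
  [AddCommGroup C₀] [DistribMulAction Γ C₀]
  (E₀ : LvSES Γ T₀ J₀ C₀) (Q : LvQuot 𝕃 T Γ T₀)
  {Γ₂ : Type*} [Group Γ₂] [Finite Γ₂] {T₂ J₂ C₂ : Type*}
  [AddCommGroup T₂] [DistribMulAction Γ₂ T₂] [AddCommGroup J₂] [DistribMulAction Γ₂ J₂]
  [AddCommGroup C₂] [DistribMulAction Γ₂ C₂]
  (E₂ : LvSES Γ₂ T₂ J₂ C₂) (Q₂ : LvQuot 𝕃 T Γ₂ T₂)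
  (t : LvSESMor E₀ (LevelSys.trivial Γ) E₂ (LevelSys.trivial Γ₂))
  (hf : ∀ g : G, t.mA.f (Q₂.q g) = Q.q g) (hφ : ∀ x : T₀, Q₂.φ (t.mA.φ x) = Q.φ x)

include hf hφ in
/-- `Δ` is compatible with transition maps between finite levels. -/
theorem xs_Δ_trans (c : lvH0 (G := Γ) C₀) : xs_Δ E₂ Q₂ (t.mC.H0 c) = xs_Δ E₀ Q c := by
  rw [xs_Δ_apply, xs_Δ_apply]
  unfold xs_δ
  rw [← t.δ0_comm (xs_isSmooth_trivial Γ J₀) (xs_isSmooth_trivial Γ₂ J₂) c]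
  exact Q.H1_trans Q₂ t.mA hf hφ _

end Transition

section Coeff

variable {G : Type*} [Group G] {𝕃 : LevelSys G}
  {TF TR : Type*} [AddCommGroup TF] [DistribMulAction G TF] [AddCommGroup TR]
  [DistribMulAction G TR] (ρ : LvMor 𝕃 TF 𝕃 TR) (hρ : ∀ g : G, ρ.f g = g)
  {Γ : Type*} [Group Γ] [Finite Γ] {TF₀ JF₀ CF₀ TR₀ JR₀ CR₀ : Type*}
  [AddCommGroup TF₀] [DistribMulAction Γ TF₀] [AddCommGroup JF₀] [DistribMulAction Γ JF₀]
  [AddCommGroup CF₀] [DistribMulAction Γ CF₀]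
  [AddCommGroup TR₀] [DistribMulAction Γ TR₀] [AddCommGroup JR₀] [DistribMulAction Γ JR₀]
  [AddCommGroup CR₀] [DistribMulAction Γ CR₀]
  (EF : LvSES Γ TF₀ JF₀ CF₀) (QF : LvQuot 𝕃 TF Γ TF₀)
  (ER : LvSES Γ TR₀ JR₀ CR₀) (QR : LvQuot 𝕃 TR Γ TR₀)
  (u : LvSESMor EF (LevelSys.trivial Γ) ER (LevelSys.trivial Γ))
  (hu : ∀ γ : Γ, u.mA.f γ = γ) (hq : ∀ g : G, QF.q g = QR.q g)
  (hφ : ∀ x : TF₀, ρ.φ (QF.φ x) = QR.φ (u.mA.φ x))

include hρ hu hq hφ in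
/-- `Δ` is compatible with coefficient morphisms (restriction from `F` to `R`). -/
theorem xs_Δ_coeff (c : lvH0 (G := Γ) CF₀) :
    ρ.H1 (xs_Δ EF QF c) = xs_Δ ER QR (u.mC.H0 c) := by
  rw [xs_Δ_apply, xs_Δ_apply]
  unfold xs_δ
  rw [← u.δ0_comm (xs_isSmooth_trivial Γ JF₀) (xs_isSmooth_trivial Γ JR₀) c]
  generalize EF.δ0 (LevelSys.trivial Γ) (xs_isSmooth_trivial Γ JF₀) c = y
  obtain ⟨z, rfl⟩ := lvH1mk_surjective y
  simp only [LvMor.H1_mk]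
  congr 1
  apply Subtype.ext
  funext g
  simp only [LvMor.Z1_coe, LvMor.pull1_apply, LvQuot.mor_f, LvQuot.mor_φ, hρ, hu, hq, hφ]

end Coeff

end Fermat.Agent.S55
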