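import Fermat.Agent.S55.Dual.XSideSeam
import Fermat.Agent.S55.Dual.XSideLevel
import Fermat.Agent.S55.Dual.ModulesLevel
import Fermat.Agent.S55.Dual.HomBridge

/-!
# The `X`-side of step (3): the maps `Δ_b` of the seam (block [D] of S55, prefix `xs_`)

For the seam `𝔖`, levels `K₀ ≤ a ≤ b` and a lattice `Y` over `Γ_{K₀}`, the map
`xs_Δs : xs_Cfin 𝔖 ha hab Y →+ lvH1 (tl_levelsS S) (dm_T S K₀.q Y)` (`= infl ∘ δ⁰ ∘ (t_{a,b} ∘ ·)`):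
its values are locally trivial, its kernel is `ld_Loc`, it is compatible with the transitions
`b ≤ b'`, every locally trivial class is a value at some level, and it is natural in `Y`.
-/

set_option autoImplicit false

open CategoryTheory groupCohomology ExtCitation

namespace Fermat.Agent.S55

local notation "Qbar" => AlgebraicClosure ℚ
local notation "GQ" => (AlgebraicClosure ℚ ≃ₐ[ℚ] AlgebraicClosure ℚ)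

noncomputable section

section Map

variable {p : ℕ} {S : Finset Nat.Primes} (𝔖 : du_Seam p S) [Nonempty ↥S] {K₀ a b : du_Lev S}
  (ha : K₀ ≤ a) (hab : a ≤ b) (Y : Rep.{0} ℤ K₀.Γ) (hY : ld_IsLattice Y)

/-- **`hloc` at the level `b`**: a class of `H¹(Γ_b, Hom(Y, E(b)))` is locally trivial after
inflation to `G_ℚ` iff it dies in `H¹(Γ_b, Hom(Y, ∏ J_q(b)))`. -/
theorem xs_hloc (hb : K₀ ≤ b) (y : lvH1 (LevelSys.trivial b.Γ) (dm_ql_TE 𝔖 hb Y)) :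
    (∀ q : ↥S, (dm_locT S K₀.q q.1 Y).H1 ((dm_ql_Q 𝔖 hb Y).mor.H1 y) = 0) ↔
      ((sl_homSes 𝔖 Y hb hY).mi (LevelSys.trivial b.Γ)).H1 y = 0 := by
  rw [← hmb_seam_hloc1 𝔖 b (sl_Y Y hb) hY ((sl_homSes 𝔖 Y hb hY).mi _) rfl (fun ψ y q => rfl)
    (fun q => dm_ql_rho 𝔖 q hb Y) (fun q => rfl) (fun q ψ y => rfl) y]
  exact forall_congr' fun q => dm_ql_loc_H1_eq_zero_iff 𝔖 q hb Y y

/-- The map `Δ_b = infl ∘ δ⁰ ∘ (t_{a,b} ∘ ·)`. -/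
def xs_Δs : xs_Cfin 𝔖 ha hab Y →+ lvH1 (tl_levelsS S) (dm_T S K₀.q Y) :=
  (xs_Δ (sl_homSes 𝔖 Y (le_trans ha hab) hY) (dm_ql_Q 𝔖 (le_trans ha hab) Y)).comp
    (xs_toH0 𝔖 ha hab Y)

lemma xs_Δs_apply (φ : xs_Cfin 𝔖 ha hab Y) :
    xs_Δs 𝔖 ha hab Y hY φ =
      xs_Δ (sl_homSes 𝔖 Y (le_trans ha hab) hY) (dm_ql_Q 𝔖 (le_trans ha hab) Y)
        (xs_toH0 𝔖 ha hab Y φ) := rfl

/-- The values of `Δ_b` are locally trivial. -/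
theorem xs_Δs_mem_sha (φ : xs_Cfin 𝔖 ha hab Y) :
    xs_Δs 𝔖 ha hab Y hY φ ∈ lvSha1 (fun q : ↥S => dm_locT S K₀.q q.1 Y) :=
  xs_Δ_mem_sha (fun q : ↥S => dm_locT S K₀.q q.1 Y) _ _
    (xs_hloc 𝔖 Y hY (le_trans ha hab)) _

/-- The kernel of `Δ_b` is the subgroup of semi-local images. -/
theorem xs_Δs_eq_zero_iff (φ : xs_Cfin 𝔖 ha hab Y) :
    xs_Δs 𝔖 ha hab Y hY φ = 0 ↔ φ.1 ∈ ld_Loc (𝔖.dat a) (sl_Y Y ha) := by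
  rw [xs_Δs_apply, xs_Δ_eq_zero_iff]
  exact xs_exists_H0J_iff_mem_Loc 𝔖 ha hab Y hY _ φ

/-- `Δ_b` is compatible with the transitions between levels. -/
theorem xs_Δs_trans {b' : du_Lev S} (hbb' : b ≤ b') (φ : sl_Y Y ha ⟶ (𝔖.dat a).C)
    (hφ : φ ∈ xs_Cfin 𝔖 ha hab Y) :
    xs_Δs 𝔖 ha (le_trans hab hbb') Y hY ⟨φ, xs_Cfin_mono 𝔖 ha hab Y hbb' hφ⟩ =
      xs_Δs 𝔖 ha hab Y hY ⟨φ, hφ⟩ := by
  rw [xs_Δs_apply, xs_Δs_apply, ← xs_toH0_trans 𝔖 ha hab Y hY hbb' φ hφ]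
  refine xs_Δ_trans (sl_homSes 𝔖 Y (le_trans ha hab) hY) (dm_ql_Q 𝔖 (le_trans ha hab) Y)
    (sl_homSes 𝔖 Y (le_trans (le_trans ha hab) hbb') hY)
    (dm_ql_Q 𝔖 (le_trans (le_trans ha hab) hbb') Y)
    (sl_homSesMor 𝔖 Y (le_trans ha hab) hbb' hY) ?_ ?_ _
  · intro σ
    exact du_Lev.res_q hbb' σ
  · intro ψ
    ext y
    exact dm_ql_incl_tE 𝔖 hbb' (ψ (dm_ql_toYa (le_trans ha hab) Y y))

/-- Every locally trivial class is a value of `Δ_b` for some `b` above any given level. -/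
theorem xs_exists_Δs (s : lvH1 (tl_levelsS S) (dm_T S K₀.q Y))
    (hs : s ∈ lvSha1 (fun q : ↥S => dm_locT S K₀.q q.1 Y)) (b₀ : du_Lev S) :
    ∃ (b : du_Lev S) (hab : a ≤ b), b₀ ≤ b ∧ ∃ φ : xs_Cfin 𝔖 ha hab Y,
      xs_Δs 𝔖 ha hab Y hY φ = s := by
  obtain ⟨c, hc, y, hy, -⟩ := dm_ql_exists_level₁ 𝔖 Y s (mem_lvSha1.1 hs)
  have hcb : c ≤ du_Lev.sup (du_Lev.sup a b₀) c := du_Lev.le_sup_right _ c
  have hab : a ≤ du_Lev.sup (du_Lev.sup a b₀) c :=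
    le_trans (du_Lev.le_sup_left a b₀) (du_Lev.le_sup_left _ c)
  have hb₀ : b₀ ≤ du_Lev.sup (du_Lev.sup a b₀) c :=
    le_trans (du_Lev.le_sup_right a b₀) (du_Lev.le_sup_left _ c)
  refine ⟨du_Lev.sup (du_Lev.sup a b₀) c, hab, hb₀, ?_⟩
  have hy' : (dm_ql_Q 𝔖 (le_trans ha hab) Y).mor.H1 ((dm_ql_trans 𝔖 hc hcb Y).H1 y) = s := by
    rw [← hy]
    exact dm_ql_Q_trans₁ 𝔖 hc hcb Y y
  obtain ⟨c₀, hc₀⟩ := xs_exists_Δ_of_sha (fun q : ↥S => dm_locT S K₀.q q.1 Y)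
    (sl_homSes 𝔖 Y (le_trans ha hab) hY) (dm_ql_Q 𝔖 (le_trans ha hab) Y)
    (xs_hloc 𝔖 Y hY (le_trans ha hab)) ((dm_ql_trans 𝔖 hc hcb Y).H1 y) (by rw [hy']; exact hs)
  obtain ⟨φ, rfl⟩ := xs_toH0_surjective 𝔖 ha hab Y c₀
  exact ⟨φ, hc₀.trans hy'⟩

omit [Nonempty ↥S] in
/-- Semi-local images land in `C°` at every level. -/
theorem xs_Loc_le_Cfin : ld_Loc (𝔖.dat a) (sl_Y Y ha) ≤ xs_Cfin 𝔖 ha hab Y := by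
  intro φ hφ
  obtain ⟨ψ, hψ⟩ := (xs_mem_ld_Loc_iff (𝔖.dat a) (sl_Y Y ha) φ).1 hφ
  intro y
  show 𝔖.tC hab (φ.hom y) ∈ _
  rw [hψ, map_sum]
  refine sum_mem fun q _ => ?_
  rw [𝔖.tC_j]
  exact sl_j_mem_Co 𝔖 q _

end Map

section Coeff

variable {p : ℕ} {S : Finset Nat.Primes} (𝔖 : du_Seam p S) [Nonempty ↥S] {K₀ a b : du_Lev S}
  (ha : K₀ ≤ a) (hab : a ≤ b) {R₀ F₀ : Rep.{0} ℤ K₀.Γ} (i₀ : R₀ ⟶ F₀)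
  (hR : ld_IsLattice R₀) (hF : ld_IsLattice F₀)

/-- `i₀` on the carriers of the level `b`. -/
def xs_iAct (hb : K₀ ≤ b) : tl_Act (sl_Y R₀ hb) →+ tl_Act (sl_Y F₀ hb) :=
  (tl_toAct (sl_Y F₀ hb)).comp (i₀.hom.toAddMonoidHom.comp (tl_ofAct (sl_Y R₀ hb)))

omit [Nonempty ↥S] in
lemma xs_iAct_apply (hb : K₀ ≤ b) (y : tl_Act (sl_Y R₀ hb)) :
    tl_ofAct (sl_Y F₀ hb) (xs_iAct i₀ hb y) = i₀.hom (tl_ofAct (sl_Y R₀ hb) y) := rfl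

omit [Nonempty ↥S] in
lemma xs_iAct_smul (hb : K₀ ≤ b) (g : b.Γ) (y : tl_Act (sl_Y R₀ hb)) :
    xs_iAct i₀ hb (g • y) = MonoidHom.id b.Γ g • xs_iAct i₀ hb y :=
  Rep.hom_comm_apply i₀ (du_Lev.res hb g) y

/-- The morphism of finite-level sequences induced by `i₀ : R₀ ⟶ F₀`. -/
def xs_coeffMor (hb : K₀ ≤ b) :
    LvSESMor (sl_homSes 𝔖 F₀ hb hF) (LevelSys.trivial b.Γ)
      (sl_homSes 𝔖 R₀ hb hR) (LevelSys.trivial b.Γ) where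
  mA := LvHom.lvMor _ _ (MonoidHom.id b.Γ) (sl_levels_trivial _)
    (xs_iAct i₀ hb) (xs_iAct_smul i₀ hb) (AddMonoidHom.id _) (fun _ _ => rfl)
  mB := LvHom.lvMor _ _ (MonoidHom.id b.Γ) (sl_levels_trivial _)
    (xs_iAct i₀ hb) (xs_iAct_smul i₀ hb) (AddMonoidHom.id _) (fun _ _ => rfl)
  mC := LvHom.lvMor _ _ (MonoidHom.id b.Γ) (sl_levels_trivial _)
    (xs_iAct i₀ hb) (xs_iAct_smul i₀ hb) (AddMonoidHom.id _) (fun _ _ => rfl)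
  fAB := rfl
  fBC := rfl
  comm_i _ := rfl
  comm_π _ := rfl

/-- `i₀` over the level `a`. -/
abbrev xs_ia : sl_Y R₀ ha ⟶ sl_Y F₀ ha := (Rep.resFunctor (du_Lev.res ha)).map i₀

omit [Nonempty ↥S] in
lemma xs_pre_mem_Cfin (ψ : sl_Y F₀ ha ⟶ (𝔖.dat a).C) (hψ : ψ ∈ xs_Cfin 𝔖 ha hab F₀) :
    ld_pre (𝔖.dat a) (xs_ia ha i₀) ψ ∈ xs_Cfin 𝔖 ha hab R₀ :=
  fun y => hψ (i₀.hom y)

lemma xs_coeffMor_toH0 (ψ : sl_Y F₀ ha ⟶ (𝔖.dat a).C) (hψ : ψ ∈ xs_Cfin 𝔖 ha hab F₀) :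
    (xs_coeffMor 𝔖 i₀ hR hF (le_trans ha hab)).mC.H0 (xs_toH0 𝔖 ha hab F₀ ⟨ψ, hψ⟩) =
      xs_toH0 𝔖 ha hab R₀ ⟨ld_pre (𝔖.dat a) (xs_ia ha i₀) ψ, xs_pre_mem_Cfin 𝔖 ha hab i₀ ψ hψ⟩ := by
  apply xs_H0C_ext
  intro y
  rw [xs_H0C_hom_toH0]
  rfl

/-- **Naturality of `Δ_b` in the lattice.** -/
theorem xs_Δs_coeff
    (ρ : LvMor (tl_levelsS S) (dm_T S K₀.q F₀) (tl_levelsS S) (dm_T S K₀.q R₀))
    (hρf : ∀ g : GQ, ρ.f g = g)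
    (hρφ : ∀ (f : dm_T S K₀.q F₀) (r : dm_Yg K₀.q R₀), ρ.φ f r = f (i₀.hom r))
    (ψ : sl_Y F₀ ha ⟶ (𝔖.dat a).C) (hψ : ψ ∈ xs_Cfin 𝔖 ha hab F₀) :
    ρ.H1 (xs_Δs 𝔖 ha hab F₀ hF ⟨ψ, hψ⟩) =
      xs_Δs 𝔖 ha hab R₀ hR
        ⟨ld_pre (𝔖.dat a) (xs_ia ha i₀) ψ, xs_pre_mem_Cfin 𝔖 ha hab i₀ ψ hψ⟩ := by
  rw [xs_Δs_apply, xs_Δs_apply, ← xs_coeffMor_toH0 𝔖 ha hab i₀ hR hF ψ hψ]
  refine xs_Δ_coeff ρ hρf (sl_homSes 𝔖 F₀ (le_trans ha hab) hF)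
    (dm_ql_Q 𝔖 (le_trans ha hab) F₀) (sl_homSes 𝔖 R₀ (le_trans ha hab) hR)
    (dm_ql_Q 𝔖 (le_trans ha hab) R₀) (xs_coeffMor 𝔖 i₀ hR hF (le_trans ha hab))
    (fun _ => rfl) (fun _ => rfl) ?_ _
  intro x
  ext r
  rw [hρφ]
  rfl

end Coeff

end

end Fermat.Agent.S55
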