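import Fermat.Agent.S55.Dual.SeamLevel
import Fermat.Agent.S55.Dual.Lattice

/-!
# The `X`-side of step (3): invariants of the finite-level sequences (block [D] of S55, `xs_`)

For the seam `𝔖`, levels `K₀ ≤ a ≤ b` and a lattice `Y` over `Γ_{K₀}`:

* `xs_Cfin 𝔖 ha hab Y`: morphisms `Y ⟶ C(a)` landing in `C°(b)` after transition to `b`;
* `xs_toH0`: the bijection of `xs_Cfin` with `H⁰(Γ_b, Hom(Y, C°(b)))` (carriers of `sl_homSes`);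
* `xs_exists_H0J_iff_mem_Loc`: the image of `H⁰(Γ_b, Hom(Y, ∏ J_q(b)))` corresponds to the
  subgroup `ld_Loc` of semi-local images at the level `a`;
* `xs_toH0_trans`: compatibility with the transitions `sl_homSesMor`.
-/

set_option autoImplicit false

open CategoryTheory groupCohomology ExtCitation

namespace Fermat.Agent.S55

local notation "Qbar" => AlgebraicClosure ℚ
local notation "GQ" => (AlgebraicClosure ℚ ≃ₐ[ℚ] AlgebraicClosure ℚ)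

section Basic

variable {p : ℕ} {S : Finset Nat.Primes} (𝔖 : du_Seam p S) {K₀ a b : du_Lev S}
  (ha : K₀ ≤ a) (hab : a ≤ b) (Y : Rep.{0} ℤ K₀.Γ)

omit 𝔖 in
lemma xs_Y_ρ_q {c : du_Lev S} (hc : K₀ ≤ c) (σ : GQ) (y : Y.V) :
    (sl_Y Y hc).ρ (c.q σ) y = Y.ρ (K₀.q σ) y := by
  show Y.ρ (du_Lev.res hc (c.q σ)) y = Y.ρ (K₀.q σ) y
  rw [du_Lev.res_q]

/-- The transition of a morphism `Y ⟶ C(a)` to the level `b`, as an additive map. -/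
noncomputable def xs_tCφ : (sl_Y Y ha ⟶ (𝔖.dat a).C) →+ (Y.V →+ (𝔖.dat b).C.V) where
  toFun φ := (𝔖.tC hab).comp φ.hom.toAddMonoidHom
  map_zero' := by
    ext y
    show 𝔖.tC hab ((0 : sl_Y Y ha ⟶ (𝔖.dat a).C).hom y) = 0
    have : (0 : sl_Y Y ha ⟶ (𝔖.dat a).C).hom y = 0 := rfl
    rw [this, map_zero]
  map_add' φ φ' := by
    ext y
    show 𝔖.tC hab ((φ + φ').hom y) = 𝔖.tC hab (φ.hom y) + 𝔖.tC hab (φ'.hom y)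
    have : (φ + φ').hom y = φ.hom y + φ'.hom y := rfl
    rw [this, map_add]

lemma xs_tCφ_apply (φ : sl_Y Y ha ⟶ (𝔖.dat a).C) (y : Y.V) :
    xs_tCφ 𝔖 ha hab Y φ y = 𝔖.tC hab (φ.hom y) := rfl

lemma xs_tCφ_equiv (φ : sl_Y Y ha ⟶ (𝔖.dat a).C) (g : b.Γ) (y : Y.V) :
    xs_tCφ 𝔖 ha hab Y φ ((sl_Y Y (le_trans ha hab)).ρ g y) =
      (𝔖.dat b).C.ρ g (xs_tCφ 𝔖 ha hab Y φ y) := by
  obtain ⟨σ, rfl⟩ := b.q_surjective g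
  rw [xs_Y_ρ_q, ← xs_Y_ρ_q Y ha σ y, xs_tCφ_apply, xs_tCφ_apply, Rep.hom_comm_apply,
    𝔖.tC_equiv]

lemma xs_tCφ_injective : Function.Injective (xs_tCφ 𝔖 ha hab Y) := by
  intro φ φ' hφ
  apply Rep.Hom.ext
  apply DFunLike.ext
  intro y
  apply 𝔖.tC_inj hab
  exact DFunLike.congr_fun hφ y

/-- Morphisms `Y ⟶ C(a)` which land in `C°(b)` after transition to the level `b`. -/
def xs_Cfin : AddSubgroup (sl_Y Y ha ⟶ (𝔖.dat a).C) where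
  carrier := {φ | ∀ y, xs_tCφ 𝔖 ha hab Y φ y ∈ du_Co (𝔖.dat b)}
  zero_mem' := fun y => by
    rw [map_zero]
    exact zero_mem _
  add_mem' := fun {φ φ'} hφ hφ' y => by
    rw [map_add]
    exact add_mem (hφ y) (hφ' y)
  neg_mem' := fun {φ} hφ y => by
    rw [map_neg]
    exact neg_mem (hφ y)

lemma xs_mem_Cfin {φ : sl_Y Y ha ⟶ (𝔖.dat a).C} :
    φ ∈ xs_Cfin 𝔖 ha hab Y ↔ ∀ y, 𝔖.tC hab (φ.hom y) ∈ du_Co (𝔖.dat b) := Iff.rfl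

lemma xs_Cfin_mono {b' : du_Lev S} (hbb' : b ≤ b') :
    xs_Cfin 𝔖 ha hab Y ≤ xs_Cfin 𝔖 ha (le_trans hab hbb') Y := by
  intro φ hφ y
  show 𝔖.tC (le_trans hab hbb') (φ.hom y) ∈ _
  rw [← 𝔖.tC_trans hab hbb']
  exact du_tC_mem_Co 𝔖 hbb' (hφ y)

lemma xs_Cfin_le_Cinf : xs_Cfin 𝔖 ha hab Y ≤ du_Cinf 𝔖 a (sl_Y Y ha) :=
  fun _ hφ => ⟨b, hab, hφ⟩

lemma xs_mem_Cinf_iff {φ : sl_Y Y ha ⟶ (𝔖.dat a).C} :
    φ ∈ du_Cinf 𝔖 a (sl_Y Y ha) ↔ ∃ (b : du_Lev S) (hab : a ≤ b), φ ∈ xs_Cfin 𝔖 ha hab Y :=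
  Iff.rfl

end Basic

section HZero

variable {p : ℕ} {S : Finset Nat.Primes} (𝔖 : du_Seam p S) {K₀ b : du_Lev S}
  (hb : K₀ ≤ b) (Y : Rep.{0} ℤ K₀.Γ)

/-- An equivariant additive map `Y → C(b)` with values in `C°(b)`, as an invariant of
`Hom(Y, C°(b))`. -/
noncomputable def xs_H0C (f : Y.V →+ (𝔖.dat b).C.V)
    (hf : ∀ g y, f ((sl_Y Y hb).ρ g y) = (𝔖.dat b).C.ρ g (f y))
    (hfC : ∀ y, f y ∈ du_Co (𝔖.dat b)) :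
    lvH0 (G := b.Γ) (LvHom (tl_Act (sl_Y Y hb)) ↥(sl_Co 𝔖 b)) :=
  ⟨LvHom.of
    { toFun := fun y => ⟨tl_toAct (𝔖.dat b).C (f (tl_ofAct (sl_Y Y hb) y)), hfC _⟩
      map_zero' := Subtype.ext (by
        show tl_toAct (𝔖.dat b).C (f (tl_ofAct (sl_Y Y hb) 0)) = 0
        rw [map_zero, map_zero, map_zero])
      map_add' := fun y y' => Subtype.ext (by
        show tl_toAct (𝔖.dat b).C (f (tl_ofAct (sl_Y Y hb) (y + y'))) =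
          tl_toAct (𝔖.dat b).C (f (tl_ofAct (sl_Y Y hb) y)) +
            tl_toAct (𝔖.dat b).C (f (tl_ofAct (sl_Y Y hb) y'))
        rw [map_add, map_add, map_add]) },
    (LvHom.mem_lvH0_iff _).2 (fun g y => Subtype.ext (hf g (tl_ofAct (sl_Y Y hb) y)))⟩

/-- The additive map `Y → C(b)` underlying an invariant of `Hom(Y, C°(b))`. -/
noncomputable def xs_H0C_hom : lvH0 (G := b.Γ) (LvHom (tl_Act (sl_Y Y hb)) ↥(sl_Co 𝔖 b)) →+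
    (Y.V →+ (𝔖.dat b).C.V) where
  toFun c := (tl_ofAct (𝔖.dat b).C).comp ((sl_Co 𝔖 b).subtype.comp
    ((LvHom.toHom c.1).comp (tl_toAct (sl_Y Y hb))))
  map_zero' := by
    ext y
    rfl
  map_add' c c' := by
    ext y
    rfl

lemma xs_H0C_hom_apply (c : lvH0 (G := b.Γ) (LvHom (tl_Act (sl_Y Y hb)) ↥(sl_Co 𝔖 b)))
    (y : Y.V) :
    xs_H0C_hom 𝔖 hb Y c y =
      tl_ofAct (𝔖.dat b).C ((c.1 (tl_toAct (sl_Y Y hb) y) : ↥(sl_Co 𝔖 b)) :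
        tl_Act (𝔖.dat b).C) := rfl

@[simp] lemma xs_H0C_hom_H0C (f : Y.V →+ (𝔖.dat b).C.V)
    (hf : ∀ g y, f ((sl_Y Y hb).ρ g y) = (𝔖.dat b).C.ρ g (f y))
    (hfC : ∀ y, f y ∈ du_Co (𝔖.dat b)) :
    xs_H0C_hom 𝔖 hb Y (xs_H0C 𝔖 hb Y f hf hfC) = f := by
  ext y
  rfl

lemma xs_H0C_hom_equiv (c : lvH0 (G := b.Γ) (LvHom (tl_Act (sl_Y Y hb)) ↥(sl_Co 𝔖 b)))
    (g : b.Γ) (y : Y.V) :
    xs_H0C_hom 𝔖 hb Y c ((sl_Y Y hb).ρ g y) = (𝔖.dat b).C.ρ g (xs_H0C_hom 𝔖 hb Y c y) := by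
  have := (LvHom.mem_lvH0_iff c.1).1 c.2 g (tl_toAct (sl_Y Y hb) y)
  rw [xs_H0C_hom_apply, xs_H0C_hom_apply, ← sl_ofAct_smul, ← sl_Co_coe_smul, ← this]
  rfl

lemma xs_H0C_hom_mem (c : lvH0 (G := b.Γ) (LvHom (tl_Act (sl_Y Y hb)) ↥(sl_Co 𝔖 b)))
    (y : Y.V) : xs_H0C_hom 𝔖 hb Y c y ∈ du_Co (𝔖.dat b) :=
  (c.1 (tl_toAct (sl_Y Y hb) y)).2

lemma xs_H0C_ext {c c' : lvH0 (G := b.Γ) (LvHom (tl_Act (sl_Y Y hb)) ↥(sl_Co 𝔖 b))}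
    (h : ∀ y, xs_H0C_hom 𝔖 hb Y c y = xs_H0C_hom 𝔖 hb Y c' y) : c = c' := by
  apply Subtype.ext
  ext y
  have h1 := h (tl_ofAct (sl_Y Y hb) y)
  rw [xs_H0C_hom_apply, xs_H0C_hom_apply] at h1
  exact h1

/-- The image of `H⁰(Hom(Y, ∏ J_q(b)))` in `H⁰(Hom(Y, C°(b)))`: the sums of morphisms
`Y ⟶ J_q(b)`. -/
theorem xs_exists_H0J_iff [Nonempty ↥S]
    (c : lvH0 (G := b.Γ) (LvHom (tl_Act (sl_Y Y hb)) ↥(sl_Co 𝔖 b))) :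
    (∃ β : lvH0 (G := b.Γ) (LvHom (tl_Act (sl_Y Y hb)) (sl_J 𝔖 b)),
      ∀ y, (sl_ses 𝔖 b).π (β.1 y) = c.1 y) ↔
    ∃ ψ : ∀ q, sl_Y Y hb ⟶ (𝔖.dat b).Jq q, ∀ y : Y.V,
      xs_H0C_hom 𝔖 hb Y c y = ∑ q, ((𝔖.dat b).j q).hom ((ψ q).hom y) := by
  constructor
  · rintro ⟨β, hβ⟩
    have hbe := (LvHom.mem_lvH0_iff β.1).1 β.2
    let fq : ∀ q : ↥S, Y.V →+ ((𝔖.dat b).Jq q).V := fun q =>
      (tl_ofAct ((𝔖.dat b).Jq q)).comp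
        ((Pi.evalAddMonoidHom (fun q : ↥S => tl_Act ((𝔖.dat b).Jq q)) q).comp
          ((LvHom.toHom β.1).comp (tl_toAct (sl_Y Y hb))))
    have hfq : ∀ (q : ↥S) (g : b.Γ) (y : Y.V),
        fq q ((sl_Y Y hb).ρ g y) = ((𝔖.dat b).Jq q).ρ g (fq q y) := by
      intro q g y
      exact congrFun (hbe g (tl_toAct (sl_Y Y hb) y)) q
    refine ⟨fun q => la_ofAddHom (A := sl_Y Y hb) (B := (𝔖.dat b).Jq q) (fq q) (hfq q),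
      fun y => ?_⟩
    rw [xs_H0C_hom_apply, ← hβ, sl_ses_π_coe, sl_ofAct_sum]
    rfl
  · rintro ⟨ψ, hψ⟩
    refine ⟨⟨LvHom.of
      { toFun := fun y q => tl_toAct ((𝔖.dat b).Jq q) ((ψ q).hom (tl_ofAct (sl_Y Y hb) y))
        map_zero' := by
          funext q
          show tl_toAct ((𝔖.dat b).Jq q) ((ψ q).hom (tl_ofAct (sl_Y Y hb) 0)) = 0
          rw [map_zero, map_zero, map_zero]
        map_add' := fun y y' => by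
          funext q
          show tl_toAct ((𝔖.dat b).Jq q) ((ψ q).hom (tl_ofAct (sl_Y Y hb) (y + y'))) =
            tl_toAct ((𝔖.dat b).Jq q) ((ψ q).hom (tl_ofAct (sl_Y Y hb) y)) +
              tl_toAct ((𝔖.dat b).Jq q) ((ψ q).hom (tl_ofAct (sl_Y Y hb) y'))
          rw [map_add, map_add, map_add] },
      (LvHom.mem_lvH0_iff _).2 (fun g y => funext fun q =>
        Rep.hom_comm_apply (ψ q) g (tl_ofAct (sl_Y Y hb) y))⟩, fun y => ?_⟩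
    apply Subtype.ext
    apply sl_ofAct_injective
    rw [sl_ses_π_coe, sl_ofAct_sum]
    exact (hψ (tl_ofAct (sl_Y Y hb) y)).symm

end HZero

section ToH0

variable {p : ℕ} {S : Finset Nat.Primes} (𝔖 : du_Seam p S) {K₀ a b : du_Lev S}
  (ha : K₀ ≤ a) (hab : a ≤ b) (Y : Rep.{0} ℤ K₀.Γ)

/-- `Cfin → H⁰(Γ_b, Hom(Y, C°(b)))`. -/
noncomputable def xs_toH0 : xs_Cfin 𝔖 ha hab Y →+
    lvH0 (G := b.Γ) (LvHom (tl_Act (sl_Y Y (le_trans ha hab))) ↥(sl_Co 𝔖 b)) where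
  toFun φ := xs_H0C 𝔖 (le_trans ha hab) Y (xs_tCφ 𝔖 ha hab Y φ.1)
    (xs_tCφ_equiv 𝔖 ha hab Y φ.1) (fun y => φ.2 y)
  map_zero' := by
    apply xs_H0C_ext
    intro y
    rw [xs_H0C_hom_H0C, map_zero]
    show xs_tCφ 𝔖 ha hab Y 0 y = 0
    rw [map_zero]
    rfl
  map_add' φ φ' := by
    apply xs_H0C_ext
    intro y
    rw [map_add, xs_H0C_hom_H0C, xs_H0C_hom_H0C, xs_H0C_hom_H0C]
    show xs_tCφ 𝔖 ha hab Y (φ.1 + φ'.1) y = _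
    rw [map_add]

@[simp] lemma xs_H0C_hom_toH0 (φ : xs_Cfin 𝔖 ha hab Y) :
    xs_H0C_hom 𝔖 (le_trans ha hab) Y (xs_toH0 𝔖 ha hab Y φ) = xs_tCφ 𝔖 ha hab Y φ.1 :=
  xs_H0C_hom_H0C 𝔖 (le_trans ha hab) Y (xs_tCφ 𝔖 ha hab Y φ.1)
    (xs_tCφ_equiv 𝔖 ha hab Y φ.1) (fun y => φ.2 y)

lemma xs_toH0_injective : Function.Injective (xs_toH0 𝔖 ha hab Y) := by
  intro φ φ' hφ
  apply Subtype.ext
  apply xs_tCφ_injective 𝔖 ha hab Y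
  rw [← xs_H0C_hom_toH0, ← xs_H0C_hom_toH0, hφ]

/-- Descent of additive maps along an injective additive map. -/
lemma xs_descend_add {Y₀ A B : Type*} [AddCommGroup Y₀] [AddCommGroup A] [AddCommGroup B]
    (t : A →+ B) (ht : Function.Injective t) (f : Y₀ →+ B) (hf : ∀ y, ∃ x, t x = f y) :
    ∃ f₀ : Y₀ →+ A, ∀ y, t (f₀ y) = f y := by
  choose g hg using hf
  refine ⟨⟨⟨g, ?_⟩, ?_⟩, hg⟩
  · apply ht
    rw [hg, map_zero, map_zero]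
  · intro y y'
    apply ht
    rw [hg, map_add, map_add, hg, hg]

omit 𝔖 in
include ha in
lemma xs_Y_ρ_fix {σ : GQ} (hσ : σ ∈ a.L.fixingSubgroup) (y : Y.V) :
    Y.ρ (K₀.q σ) y = y := by
  rw [← du_Lev.res_q ha σ, (a.q_eq_one_iff σ).2 hσ, map_one, map_one]
  rfl

/-- Descent for `C`: an equivariant map `Y → C(b)` comes from a morphism `Y ⟶ C(a)`. -/
theorem xs_exists_hom_of_equiv (f : Y.V →+ (𝔖.dat b).C.V)
    (hf : ∀ g y, f ((sl_Y Y (le_trans ha hab)).ρ g y) = (𝔖.dat b).C.ρ g (f y)) :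
    ∃ φ : sl_Y Y ha ⟶ (𝔖.dat a).C, xs_tCφ 𝔖 ha hab Y φ = f := by
  have hinv : ∀ y, ∃ x, 𝔖.tC hab x = f y := by
    intro y
    refine 𝔖.tC_range hab (f y) (fun σ hσ => ?_)
    rw [← hf, xs_Y_ρ_q, xs_Y_ρ_fix ha Y hσ]
  obtain ⟨f₀, hf₀⟩ := xs_descend_add (𝔖.tC hab) (𝔖.tC_inj hab) f hinv
  have hequiv : ∀ (g : a.Γ) (y : Y.V), f₀ ((sl_Y Y ha).ρ g y) = (𝔖.dat a).C.ρ g (f₀ y) := by
    intro g y
    obtain ⟨σ, rfl⟩ := a.q_surjective g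
    apply 𝔖.tC_inj hab
    rw [hf₀, 𝔖.tC_equiv, hf₀, ← hf, xs_Y_ρ_q, xs_Y_ρ_q]
  refine ⟨la_ofAddHom (A := sl_Y Y ha) f₀ hequiv, ?_⟩
  ext y
  exact hf₀ y

/-- Descent for `J_q`: an equivariant map `Y → J_q(b)` comes from a morphism `Y ⟶ J_q(a)`. -/
theorem xs_exists_homJ_of_equiv (q : ↥S) (f : Y.V →+ ((𝔖.dat b).Jq q).V)
    (hf : ∀ g y, f ((sl_Y Y (le_trans ha hab)).ρ g y) = ((𝔖.dat b).Jq q).ρ g (f y)) :
    ∃ ψ : sl_Y Y ha ⟶ (𝔖.dat a).Jq q, ∀ y, 𝔖.tJ hab q (ψ.hom y) = f y := by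
  have hinv : ∀ y, ∃ x, 𝔖.tJ hab q x = f y := by
    intro y
    refine 𝔖.tJ_range hab q (f y) (fun σ hσ => ?_)
    rw [← hf, xs_Y_ρ_q, xs_Y_ρ_fix ha Y hσ]
  obtain ⟨f₀, hf₀⟩ := xs_descend_add (𝔖.tJ hab q) (𝔖.tJ_inj hab q) f hinv
  have hequiv : ∀ (g : a.Γ) (y : Y.V),
      f₀ ((sl_Y Y ha).ρ g y) = ((𝔖.dat a).Jq q).ρ g (f₀ y) := by
    intro g y
    obtain ⟨σ, rfl⟩ := a.q_surjective g
    apply 𝔖.tJ_inj hab q
    rw [hf₀, 𝔖.tJ_equiv, hf₀, ← hf, xs_Y_ρ_q, xs_Y_ρ_q]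
  exact ⟨la_ofAddHom (A := sl_Y Y ha) f₀ hequiv, hf₀⟩

theorem xs_toH0_surjective : Function.Surjective (xs_toH0 𝔖 ha hab Y) := by
  intro c
  obtain ⟨φ, hφ⟩ := xs_exists_hom_of_equiv 𝔖 ha hab Y (xs_H0C_hom 𝔖 (le_trans ha hab) Y c)
    (xs_H0C_hom_equiv 𝔖 (le_trans ha hab) Y c)
  have hmem : φ ∈ xs_Cfin 𝔖 ha hab Y := by
    intro y
    rw [hφ]
    exact xs_H0C_hom_mem 𝔖 (le_trans ha hab) Y c y
  refine ⟨⟨φ, hmem⟩, ?_⟩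
  apply xs_H0C_ext
  intro y
  rw [xs_H0C_hom_toH0, hφ]

end ToH0

section LocLemma

variable {p : ℕ} {Γ ι : Type} [Group Γ] [Fintype ι] (𝔻 : ld_Data p Γ ι) (Y : Rep.{0} ℤ Γ)

omit [Fintype ι] in
lemma xs_sum_hom_apply {A B : Rep.{0} ℤ Γ} (s : Finset ι) (f : ι → (A ⟶ B)) (y : A.V) :
    (∑ q ∈ s, f q).hom y = ∑ q ∈ s, (f q).hom y := by
  classical
  induction s using Finset.induction_on with
  | empty => rfl
  | insert q s hq ih =>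
    rw [Finset.sum_insert hq, Finset.sum_insert hq, ← ih]
    rfl

/-- Membership in the subgroup of semi-local images, pointwise. -/
theorem xs_mem_ld_Loc_iff (φ : Y ⟶ 𝔻.C) :
    φ ∈ ld_Loc 𝔻 Y ↔ ∃ ψ : ∀ q, Y ⟶ 𝔻.Jq q, ∀ y : Y.V,
      φ.hom y = ∑ q, (𝔻.j q).hom ((ψ q).hom y) := by
  classical
  constructor
  · intro hφ
    unfold ld_Loc at hφ
    refine AddSubgroup.iSup_induction _ (C := fun φ : Y ⟶ 𝔻.C => ∃ ψ : ∀ q, Y ⟶ 𝔻.Jq q,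
      ∀ y : Y.V, φ.hom y = ∑ q, (𝔻.j q).hom ((ψ q).hom y)) hφ ?_ ?_ ?_
    · rintro q φ ⟨ψ, rfl⟩
      refine ⟨fun q' => if hq : q' = q then hq ▸ ψ else 0, fun y => ?_⟩
      rw [Finset.sum_eq_single q]
      · dsimp only
        rw [dif_pos rfl]
        rfl
      · intro q' _ hq'
        dsimp only
        rw [dif_neg hq']
        exact map_zero (𝔻.j q').hom
      · intro hq; exact absurd (Finset.mem_univ q) hq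
    · exact ⟨fun _ => 0, fun y => (Finset.sum_eq_zero fun q _ => map_zero (𝔻.j q).hom).symm⟩
    · rintro φ φ' ⟨ψ, hψ⟩ ⟨ψ', hψ'⟩
      refine ⟨fun q => ψ q + ψ' q, fun y => ?_⟩
      have : (φ + φ').hom y = φ.hom y + φ'.hom y := rfl
      rw [this, hψ, hψ', ← Finset.sum_add_distrib]
      refine Finset.sum_congr rfl fun q _ => ?_
      have : (ψ q + ψ' q).hom y = (ψ q).hom y + (ψ' q).hom y := rfl
      rw [this, map_add]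
  · rintro ⟨ψ, hψ⟩
    have hφ : φ = ∑ q, ld_a 𝔻 Y q (ψ q) := by
      apply Rep.Hom.ext
      apply DFunLike.ext
      intro y
      show φ.hom y = (∑ q, ld_a 𝔻 Y q (ψ q)).hom y
      rw [hψ, xs_sum_hom_apply]
      rfl
    rw [hφ]
    exact sum_mem fun q _ => AddSubgroup.mem_iSup_of_mem q ⟨ψ q, rfl⟩

end LocLemma

section Kernel

variable {p : ℕ} {S : Finset Nat.Primes} (𝔖 : du_Seam p S) {K₀ a b : du_Lev S}
  (ha : K₀ ≤ a) (hab : a ≤ b) (Y : Rep.{0} ℤ K₀.Γ) (hY : ld_IsLattice Y) [Nonempty ↥S]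

lemma xs_homSes_mπ_H0_eq_iff (L : LevelSys b.Γ) (hb : K₀ ≤ b)
    (β : lvH0 (G := b.Γ) (LvHom (tl_Act (sl_Y Y hb)) (sl_J 𝔖 b)))
    (c : lvH0 (G := b.Γ) (LvHom (tl_Act (sl_Y Y hb)) ↥(sl_Co 𝔖 b))) :
    ((sl_homSes 𝔖 Y hb hY).mπ L).H0 β = c ↔ ∀ y, (sl_ses 𝔖 b).π (β.1 y) = c.1 y := by
  rw [Subtype.ext_iff]
  constructor
  · intro hβ y
    exact DFunLike.congr_fun hβ y
  · intro hβ
    exact LvHom.ext hβ

/-- **Kernel at one level.** The image of `H⁰(Γ_b, Hom(Y, ∏ J_q(b)))` in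
`H⁰(Γ_b, Hom(Y, C°(b)))`, transported to the level `a`, is the subgroup of semi-local
images. -/
theorem xs_exists_H0J_iff_mem_Loc (L : LevelSys b.Γ) (φ : xs_Cfin 𝔖 ha hab Y) :
    (∃ β : lvH0 (G := b.Γ) (LvHom (tl_Act (sl_Y Y (le_trans ha hab))) (sl_J 𝔖 b)),
      ((sl_homSes 𝔖 Y (le_trans ha hab) hY).mπ L).H0 β = xs_toH0 𝔖 ha hab Y φ) ↔
      φ.1 ∈ ld_Loc (𝔖.dat a) (sl_Y Y ha) := by
  simp only [xs_homSes_mπ_H0_eq_iff]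
  rw [xs_exists_H0J_iff 𝔖 (le_trans ha hab) Y (xs_toH0 𝔖 ha hab Y φ), xs_mem_ld_Loc_iff,
    xs_H0C_hom_toH0]
  constructor
  · rintro ⟨ψb, hψb⟩
    have hdesc : ∀ q : ↥S, ∃ ψ : sl_Y Y ha ⟶ (𝔖.dat a).Jq q,
        ∀ y, 𝔖.tJ hab q (ψ.hom y) = (ψb q).hom y := fun q =>
      xs_exists_homJ_of_equiv 𝔖 ha hab Y q (ψb q).hom.toAddMonoidHom
        (fun g y => Rep.hom_comm_apply (ψb q) g y)
    choose ψ hψ using hdesc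
    refine ⟨ψ, fun y => ?_⟩
    apply 𝔖.tC_inj hab
    rw [← xs_tCφ_apply, hψb, map_sum]
    refine Finset.sum_congr rfl fun q _ => ?_
    rw [𝔖.tC_j, hψ]
  · rintro ⟨ψ, hψ⟩
    have hequiv : ∀ (q : ↥S) (g : b.Γ) (y : Y.V),
        ((𝔖.tJ hab q).comp (ψ q).hom.toAddMonoidHom) ((sl_Y Y (le_trans ha hab)).ρ g y) =
          ((𝔖.dat b).Jq q).ρ g (((𝔖.tJ hab q).comp (ψ q).hom.toAddMonoidHom) y) := by
      intro q g y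
      obtain ⟨σ, rfl⟩ := b.q_surjective g
      rw [xs_Y_ρ_q, ← xs_Y_ρ_q Y ha σ y]
      show 𝔖.tJ hab q ((ψ q).hom ((sl_Y Y ha).ρ (a.q σ) y)) =
        ((𝔖.dat b).Jq q).ρ (b.q σ) (𝔖.tJ hab q ((ψ q).hom y))
      rw [Rep.hom_comm_apply, 𝔖.tJ_equiv]
    refine ⟨fun q => la_ofAddHom (A := sl_Y Y (le_trans ha hab))
      ((𝔖.tJ hab q).comp (ψ q).hom.toAddMonoidHom) (hequiv q), fun y => ?_⟩
    rw [xs_tCφ_apply, hψ, map_sum]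
    refine Finset.sum_congr rfl fun q _ => ?_
    rw [𝔖.tC_j]
    rfl

/-- Compatibility of `xs_toH0` with the transition maps between levels. -/
theorem xs_toH0_trans {b' : du_Lev S} (hbb' : b ≤ b') (φ : sl_Y Y ha ⟶ (𝔖.dat a).C)
    (hφ : φ ∈ xs_Cfin 𝔖 ha hab Y) :
    (sl_homSesMor 𝔖 Y (le_trans ha hab) hbb' hY).mC.H0 (xs_toH0 𝔖 ha hab Y ⟨φ, hφ⟩) =
      xs_toH0 𝔖 ha (le_trans hab hbb') Y ⟨φ, xs_Cfin_mono 𝔖 ha hab Y hbb' hφ⟩ := by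
  apply xs_H0C_ext
  intro y
  rw [xs_H0C_hom_toH0]
  show 𝔖.tC hbb' (𝔖.tC hab (φ.hom y)) = 𝔖.tC (le_trans hab hbb') (φ.hom y)
  exact 𝔖.tC_trans hab hbb' _

end Kernel

end Fermat.Agent.S55
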